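/-
S14 / bridge, group-theoretic half (helper39).

From a non-split admissible extension `0 → C → V → μ_p → 0` we extract the open normal
subgroup `H = Gal(ℚ̄/L)` (pointwise stabiliser of `V`) together with all the properties the
field-theoretic side needs.
-/
import Fermat.Prelude.Def_ExtCitation_AdmissibleExtension_v2
import Fermat.Prelude.Def_ExtCitation_KummerBridge
import Mathlib.FieldTheory.Galois.Infinite
import Mathlib.FieldTheory.IsAlgClosed.AlgebraicClosure

set_option autoImplicit false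

namespace Fermat.Agent.S14

open ExtCitation

local notation "GQ" => (AlgebraicClosure ℚ ≃ₐ[ℚ] AlgebraicClosure ℚ)

theorem h39_isAlgClosure_rat : IsAlgClosure ℚ (AlgebraicClosure ℚ) := by
  have h : (DivisionRing.toRatAlgebra : Algebra ℚ (AlgebraicClosure ℚ)) =
      AlgebraicClosure.instAlgebra ℚ := Subsingleton.elim _ _
  rw [h]; infer_instance

/-- For an odd prime `p`, the mod `p` cyclotomic character of `G_ℚ` is not trivial. -/
theorem h39_exists_cycloChar_ne_one (p : ℕ) [Fact p.Prime] (hp : 3 ≤ p) :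
    ∃ σ : GQ, cycloChar p σ ≠ 1 := by
  have : NeZero p := ⟨(Fact.out : p.Prime).ne_zero⟩
  have := h39_isAlgClosure_rat
  by_contra hcon
  push Not at hcon
  obtain ⟨ζ, hζ⟩ := HasEnoughRootsOfUnity.exists_primitiveRoot (AlgebraicClosure ℚ) p
  have hfix : ∀ σ : GQ, σ ζ = ζ := by
    intro σ
    have hu : hζ.toRootsOfUnity.1 ∈ rootsOfUnity p (AlgebraicClosure ℚ) := hζ.toRootsOfUnity.2
    have h1 := modularCyclotomicCharacter.spec (AlgebraicClosure ℚ)
      (card_rootsOfUnity_eq_self p) (σ : AlgebraicClosure ℚ ≃+* AlgebraicClosure ℚ) hu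
    have h2 : cycloChar p σ = 1 := hcon σ
    have h3 : modularCyclotomicCharacter (AlgebraicClosure ℚ) (card_rootsOfUnity_eq_self p)
        (σ : AlgebraicClosure ℚ ≃+* AlgebraicClosure ℚ) = 1 := h2
    rw [h3] at h1
    have hp1 : p ≠ 1 := by omega
    simpa [ZMod.val_one'' hp1] using h1
  have hbot : ζ ∈ (⊥ : IntermediateField ℚ (AlgebraicClosure ℚ)) :=
    (InfiniteGalois.mem_bot_iff_fixed ζ).mpr hfix
  obtain ⟨q, hq⟩ := IntermediateField.mem_bot.mp hbot
  have hodd : Odd p := (Fact.out : p.Prime).odd_of_ne_two (by omega)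
  have hqp : q ^ p = 1 := by
    have h1 : (algebraMap ℚ (AlgebraicClosure ℚ)) (q ^ p) = 1 := by
      rw [map_pow, hq, hζ.pow_eq_one]
    exact (algebraMap ℚ (AlgebraicClosure ℚ)).injective (by rw [h1, map_one])
  have hq1 : q = 1 := by
    have := hodd.strictMono_pow (R := ℚ)
    exact this.injective (by simpa using hqp)
  have hζ1 : ζ = 1 := by rw [← hq, hq1, map_one]
  exact hζ.ne_one (by omega) hζ1

section Bridge

variable (p : ℕ) [Fact p.Prime]
variable {V : Type} [AddCommGroup V] [Module (ZMod p) V]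
  [DistribMulAction GQ V] [SMulCommClass GQ (ZMod p) V]
variable {C : Submodule (ZMod p) V}

omit [SMulCommClass GQ (ZMod p) V] in
/-- The quotient `V / C` is acted on through the cyclotomic character. -/
theorem h39_smul_sub_mem (hadm : IsAdmissibleExtension p V C) (σ : GQ) (x : V) :
    σ • x - ((cycloChar p σ : (ZMod p)ˣ) : ZMod p) • x ∈ C := by
  rw [coe_cycloChar]
  exact hadm.cyclo_quot σ x

omit [SMulCommClass GQ (ZMod p) V] in
/-- Elements of the kernel of the cyclotomic character move vectors inside `C`. -/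
theorem h39_smul_sub_mem_of_ker (hadm : IsAdmissibleExtension p V C) {σ : GQ}
    (hσ : σ ∈ (cycloChar p).ker) (x : V) : σ • x - x ∈ C := by
  have h := h39_smul_sub_mem p hadm σ x
  rw [MonoidHom.mem_ker.mp hσ, Units.val_one, one_smul] at h
  exact h

omit [DistribMulAction GQ V] [SMulCommClass GQ (ZMod p) V] in
/-- `V` is spanned by `C` and any vector outside `C`. -/
theorem h39_exists_decomp (hcardC : Nat.card C = p) (hcardV : Nat.card V = p ^ 2)
    {v₀ : V} (hv₀ : v₀ ∉ C) (x : V) : ∃ (a : ZMod p) (c : V), c ∈ C ∧ x = a • v₀ + c := by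
  have hp : p.Prime := Fact.out
  have : NeZero p := ⟨hp.ne_zero⟩
  have hfinV : Finite V := Nat.finite_of_card_ne_zero (by rw [hcardV]; exact pow_ne_zero 2 hp.ne_zero)
  let φ : ZMod p × C → V := fun q => q.1 • v₀ + (q.2 : V)
  have hinj : Function.Injective φ := by
    rintro ⟨a, c⟩ ⟨a', c'⟩ h
    simp only [φ] at h
    have h1 : (a - a') • v₀ = (c' : V) - (c : V) := by
      rw [sub_smul, sub_eq_sub_iff_add_eq_add, add_comm (c' : V)]
      exact h
    have ha : a - a' = 0 := by
      by_contra hne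
      apply hv₀
      have h2 : v₀ = (a - a')⁻¹ • ((c' : V) - (c : V)) := by
        rw [← h1, smul_smul, inv_mul_cancel₀ hne, one_smul]
      rw [h2]
      exact C.smul_mem _ (C.sub_mem c'.2 c.2)
    have haa : a = a' := sub_eq_zero.mp ha
    subst haa
    have hcc : (c : V) = (c' : V) := by
      have := h
      exact add_left_cancel this
    exact Prod.ext rfl (Subtype.ext hcc)
  have hcard : Nat.card V ≤ Nat.card (ZMod p × C) := by
    rw [Nat.card_prod, hcardC, Nat.card_zmod, hcardV, pow_two]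
  obtain ⟨⟨a, c⟩, rfl⟩ := (hinj.bijective_of_nat_card_le hcard).surjective x
  exact ⟨a, c, c.2, rfl⟩

/-- If the kernel of the cyclotomic character acts trivially on `V`, the extension splits:
an eigenline of some `σ₀` with `ω(σ₀) ≠ 1` is a Galois-stable complement of `C`. -/
theorem h39_splits_of_ker_trivial (hp : 3 ≤ p) (hadm : IsAdmissibleExtension p V C)
    (htriv : ∀ σ ∈ (cycloChar p).ker, ∀ x : V, σ • x = x) : SplitsGlobally C := by
  obtain ⟨σ₀, hσ₀⟩ := h39_exists_cycloChar_ne_one p hp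
  -- a vector outside `C`
  obtain ⟨v₀, hv₀⟩ : ∃ v₀ : V, v₀ ∉ C := by
    by_contra hcon
    push Not at hcon
    have htop : C = ⊤ := eq_top_iff.mpr fun x _ => hcon x
    have h1 : Nat.card C = Nat.card V := by
      rw [htop]
      exact Nat.card_congr (Equiv.Set.univ V)
    rw [hadm.card_sub, hadm.card_total] at h1
    have hp' : p.Prime := Fact.out
    have : p * 1 = p * p := by rw [mul_one, ← pow_two]; exact h1
    have := Nat.eq_of_mul_eq_mul_left hp'.pos this
    omega
  set a : ZMod p := ((cycloChar p σ₀ : (ZMod p)ˣ) : ZMod p) with ha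
  have ha1 : a - 1 ≠ 0 := by
    intro h
    apply hσ₀
    exact Units.ext (by rw [Units.val_one]; exact sub_eq_zero.mp h)
  set c₀ : V := σ₀ • v₀ - a • v₀ with hc₀
  have hc₀C : c₀ ∈ C := h39_smul_sub_mem p hadm σ₀ v₀
  set v₁ : V := v₀ + (a - 1)⁻¹ • c₀ with hv₁
  have hv₁C : v₁ ∉ C := by
    intro h
    apply hv₀
    have : v₀ = v₁ - (a - 1)⁻¹ • c₀ := by rw [hv₁]; abel
    rw [this]
    exact C.sub_mem h (C.smul_mem _ hc₀C)
  -- `v₁` is an eigenvector of `σ₀`
  have hσ₀v₁ : σ₀ • v₁ = a • v₁ := by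
    have h1 : σ₀ • v₀ = a • v₀ + c₀ := by rw [hc₀]; abel
    have h2 : σ₀ • ((a - 1)⁻¹ • c₀) = (a - 1)⁻¹ • c₀ :=
      hadm.fixed_sub σ₀ _ (C.smul_mem _ hc₀C)
    rw [hv₁, smul_add, h1, h2, smul_add, smul_smul]
    have h3 : c₀ = (a - 1) • ((a - 1)⁻¹ • c₀) := by
      rw [smul_smul, mul_inv_cancel₀ ha1, one_smul]
    have h4 : a • v₀ + c₀ + (a - 1)⁻¹ • c₀ = a • v₀ + (a * (a - 1)⁻¹) • c₀ := by
      have : (a * (a - 1)⁻¹) • c₀ = c₀ + (a - 1)⁻¹ • c₀ := by
        have h5 : a * (a - 1)⁻¹ = 1 + (a - 1)⁻¹ := by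
          field_simp
          ring
        rw [h5, add_smul, one_smul]
      rw [this]; abel
    exact h4
  refine ⟨Submodule.span (ZMod p) {v₁}, ?_, ?_⟩
  · -- stability
    intro τ x hx
    obtain ⟨b, rfl⟩ := Submodule.mem_span_singleton.mp hx
    rw [smul_comm τ b v₁]
    refine Submodule.smul_mem _ _ ?_
    set w : ZMod p := ((cycloChar p τ : (ZMod p)ˣ) : ZMod p) with hw
    set c' : V := τ • v₁ - w • v₁ with hc'
    have hc'C : c' ∈ C := h39_smul_sub_mem p hadm τ v₁
    -- `τ` and `σ₀` commute on `V`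
    have hcomm : (τ * σ₀) • v₁ = (σ₀ * τ) • v₁ := by
      have hker : (σ₀ * τ)⁻¹ * (τ * σ₀) ∈ (cycloChar p).ker := by
        rw [MonoidHom.mem_ker]
        simp only [map_mul, map_inv]
        rw [mul_comm (cycloChar p τ) (cycloChar p σ₀), inv_mul_cancel]
      have h1 := htriv _ hker v₁
      calc (τ * σ₀) • v₁ = (σ₀ * τ) • (((σ₀ * τ)⁻¹ * (τ * σ₀)) • v₁) := by
            rw [smul_smul, mul_inv_cancel_left]
        _ = (σ₀ * τ) • v₁ := by rw [h1]
    have hτv₁ : τ • v₁ = w • v₁ + c' := by rw [hc']; abel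
    have h1 : (τ * σ₀) • v₁ = (a * w) • v₁ + a • c' := by
      rw [mul_smul, hσ₀v₁, smul_comm τ a v₁, hτv₁, smul_add, smul_smul]
    have h2 : (σ₀ * τ) • v₁ = (a * w) • v₁ + c' := by
      rw [mul_smul, hτv₁, smul_add, smul_comm σ₀ w v₁, hσ₀v₁, smul_smul, mul_comm w a,
        hadm.fixed_sub σ₀ c' hc'C]
    have h3 : a • c' = c' := by
      rw [h1, h2] at hcomm
      exact add_left_cancel hcomm
    have h4 : (a - 1) • c' = 0 := by rw [sub_smul, one_smul, h3, sub_self]
    have h5 : c' = 0 := by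
      rcases smul_eq_zero.mp h4 with h | h
      · exact absurd h ha1
      · exact h
    rw [hτv₁, h5, add_zero]
    exact Submodule.smul_mem _ _ (Submodule.mem_span_singleton_self v₁)
  · refine ⟨?_, ?_⟩
    · rw [Submodule.disjoint_def]
      intro x hxC hx
      obtain ⟨b, rfl⟩ := Submodule.mem_span_singleton.mp hx
      by_cases hb : b = 0
      · rw [hb, zero_smul]
      · exfalso
        apply hv₁C
        have : v₁ = b⁻¹ • (b • v₁) := by rw [smul_smul, inv_mul_cancel₀ hb, one_smul]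
        rw [this]
        exact C.smul_mem _ hxC
    · rw [codisjoint_iff, eq_top_iff]
      intro x _
      obtain ⟨b, c, hc, rfl⟩ := h39_exists_decomp p hadm.card_sub hadm.card_total hv₁C x
      rw [add_comm]
      exact Submodule.add_mem_sup hc
        (Submodule.smul_mem _ _ (Submodule.mem_span_singleton_self v₁))

/-- The pointwise stabiliser of `V` in `G_ℚ` (the absolute Galois group of the splitting
field `L` of the extension). -/
def h39_stab (V : Type) [AddCommGroup V] [DistribMulAction GQ V] : Subgroup GQ where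
  carrier := {σ | ∀ v : V, σ • v = v}
  mul_mem' := by
    intro a b ha hb v
    rw [mul_smul, hb, ha]
  one_mem' := fun v => one_smul _ v
  inv_mem' := by
    intro a ha v
    rw [inv_smul_eq_iff, ha]

theorem h39_mem_stab {V : Type} [AddCommGroup V] [DistribMulAction GQ V] (σ : GQ) :
    σ ∈ h39_stab V ↔ ∀ v : V, σ • v = v := Iff.rfl

theorem h39_stab_normal (V : Type) [AddCommGroup V] [DistribMulAction GQ V] :
    (h39_stab V).Normal :=
  ⟨fun n hn g v => by
    rw [h39_mem_stab] at hn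
    rw [mul_smul, mul_smul, hn, smul_inv_smul]⟩

/-- An element of the kernel of the cyclotomic character fixing one vector outside `C`
fixes all of `V`. -/
theorem h39_mem_stab_of_fix (hadm : IsAdmissibleExtension p V C) {v₀ : V} (hv₀ : v₀ ∉ C)
    {σ : GQ} (hσ : σ • v₀ = v₀) : σ ∈ h39_stab V := by
  intro x
  obtain ⟨a, c, hc, rfl⟩ := h39_exists_decomp p hadm.card_sub hadm.card_total hv₀ x
  rw [smul_add, smul_comm σ a v₀, hσ, hadm.fixed_sub σ c hc]

/-- The cocycle `h ↦ h • v₀ - v₀` restricted to the kernel of the cyclotomic character is a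
group homomorphism into `C`. -/
noncomputable def h39_kappa (hadm : IsAdmissibleExtension p V C) (v₀ : V) :
    (cycloChar p).ker →* Multiplicative C where
  toFun h := Multiplicative.ofAdd ⟨(h : GQ) • v₀ - v₀, h39_smul_sub_mem_of_ker p hadm h.2 v₀⟩
  map_one' := by
    apply Multiplicative.toAdd.injective
    apply Subtype.ext
    simp
  map_mul' := by
    intro h h'
    apply Multiplicative.toAdd.injective
    apply Subtype.ext
    have hc : (h' : GQ) • v₀ - v₀ ∈ C := h39_smul_sub_mem_of_ker p hadm h'.2 v₀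
    have h1 : (h : GQ) • ((h' : GQ) • v₀ - v₀) = (h' : GQ) • v₀ - v₀ :=
      hadm.fixed_sub (h : GQ) _ hc
    have h2 : ((h * h' : (cycloChar p).ker) : GQ) • v₀ = (h : GQ) • ((h' : GQ) • v₀) := by
      rw [Subgroup.coe_mul, mul_smul]
    show ((h * h' : (cycloChar p).ker) : GQ) • v₀ - v₀
      = ((h : GQ) • v₀ - v₀) + ((h' : GQ) • v₀ - v₀)
    rw [h2]
    rw [smul_sub] at h1
    have h3 : (h : GQ) • ((h' : GQ) • v₀) = (h : GQ) • v₀ + ((h' : GQ) • v₀ - v₀) := by
      rw [← h1]; abel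
    rw [h3]; abel

omit [SMulCommClass GQ (ZMod p) V] in
theorem h39_kappa_apply (hadm : IsAdmissibleExtension p V C) (v₀ : V)
    (h : (cycloChar p).ker) :
    ((Multiplicative.toAdd (h39_kappa p hadm v₀ h) : C) : V) = (h : GQ) • v₀ - v₀ := rfl

theorem h39_kappa_ker (hadm : IsAdmissibleExtension p V C) {v₀ : V} (hv₀ : v₀ ∉ C) :
    (h39_kappa p hadm v₀).ker = (h39_stab V).subgroupOf (cycloChar p).ker := by
  ext h
  rw [MonoidHom.mem_ker, Subgroup.mem_subgroupOf]
  constructor
  · intro hk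
    have h1 : (h : GQ) • v₀ - v₀ = 0 := by
      rw [← h39_kappa_apply p hadm v₀ h, hk]
      rfl
    exact h39_mem_stab_of_fix p hadm hv₀ (sub_eq_zero.mp h1)
  · intro hs
    apply Multiplicative.toAdd.injective
    apply Subtype.ext
    rw [h39_kappa_apply, (h39_mem_stab _).mp hs v₀, sub_self]
    rfl

/-- **Bridge, group-theoretic half.**  A non-split admissible extension produces an open normal
subgroup `H` of `G_ℚ` (the Galois group of `ℚ̄` over the splitting field `L`), of index `p` in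
`G_K = ker ω` (`K = ℚ(ζ_p)`), on which `G_ℚ` acts by conjugation through `ω⁻¹` modulo `H`,
containing all inertia groups at primes `ℓ ≠ p` and the decomposition groups of `G_K` at `p`. -/
theorem bridge_group (hp : 3 ≤ p) (hadm : IsAdmissibleExtensionCts p V C)
    (hns : ¬ SplitsGlobally C) :
    ∃ H : Subgroup GQ, H.Normal ∧ IsOpen (H : Set GQ) ∧ H ≤ (cycloChar p).ker ∧
      H.relIndex (cycloChar p).ker = p ∧
      (∀ σ : GQ, ∀ τ ∈ (cycloChar p).ker,
        σ * τ * σ⁻¹ * (τ ^ (((cycloChar p σ)⁻¹ : (ZMod p)ˣ) : ZMod p).val)⁻¹ ∈ H) ∧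
      (∀ ℓ : ℕ, ℓ.Prime → ℓ ≠ p → ∀ A : ValuationSubring (AlgebraicClosure ℚ),
        A.LiesOverPrime ℓ → A.inertiaSubgroupIn ℚ ≤ H) ∧
      (∀ A : ValuationSubring (AlgebraicClosure ℚ), A.LiesOverPrime p →
        A.decompositionSubgroup ℚ ⊓ (cycloChar p).ker ≤ H) := by
  have hp' : p.Prime := Fact.out
  have : NeZero p := ⟨hp'.ne_zero⟩
  have hadm' : IsAdmissibleExtension p V C := hadm.toIsAdmissibleExtension
  -- a vector outside `C`
  obtain ⟨v₀, hv₀⟩ : ∃ v₀ : V, v₀ ∉ C := by
    by_contra hcon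
    push Not at hcon
    have htop : C = ⊤ := eq_top_iff.mpr fun x _ => hcon x
    have h1 : Nat.card C = Nat.card V := by
      rw [htop]
      exact Nat.card_congr (Equiv.Set.univ V)
    rw [hadm'.card_sub, hadm'.card_total] at h1
    have : p * 1 = p * p := by rw [mul_one, ← pow_two]; exact h1
    have := Nat.eq_of_mul_eq_mul_left hp'.pos this
    omega
  -- some element of `ker ω` moves `v₀`
  obtain ⟨h₀, hh₀⟩ : ∃ h₀ : (cycloChar p).ker, (h₀ : GQ) • v₀ ≠ v₀ := by
    by_contra hcon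
    push Not at hcon
    apply hns
    refine h39_splits_of_ker_trivial p hp hadm' fun σ hσ x => ?_
    exact (h39_mem_stab σ).mp (h39_mem_stab_of_fix p hadm' hv₀ (hcon ⟨σ, hσ⟩)) x
  refine ⟨h39_stab V, h39_stab_normal V, hadm.open_kernel, ?_, ?_, ?_, ?_, ?_⟩
  · -- `H ≤ ker ω`
    intro σ hσ
    rw [MonoidHom.mem_ker]
    have h1 := h39_smul_sub_mem p hadm' σ v₀
    rw [(h39_mem_stab σ).mp hσ v₀] at h1
    by_contra hne
    apply hv₀
    set a : ZMod p := ((cycloChar p σ : (ZMod p)ˣ) : ZMod p) with ha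
    have ha1 : 1 - a ≠ 0 := by
      intro h
      apply hne
      exact Units.ext (by rw [Units.val_one]; exact (sub_eq_zero.mp h).symm)
    have h2 : v₀ = (1 - a)⁻¹ • (v₀ - a • v₀) := by
      have : v₀ - a • v₀ = (1 - a) • v₀ := by rw [sub_smul, one_smul]
      rw [this, smul_smul, inv_mul_cancel₀ ha1, one_smul]
    rw [h2]
    exact C.smul_mem _ h1
  · -- index `p`
    rw [Subgroup.relIndex, ← h39_kappa_ker p hadm' hv₀, Subgroup.index_ker]
    have hcardM : Nat.card (Multiplicative C) = p :=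
      (Nat.card_congr Multiplicative.toAdd).trans hadm'.card_sub
    have : Fact (Nat.card (Multiplicative C)).Prime := ⟨by rw [hcardM]; exact hp'⟩
    rcases (h39_kappa p hadm' v₀).range.eq_bot_or_eq_top_of_prime_card with hbot | htop
    · exfalso
      apply hh₀
      have hmem : h39_kappa p hadm' v₀ h₀ ∈ (h39_kappa p hadm' v₀).range := ⟨h₀, rfl⟩
      rw [hbot, Subgroup.mem_bot] at hmem
      have h1 : (h₀ : GQ) • v₀ - v₀ = 0 := by
        rw [← h39_kappa_apply p hadm' v₀ h₀, hmem]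
        rfl
      exact sub_eq_zero.mp h1
    · rw [htop, Subgroup.card_top, hcardM]
  · -- conjugation acts through `ω⁻¹`
    intro σ τ hτ
    set k : ℕ := (((cycloChar p σ)⁻¹ : (ZMod p)ˣ) : ZMod p).val with hk
    set a : ZMod p := ((cycloChar p σ : (ZMod p)ˣ) : ZMod p) with ha
    have hkcast : (k : ZMod p) = a⁻¹ := by
      rw [hk, ZMod.natCast_val, ZMod.cast_id', id, Units.val_inv_eq_inv_val]
    set cτ : V := τ • v₀ - v₀ with hcτ
    have hcτC : cτ ∈ C := h39_smul_sub_mem_of_ker p hadm' hτ v₀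
    have hτv₀ : τ • v₀ = v₀ + cτ := by rw [hcτ]; abel
    -- powers of `τ`
    have hpow : ∀ n : ℕ, (τ ^ n) • v₀ = v₀ + (n : ZMod p) • cτ := by
      intro n
      induction n with
      | zero => simp
      | succ n ih =>
        rw [pow_succ, mul_smul, hτv₀, smul_add, ih, hadm'.fixed_sub _ cτ hcτC, Nat.cast_succ,
          add_smul, one_smul]
        abel
    have hpowinv : (τ ^ k)⁻¹ • v₀ = v₀ - (k : ZMod p) • cτ := by
      rw [inv_smul_eq_iff, smul_sub, hpow k,
        hadm'.fixed_sub _ _ (C.smul_mem (k : ZMod p) hcτC)]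
      abel
    -- the conjugate `σ τ σ⁻¹`
    set d : V := σ⁻¹ • v₀ - a⁻¹ • v₀ with hd
    have hdC : d ∈ C := by
      have := h39_smul_sub_mem p hadm' σ⁻¹ v₀
      rwa [map_inv, Units.val_inv_eq_inv_val] at this
    have hσinv : σ⁻¹ • v₀ = a⁻¹ • v₀ + d := by rw [hd]; abel
    have hσ1 : v₀ = a⁻¹ • σ • v₀ + d := by
      have h1 : σ • σ⁻¹ • v₀ = v₀ := smul_inv_smul σ v₀
      rw [hσinv, smul_add, smul_comm σ a⁻¹ v₀, hadm'.fixed_sub σ d hdC] at h1
      exact h1.symm
    have hconj : (σ * τ * σ⁻¹) • v₀ = v₀ + a⁻¹ • cτ := by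
      rw [mul_smul, mul_smul, hσinv, smul_add, smul_comm τ a⁻¹ v₀, hτv₀,
        hadm'.fixed_sub τ d hdC, smul_add, smul_add, smul_add, smul_comm σ a⁻¹ v₀,
        hadm'.fixed_sub σ d hdC, hadm'.fixed_sub σ _ (C.smul_mem a⁻¹ hcτC)]
      nth_rewrite 2 [hσ1]
      abel
    have hg : (σ * τ * σ⁻¹ * (τ ^ k)⁻¹) • v₀ = v₀ := by
      rw [mul_smul, hpowinv, smul_sub, hconj,
        hadm'.fixed_sub _ _ (C.smul_mem (k : ZMod p) hcτC), hkcast]
      abel
    exact h39_mem_stab_of_fix p hadm' hv₀ hg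
  · -- inertia outside `p`
    intro ℓ hℓ hℓp A hA σ hσ
    exact fun x => hadm'.unramified_outside ℓ hℓ hℓp A hA σ hσ x
  · -- decomposition at `p`
    rintro A hA σ ⟨hσD, hσK⟩
    obtain ⟨C', hC', hcompl⟩ := hadm'.locally_split A hA
    intro x
    have hx : x ∈ C ⊔ C' := by rw [hcompl.sup_eq_top]; trivial
    obtain ⟨c, hc, c', hc', rfl⟩ := Submodule.mem_sup.mp hx
    have h1 : σ • c' - c' ∈ C := h39_smul_sub_mem_of_ker p hadm' hσK c'
    have h2 : σ • c' - c' ∈ C' := C'.sub_mem (hC' σ hσD c' hc') hc'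
    have h3 : σ • c' - c' = 0 := by
      have : σ • c' - c' ∈ C ⊓ C' := ⟨h1, h2⟩
      rw [hcompl.inf_eq_bot] at this
      exact this
    rw [smul_add, hadm'.fixed_sub σ c hc, sub_eq_zero.mp h3]

end Bridge

end Fermat.Agent.S14
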