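import Mathlib
import Fermat.Prelude.Def_ExtCitation_KummerBridge

/-!
S14, bridge module B2 (helper95): the Kummer generator.

Input: an open normal subgroup `H` of `Gal(ℚ̄/ℚ)` contained in the kernel `N` of the mod `p`
cyclotomic character, of index `p` in it, such that `Gal(ℚ̄/ℚ)` acts on `N / H` through the
inverse of the cyclotomic character.

Output: a primitive `p`-th root of unity `ζ` and `θ ≠ 0` in `ℚ̄` with `θ ^ p ∈ ℚ(ζ)`,
`θ ∉ ℚ(ζ)`, `σ θ = θ ^ (m ^ 2) * γ` with `γ ∈ ℚ(ζ)` whenever `σ ζ = ζ ^ m`, and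
`H = {σ | σ ζ = ζ ∧ σ θ = θ}`.  (Lagrange resolvent, directly inside `ℚ̄`.)
-/

set_option autoImplicit false
set_option linter.style.haveILetI false
set_option linter.unusedVariables false

open scoped IntermediateField

namespace Fermat.Agent.S14

local notation "Qb" => AlgebraicClosure ℚ
local notation "GQ" => AlgebraicClosure ℚ ≃ₐ[ℚ] AlgebraicClosure ℚ

theorem h95_isAlgClosure_rat : IsAlgClosure ℚ (AlgebraicClosure ℚ) := by
  have h : (DivisionRing.toRatAlgebra : Algebra ℚ (AlgebraicClosure ℚ)) =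
      AlgebraicClosure.instAlgebra ℚ := Subsingleton.elim _ _
  rw [h]; infer_instance

attribute [local instance] h95_isAlgClosure_rat

section Cyclo

variable (p : ℕ) [Fact p.Prime]

/-- The cyclotomic exponent describes the action on a primitive `p`-th root of unity. -/
theorem h95_map_zeta {ζ : Qb} (hζ : IsPrimitiveRoot ζ p) (σ : GQ) :
    σ ζ = ζ ^ (ExtCitation.cycloExp p σ) := by
  haveI : NeZero p := ⟨(Fact.out : p.Prime).ne_zero⟩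
  obtain ⟨u, rfl⟩ := hζ.isUnit (Fact.out : p.Prime).ne_zero
  have hmem : u ∈ rootsOfUnity p Qb := by
    rw [mem_rootsOfUnity]
    ext
    simpa using hζ.pow_eq_one
  exact modularCyclotomicCharacter.spec Qb (ExtCitation.card_rootsOfUnity_eq_self p)
    (σ : Qb ≃+* Qb) hmem

theorem h95_pow_eq_pow_iff {ζ : Qb} (hζ : IsPrimitiveRoot ζ p) (a b : ℕ) :
    ζ ^ a = ζ ^ b ↔ a ≡ b [MOD p] := by
  have h0 : ζ ≠ 0 := hζ.ne_zero (Fact.out : p.Prime).ne_zero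
  have key : (Units.mk0 ζ h0) ^ a = (Units.mk0 ζ h0) ^ b ↔ a ≡ b [MOD p] := by
    rw [pow_eq_pow_iff_modEq]
    have : orderOf (Units.mk0 ζ h0) = p := by
      rw [← orderOf_units, Units.val_mk0]
      exact hζ.eq_orderOf.symm
    rw [this]
  rw [← key, Units.ext_iff]
  simp

/-- `σ ζ = ζ ^ m` iff `m` is the cyclotomic exponent mod `p`. -/
theorem h95_map_zeta_eq_iff {ζ : Qb} (hζ : IsPrimitiveRoot ζ p) (σ : GQ) (m : ℕ) :
    σ ζ = ζ ^ m ↔ m ≡ ExtCitation.cycloExp p σ [MOD p] := by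
  rw [h95_map_zeta p hζ σ, h95_pow_eq_pow_iff p hζ]
  exact ⟨Nat.ModEq.symm, Nat.ModEq.symm⟩

/-- The kernel of the cyclotomic character is the stabiliser of `ζ`. -/
theorem h95_mem_ker_iff {ζ : Qb} (hζ : IsPrimitiveRoot ζ p) (σ : GQ) :
    σ ∈ (ExtCitation.cycloChar p).ker ↔ σ ζ = ζ := by
  haveI : NeZero p := ⟨(Fact.out : p.Prime).ne_zero⟩
  have h1 : σ ζ = ζ ↔ 1 ≡ ExtCitation.cycloExp p σ [MOD p] := by
    have := h95_map_zeta_eq_iff p hζ σ 1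
    rwa [pow_one] at this
  rw [h1, MonoidHom.mem_ker, ← ZMod.natCast_eq_natCast_iff, ← ExtCitation.coe_cycloChar,
    Nat.cast_one]
  constructor
  · intro h
    rw [h, Units.val_one]
  · intro h
    exact Units.ext h.symm

end Cyclo

section GroupTheory

/-- A subgroup of prime relative index: the quotient is generated by any element outside. -/
theorem h95_cyclic_quot {G : Type*} [Group G] (p : ℕ) [Fact p.Prime] (H N : Subgroup G)
    [H.Normal] (hidx : H.relIndex N = p) (τ₁ : G) (h1 : τ₁ ∈ N) (h2 : τ₁ ∉ H) :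
    (∀ τ ∈ N, ∃ k : ℕ, τ * (τ₁ ^ k)⁻¹ ∈ H) ∧ (∀ k : ℕ, τ₁ ^ k ∈ H ↔ p ∣ k) := by
  have hp := (Fact.out : p.Prime)
  set N' : Subgroup ↥N := H.subgroupOf N with hN'
  have hcard : Nat.card (↥N ⧸ N') = p := by
    rw [← Subgroup.index_eq_card]
    exact hidx
  haveI : Finite (↥N ⧸ N') := Nat.finite_of_card_ne_zero (by rw [hcard]; exact hp.ne_zero)
  set g : ↥N ⧸ N' := QuotientGroup.mk ⟨τ₁, h1⟩ with hg
  have hg1 : g ≠ 1 := by
    rw [hg, Ne, QuotientGroup.eq_one_iff, hN', Subgroup.mem_subgroupOf]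
    exact h2
  have htop : Subgroup.zpowers g = ⊤ := zpowers_eq_top_of_prime_card hcard hg1
  have hgp : g ^ p = 1 := by
    have := pow_card_eq_one' (G := ↥N ⧸ N') (x := g)
    rwa [hcard] at this
  have hord : orderOf g = p := orderOf_eq_prime hgp hg1
  have hmem : ∀ (x : ↥N), (QuotientGroup.mk x : ↥N ⧸ N') = 1 ↔ (x : G) ∈ H := by
    intro x
    rw [QuotientGroup.eq_one_iff, hN', Subgroup.mem_subgroupOf]
  constructor
  · intro τ hτ
    have h3 : (QuotientGroup.mk ⟨τ, hτ⟩ : ↥N ⧸ N') ∈ Subgroup.zpowers g := by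
      rw [htop]; trivial
    rw [← mem_powers_iff_mem_zpowers] at h3
    obtain ⟨k, hk⟩ := h3
    refine ⟨k, ?_⟩
    have h4 : (QuotientGroup.mk (⟨τ, hτ⟩ * (⟨τ₁, h1⟩ ^ k)⁻¹ : ↥N) : ↥N ⧸ N') = 1 := by
      rw [QuotientGroup.mk_mul, QuotientGroup.mk_inv, QuotientGroup.mk_pow, ← hg]
      show _ * (g ^ k)⁻¹ = 1
      rw [← hk]
      show g ^ k * (g ^ k)⁻¹ = 1
      exact mul_inv_cancel _
    have := (hmem _).mp h4
    simpa using this
  · intro k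
    have h5 : (QuotientGroup.mk (⟨τ₁, h1⟩ ^ k : ↥N) : ↥N ⧸ N') = 1 ↔ τ₁ ^ k ∈ H := by
      rw [hmem]; simp
    rw [← h5, QuotientGroup.mk_pow, ← hg, ← hord]
    exact orderOf_dvd_iff_pow_eq_one.symm

end GroupTheory

section Kummer

theorem h95_inv_apply (g : GQ) (x : Qb) : g (g⁻¹ x) = x := by
  rw [← AlgEquiv.mul_apply, mul_inv_cancel, AlgEquiv.one_apply]

theorem h95_pow_fix (τ : GQ) (a : Qb) (ha : τ a = a) (c : ℕ) : (τ ^ c) a = a := by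
  induction c with
  | zero => simp
  | succ c ih => rw [pow_succ, AlgEquiv.mul_apply, ha, ih]

/-- If `τ` scales `θ` by a `τ`-fixed factor `a`, then `τ ^ c` scales `θ` by `a ^ c`. -/
theorem h95_pow_scale (τ : GQ) (a θ : Qb) (ha : τ a = a) (hθ : τ θ = a * θ) (c : ℕ) :
    (τ ^ c) θ = a ^ c * θ := by
  induction c with
  | zero => simp
  | succ c ih =>
    rw [pow_succ, AlgEquiv.mul_apply, hθ, map_mul, ih, h95_pow_fix τ a ha c]
    ring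

/-- An automorphism fixing `ζ` fixes `ℚ(ζ)`. -/
theorem h95_mem_fixingSubgroup_adjoin (ζ : Qb) (σ : GQ) (h : σ ζ = ζ) :
    σ ∈ (ℚ⟮ζ⟯).fixingSubgroup := by
  rw [IntermediateField.mem_fixingSubgroup_iff]
  have hz : Subgroup.zpowers σ ≤ MulAction.stabilizer GQ ζ :=
    Subgroup.zpowers_le.mpr (by rw [MulAction.mem_stabilizer_iff]; exact h)
  have hle : ℚ⟮ζ⟯ ≤ IntermediateField.fixedField (Subgroup.zpowers σ) := by
    rw [IntermediateField.adjoin_simple_le_iff, IntermediateField.mem_fixedField_iff]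
    intro f hf
    exact MulAction.mem_stabilizer_iff.mp (hz hf)
  intro x hx
  exact (IntermediateField.mem_fixedField_iff _ x).mp (hle hx) σ (Subgroup.mem_zpowers σ)

theorem h95_fix_zeta_of_mem (ζ : Qb) (σ : GQ) (h : σ ∈ (ℚ⟮ζ⟯).fixingSubgroup) : σ ζ = ζ :=
  (IntermediateField.mem_fixingSubgroup_iff _ σ).mp h ζ
    (IntermediateField.mem_adjoin_simple_self ℚ ζ)

/-- Membership in `ℚ(ζ)` via Galois invariance. -/
theorem h95_mem_adjoin_iff (ζ x : Qb) : x ∈ ℚ⟮ζ⟯ ↔ ∀ σ : GQ, σ ζ = ζ → σ x = x := by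
  constructor
  · intro hx σ hσ
    exact (IntermediateField.mem_fixingSubgroup_iff _ σ).mp
      (h95_mem_fixingSubgroup_adjoin ζ σ hσ) x hx
  · intro h
    rw [← InfiniteGalois.fixedField_fixingSubgroup ℚ⟮ζ⟯, IntermediateField.mem_fixedField_iff]
    intro σ hσ
    exact h σ (h95_fix_zeta_of_mem ζ σ hσ)

variable (p : ℕ) [Fact p.Prime]

/-- **Kummer generator** attached to an open normal subgroup `H` of index `p` in the kernel of
the cyclotomic character on which `Gal(ℚ̄/ℚ)` acts through the inverse cyclotomic character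
(conjugation hypothesis in the form `σ⁻¹ τ σ ≡ τ ^ cycloExp σ` modulo `H`). -/
theorem h95_exists_kummer_aux (H : Subgroup GQ) (hN : H.Normal) (hO : IsOpen (H : Set GQ))
    (hle : H ≤ (ExtCitation.cycloChar p).ker)
    (hidx : H.relIndex (ExtCitation.cycloChar p).ker = p)
    (hact : ∀ σ : GQ, ∀ τ ∈ (ExtCitation.cycloChar p).ker,
      σ⁻¹ * τ * σ * (τ ^ ExtCitation.cycloExp p σ)⁻¹ ∈ H) :
    ∃ ζ θ : Qb, IsPrimitiveRoot ζ p ∧ θ ≠ 0 ∧ θ ^ p ∈ ℚ⟮ζ⟯ ∧ θ ∉ ℚ⟮ζ⟯ ∧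
      (∀ σ : GQ, ∀ m : ℕ, σ ζ = ζ ^ m → ∃ γ ∈ ℚ⟮ζ⟯, σ θ = θ ^ (m ^ 2) * γ) ∧
      (∀ σ : GQ, σ ∈ H ↔ σ ζ = ζ ∧ σ θ = θ) := by
  classical
  have hp := (Fact.out : p.Prime)
  haveI : NeZero p := ⟨hp.ne_zero⟩
  obtain ⟨ζ, hζ⟩ : ∃ ζ : Qb, IsPrimitiveRoot ζ p :=
    HasEnoughRootsOfUnity.exists_primitiveRoot Qb p
  have hζ0 : ζ ≠ 0 := hζ.ne_zero hp.ne_zero
  have hζ1 : ζ ≠ 1 := hζ.ne_one hp.one_lt
  have hζp : ζ ^ p = 1 := hζ.pow_eq_one
  set N := (ExtCitation.cycloChar p).ker with hNdef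
  have hNmem : ∀ σ : GQ, σ ∈ N ↔ σ ζ = ζ := h95_mem_ker_iff p hζ
  have hclosed : IsClosed (H : Set GQ) := H.isClosed_of_isOpen hO
  obtain ⟨τ₁, hτ₁N, hτ₁H⟩ : ∃ τ₁ ∈ N, τ₁ ∉ H := by
    by_contra hcon
    push Not at hcon
    have h1 : H.relIndex N = 1 := Subgroup.relIndex_eq_one.mpr hcon
    rw [hidx] at h1
    exact hp.one_lt.ne' h1
  obtain ⟨hcos, hpow⟩ := h95_cyclic_quot p H N hidx τ₁ hτ₁N hτ₁H
  have hτ₁ζ : τ₁ ζ = ζ := (hNmem τ₁).mp hτ₁N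
  have hHζ : ∀ h ∈ H, h ζ = ζ := fun h hh => (hNmem h).mp (hle hh)
  set F : IntermediateField ℚ Qb := IntermediateField.fixedField H with hF
  have hfixF : F.fixingSubgroup = H := InfiniteGalois.fixingSubgroup_fixedField ⟨H, hclosed⟩
  have hFmem : ∀ x : Qb, x ∈ F ↔ ∀ h ∈ H, h x = x :=
    fun x => IntermediateField.mem_fixedField_iff H x
  have hFstab : ∀ (g : GQ) (x : Qb), x ∈ F → g x ∈ F := by
    intro g x hx
    rw [hFmem] at hx ⊢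
    intro h hh
    have h1 : g⁻¹ * h * g ∈ H := by
      have := hN.conj_mem h hh g⁻¹
      simpa using this
    have h2 := hx _ h1
    rw [AlgEquiv.mul_apply, AlgEquiv.mul_apply] at h2
    have h3 := congrArg g h2
    rwa [h95_inv_apply] at h3
  -- the Lagrange resolvent
  let res : Qb → Qb := fun x => ∑ i ∈ Finset.range p, ζ⁻¹ ^ i * (τ₁ ^ i) x
  have hresτ : ∀ x ∈ F, τ₁ (res x) = ζ * res x := by
    intro x hx
    have hxp : (τ₁ ^ p) x = x := (hFmem x).mp hx _ ((hpow p).mpr dvd_rfl)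
    show τ₁ (∑ i ∈ Finset.range p, ζ⁻¹ ^ i * (τ₁ ^ i) x) =
      ζ * ∑ i ∈ Finset.range p, ζ⁻¹ ^ i * (τ₁ ^ i) x
    rw [map_sum, Finset.mul_sum]
    let f : ℕ → Qb := fun i => ζ * (ζ⁻¹ ^ i * (τ₁ ^ i) x)
    have e1 : ∀ i ∈ Finset.range p, τ₁ (ζ⁻¹ ^ i * (τ₁ ^ i) x) = f (i + 1) := by
      intro i _
      show _ = ζ * (ζ⁻¹ ^ (i + 1) * (τ₁ ^ (i + 1)) x)
      rw [map_mul, map_pow, map_inv₀, hτ₁ζ, pow_succ' τ₁ i, AlgEquiv.mul_apply, pow_succ,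
        ← mul_assoc, ← mul_assoc]
      congr 1
      field_simp
    rw [Finset.sum_congr rfl e1]
    have e2 := Finset.sum_range_succ' f p
    have e3 := Finset.sum_range_succ f p
    have e4 : f p = f 0 := by
      show ζ * (ζ⁻¹ ^ p * (τ₁ ^ p) x) = ζ * (ζ⁻¹ ^ 0 * (τ₁ ^ 0) x)
      rw [hxp, inv_pow, hζp]
      simp
    have e5 := e2.symm.trans e3
    rw [e4] at e5
    exact add_right_cancel e5
  have hresH : ∀ x ∈ F, ∀ h ∈ H, h (res x) = res x := by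
    intro x hx h hh
    show h (∑ i ∈ Finset.range p, ζ⁻¹ ^ i * (τ₁ ^ i) x) =
      ∑ i ∈ Finset.range p, ζ⁻¹ ^ i * (τ₁ ^ i) x
    rw [map_sum]
    refine Finset.sum_congr rfl fun i _ => ?_
    rw [map_mul, map_pow, map_inv₀, hHζ h hh, (hFmem _).mp (hFstab (τ₁ ^ i) x hx) h hh]
  -- the resolvent does not vanish identically (Dedekind)
  obtain ⟨x, hxF, hx0⟩ : ∃ x ∈ F, res x ≠ 0 := by
    by_contra hcon
    push Not at hcon
    let f : Fin p → (F →* Qb) := fun i =>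
      { toFun := fun y => (τ₁ ^ (i : ℕ)) (y : Qb)
        map_one' := by simp
        map_mul' := fun a b => by simp }
    have hinj : Function.Injective f := by
      intro i j hij
      wlog hle' : (i : ℕ) ≤ (j : ℕ) generalizing i j
      · exact (this hij.symm (le_of_not_ge hle')).symm
      have h1 : τ₁ ^ ((j : ℕ) - (i : ℕ)) ∈ H := by
        rw [← hfixF, IntermediateField.mem_fixingSubgroup_iff]
        intro y hy
        have h2 : (τ₁ ^ (i : ℕ)) y = (τ₁ ^ (j : ℕ)) y :=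
          congrArg (fun g : F →* Qb => g ⟨y, hy⟩) hij
        have h3 : (τ₁ ^ (j : ℕ)) y = (τ₁ ^ (i : ℕ)) ((τ₁ ^ ((j : ℕ) - (i : ℕ))) y) := by
          rw [← AlgEquiv.mul_apply, ← pow_add, Nat.add_sub_cancel' hle']
        rw [h3] at h2
        exact ((τ₁ ^ (i : ℕ)).injective h2).symm
      have h4 : p ∣ (j : ℕ) - (i : ℕ) := (hpow _).mp h1
      have h5 : (j : ℕ) - (i : ℕ) < p := lt_of_le_of_lt (Nat.sub_le _ _) j.2
      have h6 : (j : ℕ) - (i : ℕ) = 0 := Nat.eq_zero_of_dvd_of_lt h4 h5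
      exact Fin.ext (by omega)
    have hli := (linearIndependent_monoidHom F Qb).comp f hinj
    rw [Fintype.linearIndependent_iff] at hli
    have h7 := hli (fun i => ζ⁻¹ ^ (i : ℕ)) (by
      funext y
      have h8 := hcon (y : Qb) y.2
      simp only [Function.comp_apply, Finset.sum_apply, Pi.smul_apply, smul_eq_mul,
        Pi.zero_apply]
      show ∑ i : Fin p, ζ⁻¹ ^ (i : ℕ) * (τ₁ ^ (i : ℕ)) (y : Qb) = 0
      rw [Fin.sum_univ_eq_sum_range (fun i => ζ⁻¹ ^ i * (τ₁ ^ i) (y : Qb)) p]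
      exact h8) ⟨0, hp.pos⟩
    simp at h7
  set θ := res x with hθdef
  have hθτ : τ₁ θ = ζ * θ := hresτ x hxF
  have hθH : ∀ h ∈ H, h θ = θ := hresH x hxF
  -- the action of `N` on `θ`
  have hNθ : ∀ τ ∈ N, ∃ k : ℕ, τ * (τ₁ ^ k)⁻¹ ∈ H ∧ τ θ = ζ ^ k * θ := by
    intro τ hτ
    obtain ⟨k, hk⟩ := hcos τ hτ
    refine ⟨k, hk, ?_⟩
    have h1 : τ θ = (τ * (τ₁ ^ k)⁻¹) ((τ₁ ^ k) θ) := by
      rw [← AlgEquiv.mul_apply, inv_mul_cancel_right]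
    rw [h1, h95_pow_scale τ₁ ζ θ hτ₁ζ hθτ k, map_mul, map_pow, hHζ _ hk, hθH _ hk]
  refine ⟨ζ, θ, hζ, hx0, ?_, ?_, ?_, ?_⟩
  · -- `θ ^ p ∈ ℚ(ζ)`
    rw [h95_mem_adjoin_iff]
    intro σ hσζ
    obtain ⟨k, -, hk⟩ := hNθ σ ((hNmem σ).mpr hσζ)
    rw [map_pow, hk, mul_pow, ← pow_mul, mul_comm k p, pow_mul, hζp, one_pow, one_mul]
  · -- `θ ∉ ℚ(ζ)`
    intro hmem
    have h1 := (h95_mem_adjoin_iff ζ θ).mp hmem τ₁ hτ₁ζ
    rw [hθτ] at h1
    have h2 : (ζ - 1) * θ = 0 := by linear_combination h1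
    rcases mul_eq_zero.mp h2 with h | h
    · exact hζ1 (sub_eq_zero.mp h)
    · exact hx0 h
  · -- eigen-property
    intro σ m hσm
    set c := ExtCitation.cycloExp p σ with hc
    have hmc : ζ ^ m = ζ ^ c := by rw [← hσm, h95_map_zeta p hζ σ]
    have hθ0 : θ ≠ 0 := hx0
    refine ⟨σ θ / θ ^ (m ^ 2), ?_, by field_simp⟩
    rw [h95_mem_adjoin_iff]
    intro τ hτζ
    have hτN : τ ∈ N := (hNmem τ).mpr hτζ
    obtain ⟨k, hkH, hk⟩ := hNθ τ hτN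
    have hζk : ζ ^ k ≠ 0 := pow_ne_zero _ hζ0
    have h1 : (σ⁻¹ * τ * σ) θ = ζ ^ (k * c) * θ := by
      have h2 := hact σ τ hτN
      have h3 : (σ⁻¹ * τ * σ) θ = (σ⁻¹ * τ * σ * (τ ^ c)⁻¹) ((τ ^ c) θ) := by
        rw [← AlgEquiv.mul_apply, inv_mul_cancel_right]
      rw [h3, h95_pow_scale τ (ζ ^ k) θ (by rw [map_pow, hτζ]) hk c, map_mul, map_pow, map_pow,
        hHζ _ h2, hθH _ h2, ← pow_mul]
    have h4 : τ (σ θ) = ζ ^ (m * (k * c)) * σ θ := by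
      have h5 : τ (σ θ) = σ ((σ⁻¹ * τ * σ) θ) := by
        rw [AlgEquiv.mul_apply, AlgEquiv.mul_apply, h95_inv_apply]
      rw [h5, h1, map_mul, map_pow, hσm, ← pow_mul]
    have h6 : ζ ^ (m * (k * c)) = (ζ ^ k) ^ (m ^ 2) := by
      calc ζ ^ (m * (k * c)) = (ζ ^ c) ^ (m * k) := by rw [← pow_mul]; ring_nf
        _ = (ζ ^ m) ^ (m * k) := by rw [hmc]
        _ = (ζ ^ k) ^ (m ^ 2) := by rw [← pow_mul, ← pow_mul]; ring_nf
    rw [map_div₀, map_pow, h4, hk, h6, mul_pow]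
    field_simp
  · -- description of `H`
    intro σ
    constructor
    · intro hσ
      exact ⟨hHζ σ hσ, hθH σ hσ⟩
    · rintro ⟨hσζ, hσθ⟩
      obtain ⟨k, hkH, hk⟩ := hNθ σ ((hNmem σ).mpr hσζ)
      rw [hσθ] at hk
      have h1 : ζ ^ k = 1 := by
        have h2 : (ζ ^ k - 1) * θ = 0 := by linear_combination -hk
        rcases mul_eq_zero.mp h2 with h | h
        · exact sub_eq_zero.mp h
        · exact absurd h hx0
      have h3 : τ₁ ^ k ∈ H := (hpow k).mpr ((hζ.pow_eq_one_iff_dvd k).mp h1)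
      have h4 := H.mul_mem hkH h3
      rwa [inv_mul_cancel_right] at h4

/-- Passage from the conjugation hypothesis in the form produced by `bridge_group` to the form
used by `h95_exists_kummer_aux`. -/
theorem h95_hact_convert (H : Subgroup GQ)
    (hact : ∀ σ : GQ, ∀ τ ∈ (ExtCitation.cycloChar p).ker,
      σ * τ * σ⁻¹ * (τ ^ (((ExtCitation.cycloChar p σ)⁻¹ : (ZMod p)ˣ) : ZMod p).val)⁻¹ ∈ H) :
    ∀ σ : GQ, ∀ τ ∈ (ExtCitation.cycloChar p).ker,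
      σ⁻¹ * τ * σ * (τ ^ ExtCitation.cycloExp p σ)⁻¹ ∈ H := by
  intro σ τ hτ
  have h1 := hact σ⁻¹ τ hτ
  rw [inv_inv, map_inv, inv_inv, ExtCitation.val_cycloChar] at h1
  exact h1

/-- **B2, Kummer generator** (hypotheses = conclusion of `bridge_group`). -/
theorem exists_kummer_generator (hp : 3 ≤ p) (H : Subgroup GQ) (hN : H.Normal)
    (hO : IsOpen (H : Set GQ)) (hle : H ≤ (ExtCitation.cycloChar p).ker)
    (hidx : H.relIndex (ExtCitation.cycloChar p).ker = p)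
    (hact : ∀ σ : GQ, ∀ τ ∈ (ExtCitation.cycloChar p).ker,
      σ * τ * σ⁻¹ * (τ ^ (((ExtCitation.cycloChar p σ)⁻¹ : (ZMod p)ˣ) : ZMod p).val)⁻¹ ∈ H) :
    ∃ ζ θ : Qb, IsPrimitiveRoot ζ p ∧ θ ≠ 0 ∧ θ ^ p ∈ ℚ⟮ζ⟯ ∧ θ ∉ ℚ⟮ζ⟯ ∧
      (∀ σ : GQ, ∀ m : ℕ, σ ζ = ζ ^ m → ∃ γ ∈ ℚ⟮ζ⟯, σ θ = θ ^ (m ^ 2) * γ) ∧
      (∀ σ : GQ, σ ∈ H ↔ σ ζ = ζ ∧ σ θ = θ) :=
  h95_exists_kummer_aux p H hN hO hle hidx (h95_hact_convert p H hact)

/-- **B2, integral form**: as `exists_kummer_generator`, with `θ` moreover an algebraic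
integer. -/
theorem exists_kummer_data (hp : 3 ≤ p) (H : Subgroup GQ) (hN : H.Normal)
    (hO : IsOpen (H : Set GQ)) (hle : H ≤ (ExtCitation.cycloChar p).ker)
    (hidx : H.relIndex (ExtCitation.cycloChar p).ker = p)
    (hact : ∀ σ : GQ, ∀ τ ∈ (ExtCitation.cycloChar p).ker,
      σ * τ * σ⁻¹ * (τ ^ (((ExtCitation.cycloChar p σ)⁻¹ : (ZMod p)ˣ) : ZMod p).val)⁻¹ ∈ H) :
    ∃ ζ θ : Qb, IsPrimitiveRoot ζ p ∧ θ ≠ 0 ∧ IsIntegral ℤ θ ∧ θ ^ p ∈ ℚ⟮ζ⟯ ∧ θ ∉ ℚ⟮ζ⟯ ∧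
      (∀ σ : GQ, ∀ m : ℕ, σ ζ = ζ ^ m → ∃ γ ∈ ℚ⟮ζ⟯, σ θ = θ ^ (m ^ 2) * γ) ∧
      (∀ σ : GQ, σ ∈ H ↔ σ ζ = ζ ∧ σ θ = θ) := by
  obtain ⟨ζ, θ, hζ, hθ0, hθp, hθK, heig, hH⟩ := exists_kummer_generator p hp H hN hO hle hidx hact
  have hxalg : IsAlgebraic ℤ θ :=
    (IsFractionRing.isAlgebraic_iff ℤ ℚ Qb).mpr (Algebra.IsAlgebraic.isAlgebraic θ)
  obtain ⟨d, hd0, hdint⟩ := hxalg.exists_integral_multiple
  have hdQ : (d : Qb) ≠ 0 := Int.cast_ne_zero.mpr hd0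
  have hdK : (d : Qb) ∈ ℚ⟮ζ⟯ := intCast_mem _ d
  have hsm : d • θ = (d : Qb) * θ := zsmul_eq_mul θ d
  rw [hsm] at hdint
  refine ⟨ζ, (d : Qb) * θ, hζ, mul_ne_zero hdQ hθ0, hdint, ?_, ?_, ?_, ?_⟩
  · rw [mul_pow]
    exact mul_mem (pow_mem hdK p) hθp
  · intro hmem
    apply hθK
    have h1 : θ = (d : Qb)⁻¹ * ((d : Qb) * θ) := by field_simp
    rw [h1]
    exact mul_mem (inv_mem hdK) hmem
  · intro σ m hσ
    obtain ⟨γ, hγ, hσθ⟩ := heig σ m hσ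
    refine ⟨γ * (d : Qb) * ((d : Qb) ^ (m ^ 2))⁻¹,
      mul_mem (mul_mem hγ hdK) (inv_mem (pow_mem hdK _)), ?_⟩
    rw [map_mul, map_intCast, hσθ, mul_pow]
    field_simp
  · intro σ
    rw [hH σ, map_mul, map_intCast]
    constructor
    · rintro ⟨h1, h2⟩
      exact ⟨h1, by rw [h2]⟩
    · rintro ⟨h1, h2⟩
      exact ⟨h1, mul_left_cancel₀ hdQ h2⟩

end Kummer

end Fermat.Agent.S14
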