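import Mathlib
import Fermat.Agent.S14.BridgeGroup
import Fermat.Agent.S14.BridgeKummer

/-!
S14, bridge packaging (helper95): from a non-split admissible extension to the number-field
datum consumed by `bridge_sing`, `bridge_loc` and `core_isPow`:

`K0 = ℚ(ζ) ⊆ ℚ̄`, `α : 𝓞 K0` nonzero, not a `p`-th power in `K0`, `ω²`-eigen modulo `p`-th
powers, with a `p`-th root `θ ∈ ℚ̄` fixed by all inertia groups outside `p` and by the
decomposition groups at `p` inside `Gal(ℚ̄/K0)`.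
-/

set_option autoImplicit false
set_option linter.style.haveILetI false
set_option linter.unusedVariables false

open scoped IntermediateField NumberField

namespace Fermat.Agent.S14

local notation "Qb" => AlgebraicClosure ℚ
local notation "GQ" => AlgebraicClosure ℚ ≃ₐ[ℚ] AlgebraicClosure ℚ

attribute [local instance] h95_isAlgClosure_rat

/-- **Bridge datum.** -/
theorem exists_bridge_datum (p : ℕ) [Fact p.Prime] (hp : 3 ≤ p) {V : Type} [AddCommGroup V]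
    [Module (ZMod p) V] [DistribMulAction GQ V] [SMulCommClass GQ (ZMod p) V]
    {C : Submodule (ZMod p) V} (hadm : ExtCitation.IsAdmissibleExtensionCts p V C)
    (hns : ¬ ExtCitation.SplitsGlobally C) :
    ∃ (K0 : IntermediateField ℚ Qb) (_ : NumberField K0) (_ : IsCyclotomicExtension {p} ℚ K0)
      (ζ : K0) (_ : IsPrimitiveRoot ζ p) (α : 𝓞 K0) (θ : Qb),
      α ≠ 0 ∧ θ ^ p = ((α : K0) : Qb) ∧ (¬ ∃ β : K0, (α : K0) = β ^ p) ∧
      (∀ (σ : K0 ≃ₐ[ℚ] K0) (m : ℕ), σ ζ = ζ ^ m →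
        ∃ γ : K0, σ (α : K0) = (α : K0) ^ (m ^ 2) * γ ^ p) ∧
      (∀ ℓ : ℕ, ℓ.Prime → ℓ ≠ p → ∀ A : ValuationSubring Qb, A.LiesOverPrime ℓ →
        ∀ σ ∈ A.inertiaSubgroupIn ℚ, σ θ = θ) ∧
      (∀ A : ValuationSubring Qb, A.LiesOverPrime p → ∀ σ ∈ A.decompositionSubgroup ℚ,
        σ ((ζ : K0) : Qb) = ζ → σ θ = θ) := by
  have hp' := (Fact.out : p.Prime)
  haveI : NeZero p := ⟨hp'.ne_zero⟩
  obtain ⟨H, hN, hO, hle, hidx, hact, hI, hD⟩ := bridge_group p hp hadm hns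
  obtain ⟨ζ, θ, hζ, hθ0, hθint, hθp, hθK, heig, hH⟩ :=
    exists_kummer_data p hp H hN hO hle hidx hact
  set K0 : IntermediateField ℚ Qb := ℚ⟮ζ⟯ with hK0
  haveI hcyc : IsCyclotomicExtension {p} ℚ K0 :=
    hζ.intermediateField_adjoin_isCyclotomicExtension ℚ
  haveI hnf : NumberField K0 := IsCyclotomicExtension.numberField {p} ℚ K0
  haveI hgal : IsGalois ℚ K0 := IsCyclotomicExtension.isGalois {p} ℚ K0
  have hζmem : ζ ∈ K0 := IntermediateField.mem_adjoin_simple_self ℚ ζ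
  set ζ₀ : K0 := ⟨ζ, hζmem⟩ with hζ₀
  have hζ₀prim : IsPrimitiveRoot ζ₀ p := IsPrimitiveRoot.coe_submonoidClass_iff.mp hζ
  -- the element `α`
  set a : K0 := ⟨θ ^ p, hθp⟩ with ha
  have haint : IsIntegral ℤ a := by
    rw [← isIntegral_algebraMap_iff (FaithfulSMul.algebraMap_injective K0 Qb)]
    exact hθint.pow p
  set α : 𝓞 K0 := IsIntegralClosure.mk' (𝓞 K0) a haint with hα
  have hαa : (α : K0) = a := IsIntegralClosure.algebraMap_mk' (𝓞 K0) a haint
  have hαθ : ((α : K0) : Qb) = θ ^ p := by rw [hαa]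
  refine ⟨K0, hnf, hcyc, ζ₀, hζ₀prim, α, θ, ?_, hαθ.symm, ?_, ?_, ?_, ?_⟩
  · -- `α ≠ 0`
    intro h0
    have h1 : ((α : K0) : Qb) = 0 := by rw [h0]; simp
    rw [hαθ] at h1
    exact hθ0 (pow_eq_zero_iff hp'.ne_zero |>.mp h1)
  · -- `α` is not a `p`-th power in `K0`
    rintro ⟨β, hβ⟩
    have h1 : θ ^ p = (β : Qb) ^ p := by
      rw [← hαθ, hβ]
      simp
    have hβ0 : (β : Qb) ≠ 0 := by
      intro h0
      rw [h0, zero_pow hp'.ne_zero] at h1
      exact hθ0 (pow_eq_zero_iff hp'.ne_zero |>.mp h1)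
    have h2 : (θ / (β : Qb)) ^ p = 1 := by
      rw [div_pow, h1, div_self (pow_ne_zero _ hβ0)]
    obtain ⟨i, -, hi⟩ := hζ.eq_pow_of_pow_eq_one h2
    apply hθK
    have h3 : θ = ζ ^ i * (β : Qb) := by
      rw [hi]
      field_simp
    rw [h3]
    exact mul_mem (pow_mem hζmem i) β.2
  · -- eigen-property
    intro σ m hσ
    obtain ⟨σ', hσ'⟩ := AlgEquiv.restrictNormalHom_surjective (F := ℚ) (K₁ := K0) Qb σ
    have hσx : ∀ x : K0, σ' (x : Qb) = ((σ x : K0) : Qb) := by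
      intro x
      rw [← hσ']
      exact (AlgEquiv.restrictNormal_commutes σ' K0 x).symm
    have hσζ : σ' ζ = ζ ^ m := by
      have h1 := hσx ζ₀
      rw [hσ] at h1
      simpa using h1
    obtain ⟨γ, hγ, hσθ⟩ := heig σ' m hσζ
    refine ⟨⟨γ, hγ⟩, ?_⟩
    apply Subtype.ext
    have h2 := hσx (α : K0)
    rw [hαθ, map_pow, hσθ] at h2
    rw [← h2]
    push_cast
    rw [hαθ]
    ring
  · -- unramified outside `p`
    intro ℓ hℓ hℓp A hA σ hσ
    exact ((hH σ).mp (hI ℓ hℓ hℓp A hA hσ)).2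
  · -- split at `p`
    intro A hA σ hσ hσζ
    have h1 : σ ∈ (ExtCitation.cycloChar p).ker := (h95_mem_ker_iff p hζ σ).mpr hσζ
    exact ((hH σ).mp (hD A hA ⟨hσ, h1⟩)).2

end Fermat.Agent.S14
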