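import Mathlib

/-!
S14, module B3 (finite level), helper86.

Ramification bookkeeping for a Galois extension `F / K` of number fields and a nonzero prime
`P` of `𝓞 F`:

* trivial inertia group ⟹ `e = 1`; trivial decomposition group ⟹ `e = f = 1`;
* `e = 1` and `θ ^ p = α` with `α ∈ 𝓞 K` ⟹ the multiplicity of `P ∩ 𝓞 K` in `(α)` is a
  multiple of `p`;
* `e = f = 1` ⟹ every integer of `F` is congruent mod `P ^ M` to an integer of `K`, and
  `P ^ M ∩ 𝓞 K = (P ∩ 𝓞 K) ^ M`.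
-/

set_option autoImplicit false

open NumberField
open scoped Pointwise

namespace Fermat.Agent.S14

section Fin

variable {K F : Type*} [Field K] [NumberField K] [Field F] [NumberField F] [Algebra K F]

/-- When `e(P | P ∩ 𝓞 K) = 1`, extension of ideals preserves the multiplicity at `P`. -/
theorem h86b_emult_map (P : Ideal (𝓞 F)) [P.IsPrime] (hP : P ≠ ⊥)
    (he : P.ramificationIdx (𝓞 K) = 1) (I : Ideal (𝓞 K)) (hI : I ≠ ⊥) :
    emultiplicity P (I.map (algebraMap (𝓞 K) (𝓞 F))) = emultiplicity (P.under (𝓞 K)) I := by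
  have hp0 : P.under (𝓞 K) ≠ ⊥ := Ideal.under_ne_bot (𝓞 K) hP
  have hv : Irreducible (P.under (𝓞 K)) :=
    (Ideal.prime_of_isPrime hp0 inferInstance).irreducible
  have hw : Irreducible P := (Ideal.prime_of_isPrime hP inferInstance).irreducible
  rw [Ideal.IsDedekindDomain.emultiplicity_map_eq_ramificationIdx'_mul hI hv hw hP,
    Ideal.ramificationIdx'_eq_ramificationIdx (P.under (𝓞 K)) P hp0, he]
  simp

/-- If `e = 1` and `α = θ ^ p`, the multiplicity of `P ∩ 𝓞 K` in `(α)` is a multiple of `p`. -/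
theorem h86b_emultiplicity_of_pow (p : ℕ) (hp : p ≠ 0) (P : Ideal (𝓞 F)) [P.IsPrime]
    (hP : P ≠ ⊥) (he : P.ramificationIdx (𝓞 K) = 1) (α : 𝓞 K) (hα : α ≠ 0) (θ : 𝓞 F)
    (hθ : θ ^ p = algebraMap (𝓞 K) (𝓞 F) α) :
    ∃ k : ℕ, emultiplicity (P.under (𝓞 K)) (Ideal.span {α}) = ((p * k : ℕ) : ℕ∞) := by
  have hI : Ideal.span {α} ≠ (⊥ : Ideal (𝓞 K)) := by
    rwa [Ne, Ideal.span_singleton_eq_bot]
  have hPprime : Prime P := Ideal.prime_of_isPrime hP inferInstance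
  have hθ0 : θ ≠ 0 := by
    rintro rfl
    rw [zero_pow hp] at hθ
    exact hα ((FaithfulSMul.algebraMap_injective (𝓞 K) (𝓞 F)) (by rw [← hθ, map_zero]))
  have hJ : Ideal.span {θ} ≠ (⊥ : Ideal (𝓞 F)) := by
    rwa [Ne, Ideal.span_singleton_eq_bot]
  have hfin : FiniteMultiplicity P (Ideal.span {θ}) :=
    FiniteMultiplicity.of_not_isUnit hPprime.not_isUnit hJ
  obtain ⟨k, hk⟩ : ∃ k : ℕ, emultiplicity P (Ideal.span {θ}) = k :=
    ⟨_, hfin.emultiplicity_eq_multiplicity⟩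
  refine ⟨k, ?_⟩
  rw [← h86b_emult_map P hP he _ hI, Ideal.map_span, Set.image_singleton, ← hθ,
    ← Ideal.span_singleton_pow, emultiplicity_pow hPprime, hk]
  push_cast
  rfl

/-- When `e = 1`, `P ^ M ∩ 𝓞 K = (P ∩ 𝓞 K) ^ M`. -/
theorem h86b_mem_pow_under (P : Ideal (𝓞 F)) [P.IsPrime] (hP : P ≠ ⊥)
    (he : P.ramificationIdx (𝓞 K) = 1) (M : ℕ) (z : 𝓞 K)
    (hz : algebraMap (𝓞 K) (𝓞 F) z ∈ P ^ M) : z ∈ (P.under (𝓞 K)) ^ M := by
  by_cases hz0 : z = 0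
  · subst hz0; exact Ideal.zero_mem _
  have hI : Ideal.span {z} ≠ (⊥ : Ideal (𝓞 K)) := by
    rwa [Ne, Ideal.span_singleton_eq_bot]
  have h1 : P ^ M ∣ (Ideal.span {z}).map (algebraMap (𝓞 K) (𝓞 F)) := by
    rw [Ideal.dvd_iff_le, Ideal.map_span, Set.image_singleton, Ideal.span_singleton_le_iff_mem]
    exact hz
  have h2 : (M : ℕ∞) ≤ emultiplicity (P.under (𝓞 K)) (Ideal.span {z}) := by
    rw [← h86b_emult_map P hP he _ hI]
    exact le_emultiplicity_of_pow_dvd h1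
  have h3 := pow_dvd_of_le_emultiplicity h2
  rw [Ideal.dvd_iff_le, Ideal.span_singleton_le_iff_mem] at h3
  exact h3

/-- Residue degree one: every integer of `F` is congruent mod `P` to an integer of `K`. -/
theorem h86b_exists_approx_one (P : Ideal (𝓞 F)) [P.IsPrime] (hP : P ≠ ⊥)
    (hf : P.inertiaDeg (𝓞 K) = 1) (y : 𝓞 F) :
    ∃ x : 𝓞 K, y - algebraMap (𝓞 K) (𝓞 F) x ∈ P := by
  have hp0 : P.under (𝓞 K) ≠ ⊥ := Ideal.under_ne_bot (𝓞 K) hP
  have hmax : (P.under (𝓞 K)).IsMaximal := Ideal.IsPrime.isMaximal inferInstance hp0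
  have hPmax : P.IsMaximal := Ideal.IsPrime.isMaximal inferInstance hP
  rw [Ideal.inertiaDeg_eq_of_isMaximal (P.under (𝓞 K)) P] at hf
  let _ : Field (𝓞 K ⧸ P.under (𝓞 K)) := Ideal.Quotient.field _
  let _ : Field (𝓞 F ⧸ P) := Ideal.Quotient.field _
  have h1 := Subalgebra.bot_eq_top_of_finrank_eq_one hf
  have h2 : Ideal.Quotient.mk P y ∈ (⊥ : Subalgebra (𝓞 K ⧸ P.under (𝓞 K)) (𝓞 F ⧸ P)) := by
    rw [h1]; exact Algebra.mem_top
  rw [Algebra.mem_bot] at h2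
  obtain ⟨x', hx'⟩ := h2
  obtain ⟨x, rfl⟩ := Ideal.Quotient.mk_surjective x'
  refine ⟨x, ?_⟩
  rw [← Ideal.Quotient.eq, ← hx']
  rfl

/-- A uniformiser downstairs stays a uniformiser when `e = 1`. -/
theorem h86b_exists_unif (P : Ideal (𝓞 F)) [P.IsPrime] (hP : P ≠ ⊥)
    (he : P.ramificationIdx (𝓞 K) = 1) :
    ∃ π : 𝓞 K, algebraMap (𝓞 K) (𝓞 F) π ∈ P ∧ algebraMap (𝓞 K) (𝓞 F) π ∉ P ^ 2 := by
  have hp0 : P.under (𝓞 K) ≠ ⊥ := Ideal.under_ne_bot (𝓞 K) hP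
  have hvprime : Prime (P.under (𝓞 K)) := Ideal.prime_of_isPrime hp0 inferInstance
  have h1 := h86b_emult_map P hP he (P.under (𝓞 K)) hp0
  rw [(FiniteMultiplicity.of_prime_left hvprime hp0).emultiplicity_self] at h1
  have h2 : ¬ (P.under (𝓞 K)).map (algebraMap (𝓞 K) (𝓞 F)) ≤ P ^ 2 := by
    intro hle
    have h3 : P ^ (1 + 1) ∣ (P.under (𝓞 K)).map (algebraMap (𝓞 K) (𝓞 F)) :=
      Ideal.dvd_iff_le.mpr hle
    exact (emultiplicity_eq_coe.mp h1).2 h3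
  rw [Ideal.map_le_iff_le_comap] at h2
  obtain ⟨π, hπ, hπ2⟩ := Set.not_subset.mp h2
  exact ⟨π, hπ, hπ2⟩

/-- Powers of a uniformiser have exact order. -/
theorem h86b_pow_not_mem {S : Type*} [CommRing S] [IsDedekindDomain S] (P : Ideal S) [P.IsPrime]
    (hP : P ≠ ⊥) (a : S) (ha : a ∈ P) (ha2 : a ∉ P ^ 2) (M : ℕ) : a ^ M ∉ P ^ (M + 1) := by
  have hPprime : Prime P := Ideal.prime_of_isPrime hP inferInstance
  have h1 : emultiplicity P (Ideal.span {a}) = 1 := by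
    have : emultiplicity P (Ideal.span {a}) = ((1 : ℕ) : ℕ∞) := by
      rw [emultiplicity_eq_coe]
      refine ⟨?_, ?_⟩
      · rw [pow_one, Ideal.dvd_iff_le, Ideal.span_singleton_le_iff_mem]; exact ha
      · rw [Ideal.dvd_iff_le, Ideal.span_singleton_le_iff_mem]; exact ha2
    simpa using this
  have h2 : emultiplicity P (Ideal.span {a ^ M}) = (M : ℕ∞) := by
    rw [← Ideal.span_singleton_pow, emultiplicity_pow hPprime, h1, mul_one]
  intro hmem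
  have h3 : P ^ (M + 1) ∣ Ideal.span {a ^ M} := by
    rw [Ideal.dvd_iff_le, Ideal.span_singleton_le_iff_mem]; exact hmem
  exact (emultiplicity_eq_coe.mp h2).2 h3

/-- `e = f = 1`: every integer of `F` is congruent mod `P ^ M` to an integer of `K`. -/
theorem h86b_exists_approx (P : Ideal (𝓞 F)) [P.IsPrime] (hP : P ≠ ⊥)
    (he : P.ramificationIdx (𝓞 K) = 1) (hf : P.inertiaDeg (𝓞 K) = 1) (M : ℕ) (y : 𝓞 F) :
    ∃ x : 𝓞 K, y - algebraMap (𝓞 K) (𝓞 F) x ∈ P ^ M := by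
  obtain ⟨π, hπ, hπ2⟩ := h86b_exists_unif (K := K) P hP he
  induction M generalizing y with
  | zero => exact ⟨0, by simp⟩
  | succ M ih =>
    obtain ⟨x, hx⟩ := ih y
    have hπM : (algebraMap (𝓞 K) (𝓞 F) π) ^ M ∈ P ^ M := Ideal.pow_mem_pow hπ M
    have hπM' : (algebraMap (𝓞 K) (𝓞 F) π) ^ M ∉ P ^ (M + 1) :=
      h86b_pow_not_mem P hP _ hπ hπ2 M
    obtain ⟨d, e, he', hde⟩ := Ideal.exists_mul_add_mem_pow_succ hP _ _ hπM hπM' hx
    obtain ⟨x', hx'⟩ := h86b_exists_approx_one (K := K) P hP hf d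
    refine ⟨x + π ^ M * x', ?_⟩
    have : y - algebraMap (𝓞 K) (𝓞 F) (x + π ^ M * x') =
        (algebraMap (𝓞 K) (𝓞 F) π) ^ M * (d - algebraMap (𝓞 K) (𝓞 F) x') + e := by
      rw [map_add, map_mul, map_pow]
      linear_combination -hde
    rw [this, pow_succ]
    exact Ideal.add_mem _ (Ideal.mul_mem_mul hπM hx') (by rwa [← pow_succ])

variable [IsGalois K F]

/-- Trivial inertia group implies ramification index one. -/
theorem h86b_ramificationIdx_eq_one (P : Ideal (𝓞 F)) [P.IsPrime] (hP : P ≠ ⊥)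
    (h : ∀ τ : F ≃ₐ[K] F, (∀ x : 𝓞 F, τ • x - x ∈ P) → τ = 1) :
    P.ramificationIdx (𝓞 K) = 1 := by
  have hbot : Ideal.inertia (F ≃ₐ[K] F) P = ⊥ := by
    rw [eq_bot_iff]
    intro τ hτ
    rw [Subgroup.mem_bot]
    exact h τ hτ
  have hp0 : P.under (𝓞 K) ≠ ⊥ := Ideal.under_ne_bot (𝓞 K) hP
  have hmax : (P.under (𝓞 K)).IsMaximal := Ideal.IsPrime.isMaximal inferInstance hp0
  have h1 := Ideal.card_inertia_eq_ramificationIdxIn (G := F ≃ₐ[K] F) (P.under (𝓞 K)) P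
  rw [hbot] at h1
  have h2 := Ideal.ramificationIdxIn_eq_ramificationIdx (P.under (𝓞 K)) P (F ≃ₐ[K] F)
  rw [← h2, ← h1]
  simp

/-- Trivial decomposition group implies ramification index and inertia degree one. -/
theorem h86b_ram_inertia_eq_one (P : Ideal (𝓞 F)) [P.IsPrime] (hP : P ≠ ⊥)
    (h : ∀ τ : F ≃ₐ[K] F, τ • P = P → τ = 1) :
    P.ramificationIdx (𝓞 K) = 1 ∧ P.inertiaDeg (𝓞 K) = 1 := by
  have hbot : MulAction.stabilizer (F ≃ₐ[K] F) P = ⊥ := by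
    rw [eq_bot_iff]
    intro τ hτ
    rw [Subgroup.mem_bot]
    exact h τ hτ
  have hp0 : P.under (𝓞 K) ≠ ⊥ := Ideal.under_ne_bot (𝓞 K) hP
  have hmax : (P.under (𝓞 K)).IsMaximal := Ideal.IsPrime.isMaximal inferInstance hp0
  have h1 := Ideal.card_stabilizer_eq (G := F ≃ₐ[K] F) (P.under (𝓞 K)) P
  rw [hbot] at h1
  have h2 := Ideal.ramificationIdxIn_eq_ramificationIdx (P.under (𝓞 K)) P (F ≃ₐ[K] F)
  have h3 := Ideal.inertiaDegIn_eq_inertiaDeg (P.under (𝓞 K)) P (F ≃ₐ[K] F)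
  rw [h2, h3] at h1
  have h4 : P.ramificationIdx (𝓞 K) * P.inertiaDeg (𝓞 K) = 1 := by
    rw [← h1]; simp
  exact ⟨Nat.eq_one_of_mul_eq_one_right h4, Nat.eq_one_of_mul_eq_one_left h4⟩

end Fin

end Fermat.Agent.S14
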