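import Mathlib

/-!
# S14, module CORE: the number-field main theorem (wrapper side)

`K = ℚ(ζ_p)`, `α : 𝓞 K` nonzero with
* `eig`  : `σ α = α ^ (m ^ 2) * γ ^ p` whenever `σ ζ = ζ ^ m`,
* `sing` : `p ∣ v_𝔮(α)` for every prime `𝔮 ∤ p`,
* `loc`  : `α` is a `p`-th power modulo every power of `λ = (ζ - 1)`.

This file contains the parts which do not involve the class group:
* `h98_span_eq_pow`   : `sing + loc ⟹ span {α} = 𝔞 ^ p`;
* `h98_unit_eig`      : if `α = ε * β ^ p` then `ε` is again an eigen-unit;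
* `h98_unit_loc`      : if `α = ε * β ^ p` then `ε` is a `p`-th power modulo `λ ^ N`.
-/

namespace Fermat.Agent.S14

open NumberField IsDedekindDomain

/-- If `α` is a `p`-th power modulo every power of the prime `π`, then `p` divides the
multiplicity of `π` in `α`. -/
theorem h98_dvd_multiplicity_of_loc {R : Type*} [CommRing R] [IsDomain R] [WfDvdMonoid R]
    (π α : R) (hπ : Prime π) (hα : α ≠ 0) (p : ℕ) (hp0 : 0 < p)
    (loc : ∀ M : ℕ, ∃ x : R, π ^ M ∣ α - x ^ p) : p ∣ multiplicity π α := by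
  have hfin : FiniteMultiplicity π α := FiniteMultiplicity.of_not_isUnit hπ.not_isUnit hα
  set n := multiplicity π α with hn
  obtain ⟨x, hx⟩ := loc (n + 1)
  have hαn : π ^ n ∣ α := pow_multiplicity_dvd π α
  have h1 : π ^ n ∣ x ^ p := by
    have h : π ^ n ∣ α - x ^ p := dvd_trans (pow_dvd_pow π (Nat.le_succ n)) hx
    have := dvd_sub hαn h
    simpa using this
  have h2 : ¬ π ^ (n + 1) ∣ x ^ p := by
    intro h
    have h3 : π ^ (n + 1) ∣ α := by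
      have := dvd_add h hx
      simpa using this
    exact hfin.not_pow_dvd_of_multiplicity_lt (Nat.lt_succ_self n) h3
  have h4 : emultiplicity π (x ^ p) = n := emultiplicity_eq_of_dvd_of_not_dvd h1 h2
  rw [emultiplicity_pow hπ] at h4
  have h5 : emultiplicity π x ≠ ⊤ := by
    intro htop
    rw [htop] at h4
    have : ((p : ℕ) : ℕ∞) * ⊤ = ⊤ := by
      rw [ENat.mul_top]
      exact_mod_cast hp0.ne'
    rw [this] at h4
    exact ENat.top_ne_natCast n h4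
  obtain ⟨m, hm⟩ := ENat.ne_top_iff_exists.mp h5
  rw [← hm] at h4
  refine ⟨m, ?_⟩
  exact_mod_cast h4.symm


/-- If `ε * β ^ p` is a `p`-th power modulo every power of the prime `π` (and elements prime to
`π` are invertible modulo powers of `π`), then so is `ε`. -/
theorem h98_unit_loc_aux {R : Type*} [CommRing R] [IsDomain R] [WfDvdMonoid R]
    (π : R) (hπ : Prime π) (hcop : ∀ b : R, ¬ π ∣ b → IsCoprime π b) (p : ℕ) (hp0 : 0 < p)
    (ε β : R) (hβ : β ≠ 0) (loc : ∀ M : ℕ, ∃ x : R, π ^ M ∣ ε * β ^ p - x ^ p) (N : ℕ) :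
    ∃ x : R, π ^ N ∣ ε - x ^ p := by
  have hfin : FiniteMultiplicity π β := FiniteMultiplicity.of_not_isUnit hπ.not_isUnit hβ
  obtain ⟨b, hb, hnd⟩ := hfin.exists_eq_pow_mul_and_not_dvd
  set v := multiplicity π β with hv
  obtain ⟨y, hy⟩ := loc (p * v + N)
  have h1 : π ^ (p * v) ∣ y ^ p := by
    have ha : π ^ (p * v) ∣ ε * β ^ p := by
      rw [hb, mul_pow, ← pow_mul, mul_comm v p]
      exact Dvd.dvd.mul_left (Dvd.intro _ rfl) ε
    have hc : π ^ (p * v) ∣ ε * β ^ p - y ^ p :=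
      dvd_trans (pow_dvd_pow π (Nat.le_add_right _ _)) hy
    have := dvd_sub ha hc
    simpa using this
  have h2 : π ^ v ∣ y := by
    rw [pow_dvd_iff_le_emultiplicity] at h1 ⊢
    rw [emultiplicity_pow hπ] at h1
    by_cases htop : emultiplicity π y = ⊤
    · rw [htop]
      exact le_top
    · obtain ⟨m, hm⟩ := ENat.ne_top_iff_exists.mp htop
      rw [← hm] at h1 ⊢
      have h1' : p * v ≤ p * m := by exact_mod_cast h1
      have : v ≤ m := Nat.le_of_mul_le_mul_left h1' hp0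
      exact_mod_cast this
  obtain ⟨z, rfl⟩ := h2
  have h3 : π ^ N ∣ ε * b ^ p - z ^ p := by
    have h4 : ε * β ^ p - (π ^ v * z) ^ p = π ^ (p * v) * (ε * b ^ p - z ^ p) := by
      rw [hb, pow_mul']
      ring
    rw [h4, pow_add] at hy
    exact (mul_dvd_mul_iff_left (pow_ne_zero _ hπ.ne_zero)).mp hy
  obtain ⟨s, t, hst⟩ : IsCoprime (π ^ N) b := (hcop b hnd).pow_left
  refine ⟨z * t, ?_⟩
  have h5 : π ^ N ∣ 1 - (t * b) ^ p := by
    have h6 : (1 : R) - t * b ∣ 1 ^ p - (t * b) ^ p := sub_dvd_pow_sub_pow 1 (t * b) p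
    rw [one_pow] at h6
    refine dvd_trans ?_ h6
    exact ⟨s, by linear_combination (-1 : R) * hst⟩
  have h7 : ε - (z * t) ^ p = ε * (1 - (t * b) ^ p) + t ^ p * (ε * b ^ p - z ^ p) := by ring
  rw [h7]
  exact dvd_add (Dvd.dvd.mul_left h5 ε) (Dvd.dvd.mul_left h3 _)

/-- If `span {α} = span {β} ^ p` then `α = ε * β ^ p` for a unit `ε`. -/
theorem h98_unit_mul_pow_of_span_eq {R : Type*} [CommRing R] [IsDomain R] (α β : R) (p : ℕ)
    (h : Ideal.span {α} = Ideal.span {β} ^ p) : ∃ ε : Rˣ, α = (ε : R) * β ^ p := by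
  rw [Ideal.span_singleton_pow, Ideal.span_singleton_eq_span_singleton] at h
  obtain ⟨u, hu⟩ := h.symm
  exact ⟨u, by rw [← hu, mul_comm]⟩

section Cyclotomic

variable (p : ℕ) [hp : Fact p.Prime] {K : Type*} [Field K] [NumberField K]
  [hK : IsCyclotomicExtension {p} ℚ K] {ζ : K} (hζ : IsPrimitiveRoot ζ p)

/-- A prime ideal of `𝓞 K` containing `p` is `(ζ - 1)`. -/
theorem h98_eq_span_of_mem (Q : Ideal (𝓞 K)) [hQ : Q.IsPrime] (hpQ : (p : 𝓞 K) ∈ Q) :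
    Q = Ideal.span {hζ.toInteger - 1} := by
  have hπ : Prime (hζ.toInteger - 1) := hζ.zeta_sub_one_prime'
  have h1 : (hζ.toInteger - 1) ^ (p - 1) ∈ Q := by
    obtain ⟨u, hu⟩ := (IsCyclotomicExtension.Rat.associated_zeta_sub_one_pow_prime p hζ).symm
    rw [← hu]
    exact Q.mul_mem_right _ hpQ
  have h2 : hζ.toInteger - 1 ∈ Q := hQ.mem_of_pow_mem _ h1
  have h3 : Ideal.span {hζ.toInteger - 1} ≤ Q := by
    rw [Ideal.span_le]
    intro x hx
    rw [Set.mem_singleton_iff] at hx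
    rw [hx]
    exact h2
  have hmax : (Ideal.span {hζ.toInteger - 1}).IsMaximal := by
    have hprime : (Ideal.span {hζ.toInteger - 1}).IsPrime :=
      (Ideal.span_singleton_prime hπ.ne_zero).mpr hπ
    exact hprime.isMaximal (by
      rw [Ne, Ideal.span_singleton_eq_bot]
      exact hπ.ne_zero)
  exact (hmax.eq_of_le hQ.ne_top h3).symm

/-- (i) `sing + loc ⟹ span {α} = 𝔞 ^ p`. -/
theorem h98_span_eq_pow (α : 𝓞 K) (hα : α ≠ 0)
    (sing : ∀ v : HeightOneSpectrum (𝓞 K), (p : 𝓞 K) ∉ v.asIdeal →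
      p ∣ (Associates.mk v.asIdeal).count (Associates.mk (Ideal.span {α})).factors)
    (loc : ∀ M : ℕ, ∃ x : 𝓞 K, (hζ.toInteger - 1) ^ M ∣ α - x ^ p) :
    ∃ 𝔞 : Ideal (𝓞 K), Ideal.span {α} = 𝔞 ^ p := by
  classical
  have hπ : Prime (hζ.toInteger - 1) := hζ.zeta_sub_one_prime'
  have hI : Ideal.span {α} ≠ (0 : Ideal (𝓞 K)) := by
    rw [Ne, Ideal.zero_eq_bot, Ideal.span_singleton_eq_bot]
    exact hα
  have ha : Associates.mk (Ideal.span {α}) ≠ 0 := Associates.mk_ne_zero.mpr hI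
  have key : ∀ q : Associates (Ideal (𝓞 K)), Irreducible q →
      p ∣ q.count (Associates.mk (Ideal.span {α})).factors := by
    intro q hq
    obtain ⟨Q, rfl⟩ := Associates.mk_surjective q
    rw [Associates.irreducible_mk] at hq
    have hQprime : Prime Q := UniqueFactorizationMonoid.irreducible_iff_prime.mp hq
    have hQ0 : Q ≠ ⊥ := hQprime.ne_zero
    have hQ : Q.IsPrime := Ideal.isPrime_of_prime hQprime
    by_cases hpQ : (p : 𝓞 K) ∈ Q
    · have hQeq : Q = Ideal.span {hζ.toInteger - 1} := h98_eq_span_of_mem p hζ Q hpQ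
      rw [hQeq]
      have hfin : FiniteMultiplicity (hζ.toInteger - 1) α :=
        FiniteMultiplicity.of_not_isUnit hπ.not_isUnit hα
      obtain ⟨c, hc, hndvd⟩ := hfin.exists_eq_pow_mul_and_not_dvd
      rw [Ideal.count_associates_eq hπ hndvd hc]
      exact h98_dvd_multiplicity_of_loc _ α hπ hα p hp.out.pos loc
    · exact sing ⟨Q, hQ, hQ0⟩ hpQ
  obtain ⟨b, hb⟩ := Associates.is_pow_of_dvd_count ha key
  obtain ⟨B, rfl⟩ := Associates.mk_surjective b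
  refine ⟨B, ?_⟩
  rw [← Associates.mk_pow] at hb
  exact associated_iff_eq.mp (Associates.mk_eq_mk_iff_associated.mp hb)

/-- Elements not divisible by `ζ - 1` are coprime to it. -/
theorem h98_isCoprime_zeta_sub_one (b : 𝓞 K) (hb : ¬ hζ.toInteger - 1 ∣ b) :
    IsCoprime (hζ.toInteger - 1) b :=
  IsCoprime.of_isCoprime_of_dvd_left
    (IsCyclotomicExtension.Rat.isCoprime_of_not_zeta_sub_one_dvd p hζ hb)
    hζ.toInteger_sub_one_dvd_prime'

omit hp hK in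
/-- (ii-a) If `α = ε * β ^ p` is an `ω²`-eigen element modulo `p`-th powers, so is `ε`. -/
theorem h98_unit_eig (α : 𝓞 K) (ε : (𝓞 K)ˣ) (β : 𝓞 K) (hβ : β ≠ 0)
    (hαε : α = (ε : 𝓞 K) * β ^ p)
    (eig : ∀ (σ : K ≃ₐ[ℚ] K) (m : ℕ), σ ζ = ζ ^ m →
      ∃ γ : K, σ (α : K) = (α : K) ^ (m ^ 2) * γ ^ p) :
    ∀ (σ : K ≃ₐ[ℚ] K) (a : ℕ), σ ζ = ζ ^ a →
      ∃ x : K, σ (((ε : 𝓞 K) : K)) = (((ε : 𝓞 K) : K)) ^ (a ^ 2) * x ^ p := by
  intro σ a hσ
  obtain ⟨γ, hγ⟩ := eig σ a hσ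
  have hβK : (β : K) ≠ 0 := by
    intro h
    exact hβ (RingOfIntegers.coe_injective (by simpa using h))
  have hσβ : σ (β : K) ≠ 0 := by
    intro h
    exact hβK ((map_eq_zero_iff σ σ.injective).mp h)
  have hαK : (α : K) = ((ε : 𝓞 K) : K) * (β : K) ^ p := by
    rw [hαε]
    push_cast
    rfl
  refine ⟨(β : K) ^ (a ^ 2) * γ / σ (β : K), ?_⟩
  rw [hαK, map_mul, map_pow] at hγ
  rw [div_pow, mul_pow, ← mul_div_assoc, eq_div_iff (pow_ne_zero _ hσβ), hγ]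
  ring

/-- (ii-b) If `α = ε * β ^ p` is a `p`-th power modulo every power of `ζ - 1`, so is `ε`. -/
theorem h98_unit_loc (α : 𝓞 K) (ε : (𝓞 K)ˣ) (β : 𝓞 K) (hβ : β ≠ 0)
    (hαε : α = (ε : 𝓞 K) * β ^ p)
    (loc : ∀ M : ℕ, ∃ x : 𝓞 K, (hζ.toInteger - 1) ^ M ∣ α - x ^ p) (N : ℕ) :
    ∃ x : 𝓞 K, (hζ.toInteger - 1) ^ N ∣ (ε : 𝓞 K) - x ^ p := by
  refine h98_unit_loc_aux (hζ.toInteger - 1) hζ.zeta_sub_one_prime'
    (h98_isCoprime_zeta_sub_one p hζ) p hp.out.pos (ε : 𝓞 K) β hβ ?_ N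
  intro M
  obtain ⟨x, hx⟩ := loc M
  exact ⟨x, by rwa [hαε] at hx⟩

/-- (iv, conditional form) The wrapper: `sing + loc + eig ⟹ α ∈ K ^ p`, given the class-group
step `HC` (module C) and the unit step `HU` (module U) as hypotheses. -/
theorem h98_core_of (α : 𝓞 K) (hα : α ≠ 0)
    (eig : ∀ (σ : K ≃ₐ[ℚ] K) (m : ℕ), σ ζ = ζ ^ m →
      ∃ γ : K, σ (α : K) = (α : K) ^ (m ^ 2) * γ ^ p)
    (sing : ∀ v : HeightOneSpectrum (𝓞 K), (p : 𝓞 K) ∉ v.asIdeal →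
      p ∣ (Associates.mk v.asIdeal).count (Associates.mk (Ideal.span {α})).factors)
    (loc : ∀ M : ℕ, ∃ x : 𝓞 K, (hζ.toInteger - 1) ^ M ∣ α - x ^ p)
    (HC : (∃ 𝔞 : Ideal (𝓞 K), Ideal.span {α} = 𝔞 ^ p) →
      ∃ (ε : (𝓞 K)ˣ) (β : 𝓞 K), β ≠ 0 ∧ α = (ε : 𝓞 K) * β ^ p)
    (HU : ∀ ε : (𝓞 K)ˣ,
      (∀ (σ : K ≃ₐ[ℚ] K) (a : ℕ), σ ζ = ζ ^ a →
        ∃ x : K, σ (((ε : 𝓞 K) : K)) = (((ε : 𝓞 K) : K)) ^ (a ^ 2) * x ^ p) →
      (∃ x : 𝓞 K, (hζ.toInteger - 1) ^ 3 ∣ ((ε : 𝓞 K) - x ^ p)) →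
      ∃ η : (𝓞 K)ˣ, ε = η ^ p) :
    ∃ β : K, (α : K) = β ^ p := by
  obtain ⟨ε, β, hβ, hαε⟩ := HC (h98_span_eq_pow p hζ α hα sing loc)
  obtain ⟨η, hη⟩ := HU ε (h98_unit_eig p α ε β hβ hαε eig) (h98_unit_loc p hζ α ε β hβ hαε loc 3)
  refine ⟨((η : 𝓞 K) : K) * (β : K), ?_⟩
  rw [hαε, hη]
  push_cast
  ring

end Cyclotomic

end Fermat.Agent.S14
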