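import Mathlib
import Fermat.Prelude.Def_FLTPrelim_Ramification
import Fermat.Agent.S13.GlobalDec
import Fermat.Agent.S13.GlobalOver
import Fermat.Agent.S14.BridgeRamFin
import Fermat.Agent.S14.Core

/-!
S14, module B3 (ramification translation), helper86.

Setting: `K0 ⊆ ℚ̄` a number field containing a primitive `p`-th root of unity `ζ`,
`α ∈ 𝓞 K0`, `θ ∈ ℚ̄` with `θ ^ p = α`.  The Kummer field `F = K0(θ)` (splitting field of
`X ^ p - α` inside `ℚ̄`) is Galois over `K0`, and an automorphism of `F / K0` fixing `θ` is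
trivial.  Using the lifting lemmas of `S13/GlobalDec.lean` (helper27):

* `bridge_sing` : if the inertia groups of all valuation subrings of `ℚ̄` over primes `ℓ ≠ p`
  fix `θ`, then every prime of `K0` not above `p` divides `(α)` to a multiple of `p`;
* `bridge_loc` : if, for the valuation subrings over `p`, the elements of the decomposition
  group fixing `ζ` fix `θ` (and `K0 = ℚ(ζ)`), then `α` is a `p`-th power modulo every power of
  `ζ - 1`.
-/

set_option autoImplicit false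
open scoped Pointwise NumberField
open NumberField IsDedekindDomain Polynomial

namespace Fermat.Agent.S14

local notation "Qb" => AlgebraicClosure ℚ
local notation "OQb" => integralClosure ℤ (AlgebraicClosure ℚ)
local notation "GQ" => AlgebraicClosure ℚ ≃ₐ[ℚ] AlgebraicClosure ℚ

attribute [local instance] Fermat.Agent.S54.h96_isAlgClosure_rat
  Fermat.Agent.S54.h96_galActionInt Fermat.Agent.S54.h96_galActionInt_smulCommClass

open Fermat.Agent.S13

section Iota

variable (F : Type*) [Field F] [NumberField F] [Algebra F Qb]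

/-- The integers of a number field embedded in `ℚ̄`, as algebraic integers. -/
noncomputable def h86b_iota : 𝓞 F →+* OQb where
  toFun x := ⟨algebraMap F Qb (x : F),
    map_isIntegral_int (algebraMap F Qb) (RingOfIntegers.isIntegral_coe x)⟩
  map_one' := Subtype.ext (by simp)
  map_mul' x y := Subtype.ext (by simp)
  map_zero' := Subtype.ext (by simp)
  map_add' x y := Subtype.ext (by simp)

theorem h86b_iota_coe (x : 𝓞 F) : ((h86b_iota F x : OQb) : Qb) = algebraMap F Qb (x : F) := rfl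

theorem h86b_iota_injective : Function.Injective (h86b_iota F) := by
  intro x y h
  have h1 := congrArg (fun z : OQb => (z : Qb)) h
  simp only [h86b_iota_coe] at h1
  exact RingOfIntegers.ext ((algebraMap F Qb).injective h1)

end Iota

section Field

variable (p : ℕ) (K₀ : IntermediateField ℚ Qb) (a : K₀)

/-- The Kummer field `K₀(a^{1/p})` inside `ℚ̄`, as the splitting field of `X ^ p - a`. -/
noncomputable def h86b_F : IntermediateField K₀ Qb :=
  IntermediateField.adjoin K₀ ((X ^ p - C a : K₀[X]).rootSet Qb)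

instance h86b_F_isSplittingField : (X ^ p - C a : K₀[X]).IsSplittingField K₀ (h86b_F p K₀ a) :=
  IntermediateField.adjoin_rootSet_isSplittingField (IsAlgClosed.splits _)

instance h86b_F_normal : Normal K₀ (h86b_F p K₀ a) :=
  Normal.of_isSplittingField (X ^ p - C a : K₀[X])

instance h86b_F_isGalois : IsGalois K₀ (h86b_F p K₀ a) := ⟨⟩

instance h86b_F_finite : FiniteDimensional K₀ (h86b_F p K₀ a) :=
  Polynomial.IsSplittingField.finiteDimensional _ (X ^ p - C a : K₀[X])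

instance h86b_F_numberField [NumberField K₀] : NumberField (h86b_F p K₀ a) where
  to_charZero := inferInstance
  to_finiteDimensional := by
    have : FiniteDimensional ℚ K₀ := inferInstance
    exact Module.Finite.trans K₀ (h86b_F p K₀ a)

variable {p K₀ a}

theorem h86b_mem_F (hp : 0 < p) {θ : Qb} (hθ : θ ^ p = (a : Qb)) : θ ∈ h86b_F p K₀ a := by
  apply IntermediateField.subset_adjoin
  rw [Polynomial.mem_rootSet]
  refine ⟨X_pow_sub_C_ne_zero hp a, ?_⟩
  simp only [map_sub, map_pow, aeval_X, aeval_C]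
  rw [hθ, sub_eq_zero]
  rfl

/-- An automorphism of the Kummer field over `K₀` fixing one `p`-th root is trivial. -/
theorem h86b_eq_one_of_fix [NeZero p] {ζ : K₀} (hζ : IsPrimitiveRoot ζ p) {θ : Qb}
    (hθ : θ ^ p = (a : Qb)) (hθF : θ ∈ h86b_F p K₀ a)
    (τ : h86b_F p K₀ a ≃ₐ[K₀] h86b_F p K₀ a)
    (hτ : ((τ ⟨θ, hθF⟩ : h86b_F p K₀ a) : Qb) = θ) : τ = 1 := by
  have hp : 0 < p := Nat.pos_of_ne_zero (NeZero.ne p)
  have htop := Polynomial.IsSplittingField.adjoin_rootSet (h86b_F p K₀ a) (X ^ p - C a : K₀[X])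
  have key : (τ : h86b_F p K₀ a →ₐ[K₀] h86b_F p K₀ a) = AlgHom.id K₀ (h86b_F p K₀ a) := by
    apply AlgHom.ext_of_adjoin_eq_top htop
    intro x hx
    rw [Polynomial.mem_rootSet] at hx
    have hx2 : x ^ p = algebraMap K₀ (h86b_F p K₀ a) a := by
      have := hx.2
      simp only [map_sub, map_pow, aeval_X, aeval_C, sub_eq_zero] at this
      exact this
    have hxQ : (x : Qb) ^ p = θ ^ p := by
      rw [hθ]
      have := congrArg (fun z : h86b_F p K₀ a => (z : Qb)) hx2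
      simpa using this
    show τ x = x
    by_cases hθ0 : θ = 0
    · have hx0 : (x : Qb) = 0 := by
        rw [hθ0, zero_pow hp.ne'] at hxQ
        exact pow_eq_zero_iff hp.ne' |>.mp hxQ
      have : x = 0 := Subtype.ext hx0
      rw [this, map_zero]
    · have h1 : ((x : Qb) / θ) ^ p = 1 := by
        rw [div_pow, hxQ, div_self (pow_ne_zero p hθ0)]
      have hζQ : IsPrimitiveRoot ((ζ : K₀) : Qb) p :=
        hζ.map_of_injective (algebraMap K₀ Qb).injective
      obtain ⟨i, -, hi⟩ := hζQ.eq_pow_of_pow_eq_one h1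
      have hxeq : x = algebraMap K₀ (h86b_F p K₀ a) (ζ ^ i) * ⟨θ, hθF⟩ := by
        apply Subtype.ext
        show (x : Qb) = ((ζ ^ i : K₀) : Qb) * θ
        rw [eq_div_iff hθ0] at hi
        rw [← hi]
        push_cast
        rfl
      rw [hxeq, map_mul, AlgEquiv.commutes]
      congr 1
      exact Subtype.ext hτ
  ext x
  have := congrArg (fun f : h86b_F p K₀ a →ₐ[K₀] h86b_F p K₀ a => f x) key
  simpa using this

/-- Lift of an automorphism of the Kummer field to `Gal(ℚ̄/ℚ)`. -/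
noncomputable def h86b_lift (τ : h86b_F p K₀ a ≃ₐ[K₀] h86b_F p K₀ a) : GQ :=
  haveI : Normal K₀ Qb := Normal.tower_top_of_normal ℚ K₀ Qb
  (τ.liftNormal Qb).restrictScalars ℚ

theorem h86b_lift_apply (τ : h86b_F p K₀ a ≃ₐ[K₀] h86b_F p K₀ a) (x : h86b_F p K₀ a) :
    h86b_lift τ (x : Qb) = ((τ x : h86b_F p K₀ a) : Qb) := by
  have : Normal K₀ Qb := Normal.tower_top_of_normal ℚ K₀ Qb
  exact τ.liftNormal_commutes Qb x

theorem h86b_lift_apply_base (τ : h86b_F p K₀ a ≃ₐ[K₀] h86b_F p K₀ a) (k : K₀) :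
    h86b_lift τ (k : Qb) = (k : Qb) := by
  have : Normal K₀ Qb := Normal.tower_top_of_normal ℚ K₀ Qb
  exact (τ.liftNormal Qb).commutes k

theorem h86b_lift_mem_iff (τ : h86b_F p K₀ a ≃ₐ[K₀] h86b_F p K₀ a) (x : Qb) :
    h86b_lift τ x ∈ (h86b_F p K₀ a).restrictScalars ℚ ↔ x ∈ (h86b_F p K₀ a).restrictScalars ℚ := by
  constructor
  · intro h
    have h1 : h86b_lift τ ((τ.symm ⟨h86b_lift τ x, h⟩ : h86b_F p K₀ a) : Qb) = h86b_lift τ x := by
      rw [h86b_lift_apply, AlgEquiv.apply_symm_apply]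
    have h2 := (h86b_lift τ).injective h1
    rw [← h2]
    exact (τ.symm ⟨h86b_lift τ x, h⟩).2
  · intro h
    have := h86b_lift_apply τ ⟨x, h⟩
    simp only at this
    rw [this]
    exact (τ ⟨x, h⟩).2

end Field

section Main

variable {p : ℕ} {K₀ : IntermediateField ℚ Qb} [NumberField K₀] {a : K₀}

omit [NumberField K₀] in
/-- Integral elements of the Kummer field come from its ring of integers. -/
theorem h86b_exists_int (x : Qb) (hx : x ∈ h86b_F p K₀ a) (hint : IsIntegral ℤ x) :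
    ∃ x' : 𝓞 (h86b_F p K₀ a), ((x' : h86b_F p K₀ a) : Qb) = x := by
  have hint' : IsIntegral ℤ (⟨x, hx⟩ : h86b_F p K₀ a) := by
    rw [← isIntegral_algebraMap_iff (FaithfulSMul.algebraMap_injective (h86b_F p K₀ a) Qb)]
    exact hint
  exact ⟨⟨⟨x, hx⟩, hint'⟩, rfl⟩

variable (p K₀ a) in
/-- The prime of the Kummer field cut out by a valuation subring of `ℚ̄`. -/
noncomputable def h86b_P (A : ValuationSubring Qb) : Ideal (𝓞 (h86b_F p K₀ a)) :=
  (glob_prime A).comap (h86b_iota (h86b_F p K₀ a))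

instance h86b_P_isPrime (A : ValuationSubring Qb) : (h86b_P p K₀ a A).IsPrime :=
  Ideal.comap_isPrime _ _

theorem h86b_mem_P_iff (A : ValuationSubring Qb) (x : 𝓞 (h86b_F p K₀ a)) :
    x ∈ h86b_P p K₀ a A ↔ ((x : h86b_F p K₀ a) : Qb) ∈ A.nonunits := by
  rw [h86b_P, Ideal.mem_comap, glob_mem_prime_iff]
  rfl

theorem h86b_P_ne_bot (A : ValuationSubring Qb) (ℓ : ℕ) (hℓ : ℓ.Prime) (hA : A.LiesOverPrime ℓ) :
    h86b_P p K₀ a A ≠ ⊥ := by
  intro h
  have h1 : (ℓ : 𝓞 (h86b_F p K₀ a)) ∈ h86b_P p K₀ a A := by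
    rw [h86b_mem_P_iff]
    have : (((ℓ : 𝓞 (h86b_F p K₀ a)) : h86b_F p K₀ a) : Qb) = (ℓ : Qb) := by simp
    rw [this]
    exact hA
  rw [h, Ideal.mem_bot] at h1
  exact hℓ.ne_zero (by exact_mod_cast h1)

theorem h86b_P_under (A : ValuationSubring Qb) :
    (h86b_P p K₀ a A).under (𝓞 K₀) = (glob_prime A).comap (h86b_iota K₀) := by
  ext x
  rw [Ideal.under_def, Ideal.mem_comap, h86b_mem_P_iff, Ideal.mem_comap, glob_mem_prime_iff]
  rfl

/-- **Inertia is trivial** in the Kummer field when the inertia group of `A` fixes `θ`. -/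
theorem h86b_inertia_trivial [NeZero p] {ζ : K₀} (hζ : IsPrimitiveRoot ζ p) {θ : Qb}
    (hθ : θ ^ p = (a : Qb)) (A : ValuationSubring Qb) (ℓ : ℕ) (hℓ : ℓ.Prime)
    (hA : A.LiesOverPrime ℓ) (hunr : ∀ σ ∈ A.inertiaSubgroupIn ℚ, σ θ = θ)
    (τ : h86b_F p K₀ a ≃ₐ[K₀] h86b_F p K₀ a)
    (hτ : ∀ x : 𝓞 (h86b_F p K₀ a), τ • x - x ∈ h86b_P p K₀ a A) : τ = 1 := by
  have hp : 0 < p := Nat.pos_of_ne_zero (NeZero.ne p)
  have hθF : θ ∈ h86b_F p K₀ a := h86b_mem_F hp hθ
  obtain ⟨h, hh, hmem⟩ := glob_exists_inertia_lift_field ((h86b_F p K₀ a).restrictScalars ℚ)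
    A ℓ hℓ hA (h86b_lift τ) (h86b_lift_mem_iff τ) (by
      intro x hx hint
      obtain ⟨x', rfl⟩ := h86b_exists_int x hx hint
      rw [h86b_lift_apply]
      have := (h86b_mem_P_iff A _).mp (hτ x')
      exact this)
  have h1 := hunr _ hmem
  have h2 : h86b_lift τ θ = ((τ ⟨θ, hθF⟩ : h86b_F p K₀ a) : Qb) := h86b_lift_apply τ ⟨θ, hθF⟩
  have h3 : h (h86b_lift τ θ) = h86b_lift τ θ := by
    rw [h2]
    exact (IntermediateField.mem_fixingSubgroup_iff _ h).mp hh _ (τ ⟨θ, hθF⟩).2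
  have h4 : h86b_lift τ θ = θ := by
    rw [← h3]
    exact h1
  exact h86b_eq_one_of_fix hζ hθ hθF τ (by rw [← h2, h4])

/-- **The decomposition group is trivial** in the Kummer field when the elements of the
decomposition group of `A` fixing `ζ` fix `θ`. -/
theorem h86b_decomp_trivial [NeZero p] {ζ : K₀} (hζ : IsPrimitiveRoot ζ p) {θ : Qb}
    (hθ : θ ^ p = (a : Qb)) (A : ValuationSubring Qb) (ℓ : ℕ) (hℓ : ℓ.Prime)
    (hA : A.LiesOverPrime ℓ)
    (hsplit : ∀ σ ∈ A.decompositionSubgroup ℚ, σ ((ζ : K₀) : Qb) = ζ → σ θ = θ)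
    (τ : h86b_F p K₀ a ≃ₐ[K₀] h86b_F p K₀ a)
    (hτ : τ • h86b_P p K₀ a A = h86b_P p K₀ a A) : τ = 1 := by
  have hp : 0 < p := Nat.pos_of_ne_zero (NeZero.ne p)
  have hθF : θ ∈ h86b_F p K₀ a := h86b_mem_F hp hθ
  obtain ⟨h, hh, hmem⟩ := glob_exists_decomposition_lift_field
    ((h86b_F p K₀ a).restrictScalars ℚ) A ℓ hℓ hA (h86b_lift τ) (h86b_lift_mem_iff τ) (by
      intro x hx hint
      obtain ⟨x', rfl⟩ := h86b_exists_int x hx hint
      rw [h86b_lift_apply]
      have e1 : ((τ (x' : h86b_F p K₀ a) : h86b_F p K₀ a) : Qb) ∈ A.nonunits ↔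
          τ • x' ∈ h86b_P p K₀ a A := (h86b_mem_P_iff A (τ • x')).symm
      rw [e1, ← h86b_mem_P_iff]
      conv_lhs => rw [← hτ]
      exact Ideal.smul_mem_pointwise_smul_iff)
  have hfix : ∀ y : h86b_F p K₀ a, h (y : Qb) = (y : Qb) := fun y =>
    (IntermediateField.mem_fixingSubgroup_iff _ h).mp hh _ y.2
  have hζ' : (h * h86b_lift τ) ((ζ : K₀) : Qb) = ζ := by
    show h (h86b_lift τ ((ζ : K₀) : Qb)) = ζ
    rw [h86b_lift_apply_base]
    exact hfix (algebraMap K₀ (h86b_F p K₀ a) ζ)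
  have h1 := hsplit _ hmem hζ'
  have h2 : h86b_lift τ θ = ((τ ⟨θ, hθF⟩ : h86b_F p K₀ a) : Qb) := h86b_lift_apply τ ⟨θ, hθF⟩
  have h3 : h (h86b_lift τ θ) = h86b_lift τ θ := by
    rw [h2]
    exact hfix _
  have h4 : h86b_lift τ θ = θ := by
    rw [← h3]
    exact h1
  exact h86b_eq_one_of_fix hζ hθ hθF τ (by rw [← h2, h4])

end Main

section Export

/-- Every nonzero prime of `𝓞 K₀` is the centre of a valuation subring of `ℚ̄`
(helper27's `exists_valuationSubring_over`, restated for `h86b_iota`). -/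
theorem h86b_exists_over (K₀ : IntermediateField ℚ Qb) [NumberField K₀] (v : Ideal (𝓞 K₀))
    [v.IsPrime] (hv : v ≠ ⊥) :
    ∃ A : ValuationSubring Qb, (glob_prime A).comap (h86b_iota K₀) = v := by
  obtain ⟨A, hA⟩ := exists_valuationSubring_over K₀ v hv
  refine ⟨A, ?_⟩
  have : h86b_iota K₀ = glob_iota K₀ := by
    ext x
    rfl
  rw [this]
  exact hA

/-- A nonzero prime of a ring of characteristic zero integers contains a rational prime. -/
theorem h86b_exists_prime_mem {R : Type*} [CommRing R] (v : Ideal R) [v.IsPrime] (n : ℕ)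
    (hn : n ≠ 0) (hnv : (n : R) ∈ v) : ∃ ℓ : ℕ, ℓ.Prime ∧ (ℓ : R) ∈ v := by
  induction n using Nat.strong_induction_on with
  | _ n ih =>
    by_cases h1 : n = 1
    · subst h1
      exact absurd (by simpa using hnv) (Ideal.IsPrime.one_notMem inferInstance)
    · obtain ⟨ℓ, hℓ, m, rfl⟩ := Nat.exists_prime_and_dvd h1
      rw [Nat.cast_mul] at hnv
      rcases Ideal.IsPrime.mem_or_mem inferInstance hnv with h | h
      · exact ⟨ℓ, hℓ, h⟩
      · have hm0 : m ≠ 0 := by rintro rfl; simp at hn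
        exact ih m (by nlinarith [hℓ.two_le, Nat.pos_of_ne_zero hm0]) hm0 h

/-- **B3, singular part.**  If the inertia groups at all primes `ℓ ≠ p` fix `θ`, where
`θ ^ p = α ∈ 𝓞 K₀` and `K₀ ∋ ζ_p`, then every prime of `K₀` not above `p` divides `(α)` to a
multiple of `p`. -/
theorem bridge_sing (p : ℕ) [Fact p.Prime] (K0 : IntermediateField ℚ Qb) [NumberField K0]
    (ζ : K0) (hζ : IsPrimitiveRoot ζ p) (α : 𝓞 K0) (hα : α ≠ 0) (θ : Qb)
    (hθ : θ ^ p = ((α : K0) : Qb))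
    (hunr : ∀ ℓ : ℕ, ℓ.Prime → ℓ ≠ p → ∀ A : ValuationSubring Qb, A.LiesOverPrime ℓ →
      ∀ σ ∈ A.inertiaSubgroupIn ℚ, σ θ = θ)
    (v : HeightOneSpectrum (𝓞 K0)) (hv : (p : 𝓞 K0) ∉ v.asIdeal) :
    p ∣ (Associates.mk v.asIdeal).count (Associates.mk (Ideal.span {α})).factors := by
  have hp : p.Prime := Fact.out
  have : NeZero p := ⟨hp.ne_zero⟩
  obtain ⟨A, hAv⟩ := h86b_exists_over K0 v.asIdeal v.ne_bot
  -- the rational prime below `v`
  have hn0 : Ideal.absNorm v.asIdeal ≠ 0 := by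
    rw [Ne, Ideal.absNorm_eq_zero_iff]; exact v.ne_bot
  obtain ⟨ℓ, hℓ, hℓv⟩ := h86b_exists_prime_mem v.asIdeal _ hn0 (Ideal.absNorm_mem v.asIdeal)
  have hℓp : ℓ ≠ p := by rintro rfl; exact hv hℓv
  have hA : A.LiesOverPrime ℓ := by
    have h1 : (ℓ : 𝓞 K0) ∈ (glob_prime A).comap (h86b_iota K0) := by rw [hAv]; exact hℓv
    rw [Ideal.mem_comap, glob_mem_prime_iff] at h1
    have h2 : ((h86b_iota K0 (ℓ : 𝓞 K0) : OQb) : Qb) = (ℓ : Qb) := by
      rw [h86b_iota_coe]; simp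
    rw [h2] at h1
    exact h1
  -- the prime of the Kummer field
  set P := h86b_P p K0 (α : K0) A with hPdef
  have hP : P ≠ ⊥ := h86b_P_ne_bot A ℓ hℓ hA
  have hunder : P.under (𝓞 K0) = v.asIdeal := by rw [hPdef, h86b_P_under, hAv]
  have he : P.ramificationIdx (𝓞 K0) = 1 :=
    h86b_ramificationIdx_eq_one P hP fun τ hτ =>
      h86b_inertia_trivial hζ hθ A ℓ hℓ hA (hunr ℓ hℓ hℓp A hA) τ hτ
  -- `θ` as an integer of the Kummer field
  have hθF : θ ∈ h86b_F p K0 (α : K0) := h86b_mem_F hp.pos hθ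
  have hθint : IsIntegral ℤ θ := by
    apply IsIntegral.of_pow hp.pos
    rw [hθ]
    exact map_isIntegral_int (algebraMap K0 Qb) (RingOfIntegers.isIntegral_coe α)
  obtain ⟨θ', hθ'⟩ := h86b_exists_int θ hθF hθint
  have hθp : θ' ^ p = algebraMap (𝓞 K0) (𝓞 (h86b_F p K0 (α : K0))) α := by
    apply RingOfIntegers.ext
    apply Subtype.ext
    show ((((θ' ^ p : 𝓞 (h86b_F p K0 (α : K0))) : h86b_F p K0 (α : K0))) : Qb) = ((α : K0) : Qb)
    rw [← hθ, ← hθ']
    simp
  obtain ⟨k, hk⟩ := h86b_emultiplicity_of_pow p hp.ne_zero P hP he α hα θ' hθp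
  rw [hunder] at hk
  have hI : Ideal.span {α} ≠ (0 : Ideal (𝓞 K0)) := by
    rwa [Ne, Ideal.zero_eq_bot, Ideal.span_singleton_eq_bot]
  rw [Ideal.count_associates_factors_eq hI v.isPrime v.ne_bot]
  have hirr : Irreducible v.asIdeal := v.irreducible
  have h2 := UniqueFactorizationMonoid.emultiplicity_eq_count_normalizedFactors hirr hI
  rw [normalize_eq, hk] at h2
  refine ⟨k, ?_⟩
  exact_mod_cast h2.symm

/-- **B3, local part at `p`.**  If, for the places of `ℚ̄` above `p`, the elements of the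
decomposition group fixing `ζ_p` fix `θ` (where `θ ^ p = α ∈ 𝓞 ℚ(ζ_p)`), then `α` is a `p`-th
power modulo every power of `ζ_p - 1`. -/
theorem bridge_loc (p : ℕ) [Fact p.Prime] (K0 : IntermediateField ℚ Qb) [NumberField K0]
    [IsCyclotomicExtension {p} ℚ K0] (ζ : K0) (hζ : IsPrimitiveRoot ζ p) (α : 𝓞 K0) (θ : Qb)
    (hθ : θ ^ p = ((α : K0) : Qb))
    (hsplit : ∀ A : ValuationSubring Qb, A.LiesOverPrime p →
      ∀ σ ∈ A.decompositionSubgroup ℚ, σ ((ζ : K0) : Qb) = ζ → σ θ = θ) (M : ℕ) :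
    ∃ x : 𝓞 K0, (hζ.toInteger - 1) ^ M ∣ α - x ^ p := by
  have hp : p.Prime := Fact.out
  have : NeZero p := ⟨hp.ne_zero⟩
  obtain ⟨A, -, hA, -⟩ := Fermat.Agent.S54.exists_isFrobeniusAt p hp
  set P := h86b_P p K0 (α : K0) A with hPdef
  have hP : P ≠ ⊥ := h86b_P_ne_bot A p hp hA
  obtain ⟨he, hf⟩ := h86b_ram_inertia_eq_one P hP fun τ hτ =>
    h86b_decomp_trivial hζ hθ A p hp hA (hsplit A hA) τ hτ
  have hθF : θ ∈ h86b_F p K0 (α : K0) := h86b_mem_F hp.pos hθ
  have hθint : IsIntegral ℤ θ := by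
    apply IsIntegral.of_pow hp.pos
    rw [hθ]
    exact map_isIntegral_int (algebraMap K0 Qb) (RingOfIntegers.isIntegral_coe α)
  obtain ⟨θ', hθ'⟩ := h86b_exists_int θ hθF hθint
  have hθp : θ' ^ p = algebraMap (𝓞 K0) (𝓞 (h86b_F p K0 (α : K0))) α := by
    apply RingOfIntegers.ext
    apply Subtype.ext
    show ((((θ' ^ p : 𝓞 (h86b_F p K0 (α : K0))) : h86b_F p K0 (α : K0))) : Qb) = ((α : K0) : Qb)
    rw [← hθ, ← hθ']
    simp
  obtain ⟨x, hx⟩ := h86b_exists_approx (K := K0) P hP he hf M θ'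
  refine ⟨x, ?_⟩
  have h1 : algebraMap (𝓞 K0) (𝓞 (h86b_F p K0 (α : K0))) (α - x ^ p) ∈ P ^ M := by
    rw [map_sub, map_pow, ← hθp]
    obtain ⟨c, hc⟩ := sub_dvd_pow_sub_pow θ' (algebraMap (𝓞 K0) (𝓞 (h86b_F p K0 (α : K0))) x) p
    rw [hc]
    exact Ideal.mul_mem_right _ _ hx
  have h2 := h86b_mem_pow_under P hP he M (α - x ^ p) h1
  have hpP : (p : 𝓞 K0) ∈ P.under (𝓞 K0) := by
    rw [hPdef, h86b_P_under, Ideal.mem_comap, glob_mem_prime_iff]
    have h3 : ((h86b_iota K0 (p : 𝓞 K0) : OQb) : Qb) = (p : Qb) := by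
      rw [h86b_iota_coe]; simp
    rw [h3]
    exact hA
  rw [h98_eq_span_of_mem p hζ (P.under (𝓞 K0)) hpP, Ideal.span_singleton_pow,
    Ideal.mem_span_singleton] at h2
  exact h2

end Export

end Fermat.Agent.S14
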