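import Mathlib
import Fermat.Agent.S14.Core

/-!
# S14, module CORE, the case `p = 3`

For `K = ℚ(ζ₃)` the ring of integers is a PID and its units are the sixth roots of unity; an
eigen-unit (`σ ε = ε ^ 4 * x ^ 3` for the complex conjugation `σ`) is `±1`, hence a cube.
-/

namespace Fermat.Agent.S14

open NumberField

section Three

variable {K : Type*} [Field K] [NumberField K] [hK : IsCyclotomicExtension {3} ℚ K] {ζ : K}

/-- Every unit of `𝓞 K`, `K = ℚ(ζ₃)`, is a sixth root of unity. -/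
theorem h98_three_unit_pow_six (hζ : IsPrimitiveRoot ζ 3) (ε : (𝓞 K)ˣ) : ε ^ 6 = 1 := by
  have hη3 : (IsPrimitiveRoot.isUnit (hζ.toInteger_isPrimitiveRoot) (by decide)).unit ^ 3
      = (1 : (𝓞 K)ˣ) := by
    ext
    simpa using congrArg (fun x : 𝓞 K => (x : K)) hζ.toInteger_cube_eq_one
  have hmem := IsCyclotomicExtension.Rat.Three.Units.mem hζ ε
  simp only [List.mem_cons, List.not_mem_nil, or_false] at hmem
  rcases hmem with h | h | h | h | h | h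
  · rw [h, one_pow]
  · rw [h]; norm_num
  · rw [h, show (6 : ℕ) = 3 * 2 from rfl, pow_mul, hη3, one_pow]
  · rw [h, show (6 : ℕ) = 3 * 2 from rfl, pow_mul, neg_pow, hη3]; norm_num
  · rw [h, ← pow_mul, show (2 * 6 : ℕ) = 3 * 4 from rfl, pow_mul, hη3, one_pow]
  · rw [h, neg_pow, ← pow_mul, show (2 * 6 : ℕ) = 3 * 4 from rfl, pow_mul, hη3]; norm_num

/-- The complex conjugation of `ℚ(ζ₃)`. -/
theorem h98_three_exists_conj (hζ : IsPrimitiveRoot ζ 3) : ∃ σ : K ≃ₐ[ℚ] K, σ ζ = ζ ^ 2 := by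
  refine ⟨(IsCyclotomicExtension.Rat.galEquivZMod 3 K).symm
    (ZMod.unitOfCoprime 2 (by decide)), ?_⟩
  rw [IsCyclotomicExtension.Rat.galEquivZMod_apply_of_pow_eq 3 K _ hζ.pow_eq_one,
    MulEquiv.apply_symm_apply]
  rfl

/-- (iii) An eigen-unit of `ℚ(ζ₃)` is a cube. -/
theorem h98_three_unit_cube (hζ : IsPrimitiveRoot ζ 3) (ε : (𝓞 K)ˣ)
    (heig : ∀ (σ : K ≃ₐ[ℚ] K) (a : ℕ), σ ζ = ζ ^ a →
      ∃ x : K, σ (((ε : 𝓞 K) : K)) = (((ε : 𝓞 K) : K)) ^ (a ^ 2) * x ^ 3) :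
    ∃ η : (𝓞 K)ˣ, ε = η ^ 3 := by
  obtain ⟨σ, hσ⟩ := h98_three_exists_conj hζ
  obtain ⟨x, hx⟩ := heig σ 2 hσ
  have hζ3 : ζ ^ 3 = 1 := hζ.pow_eq_one
  have h6 : (((ε : 𝓞 K) : K)) ^ 6 = 1 := by
    have := congrArg (fun u : (𝓞 K)ˣ => ((u : 𝓞 K) : K)) (h98_three_unit_pow_six hζ ε)
    simpa using this
  have hε0 : (((ε : 𝓞 K) : K)) ≠ 0 := by
    intro h
    rw [h] at h6
    norm_num at h6
  -- `x` is a root of unity
  have hx18 : x ^ 18 = 1 := by
    have h1 : (σ (((ε : 𝓞 K) : K))) ^ 6 = 1 := by rw [← map_pow, h6, map_one]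
    rw [hx] at h1
    have h2 : ((((ε : 𝓞 K) : K)) ^ 2 ^ 2 * x ^ 3) ^ 6
        = ((((ε : 𝓞 K) : K)) ^ 6) ^ 4 * x ^ 18 := by ring
    rw [h2, h6, one_pow, one_mul] at h1
    exact h1
  have hxfin : IsOfFinOrder x := isOfFinOrder_iff_pow_eq_one.mpr ⟨18, by norm_num, hx18⟩
  have hεfin : IsOfFinOrder (((ε : 𝓞 K) : K)) :=
    isOfFinOrder_iff_pow_eq_one.mpr ⟨6, by norm_num, h6⟩
  obtain ⟨r, -, hr⟩ := hζ.exists_pow_or_neg_mul_pow_of_isOfFinOrder (by decide) hxfin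
  obtain ⟨k, hk3, hk⟩ := hζ.exists_pow_or_neg_mul_pow_of_isOfFinOrder (by decide) hεfin
  have hx3 : x ^ 3 = 1 ∨ x ^ 3 = -1 := by
    rcases hr with h | h
    · left; rw [h, ← pow_mul, mul_comm, pow_mul, hζ3, one_pow]
    · right; rw [h, neg_pow, ← pow_mul, mul_comm r 3, pow_mul, hζ3, one_pow]; norm_num
  -- `ζ ^ (4 * k) = 1`
  have hkey : ζ ^ (4 * k) = 1 := by
    have hσk : σ (ζ ^ k) = ζ ^ (2 * k) := by rw [map_pow, hσ, ← pow_mul]
    have hζk0 : ζ ^ (2 * k) ≠ 0 := pow_ne_zero _ (hζ.ne_zero (by decide))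
    have hsq : (ζ ^ (2 * k)) ^ 2 = 1 := by
      rcases hk with h | h <;> rcases hx3 with h3 | h3
      · rw [h, hσk, h3] at hx
        have h4 : ζ ^ (2 * k) * (ζ ^ (2 * k) - 1) = 0 := by
          have : (ζ ^ k) ^ 2 ^ 2 = ζ ^ (2 * k) * ζ ^ (2 * k) := by ring
          rw [this] at hx
          linear_combination -hx
        rcases mul_eq_zero.mp h4 with h5 | h5
        · exact absurd h5 hζk0
        · rw [sub_eq_zero.mp h5, one_pow]
      · rw [h, hσk, h3] at hx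
        have h4 : ζ ^ (2 * k) * (ζ ^ (2 * k) + 1) = 0 := by
          have : (ζ ^ k) ^ 2 ^ 2 = ζ ^ (2 * k) * ζ ^ (2 * k) := by ring
          rw [this] at hx
          linear_combination hx
        rcases mul_eq_zero.mp h4 with h5 | h5
        · exact absurd h5 hζk0
        · rw [eq_neg_of_add_eq_zero_left h5]; norm_num
      · rw [h, map_neg, hσk, h3] at hx
        have h4 : ζ ^ (2 * k) * (ζ ^ (2 * k) + 1) = 0 := by
          have : (-ζ ^ k) ^ 2 ^ 2 = ζ ^ (2 * k) * ζ ^ (2 * k) := by ring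
          rw [this] at hx
          linear_combination -hx
        rcases mul_eq_zero.mp h4 with h5 | h5
        · exact absurd h5 hζk0
        · rw [eq_neg_of_add_eq_zero_left h5]; norm_num
      · rw [h, map_neg, hσk, h3] at hx
        have h4 : ζ ^ (2 * k) * (ζ ^ (2 * k) - 1) = 0 := by
          have : (-ζ ^ k) ^ 2 ^ 2 = ζ ^ (2 * k) * ζ ^ (2 * k) := by ring
          rw [this] at hx
          linear_combination hx
        rcases mul_eq_zero.mp h4 with h5 | h5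
        · exact absurd h5 hζk0
        · rw [sub_eq_zero.mp h5, one_pow]
    rw [← hsq]; ring
  have hdvd : 3 ∣ 4 * k := hζ.dvd_of_pow_eq_one _ hkey
  have hk0 : k = 0 := by omega
  subst hk0
  rw [pow_zero] at hk
  rcases hk with h | h
  · refine ⟨1, ?_⟩
    ext
    rw [h]; simp
  · refine ⟨-1, ?_⟩
    ext
    rw [h]; norm_num

/-- The case `p = 3` of the core theorem: no class group and no local condition is needed
beyond `span {α} = 𝔞 ^ 3`. -/
theorem h98_core_three (hζ : IsPrimitiveRoot ζ 3) (α : 𝓞 K) (hα : α ≠ 0)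
    (eig : ∀ (σ : K ≃ₐ[ℚ] K) (m : ℕ), σ ζ = ζ ^ m →
      ∃ γ : K, σ (α : K) = (α : K) ^ (m ^ 2) * γ ^ 3)
    (hsing : ∃ 𝔞 : Ideal (𝓞 K), Ideal.span {α} = 𝔞 ^ 3) :
    ∃ β : K, (α : K) = β ^ 3 := by
  have := IsCyclotomicExtension.Rat.three_pid K
  obtain ⟨𝔞, h𝔞⟩ := hsing
  obtain ⟨β, hβ⟩ := (IsPrincipalIdealRing.principal 𝔞).principal
  have hspan : Ideal.span {α} = Ideal.span {β} ^ 3 := by
    rw [h𝔞, hβ]
  obtain ⟨ε, hε⟩ := h98_unit_mul_pow_of_span_eq α β 3 hspan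
  have hβ0 : β ≠ 0 := by
    rintro rfl
    apply hα
    rw [hε]
    simp
  obtain ⟨η, hη⟩ := h98_three_unit_cube hζ ε (h98_unit_eig 3 α ε β hβ0 hε eig)
  refine ⟨((η : 𝓞 K) : K) * (β : K), ?_⟩
  rw [hε, hη]
  push_cast
  ring

end Three

end Fermat.Agent.S14
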