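import Fermat.Agent.S14.UnitsLA

/-!
# S14, module U (core): the `c`-eigenspace of a cyclic Galois action on `E / E^p·μ` is at most
one-dimensional

`K` a number field, `σ` an automorphism whose powers act transitively on the infinite places and
whose order is prime to `p`.  If two units `ε₁, ε₂` satisfy `σ ε = ε ^ c * x ^ p * (torsion)`,
then `ε₁ ^ a * ε₂ ^ b = η ^ p * (torsion)` for integers `a, b` not both divisible by `p`
(`u0_eigen_le_one`, and `u0_eigen_le_one_cyclotomic` for a generator `σ` of the Galois group of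
the `p`-th cyclotomic field).

Route: Dirichlet's unit theorem (Mathlib `fundSystem`, `basisModTorsion`) gives the integral
matrix of `σ` on units modulo torsion; the logarithms at the infinite places intertwine it with
the (transitive, cyclic) permutation of the places, and the abstract linear algebra lemma
`u0_int_dependent` of `UnitsLA.lean` applies.
-/

set_option autoImplicit false
set_option maxSynthPendingDepth 3
set_option backward.isDefEq.respectTransparency.types false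

open NumberField NumberField.Units NumberField.InfinitePlace

namespace Fermat.Agent.S14

section NF

variable (K : Type*) [Field K] [NumberField K]

/-- Exponent vector of a unit with respect to the fundamental system of units. -/
noncomputable def u0Expo (x : (𝓞 K)ˣ) : Fin (rank K) → ℤ :=
  fun i => (basisModTorsion K).repr (Additive.ofMul (QuotientGroup.mk x : (𝓞 K)ˣ ⧸ torsion K)) i

theorem u0Expo_mul (x y : (𝓞 K)ˣ) : u0Expo K (x * y) = u0Expo K x + u0Expo K y := by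
  funext i
  simp [u0Expo, QuotientGroup.mk_mul, ofMul_mul]

theorem u0Expo_one : u0Expo K 1 = 0 := by
  funext i
  simp [u0Expo]

theorem u0Expo_zpow (x : (𝓞 K)ˣ) (z : ℤ) : u0Expo K (x ^ z) = z • u0Expo K x := by
  funext i
  simp [u0Expo, QuotientGroup.mk_zpow, ofMul_zpow]

theorem u0Expo_pow (x : (𝓞 K)ˣ) (n : ℕ) : u0Expo K (x ^ n) = (n : ℤ) • u0Expo K x := by
  rw [← zpow_natCast, u0Expo_zpow]

theorem u0Expo_eq_zero_iff (x : (𝓞 K)ˣ) : u0Expo K x = 0 ↔ x ∈ torsion K := by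
  rw [← QuotientGroup.eq_one_iff, ← ofMul_eq_zero, ← (basisModTorsion K).repr.map_eq_zero_iff]
  constructor
  · intro h
    ext i
    exact congrFun h i
  · intro h
    funext i
    simp [u0Expo, h]

theorem u0Expo_inv (x : (𝓞 K)ˣ) : u0Expo K x⁻¹ = - u0Expo K x := by
  rw [← zpow_neg_one, u0Expo_zpow]
  simp

theorem u0Expo_prod {ι : Type*} (s : Finset ι) (f : ι → (𝓞 K)ˣ) :
    u0Expo K (∏ i ∈ s, f i) = ∑ i ∈ s, u0Expo K (f i) := by
  classical
  induction s using Finset.induction_on with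
  | empty => simp [u0Expo_one]
  | insert a s ha ih => rw [Finset.prod_insert ha, Finset.sum_insert ha, u0Expo_mul, ih]

theorem u0Expo_fundSystem (i : Fin (rank K)) : u0Expo K (fundSystem K i) = Pi.single i 1 := by
  funext j
  simp [u0Expo, fundSystem_mk, Finsupp.single_apply, Pi.single_apply, eq_comm]

/-- Dirichlet decomposition, phrased with `u0Expo`. -/
theorem u0_decomp (x : (𝓞 K)ˣ) :
    ∃ t ∈ torsion K, x = t * ∏ i, fundSystem K i ^ (u0Expo K x i) := by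
  obtain ⟨⟨⟨t, ht⟩, f⟩, h, -⟩ := exist_unique_eq_mul_prod K x
  have h' : x = t * ∏ i, fundSystem K i ^ f i := h
  have hf : f = _ := fun_eq_repr K ht h'
  refine ⟨t, ht, ?_⟩
  have : u0Expo K x = f := by
    funext i
    exact (congrFun hf i).symm
  rw [this]
  exact h'

/-- A homomorphism from the units to an additive group which kills torsion is determined by
its values on the fundamental system. -/
theorem u0_hom_eq {A : Type*} [AddCommGroup A] (f : (𝓞 K)ˣ →* Multiplicative A)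
    (hf : ∀ t ∈ torsion K, f t = 1) (x : (𝓞 K)ˣ) :
    Multiplicative.toAdd (f x) =
      ∑ i, u0Expo K x i • Multiplicative.toAdd (f (fundSystem K i)) := by
  obtain ⟨t, ht, hx⟩ := u0_decomp K x
  conv_lhs => rw [hx]
  rw [map_mul, hf t ht, one_mul, map_prod, toAdd_prod]
  simp [map_zpow, toAdd_zpow]


/-- The action of a field automorphism on the units of the ring of integers. -/
noncomputable def u0Sig (σ : K ≃ₐ[ℚ] K) : (𝓞 K)ˣ →* (𝓞 K)ˣ :=
  Units.map (RingOfIntegers.mapRingHom (σ : K →+* K)).toMonoidHom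

theorem u0Sig_coe (σ : K ≃ₐ[ℚ] K) (x : (𝓞 K)ˣ) :
    ((u0Sig K σ x : (𝓞 K)ˣ) : K) = σ (x : K) := rfl

theorem u0Sig_torsion (σ : K ≃ₐ[ℚ] K) (t : (𝓞 K)ˣ) (ht : t ∈ torsion K) :
    u0Sig K σ t ∈ torsion K := by
  rw [torsion, CommGroup.mem_torsion] at ht ⊢
  exact (u0Sig K σ).isOfFinOrder ht

theorem u0Sig_mul (σ τ : K ≃ₐ[ℚ] K) (x : (𝓞 K)ˣ) :
    u0Sig K (σ * τ) x = u0Sig K σ (u0Sig K τ x) := by
  apply coe_injective K
  rfl

theorem u0Sig_one (x : (𝓞 K)ˣ) : u0Sig K 1 x = x := by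
  apply coe_injective K
  rfl

/-- The matrix of `σ` acting on units modulo torsion, in the fundamental system. -/
noncomputable def u0Mat (σ : K ≃ₐ[ℚ] K) : Matrix (Fin (rank K)) (Fin (rank K)) ℤ :=
  Matrix.of fun i j => u0Expo K (u0Sig K σ (fundSystem K j)) i

/-- The homomorphism `x ↦ u0Expo (σ x)`. -/
noncomputable def u0ExpoSigHom (σ : K ≃ₐ[ℚ] K) :
    (𝓞 K)ˣ →* Multiplicative (Fin (rank K) → ℤ) where
  toFun x := Multiplicative.ofAdd (u0Expo K (u0Sig K σ x))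
  map_one' := by
    rw [map_one, u0Expo_one]
    rfl
  map_mul' x y := by
    rw [map_mul, u0Expo_mul]
    rfl

theorem u0Expo_sig (σ : K ≃ₐ[ℚ] K) (x : (𝓞 K)ˣ) :
    u0Expo K (u0Sig K σ x) = (u0Mat K σ).mulVec (u0Expo K x) := by
  have h := u0_hom_eq K (u0ExpoSigHom K σ) (fun t ht => by
    have h1 := (u0Expo_eq_zero_iff K _).mpr (u0Sig_torsion K σ t ht)
    show Multiplicative.ofAdd (u0Expo K (u0Sig K σ t)) = 1
    rw [h1]
    rfl) x
  have h2 : u0Expo K (u0Sig K σ x) =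
      ∑ i, u0Expo K x i • u0Expo K (u0Sig K σ (fundSystem K i)) := h
  rw [h2]
  funext k
  simp only [Finset.sum_apply, Pi.smul_apply, smul_eq_mul, Matrix.mulVec, dotProduct, u0Mat,
    Matrix.of_apply]
  exact Finset.sum_congr rfl fun i _ => mul_comm _ _

theorem u0Mat_one : u0Mat K 1 = 1 := by
  ext i j
  simp only [u0Mat, Matrix.of_apply, u0Sig_one, u0Expo_fundSystem, Matrix.one_apply,
    Pi.single_apply]

theorem u0Mat_mul (σ τ : K ≃ₐ[ℚ] K) : u0Mat K (σ * τ) = u0Mat K σ * u0Mat K τ := by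
  ext i j
  have h := congrFun (u0Expo_sig K σ (u0Sig K τ (fundSystem K j))) i
  simp only [u0Mat, Matrix.of_apply, u0Sig_mul, Matrix.mul_apply]
  rw [h]
  simp [Matrix.mulVec, dotProduct, u0Mat]

theorem u0Mat_pow (σ : K ≃ₐ[ℚ] K) (n : ℕ) : u0Mat K (σ ^ n) = u0Mat K σ ^ n := by
  induction n with
  | zero => simp [u0Mat_one]
  | succ n ih => rw [pow_succ, pow_succ, u0Mat_mul, ih]

/-- The homomorphism `x ↦ log (w x)`. -/
noncomputable def u0LogHom (w : InfinitePlace K) : (𝓞 K)ˣ →* Multiplicative ℝ where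
  toFun x := Multiplicative.ofAdd (Real.log (w (x : K)))
  map_one' := by
    rw [coe_one, map_one, Real.log_one]
    rfl
  map_mul' x y := by
    rw [coe_mul, map_mul, Real.log_mul (pos_at_place x w).ne' (pos_at_place y w).ne']
    rfl

theorem u0_log_eq (w : InfinitePlace K) (x : (𝓞 K)ˣ) :
    Real.log (w (x : K)) =
      ∑ i, (u0Expo K x i : ℝ) * Real.log (w ((fundSystem K i : (𝓞 K)ˣ) : K)) := by
  have h := u0_hom_eq K (u0LogHom K w) (fun t ht => by
    show Multiplicative.ofAdd (Real.log (w (t : K))) = 1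
    rw [(mem_torsion K).mp ht w, Real.log_one]
    rfl) x
  have h2 : Real.log (w (x : K)) =
      ∑ i, u0Expo K x i • Real.log (w ((fundSystem K i : (𝓞 K)ˣ) : K)) := h
  rw [h2]
  refine Finset.sum_congr rfl fun i _ => ?_
  rw [zsmul_eq_mul]

theorem u0_log_indep :
    LinearIndependent ℝ (fun (j : Fin (rank K)) (w : InfinitePlace K) =>
      Real.log (w ((fundSystem K j : (𝓞 K)ˣ) : K))) := by
  classical
  rw [Fintype.linearIndependent_iff]
  intro g hg j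
  have hb := ((basisUnitLattice K).ofZLatticeBasis ℝ (unitLattice K)).linearIndependent
  rw [Fintype.linearIndependent_iff] at hb
  refine hb g ?_ j
  funext w
  have h1 := congrFun hg w.1
  simp only [Module.Basis.ofZLatticeBasis_apply, ← logEmbedding_fundSystem]
  simp only [Finset.sum_apply, Pi.smul_apply, smul_eq_mul, Pi.zero_apply] at h1 ⊢
  simp only [dirichletUnitTheorem.logEmbedding_component]
  calc _ = (mult w.1 : ℝ) * ∑ j, g j * Real.log (w.1 ((fundSystem K j : (𝓞 K)ˣ) : K)) := by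
        rw [Finset.mul_sum]
        exact Finset.sum_congr rfl fun j _ => by ring
    _ = 0 := by rw [h1, mul_zero]

theorem u0_hequiv (σ : K ≃ₐ[ℚ] K) (j : Fin (rank K)) (w : InfinitePlace K) :
    ∑ i, (u0Mat K σ i j : ℝ) * Real.log (w ((fundSystem K i : (𝓞 K)ˣ) : K)) =
      Real.log ((σ⁻¹ • w) ((fundSystem K j : (𝓞 K)ˣ) : K)) := by
  have h := u0_log_eq K w (u0Sig K σ (fundSystem K j))
  rw [u0Sig_coe] at h
  have h2 : (σ⁻¹ • w) ((fundSystem K j : (𝓞 K)ˣ) : K) = w (σ ((fundSystem K j : (𝓞 K)ˣ) : K)) := by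
    rw [InfinitePlace.smul_apply]
    rfl
  rw [h2, h]
  rfl


omit [NumberField K] in
theorem u0_unit_of_pow (p : ℕ) (hp : 0 < p) (x : K) (η : (𝓞 K)ˣ) (h : x ^ p = (η : K)) :
    ∃ y : (𝓞 K)ˣ, (y : K) = x := by
  have hx : IsIntegral ℤ x := by
    refine IsIntegral.of_pow hp ?_
    rw [h]
    exact RingOfIntegers.isIntegral_coe (η : 𝓞 K)
  have hinv : ((η⁻¹ : (𝓞 K)ˣ) : K) = ((η : (𝓞 K)ˣ) : K)⁻¹ := by
    rw [← zpow_neg_one, coe_zpow, zpow_neg_one]
  have hx' : IsIntegral ℤ x⁻¹ := by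
    refine IsIntegral.of_pow hp ?_
    rw [inv_pow, h, ← hinv]
    exact RingOfIntegers.isIntegral_coe ((η⁻¹ : (𝓞 K)ˣ) : 𝓞 K)
  have hx0 : x ≠ 0 := by
    intro h0
    rw [h0, zero_pow hp.ne'] at h
    exact coe_ne_zero η h.symm
  refine ⟨⟨⟨x, hx⟩, ⟨x⁻¹, hx'⟩, ?_, ?_⟩, rfl⟩
  · apply RingOfIntegers.ext
    show x * x⁻¹ = 1
    exact mul_inv_cancel₀ hx0
  · apply RingOfIntegers.ext
    show x⁻¹ * x = 1
    exact inv_mul_cancel₀ hx0

end NF

/-- **Units core.**  Let `σ` be an automorphism of the number field `K` whose powers act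
transitively on the infinite places, of order prime to `p`.  Two units which are both
eigenvectors of `σ` with the same eigenvalue `c` modulo `p`-th powers and torsion are dependent
modulo `p`-th powers and torsion. -/
theorem u0_eigen_le_one (K : Type*) [Field K] [NumberField K] (σ : K ≃ₐ[ℚ] K)
    (htrans : ∀ w w' : InfinitePlace K, ∃ k : ℕ, σ ^ k • w = w')
    (p : ℕ) [Fact p.Prime] (n : ℕ) (hn : 0 < n) (hσn : σ ^ n = 1) (hpn : ¬ p ∣ n) (c : ℤ)
    (ε₁ ε₂ : (𝓞 K)ˣ)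
    (h₁ : ∃ (x : K) (t : (𝓞 K)ˣ), t ∈ NumberField.Units.torsion K ∧
        σ ((ε₁ : 𝓞 K) : K) = ((ε₁ : 𝓞 K) : K) ^ c * x ^ p * ((t : 𝓞 K) : K))
    (h₂ : ∃ (x : K) (t : (𝓞 K)ˣ), t ∈ NumberField.Units.torsion K ∧
        σ ((ε₂ : 𝓞 K) : K) = ((ε₂ : 𝓞 K) : K) ^ c * x ^ p * ((t : 𝓞 K) : K)) :
    ∃ a b : ℤ, ¬ ((p : ℤ) ∣ a ∧ (p : ℤ) ∣ b) ∧
      ∃ (η t : (𝓞 K)ˣ), t ∈ NumberField.Units.torsion K ∧ ε₁ ^ a * ε₂ ^ b = η ^ p * t := by
  classical
  have hp := (Fact.out : p.Prime)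
  have key : ∀ ε : (𝓞 K)ˣ, (∃ (x : K) (t : (𝓞 K)ˣ), t ∈ torsion K ∧
      σ ((ε : 𝓞 K) : K) = ((ε : 𝓞 K) : K) ^ c * x ^ p * ((t : 𝓞 K) : K)) →
      ∀ i, (p : ℤ) ∣ ((u0Mat K σ).mulVec (u0Expo K ε)) i - c * u0Expo K ε i := by
    rintro ε ⟨x, t, ht, h⟩ i
    have h0 : σ (ε : K) = (ε : K) ^ c * x ^ p * (t : K) := h
    have hε : ((ε : (𝓞 K)ˣ) : K) ≠ 0 := coe_ne_zero ε
    have ht0 : ((t : (𝓞 K)ˣ) : K) ≠ 0 := coe_ne_zero t
    have hxp : x ^ p = ((u0Sig K σ ε * ε ^ (-c) * t⁻¹ : (𝓞 K)ˣ) : K) := by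
      have hinv : ((t⁻¹ : (𝓞 K)ˣ) : K) = ((t : (𝓞 K)ˣ) : K)⁻¹ := by
        rw [← zpow_neg_one, coe_zpow, zpow_neg_one]
      rw [coe_mul, coe_mul, coe_zpow, u0Sig_coe, hinv, h0, zpow_neg]
      have hc : ((ε : (𝓞 K)ˣ) : K) ^ c ≠ 0 := zpow_ne_zero c hε
      field_simp
    obtain ⟨y, hy⟩ := u0_unit_of_pow K p hp.pos x _ hxp
    have h' : u0Sig K σ ε = ε ^ c * y ^ p * t := by
      apply coe_injective K
      show ((u0Sig K σ ε : (𝓞 K)ˣ) : K) = ((ε ^ c * y ^ p * t : (𝓞 K)ˣ) : K)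
      rw [coe_mul, coe_mul, coe_zpow, coe_pow, hy, u0Sig_coe]
      exact h0
    have h3 := congrFun (u0Expo_sig K σ ε) i
    rw [← h3, h', u0Expo_mul, u0Expo_mul, u0Expo_zpow, u0Expo_pow,
      (u0Expo_eq_zero_iff K t).mpr ht]
    simp only [Pi.add_apply, Pi.smul_apply, smul_eq_mul, Pi.zero_apply, add_zero]
    exact ⟨u0Expo K y i, by ring⟩
  have htr : ∀ x y : InfinitePlace K, ∃ k : ℕ, (fun w : InfinitePlace K => σ⁻¹ • w)^[k] x = y := by
    intro x y
    obtain ⟨k, hk⟩ := htrans y x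
    refine ⟨k, ?_⟩
    rw [smul_iterate, ← hk, inv_pow]
    exact inv_smul_smul _ _
  have hMn : u0Mat K σ ^ n = 1 := by rw [← u0Mat_pow, hσn, u0Mat_one]
  obtain ⟨α, β, hαβ, hdiv⟩ := u0_int_dependent (u0Mat K σ) (fun w : InfinitePlace K => σ⁻¹ • w)
    (fun (j : Fin (rank K)) (w : InfinitePlace K) =>
      Real.log (w ((fundSystem K j : (𝓞 K)ˣ) : K)))
    htr (u0_log_indep K) (fun j w => u0_hequiv K σ j w) n hn hMn p hpn c
    (u0Expo K ε₁) (u0Expo K ε₂) (key ε₁ h₁) (key ε₂ h₂)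
  choose v hv using hdiv
  have hη : u0Expo K (∏ i, fundSystem K i ^ v i) = v := by
    rw [u0Expo_prod]
    funext k
    simp [u0Expo_zpow, u0Expo_fundSystem, Pi.single_apply]
  refine ⟨α, β, hαβ, ∏ i, fundSystem K i ^ v i,
    ε₁ ^ α * ε₂ ^ β * ((∏ i, fundSystem K i ^ v i) ^ p)⁻¹, ?_, ?_⟩
  · rw [← u0Expo_eq_zero_iff, u0Expo_mul, u0Expo_mul, u0Expo_zpow, u0Expo_zpow, u0Expo_inv,
      u0Expo_pow, hη]
    funext i
    simp only [Pi.add_apply, Pi.smul_apply, smul_eq_mul, Pi.neg_apply, Pi.zero_apply]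
    rw [hv i]
    ring
  · rw [mul_left_comm, mul_inv_cancel, mul_one]

/-- Cyclotomic form of `u0_eigen_le_one`: `σ` is a generator of the Galois group of the `p`-th
cyclotomic field. -/
theorem u0_eigen_le_one_cyclotomic (p : ℕ) [Fact p.Prime] (K : Type*) [Field K] [NumberField K]
    [IsCyclotomicExtension {p} ℚ K] (σ : K ≃ₐ[ℚ] K)
    (hσ : ∀ τ : K ≃ₐ[ℚ] K, τ ∈ Subgroup.zpowers σ) (c : ℤ)
    (ε₁ ε₂ : (𝓞 K)ˣ)
    (h₁ : ∃ (x : K) (t : (𝓞 K)ˣ), t ∈ NumberField.Units.torsion K ∧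
        σ ((ε₁ : 𝓞 K) : K) = ((ε₁ : 𝓞 K) : K) ^ c * x ^ p * ((t : 𝓞 K) : K))
    (h₂ : ∃ (x : K) (t : (𝓞 K)ˣ), t ∈ NumberField.Units.torsion K ∧
        σ ((ε₂ : 𝓞 K) : K) = ((ε₂ : 𝓞 K) : K) ^ c * x ^ p * ((t : 𝓞 K) : K)) :
    ∃ a b : ℤ, ¬ ((p : ℤ) ∣ a ∧ (p : ℤ) ∣ b) ∧
      ∃ (η t : (𝓞 K)ˣ), t ∈ NumberField.Units.torsion K ∧ ε₁ ^ a * ε₂ ^ b = η ^ p * t := by
  have hp := (Fact.out : p.Prime)
  have : NeZero p := ⟨hp.ne_zero⟩
  have : IsGalois ℚ K := IsCyclotomicExtension.isGalois {p} ℚ K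
  have hfin : IsOfFinOrder σ := isOfFinOrder_of_finite σ
  have htrans : ∀ w w' : InfinitePlace K, ∃ k : ℕ, σ ^ k • w = w' := by
    intro w w'
    obtain ⟨τ, hτ⟩ := InfinitePlace.exists_smul_eq_of_comap_eq (k := ℚ) (w := w) (w' := w')
      (Subsingleton.elim _ _)
    obtain ⟨k, hk⟩ := (Submonoid.mem_powers_iff _ _).mp (hfin.mem_powers_iff_mem_zpowers.mpr (hσ τ))
    exact ⟨k, by rw [hk, hτ]⟩
  refine u0_eigen_le_one K σ htrans p (orderOf σ) hfin.orderOf_pos (pow_orderOf_eq_one σ) ?_ c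
    ε₁ ε₂ h₁ h₂
  intro hdvd
  have h1 : orderOf σ ∣ Nat.card (K ≃ₐ[ℚ] K) := orderOf_dvd_natCard σ
  have h2 : Nat.card (K ≃ₐ[ℚ] K) = Module.finrank ℚ K := IsGalois.card_aut_eq_finrank ℚ K
  have h3 : Module.finrank ℚ K = p - 1 := by
    rw [IsCyclotomicExtension.finrank K (Polynomial.cyclotomic.irreducible_rat hp.pos),
      Nat.totient_prime hp]
  rw [h2, h3] at h1
  have h4 : p ∣ p - 1 := hdvd.trans h1
  have h5 := Nat.le_of_dvd (Nat.sub_pos_of_lt hp.one_lt) h4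
  have h6 := hp.one_lt
  omega

end Fermat.Agent.S14
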