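import Fermat.Agent.S14.UnitsLocal
import Fermat.Agent.S14.UnitsCore

/-!
# S14, units block (helper11): final statement

For `K = ℚ(ζ_p)`, `p ≥ 5`: a unit which is an `ω²`-eigenvector modulo `p`-th powers and a
`p`-th power modulo `(ζ-1)³` is a `p`-th power.  (Combines `u0_eigen_le_one_cyclotomic`
[helper65, `UnitsCore.lean`] with the cyclotomic unit of `UnitsLocal.lean`.)
-/

namespace Fermat.Agent.S14

open NumberField

/-- the Galois group of the `p`-th cyclotomic field is cyclic -/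
theorem h11_exists_gen (p : ℕ) [hp : Fact p.Prime] (K : Type*) [Field K] [NumberField K]
    [IsCyclotomicExtension {p} ℚ K] :
    ∃ σ : K ≃ₐ[ℚ] K, ∀ τ : K ≃ₐ[ℚ] K, τ ∈ Subgroup.zpowers σ := by
  have hNZ : NeZero p := ⟨hp.out.ne_zero⟩
  have e := IsCyclotomicExtension.autEquivPow K (Polynomial.cyclotomic.irreducible_rat hp.out.pos)
  have : IsCyclic (K ≃ₐ[ℚ] K) := isCyclic_of_surjective e.symm e.symm.surjective
  exact IsCyclic.exists_generator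

/-- **Units block of S14.**  Let `K = ℚ(ζ_p)` with `p ≥ 5` and let `ε` be a unit of `𝓞 K` such
that `σ_a ε ≡ ε^(a²)` modulo `p`-th powers for all `a` (an `ω²`-eigenvector) and `ε` is a `p`-th
power modulo `(ζ - 1)³`.  Then `ε` is a `p`-th power of a unit. -/
theorem unit_isPow_of_eigen_of_local (p : ℕ) [Fact p.Prime] (hp5 : 5 ≤ p)
    (K : Type*) [Field K] [NumberField K] [IsCyclotomicExtension {p} ℚ K]
    {ζ : K} (hζ : IsPrimitiveRoot ζ p) (ε : (𝓞 K)ˣ)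
    (heig : ∀ (σ : K ≃ₐ[ℚ] K) (a : ℕ), σ ζ = ζ ^ a →
      ∃ x : K, σ ((ε : 𝓞 K) : K) = ((ε : 𝓞 K) : K) ^ (a ^ 2) * x ^ p)
    (hloc : ∃ x : 𝓞 K, (hζ.toInteger - 1) ^ 3 ∣ ((ε : 𝓞 K) - x ^ p)) :
    ∃ η : (𝓞 K)ˣ, ε = η ^ p := by
  have hp := (Fact.out : p.Prime)
  have hNZ : NeZero p := ⟨hp.ne_zero⟩
  obtain ⟨σ, hσ⟩ := h11_exists_gen p K
  obtain ⟨g, -, hg⟩ := hζ.eq_pow_of_pow_eq_one
    (by rw [← map_pow, hζ.pow_eq_one, map_one] : (σ ζ) ^ p = 1)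
  refine h11_unit_isPow_of_dep p K hζ hp5 ε hloc ?_
  refine u0_eigen_le_one_cyclotomic p K σ hσ ((g ^ 2 : ℕ) : ℤ) ε (cycUnit p K hζ) ?_ ?_
  · obtain ⟨x, hx⟩ := heig σ g hg.symm
    exact ⟨x, 1, one_mem _, by rw [hx, zpow_natCast]; simp⟩
  · obtain ⟨η, hη⟩ := cycUnit_eigen p K hζ hp5 σ g hg.symm
    exact ⟨((η : 𝓞 K) : K), 1, one_mem _, by rw [hη, zpow_natCast]; simp⟩

/-- Variant of `unit_isPow_of_eigen_of_local` with the local hypothesis in the form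
"`ε` is congruent to a rational integer modulo `(ζ - 1)³`". -/
theorem unit_isPow_of_eigen_of_local_int (p : ℕ) [Fact p.Prime] (hp5 : 5 ≤ p)
    (K : Type*) [Field K] [NumberField K] [IsCyclotomicExtension {p} ℚ K]
    {ζ : K} (hζ : IsPrimitiveRoot ζ p) (ε : (𝓞 K)ˣ)
    (heig : ∀ (σ : K ≃ₐ[ℚ] K) (a : ℕ), σ ζ = ζ ^ a →
      ∃ x : K, σ ((ε : 𝓞 K) : K) = ((ε : 𝓞 K) : K) ^ (a ^ 2) * x ^ p)
    (hloc : ∃ n : ℤ, (hζ.toInteger - 1) ^ 3 ∣ ((ε : 𝓞 K) - (n : 𝓞 K))) :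
    ∃ η : (𝓞 K)ˣ, ε = η ^ p := by
  have hp := (Fact.out : p.Prime)
  have hNZ : NeZero p := ⟨hp.ne_zero⟩
  refine unit_isPow_of_eigen_of_local p hp5 K hζ ε heig ?_
  obtain ⟨n, hn⟩ := hloc
  refine ⟨(n : 𝓞 K), ?_⟩
  -- `n ^ p ≡ n` modulo `p`, and `(ζ - 1)^3 ∣ p`
  have h1 : ((p : ℤ) : 𝓞 K) ∣ ((n ^ p - n : ℤ) : 𝓞 K) := by
    have h2 : (p : ℤ) ∣ n ^ p - n := by
      have := (ZMod.intCast_eq_intCast_iff_dvd_sub n (n ^ p) p).1 (by
        push_cast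
        rw [ZMod.pow_card])
      exact this
    exact (Int.cast_dvd_cast _ _ (α := 𝓞 K)) h2
  have h3 : (hζ.toInteger - 1) ^ 3 ∣ ((p : ℤ) : 𝓞 K) := by
    have h4 : (hζ.toInteger - 1) ^ (p - 1) ∣ ((p : ℤ) : 𝓞 K) := by
      have hμ : IsPrimitiveRoot hζ.toInteger ((p - 1) + 1) := by
        rw [Nat.sub_add_cancel hp.one_le]
        exact hζ.toInteger_isPrimitiveRoot
      have h5 := hμ.prod_one_sub_pow_eq_order
      have h6 : (((p - 1 : ℕ) : 𝓞 K)) + 1 = ((p : ℤ) : 𝓞 K) := by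
        rw [← Nat.cast_succ, Nat.succ_eq_add_one, Nat.sub_add_cancel hp.one_le]
        simp
      rw [← h6, ← h5]
      calc (hζ.toInteger - 1) ^ (p - 1)
          = ∏ _k ∈ Finset.range (p - 1), (hζ.toInteger - 1) := by
            rw [Finset.prod_const, Finset.card_range]
        _ ∣ _ := Finset.prod_dvd_prod_of_dvd _ _ (fun k _ => by
            rw [← dvd_neg, neg_sub]
            exact ⟨∑ i ∈ Finset.range (k + 1), hζ.toInteger ^ i, (mul_geom_sum _ _).symm⟩)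
    exact dvd_trans (pow_dvd_pow _ (by omega)) h4
  have e : (ε : 𝓞 K) - (n : 𝓞 K) ^ p
      = ((ε : 𝓞 K) - (n : 𝓞 K)) - ((n ^ p - n : ℤ) : 𝓞 K) := by
    push_cast; ring
  rw [e]
  exact dvd_sub hn (dvd_trans h3 h1)

end Fermat.Agent.S14
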