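import Mathlib

/-!
# S14, analytic part: shared definitions (helper20)

`nrm K s I = N(I)^(-s)`, the prime `primeNZ K v` as a nonzero ideal, the `L`-series `classL K ψ s`
of a class group character (real `s`), and the prime zeta sum `primeSum K S s` over a set of primes.
-/

set_option autoImplicit false

namespace Fermat.Agent.S14

open NumberField IsDedekindDomain
open scoped nonZeroDivisors

variable (K : Type*) [Field K] [NumberField K]

/-- `N(I)^(-s)` for a nonzero ideal `I` and a real exponent `s`. -/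
noncomputable def nrm (s : ℝ) (I : (Ideal (𝓞 K))⁰) : ℝ :=
  (Ideal.absNorm (I : Ideal (𝓞 K)) : ℝ) ^ (-s)

/-- a maximal ideal as a nonzero ideal. -/
noncomputable def primeNZ (v : HeightOneSpectrum (𝓞 K)) : (Ideal (𝓞 K))⁰ :=
  ⟨v.asIdeal, mem_nonZeroDivisors_of_ne_zero v.ne_bot⟩

/-- the `L`-series of a class group character at a real point `s` (meaningful for `1 < s`). -/
noncomputable def classL (ψ : ClassGroup (𝓞 K) →* ℂˣ) (s : ℝ) : ℂ :=
  ∑' I : (Ideal (𝓞 K))⁰, (ψ (ClassGroup.mk0 I) : ℂ) * (nrm K s I : ℂ)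

/-- the prime zeta sum `∑_{v ∈ S} N(v)^(-s)` over a set `S` of primes. -/
noncomputable def primeSum (S : Set (HeightOneSpectrum (𝓞 K))) (s : ℝ) : ℝ :=
  ∑' v : S, nrm K s (primeNZ K v.1)

end Fermat.Agent.S14
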