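import Mathlib
import Fermat.Agent.S14.AnalyticDefs

/-!
# S14, module A3 (wrapper): from ideal counting to bounded class `L`-series (helper92)

Pure Abel summation, independent of how the counting input is proved.

* `h92_summable_nrm` : `∑ N(I)^(-s)` converges for `1 < s`.
* `h92_classL_eq` : `classL K ψ s = ∑_C ψ(C) ζ(s, C)` with the partial zeta function `h92_pz`.
* `classL_bounded_of_partialZeta` : if the partial zeta functions of any two classes differ by
  `O(1)` on `(1, 2]`, then `classL K ψ` is bounded on `(1, 2]` for every `ψ ≠ 1`.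
* `h92_pz_diff_of_count` / `classL_bounded_of_count` : the same conclusion from an ideal count in
  every class with a power-saving error term.
-/

set_option autoImplicit false

namespace Fermat.Agent.S14

open NumberField IsDedekindDomain Filter Topology Asymptotics
open scoped nonZeroDivisors

/-! ### A general fibre-counting lemma -/

section general

variable {ι : Type*} (N : ι → ℕ)

/-- the number of indices with a given value of `N`. -/
noncomputable def h92_cnt (n : ℕ) : ℕ := Nat.card {i // N i = n}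

lemma h92_cnt_zero (h0 : ∀ i, N i ≠ 0) : h92_cnt N 0 = 0 := by
  unfold h92_cnt
  have : IsEmpty {i // N i = 0} := ⟨fun i => h0 i.1 i.2⟩
  exact Nat.card_of_isEmpty

lemma h92_card_le (hfin : ∀ n, Finite {i // N i = n}) (h0 : ∀ i, N i ≠ 0) (n : ℕ) :
    Nat.card {i // N i ≤ n} = ∑ k ∈ Finset.Icc 1 n, h92_cnt N k := by
  classical
  let e : {i // N i ≤ n} ≃ Σ k : Finset.Icc 1 n, {i // N i = k.1} :=
    { toFun := fun i =>
        ⟨⟨N i.1, Finset.mem_Icc.mpr ⟨Nat.one_le_iff_ne_zero.mpr (h0 i.1), i.2⟩⟩, ⟨i.1, rfl⟩⟩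
      invFun := fun p => ⟨p.2.1, by rw [p.2.2]; exact (Finset.mem_Icc.mp p.1.2).2⟩
      left_inv := fun i => rfl
      right_inv := by
        rintro ⟨⟨k, hk⟩, ⟨i, hi⟩⟩
        obtain rfl : N i = k := hi
        rfl }
  rw [Nat.card_congr e, Nat.card_sigma,
    Finset.sum_coe_sort (Finset.Icc 1 n) (fun k => Nat.card {i // N i = k})]
  rfl

lemma h92_term (h0 : ∀ i, N i ≠ 0) (s : ℝ) (n : ℕ) :
    LSeries.term (fun n => (h92_cnt N n : ℂ)) (s : ℂ) n
      = (((h92_cnt N n : ℝ) * (n : ℝ) ^ (-s) : ℝ) : ℂ) := by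
  rcases Nat.eq_zero_or_pos n with rfl | hn
  · simp [h92_cnt_zero N h0]
  · rw [LSeries.term_of_ne_zero hn.ne', Real.rpow_neg (Nat.cast_nonneg n)]
    push_cast
    rw [Complex.ofReal_cpow (Nat.cast_nonneg n)]
    simp [div_eq_mul_inv]

lemma h92_inner (s : ℝ) (n : ℕ) :
    (∑' y : {i // N i = n},
      ((fun i => ((N i : ℝ)) ^ (-s)) ∘ (Equiv.sigmaFiberEquiv N)) ⟨n, y⟩)
      = (h92_cnt N n : ℝ) * (n : ℝ) ^ (-s) := by
  have h : ∀ y : {i // N i = n},
      ((fun i => ((N i : ℝ)) ^ (-s)) ∘ (Equiv.sigmaFiberEquiv N)) ⟨n, y⟩ = (n : ℝ) ^ (-s) := by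
    intro y
    simp [Equiv.sigmaFiberEquiv, y.2]
  rw [tsum_congr h, tsum_const, nsmul_eq_mul]
  rfl

lemma h92_summable_sigma (hfin : ∀ n, Finite {i // N i = n}) (s : ℝ) :
    Summable (fun i => ((N i : ℝ)) ^ (-s))
      ↔ Summable (fun n : ℕ => (h92_cnt N n : ℝ) * (n : ℝ) ^ (-s)) := by
  have hnn : ∀ x, 0 ≤ ((fun i => ((N i : ℝ)) ^ (-s)) ∘ (Equiv.sigmaFiberEquiv N)) x :=
    fun x => Real.rpow_nonneg (Nat.cast_nonneg _) _
  rw [← (Equiv.sigmaFiberEquiv N).summable_iff, summable_sigma_of_nonneg hnn]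
  constructor
  · rintro ⟨_, h⟩
    simpa only [h92_inner] using h
  · intro h
    refine ⟨fun n => ?_, by simpa only [h92_inner] using h⟩
    have := hfin n
    exact Summable.of_finite

lemma h92_summable_iff (hfin : ∀ n, Finite {i // N i = n}) (h0 : ∀ i, N i ≠ 0) (s : ℝ) :
    Summable (fun i => ((N i : ℝ)) ^ (-s))
      ↔ LSeriesSummable (fun n => (h92_cnt N n : ℂ)) (s : ℂ) := by
  rw [h92_summable_sigma N hfin, LSeriesSummable, ← Complex.summable_ofReal]
  exact summable_congr (fun n => (h92_term N h0 s n).symm)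

lemma h92_tsum_eq (hfin : ∀ n, Finite {i // N i = n}) (h0 : ∀ i, N i ≠ 0) (s : ℝ)
    (hs : Summable (fun i => ((N i : ℝ)) ^ (-s))) :
    ((∑' i, ((N i : ℝ)) ^ (-s) : ℝ) : ℂ) = LSeries (fun n => (h92_cnt N n : ℂ)) (s : ℂ) := by
  have h1 : ∑' i, ((N i : ℝ)) ^ (-s) = ∑' n : ℕ, (h92_cnt N n : ℝ) * (n : ℝ) ^ (-s) := by
    rw [← (Equiv.sigmaFiberEquiv N).tsum_eq]
    have hs' : Summable ((fun i => ((N i : ℝ)) ^ (-s)) ∘ (Equiv.sigmaFiberEquiv N)) :=
      (Equiv.sigmaFiberEquiv N).summable_iff.mpr hs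
    have := Summable.tsum_sigma' (f := (fun i => ((N i : ℝ)) ^ (-s)) ∘ (Equiv.sigmaFiberEquiv N))
      (fun n => by have := hfin n; exact Summable.of_finite) hs'
    rw [show (∑' c, (N ((Equiv.sigmaFiberEquiv N) c) : ℝ) ^ (-s))
      = ∑' p, ((fun i => ((N i : ℝ)) ^ (-s)) ∘ (Equiv.sigmaFiberEquiv N)) p from rfl, this]
    exact tsum_congr (fun n => h92_inner N s n)
  rw [h1, Complex.ofReal_tsum, LSeries]
  exact tsum_congr (fun n => (h92_term N h0 s n).symm)

end general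

/-! ### Nonzero ideals of a number field -/

section numberField

variable (K : Type*) [Field K] [NumberField K]

/-- the norm of a nonzero ideal, as a natural number. -/
noncomputable def h92_N (I : (Ideal (𝓞 K))⁰) : ℕ := Ideal.absNorm (I : Ideal (𝓞 K))

lemma h92_N_ne_zero (I : (Ideal (𝓞 K))⁰) : h92_N K I ≠ 0 :=
  Ideal.absNorm_ne_zero_of_nonZeroDivisors I

lemma h92_finite_fiber (n : ℕ) : Finite {I : (Ideal (𝓞 K))⁰ // h92_N K I = n} := by
  have := (Ideal.finite_setOfPred_absNorm_eq (S := 𝓞 K) n).to_subtype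
  refine Finite.of_injective
    (fun I : {I : (Ideal (𝓞 K))⁰ // h92_N K I = n} =>
      (⟨I.1.1, I.2⟩ : {I : Ideal (𝓞 K) | Ideal.absNorm I = n})) ?_
  intro a b hab
  have h : a.1.1 = b.1.1 := by
    have := congrArg Subtype.val hab
    simpa using this
  exact Subtype.ext (Subtype.ext h)

lemma h92_nrm_eq (s : ℝ) (I : (Ideal (𝓞 K))⁰) : nrm K s I = ((h92_N K I : ℕ) : ℝ) ^ (-s) := rfl

/-- `∑ N(I)^(-s)` converges for `1 < s`. -/
theorem h92_summable_nrm {s : ℝ} (hs : 1 < s) : Summable (nrm K s) := by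
  have hfin := h92_finite_fiber K
  have h0 := h92_N_ne_zero K
  have hcard : ∀ n : ℕ, (∑ k ∈ Finset.Icc 1 n, (h92_cnt (h92_N K) k : ℝ))
      = (Nat.card {I : (Ideal (𝓞 K))⁰ // (Ideal.absNorm (I : Ideal (𝓞 K)) : ℝ) ≤ (n : ℝ)} : ℝ) := by
    intro n
    rw [← Nat.cast_sum, ← h92_card_le (h92_N K) hfin h0 n]
    congr 1
    refine Nat.card_congr (Equiv.subtypeEquivRight fun I => ?_)
    simp [h92_N]
  have hlim := (NumberField.Ideal.tendsto_norm_le_div_atTop₀ K).comp tendsto_natCast_atTop_atTop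
  have hO : (fun n : ℕ => ∑ k ∈ Finset.Icc 1 n, (h92_cnt (h92_N K) k : ℝ))
      =O[atTop] fun n : ℕ => (n : ℝ) ^ (1 : ℝ) := by
    refine Asymptotics.isBigO_of_div_tendsto_nhds ?_ _ (hlim.congr' ?_)
    · filter_upwards [eventually_gt_atTop 0] with n hn h
      simp only [Real.rpow_one, Nat.cast_eq_zero] at h
      omega
    · filter_upwards with n
      simp only [Function.comp_apply, Pi.div_apply, Real.rpow_one, hcard]
  have hL : LSeriesSummable (fun n => ((h92_cnt (h92_N K) n : ℝ) : ℂ)) (s : ℂ) :=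
    LSeriesSummable_of_sum_norm_bigO_and_nonneg hO (fun n => Nat.cast_nonneg _) zero_le_one
      (by simpa using hs)
  have hL' : LSeriesSummable (fun n => (h92_cnt (h92_N K) n : ℂ)) (s : ℂ) := by
    simpa using hL
  exact (h92_summable_iff (h92_N K) hfin h0 s).mpr hL'

/-- the partial zeta function of an ideal class. -/
noncomputable def h92_pz (C : ClassGroup (𝓞 K)) (s : ℝ) : ℝ :=
  ∑' I : {I : (Ideal (𝓞 K))⁰ // ClassGroup.mk0 I = C}, nrm K s I.1

lemma h92_norm_char (ψ : ClassGroup (𝓞 K) →* ℂˣ) (C : ClassGroup (𝓞 K)) : ‖(ψ C : ℂ)‖ = 1 := by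
  have h : (ψ C : ℂ) ^ Fintype.card (ClassGroup (𝓞 K)) = 1 := by
    rw [← Units.val_pow_eq_pow_val, ← map_pow, pow_card_eq_one, map_one, Units.val_one]
  exact Complex.norm_eq_one_of_pow_eq_one h Fintype.card_ne_zero

/-- `L(s, ψ) = ∑_C ψ(C) ζ(s, C)`. -/
theorem h92_classL_eq (ψ : ClassGroup (𝓞 K) →* ℂˣ) {s : ℝ} (hs : 1 < s) :
    classL K ψ s = ∑ C : ClassGroup (𝓞 K), (ψ C : ℂ) * (h92_pz K C s : ℂ) := by
  set g : (Ideal (𝓞 K))⁰ → ℂ := fun I => (ψ (ClassGroup.mk0 I) : ℂ) * (nrm K s I : ℂ) with hg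
  have hsum : Summable (nrm K s) := h92_summable_nrm K hs
  have hgs : Summable g := by
    refine Summable.of_norm_bounded hsum (fun I => ?_)
    rw [hg]
    simp only [norm_mul, h92_norm_char, one_mul, Complex.norm_real, Real.norm_eq_abs]
    exact le_of_eq (abs_of_nonneg (Real.rpow_nonneg (Nat.cast_nonneg _) _))
  set e := Equiv.sigmaFiberEquiv (fun I : (Ideal (𝓞 K))⁰ => ClassGroup.mk0 I) with he
  have h1 : classL K ψ s = ∑' p, (g ∘ e) p := by
    rw [classL]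
    exact (e.tsum_eq g).symm
  have hge : Summable (g ∘ e) := e.summable_iff.mpr hgs
  have hfib : ∀ C : ClassGroup (𝓞 K),
      Summable (fun y : {I : (Ideal (𝓞 K))⁰ // ClassGroup.mk0 I = C} => (g ∘ e) ⟨C, y⟩) := by
    intro C
    exact hgs.subtype _
  rw [h1, Summable.tsum_sigma' hfib hge, tsum_fintype]
  refine Finset.sum_congr rfl (fun C _ => ?_)
  have h2 : ∀ y : {I : (Ideal (𝓞 K))⁰ // ClassGroup.mk0 I = C},
      (g ∘ e) ⟨C, y⟩ = (ψ C : ℂ) * (nrm K s y.1 : ℂ) := by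
    intro y
    simp [hg, he, Equiv.sigmaFiberEquiv, y.2]
  rw [tsum_congr h2, tsum_mul_left, h92_pz, Complex.ofReal_tsum]

/-- **A3, partial zeta form.** If the partial zeta functions of any two ideal classes differ by a
bounded amount on `(1, 2]`, then the `L`-series of every nontrivial class group character is
bounded on `(1, 2]`. -/
theorem classL_bounded_of_partialZeta (ψ : ClassGroup (𝓞 K) →* ℂˣ) (hψ : ψ ≠ 1)
    (hdiff : ∀ C C' : ClassGroup (𝓞 K), ∃ M : ℝ, ∀ s : ℝ, 1 < s → s ≤ 2 →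
      |(∑' I : {I : (Ideal (𝓞 K))⁰ // ClassGroup.mk0 I = C}, nrm K s I.1) -
        ∑' I : {I : (Ideal (𝓞 K))⁰ // ClassGroup.mk0 I = C'}, nrm K s I.1| ≤ M) :
    ∃ M : ℝ, ∀ s : ℝ, 1 < s → s ≤ 2 → ‖classL K ψ s‖ ≤ M := by
  choose M hM using fun C => hdiff C 1
  refine ⟨∑ C : ClassGroup (𝓞 K), M C, fun s hs hs2 => ?_⟩
  have hsum0 : ∑ C : ClassGroup (𝓞 K), (ψ C : ℂ) = 0 := by
    have hne : (Units.coeHom ℂ).comp ψ ≠ 1 := by
      intro h
      apply hψ
      ext C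
      have := DFunLike.congr_fun h C
      simpa using this
    simpa using sum_hom_units_eq_zero ((Units.coeHom ℂ).comp ψ) hne
  have h1 : classL K ψ s
      = ∑ C : ClassGroup (𝓞 K), (ψ C : ℂ) * ((h92_pz K C s - h92_pz K 1 s : ℝ) : ℂ) := by
    rw [h92_classL_eq K ψ hs]
    have : ∑ C : ClassGroup (𝓞 K), (ψ C : ℂ) * ((h92_pz K C s - h92_pz K 1 s : ℝ) : ℂ)
        = ∑ C : ClassGroup (𝓞 K), (ψ C : ℂ) * (h92_pz K C s : ℂ)
          - (∑ C : ClassGroup (𝓞 K), (ψ C : ℂ)) * (h92_pz K 1 s : ℂ) := by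
      rw [Finset.sum_mul, ← Finset.sum_sub_distrib]
      refine Finset.sum_congr rfl (fun C _ => ?_)
      push_cast
      ring
    rw [this, hsum0, zero_mul, sub_zero]
  rw [h1]
  refine (norm_sum_le _ _).trans (Finset.sum_le_sum (fun C _ => ?_))
  rw [norm_mul, h92_norm_char, one_mul, Complex.norm_real, Real.norm_eq_abs]
  exact hM C s hs hs2

/-! ### From an ideal count with error term to the partial zeta functions -/

/-- the norm on the nonzero ideals of a fixed class. -/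
noncomputable def h92_NC (C : ClassGroup (𝓞 K)) :
    {I : (Ideal (𝓞 K))⁰ // ClassGroup.mk0 I = C} → ℕ := fun I => h92_N K I.1

lemma h92_NC_ne_zero (C : ClassGroup (𝓞 K)) (I : {I : (Ideal (𝓞 K))⁰ // ClassGroup.mk0 I = C}) :
    h92_NC K C I ≠ 0 := h92_N_ne_zero K I.1

lemma h92_finite_fiberC (C : ClassGroup (𝓞 K)) (n : ℕ) :
    Finite {I : {I : (Ideal (𝓞 K))⁰ // ClassGroup.mk0 I = C} // h92_NC K C I = n} := by
  have := h92_finite_fiber K n
  refine Finite.of_injective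
    (fun I : {I : {I : (Ideal (𝓞 K))⁰ // ClassGroup.mk0 I = C} // h92_NC K C I = n} =>
      (⟨I.1.1, I.2⟩ : {I : (Ideal (𝓞 K))⁰ // h92_N K I = n})) ?_
  intro a b hab
  have h : a.1.1 = b.1.1 := by
    have := congrArg Subtype.val hab
    simpa using this
  exact Subtype.ext (Subtype.ext h)

lemma h92_summable_NC (C : ClassGroup (𝓞 K)) {s : ℝ} (hs : 1 < s) :
    Summable (fun I : {I : (Ideal (𝓞 K))⁰ // ClassGroup.mk0 I = C} =>
      ((h92_NC K C I : ℕ) : ℝ) ^ (-s)) :=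
  (h92_summable_nrm K hs).subtype _

lemma h92_LSeriesSummable (C : ClassGroup (𝓞 K)) {s : ℝ} (hs : 1 < s) :
    LSeriesSummable (fun n => (h92_cnt (h92_NC K C) n : ℂ)) (s : ℂ) :=
  (h92_summable_iff (h92_NC K C) (h92_finite_fiberC K C) (h92_NC_ne_zero K C) s).mp
    (h92_summable_NC K C hs)

lemma h92_pz_eq (C : ClassGroup (𝓞 K)) {s : ℝ} (hs : 1 < s) :
    (h92_pz K C s : ℂ) = LSeries (fun n => (h92_cnt (h92_NC K C) n : ℂ)) (s : ℂ) :=
  h92_tsum_eq (h92_NC K C) (h92_finite_fiberC K C) (h92_NC_ne_zero K C) s (h92_summable_NC K C hs)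

lemma h92_partial (C : ClassGroup (𝓞 K)) (n : ℕ) :
    ∑ k ∈ Finset.Icc 1 n, h92_cnt (h92_NC K C) k
      = Nat.card {I : (Ideal (𝓞 K))⁰ //
          (Ideal.absNorm (I : Ideal (𝓞 K)) : ℝ) ≤ (n : ℝ) ∧ ClassGroup.mk0 I = C} := by
  rw [← h92_card_le (h92_NC K C) (h92_finite_fiberC K C) (h92_NC_ne_zero K C) n]
  refine Nat.card_congr
    { toFun := fun I => ⟨I.1.1, ⟨by exact_mod_cast I.2, I.1.2⟩⟩
      invFun := fun I => ⟨⟨I.1, I.2.2⟩, by exact_mod_cast I.2.1⟩
      left_inv := fun _ => rfl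
      right_inv := fun _ => rfl }

/-- **A3, counting form, partial zeta version.** -/
theorem h92_pz_diff_of_count (κ B δ : ℝ) (hδ : 0 < δ) (hδ1 : δ ≤ 1)
    (hcount : ∀ (C : ClassGroup (𝓞 K)) (x : ℝ), 1 ≤ x →
      |(Nat.card {I : (Ideal (𝓞 K))⁰ //
          Ideal.absNorm (I : Ideal (𝓞 K)) ≤ x ∧ ClassGroup.mk0 I = C} : ℝ) - κ * x|
        ≤ B * x ^ (1 - δ))
    (C C' : ClassGroup (𝓞 K)) (s : ℝ) (hs : 1 < s) (hs2 : s ≤ 2) :
    |h92_pz K C s - h92_pz K C' s| ≤ 4 * B / δ := by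
  have hB : 0 ≤ B := by
    have := (abs_nonneg _).trans (hcount C 1 le_rfl)
    simpa using this
  set f : ℕ → ℂ := fun n => (h92_cnt (h92_NC K C) n : ℂ) with hf
  set f' : ℕ → ℂ := fun n => (h92_cnt (h92_NC K C') n : ℂ) with hf'
  have hLS : LSeriesSummable f (s : ℂ) := h92_LSeriesSummable K C hs
  have hLS' : LSeriesSummable f' (s : ℂ) := h92_LSeriesSummable K C' hs
  -- partial sums of the difference
  have hA : ∀ n : ℕ, ‖∑ k ∈ Finset.Icc 1 n, (f - f') k‖ ≤ 2 * B * (n : ℝ) ^ (1 - δ) := by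
    intro n
    rcases Nat.eq_zero_or_pos n with rfl | hn
    · simp only [Finset.Icc_eq_empty_of_lt Nat.zero_lt_one, Finset.sum_empty, norm_zero,
        Nat.cast_zero]
      exact mul_nonneg (mul_nonneg zero_le_two hB) (Real.rpow_nonneg le_rfl _)
    · have h1 : (1 : ℝ) ≤ (n : ℝ) := by exact_mod_cast hn
      have e1 := hcount C n h1
      have e2 := hcount C' n h1
      have hsum : ∑ k ∈ Finset.Icc 1 n, (f - f') k
          = (((Nat.card {I : (Ideal (𝓞 K))⁰ //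
              (Ideal.absNorm (I : Ideal (𝓞 K)) : ℝ) ≤ (n : ℝ) ∧ ClassGroup.mk0 I = C} : ℝ)
            - (Nat.card {I : (Ideal (𝓞 K))⁰ //
              (Ideal.absNorm (I : Ideal (𝓞 K)) : ℝ) ≤ (n : ℝ) ∧ ClassGroup.mk0 I = C'} : ℝ) : ℝ) : ℂ) := by
        simp only [Pi.sub_apply, Finset.sum_sub_distrib, hf, hf']
        rw [← Nat.cast_sum, ← Nat.cast_sum, h92_partial, h92_partial]
        push_cast
        rfl
      rw [hsum, Complex.norm_real, Real.norm_eq_abs]
      have := abs_sub_le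
        ((Nat.card {I : (Ideal (𝓞 K))⁰ //
              (Ideal.absNorm (I : Ideal (𝓞 K)) : ℝ) ≤ (n : ℝ) ∧ ClassGroup.mk0 I = C} : ℝ))
        (κ * n)
        ((Nat.card {I : (Ideal (𝓞 K))⁰ //
              (Ideal.absNorm (I : Ideal (𝓞 K)) : ℝ) ≤ (n : ℝ) ∧ ClassGroup.mk0 I = C'} : ℝ))
      rw [abs_sub_comm (κ * (n : ℝ))] at this
      linarith
  have hO : (fun n : ℕ => ∑ k ∈ Finset.Icc 1 n, (f - f') k)
      =O[atTop] fun n : ℕ => (n : ℝ) ^ (1 - δ) := by
    refine Asymptotics.IsBigO.of_bound (2 * B) (Filter.Eventually.of_forall fun n => ?_)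
    rw [Real.norm_of_nonneg (Real.rpow_nonneg (Nat.cast_nonneg n) _)]
    exact hA n
  have hre : (1 - δ) < ((s : ℂ)).re := by
    simp only [Complex.ofReal_re]
    linarith
  have hint := LSeries_eq_mul_integral (f - f') (by linarith : (0 : ℝ) ≤ 1 - δ) hre
    (hLS.sub hLS') hO
  have hdiff : ((h92_pz K C s - h92_pz K C' s : ℝ) : ℂ) = LSeries (f - f') (s : ℂ) := by
    rw [LSeries_sub hLS hLS', Complex.ofReal_sub, h92_pz_eq K C hs, h92_pz_eq K C' hs]
  -- bound the integral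
  have ha : -δ - s < -1 := by linarith
  have hgi : MeasureTheory.Integrable (fun t : ℝ => 2 * B * t ^ (-δ - s))
      (MeasureTheory.volume.restrict (Set.Ioi (1 : ℝ))) :=
    (integrableOn_Ioi_rpow_of_lt ha zero_lt_one).const_mul (2 * B)
  have hbound : ‖∫ t in Set.Ioi (1 : ℝ),
      (∑ k ∈ Finset.Icc 1 ⌊t⌋₊, (f - f') k) * (t : ℂ) ^ (-((s : ℂ) + 1))‖
        ≤ ∫ t in Set.Ioi (1 : ℝ), 2 * B * t ^ (-δ - s) := by
    refine MeasureTheory.norm_integral_le_of_norm_le hgi ?_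
    refine (MeasureTheory.ae_restrict_iff' measurableSet_Ioi).mpr
      (Filter.Eventually.of_forall fun t ht => ?_)
    have ht0 : (0 : ℝ) < t := lt_trans zero_lt_one ht
    rw [norm_mul, Complex.norm_cpow_eq_rpow_re_of_pos ht0]
    have hre2 : (-((s : ℂ) + 1)).re = -(s + 1) := by simp
    rw [hre2]
    have h1 : ‖∑ k ∈ Finset.Icc 1 ⌊t⌋₊, (f - f') k‖ ≤ 2 * B * t ^ (1 - δ) := by
      refine (hA ⌊t⌋₊).trans ?_
      refine mul_le_mul_of_nonneg_left ?_ (mul_nonneg zero_le_two hB)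
      exact Real.rpow_le_rpow (Nat.cast_nonneg _) (Nat.floor_le ht0.le) (by linarith)
    calc ‖∑ k ∈ Finset.Icc 1 ⌊t⌋₊, (f - f') k‖ * t ^ (-(s + 1))
        ≤ (2 * B * t ^ (1 - δ)) * t ^ (-(s + 1)) :=
          mul_le_mul_of_nonneg_right h1 (Real.rpow_nonneg ht0.le _)
      _ = 2 * B * t ^ (-δ - s) := by
          rw [mul_assoc, ← Real.rpow_add ht0]
          congr 2
          ring
  have hval : ∫ t in Set.Ioi (1 : ℝ), 2 * B * t ^ (-δ - s) = 2 * B / (δ + s - 1) := by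
    rw [MeasureTheory.integral_const_mul, integral_Ioi_rpow_of_lt ha zero_lt_one]
    simp only [Real.one_rpow]
    have : δ + s - 1 ≠ 0 := by linarith
    have h2 : -δ - s + 1 ≠ 0 := by linarith
    field_simp
    ring
  have hfinal : |h92_pz K C s - h92_pz K C' s| ≤ s * (2 * B / (δ + s - 1)) := by
    have : |h92_pz K C s - h92_pz K C' s| = ‖((h92_pz K C s - h92_pz K C' s : ℝ) : ℂ)‖ := by
      rw [Complex.norm_real, Real.norm_eq_abs]
    rw [this, hdiff, hint, norm_mul, Complex.norm_real, Real.norm_eq_abs,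
      abs_of_pos (lt_trans zero_lt_one hs)]
    exact mul_le_mul_of_nonneg_left (hbound.trans hval.le) (lt_trans zero_lt_one hs).le
  refine hfinal.trans ?_
  have hpos : 0 < δ + s - 1 := by linarith
  rw [← mul_div_assoc, div_le_div_iff₀ hpos hδ]
  nlinarith [mul_nonneg hB hδ.le, mul_nonneg hB (sub_nonneg.mpr hs.le),
    mul_nonneg (mul_nonneg hB hδ.le) (sub_nonneg.mpr hs2)]

/-- **A3, counting form.** If the number of ideals of norm `≤ x` in every ideal class is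
`κ x + O(x^(1-δ))` with the same `κ` for all classes, then the `L`-series of every nontrivial
class group character is bounded on `(1, 2]`. -/
theorem classL_bounded_of_count (ψ : ClassGroup (𝓞 K) →* ℂˣ) (hψ : ψ ≠ 1)
    (κ B δ : ℝ) (hδ : 0 < δ) (hδ1 : δ ≤ 1)
    (hcount : ∀ (C : ClassGroup (𝓞 K)) (x : ℝ), 1 ≤ x →
      |(Nat.card {I : (Ideal (𝓞 K))⁰ //
          Ideal.absNorm (I : Ideal (𝓞 K)) ≤ x ∧ ClassGroup.mk0 I = C} : ℝ) - κ * x|
        ≤ B * x ^ (1 - δ)) :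
    ∃ M : ℝ, ∀ s : ℝ, 1 < s → s ≤ 2 → ‖classL K ψ s‖ ≤ M :=
  classL_bounded_of_partialZeta K ψ hψ fun C C' =>
    ⟨4 * B / δ, fun s hs hs2 => h92_pz_diff_of_count K κ B δ hδ hδ1 hcount C C' s hs hs2⟩

end numberField

end Fermat.Agent.S14
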