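import Mathlib

/-!
# S14 / module C (core): abstract class-group algebra

`h88_eq_one_of_pow_eq_one_of_map_eq_inv`: in a finite commutative group `A`, if an
endomorphism `E` sends a set `W` generating `A` modulo `p`-th powers into the `p`-th powers,
then every `y` with `y ^ p = 1` and `E y = y⁻¹` is trivial.
-/

namespace Fermat.Agent.S14

section Abstract

variable {A : Type*} [CommGroup A]

/-- The endomorphism `E` maps everything into `p`-th powers, as soon as it does so on a set
generating `A` modulo `p`-th powers. -/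
theorem h88_map_mem_range_pow (p : ℕ) (E : A →* A) (W : Set A)
    (hW : Subgroup.closure W ⊔ (powMonoidHom p : A →* A).range = ⊤)
    (hE : ∀ w ∈ W, ∃ z, E w = z ^ p) (x : A) : ∃ z, E x = z ^ p := by
  have hle : Subgroup.closure W ⊔ (powMonoidHom p : A →* A).range ≤
      ((powMonoidHom p : A →* A).range).comap E := by
    refine sup_le ?_ ?_
    · rw [Subgroup.closure_le]
      intro w hw
      obtain ⟨z, hz⟩ := hE w hw
      exact ⟨z, hz.symm⟩
    · rintro _ ⟨z, rfl⟩
      exact ⟨E z, by simp⟩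
  have hx : x ∈ ((powMonoidHom p : A →* A).range).comap E := hle (hW ▸ Subgroup.mem_top x)
  obtain ⟨z, hz⟩ := hx
  exact ⟨z, by simpa using hz.symm⟩

theorem h88_iterate_map_mem_range_pow (p : ℕ) (E : A →* A)
    (hE : ∀ x, ∃ z, E x = z ^ p) (k : ℕ) (x : A) : ∃ z, (E^[k]) x = z ^ (p ^ k) := by
  induction k generalizing x with
  | zero => exact ⟨x, by simp⟩
  | succ k ih =>
    obtain ⟨z, hz⟩ := hE x
    obtain ⟨w, hw⟩ := ih z
    refine ⟨w, ?_⟩
    rw [Function.iterate_succ_apply, hz]
    have : (E^[k]) (z ^ p) = ((E^[k]) z) ^ p := iterate_map_pow E k z p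
    rw [this, hw, ← pow_mul, pow_succ]

theorem h88_iterate_inv (E : A →* A) (y : A) (hEy : E y = y⁻¹) (k : ℕ) :
    (E^[k]) y = y ∨ (E^[k]) y = y⁻¹ := by
  induction k with
  | zero => left; rfl
  | succ k ih =>
    rw [Function.iterate_succ_apply']
    rcases ih with h | h
    · right; rw [h, hEy]
    · left; rw [h, map_inv, hEy, inv_inv]

/-- **Abstract class-group algebra.** -/
theorem h88_eq_one_of_pow_eq_one_of_map_eq_inv [Finite A] (p : ℕ) [Fact p.Prime]
    (E : A →* A) (W : Set A)
    (hW : Subgroup.closure W ⊔ (powMonoidHom p : A →* A).range = ⊤)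
    (hE : ∀ w ∈ W, ∃ z, E w = z ^ p) (y : A) (hy : y ^ p = 1) (hEy : E y = y⁻¹) :
    y = 1 := by
  have hp : p.Prime := Fact.out
  have hE' := h88_map_mem_range_pow p E W hW hE
  -- write `Nat.card A = p ^ k * m` with `p ∤ m`
  have hcard : Nat.card A ≠ 0 := Nat.card_pos.ne'
  obtain ⟨k, m, hm, hkm⟩ := Nat.exists_eq_pow_mul_and_not_dvd hcard p hp.ne_one
  obtain ⟨z, hz⟩ := h88_iterate_map_mem_range_pow p E hE' k y
  -- `y ^ m = 1`
  have hym : y ^ m = 1 := by
    have hz1 : (z ^ (p ^ k)) ^ m = 1 := by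
      rw [← pow_mul, ← hkm]; exact pow_card_eq_one'
    rcases h88_iterate_inv E y hEy k with h | h
    · rw [← h, hz]; exact hz1
    · have : y⁻¹ ^ m = 1 := by rw [← h, hz]; exact hz1
      simpa using this
  have hcop : Nat.Coprime p m := (Nat.Prime.coprime_iff_not_dvd hp).mpr hm
  have h1 : orderOf y ∣ p := orderOf_dvd_of_pow_eq_one hy
  have h2 : orderOf y ∣ m := orderOf_dvd_of_pow_eq_one hym
  have h3 : orderOf y ∣ 1 := by
    have := Nat.dvd_gcd h1 h2
    rwa [hcop] at this
  exact orderOf_eq_one_iff.mp (Nat.dvd_one.mp h3)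

end Abstract

end Fermat.Agent.S14
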