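import Mathlib
import Fermat.Agent.S14.ClassAlgCore

/-!
# S14 / module C: class-group algebra for `ℚ(ζ_p)`

Stage 1 (this file, Mathlib only): from the Thaine relation `hT`, the cyclotomic unit
facts `hu_prod`, `hu_eig` and the analytic existence statement `hG`, every `α` with
`(α) = 𝔞 ^ p` which is an `ω²`-eigenvector modulo `p`-th powers is a unit times a `p`-th power.
-/

open scoped nonZeroDivisors NumberField Pointwise

namespace Fermat.Agent.S14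

section ClMap

variable {R : Type*} [CommRing R] [IsDedekindDomain R]

theorem h88_map_mem_nonZeroDivisors (f : R ≃+* R) (I : (Ideal R)⁰) :
    (I : Ideal R).map (f : R →+* R) ∈ (Ideal R)⁰ := by
  rw [mem_nonZeroDivisors_iff_ne_zero]
  have hI : (I : Ideal R) ≠ ⊥ := mem_nonZeroDivisors_iff_ne_zero.mp I.2
  intro h
  apply hI
  exact (Ideal.map_eq_bot_iff_of_injective f.injective).mp h

/-- The map on nonzero ideals induced by a ring automorphism. -/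
noncomputable def h88_idealMap (f : R ≃+* R) : (Ideal R)⁰ →* (Ideal R)⁰ where
  toFun I := ⟨(I : Ideal R).map (f : R →+* R), h88_map_mem_nonZeroDivisors f I⟩
  map_one' := by
    apply Subtype.ext
    simp [Ideal.one_eq_top, Ideal.map_top]
  map_mul' I J := by
    apply Subtype.ext
    simp [Ideal.map_mul]

@[simp] theorem h88_idealMap_coe (f : R ≃+* R) (I : (Ideal R)⁰) :
    ((h88_idealMap f I : (Ideal R)⁰) : Ideal R) = (I : Ideal R).map (f : R →+* R) := rfl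

theorem h88_mk0_idealMap_congr (f : R ≃+* R) {I J : (Ideal R)⁰}
    (h : ClassGroup.mk0 I = ClassGroup.mk0 J) :
    ClassGroup.mk0 (h88_idealMap f I) = ClassGroup.mk0 (h88_idealMap f J) := by
  rw [ClassGroup.mk0_eq_mk0_iff] at h ⊢
  obtain ⟨x, y, hx, hy, hxy⟩ := h
  refine ⟨f x, f y, by simpa using hx, by simpa using hy, ?_⟩
  have := congrArg (Ideal.map (f : R →+* R)) hxy
  simpa [Ideal.map_mul, Ideal.map_span] using this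

/-- The endomorphism of the class group induced by a ring automorphism. -/
noncomputable def h88_clMap (f : R ≃+* R) : ClassGroup R →* ClassGroup R where
  toFun c := ClassGroup.mk0 (h88_idealMap f (ClassGroup.mk0_surjective c).choose)
  map_one' := by
    have h := (ClassGroup.mk0_surjective (1 : ClassGroup R)).choose_spec
    rw [h88_mk0_idealMap_congr f (h.trans (map_one _).symm), map_one, map_one]
  map_mul' c d := by
    have hc := (ClassGroup.mk0_surjective c).choose_spec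
    have hd := (ClassGroup.mk0_surjective d).choose_spec
    have hcd := (ClassGroup.mk0_surjective (c * d)).choose_spec
    rw [← map_mul, ← map_mul]
    apply h88_mk0_idealMap_congr
    rw [hcd, map_mul, hc, hd]

theorem h88_clMap_mk0 (f : R ≃+* R) (I : (Ideal R)⁰) :
    h88_clMap f (ClassGroup.mk0 I) = ClassGroup.mk0 (h88_idealMap f I) := by
  have h := (ClassGroup.mk0_surjective (ClassGroup.mk0 I)).choose_spec
  exact h88_mk0_idealMap_congr f h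

theorem h88_ideal_pow_left_injective {n : ℕ} (hn : n ≠ 0) {I J : Ideal R} (h : I ^ n = J ^ n) :
    I = J := by
  have h1 : I ∣ J := (UniqueFactorizationMonoid.pow_dvd_pow_iff_dvd hn).mp (h ▸ dvd_rfl)
  have h2 : J ∣ I := (UniqueFactorizationMonoid.pow_dvd_pow_iff_dvd hn).mp (h ▸ dvd_rfl)
  exact dvd_antisymm h1 h2

end ClMap

section Gal

variable {K : Type*} [Field K] [NumberField K]

/-- The ring automorphism of `𝓞 K` attached to `σ`. -/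
noncomputable abbrev h88_galInt (σ : K ≃ₐ[ℚ] K) : 𝓞 K ≃+* 𝓞 K :=
  MulSemiringAction.toRingEquiv (K ≃ₐ[ℚ] K) (𝓞 K) σ

theorem h88_galInt_coe (σ : K ≃ₐ[ℚ] K) (x : 𝓞 K) : ((h88_galInt σ x : 𝓞 K) : K) = σ (x : K) := rfl

/-- If `(α) = 𝔞 ^ p` and `σ α = α ^ n * γ ^ p`, then `[σ 𝔞] = [𝔞] ^ n`. -/
theorem h88_clMap_eq_pow_of_eig {p : ℕ} (hp : p ≠ 0) (α : 𝓞 K) (hα : α ≠ 0) (𝔞 : (Ideal (𝓞 K))⁰)
    (h𝔞 : Ideal.span {α} = (𝔞 : Ideal (𝓞 K)) ^ p) (σ : K ≃ₐ[ℚ] K) (n : ℕ) (γ : K)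
    (hγ : σ (α : K) = (α : K) ^ n * γ ^ p) :
    h88_clMap (h88_galInt σ) (ClassGroup.mk0 𝔞) = ClassGroup.mk0 𝔞 ^ n := by
  obtain ⟨g₁, g₂, hg₂, rfl⟩ := IsFractionRing.div_surjective (A := 𝓞 K) γ
  have hg₂0 : g₂ ≠ 0 := nonZeroDivisors.ne_zero hg₂
  have hg₂K : (algebraMap (𝓞 K) K g₂) ≠ 0 := by
    simpa using hg₂0
  have hαK : (α : K) ≠ 0 := by simpa using hα
  have hσα : σ (α : K) ≠ 0 := by simpa using hαK
  -- the identity in `𝓞 K`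
  have hint : h88_galInt σ α * g₂ ^ p = α ^ n * g₁ ^ p := by
    apply FaithfulSMul.algebraMap_injective (𝓞 K) K
    have e1 : algebraMap (𝓞 K) K (h88_galInt σ α) = σ (α : K) := rfl
    rw [map_mul, map_mul, map_pow, map_pow, map_pow, e1, hγ, div_pow]
    field_simp
  have hg₁0 : g₁ ≠ 0 := by
    rintro rfl
    have h0 : h88_galInt σ α * g₂ ^ p = 0 := by rw [hint, zero_pow hp, mul_zero]
    rcases mul_eq_zero.mp h0 with h | h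
    · exact hα ((h88_galInt σ).map_eq_zero_iff.mp h)
    · exact hg₂0 (pow_eq_zero_iff hp |>.mp h)
  -- ideal identity
  have hid : (((h88_idealMap (h88_galInt σ) 𝔞 : (Ideal (𝓞 K))⁰) : Ideal (𝓞 K)) * Ideal.span {g₂}) ^ p
      = ((𝔞 : Ideal (𝓞 K)) ^ n * Ideal.span {g₁}) ^ p := by
    have h1 : Ideal.span {h88_galInt σ α} =
        ((h88_idealMap (h88_galInt σ) 𝔞 : (Ideal (𝓞 K))⁰) : Ideal (𝓞 K)) ^ p := by
      rw [h88_idealMap_coe, ← Ideal.map_pow, ← h𝔞, Ideal.map_span, Set.image_singleton]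
      rfl
    rw [mul_pow, mul_pow, ← h1, Ideal.span_singleton_pow, Ideal.span_singleton_mul_span_singleton,
      hint, ← pow_mul, mul_comm n p, pow_mul, ← h𝔞, Ideal.span_singleton_pow,
      Ideal.span_singleton_pow, Ideal.span_singleton_mul_span_singleton]
  have hid' := h88_ideal_pow_left_injective hp hid
  rw [h88_clMap_mk0, ← map_pow, ClassGroup.mk0_eq_mk0_iff]
  refine ⟨g₂, g₁, hg₂0, hg₁0, ?_⟩
  rw [mul_comm, hid', mul_comm]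
  rfl

end Gal

/-- In a commutative group, if `x ^ p = 1` and `a ≡ b [MOD p]` then `x ^ a = x ^ b`. -/
theorem h88_pow_eq_pow_of_modEq {G : Type*} [Monoid G] {x : G} {p a b : ℕ} (hx : x ^ p = 1)
    (hab : a ≡ b [MOD p]) : x ^ a = x ^ b := by
  rw [pow_eq_pow_mod a hx, pow_eq_pow_mod b hx, hab]

theorem h88_eq_one_of_pow_eq_one_of_coprime {G : Type*} [Monoid G] {x : G} {p e : ℕ}
    (hx : x ^ p = 1) (hxe : x ^ e = 1) (hcop : Nat.Coprime e p) : x = 1 := by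
  have h1 : orderOf x ∣ p := orderOf_dvd_of_pow_eq_one hx
  have h2 : orderOf x ∣ e := orderOf_dvd_of_pow_eq_one hxe
  have h3 : orderOf x ∣ 1 := by
    have := Nat.dvd_gcd h2 h1
    rwa [hcop] at this
  exact orderOf_eq_one_iff.mp (Nat.dvd_one.mp h3)

/-- Exponent comparison modulo `p`-th powers in a commutative group. -/
theorem h88_exponent_group {G : Type*} [CommGroup G] (p : ℕ) [hp : Fact p.Prime]
    (υ τ η : G) (hυ : ∀ y : G, y ^ p ≠ υ) (e e' n N N' : ℕ) (hN : p ∣ N) (hN' : p ∣ N')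
    (h1 : υ * τ ^ N = τ ^ e) (h2 : υ ^ n * η ^ p * τ ^ N' = τ ^ e') :
    ¬ p ∣ e ∧ e' ≡ e * n [MOD p] := by
  let P : Subgroup G := (powMonoidHom p : G →* G).range
  let q : G →* G ⧸ P := QuotientGroup.mk' P
  have hqp : ∀ x : G, q (x ^ p) = 1 := by
    intro x
    exact (QuotientGroup.eq_one_iff _).mpr ⟨x, rfl⟩
  have hexp : ∀ x : G ⧸ P, x ^ p = 1 := by
    intro x
    obtain ⟨x, rfl⟩ := QuotientGroup.mk'_surjective P x
    rw [← map_pow]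
    exact hqp x
  have hdvd : ∀ (x : G) (M : ℕ), p ∣ M → q (x ^ M) = 1 := by
    rintro x M ⟨k, rfl⟩
    rw [pow_mul']
    exact hqp _
  have hυ1 : q υ ≠ 1 := by
    intro h
    obtain ⟨y, hy⟩ := (QuotientGroup.eq_one_iff _).mp h
    exact hυ y hy
  have e1 : q υ = q τ ^ e := by
    have := congrArg q h1
    rw [map_mul, hdvd τ N hN, mul_one, map_pow] at this
    exact this
  have e2 : q υ ^ n = q τ ^ e' := by
    have := congrArg q h2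
    rw [map_mul, map_mul, hdvd τ N' hN', mul_one, hqp, mul_one, map_pow, map_pow] at this
    exact this
  have hτ1 : q τ ≠ 1 := by
    intro h
    apply hυ1
    rw [e1, h, one_pow]
  have hord : orderOf (q τ) = p := orderOf_eq_prime (hexp _) hτ1
  refine ⟨?_, ?_⟩
  · intro hpe
    apply hυ1
    rw [e1]
    obtain ⟨k, rfl⟩ := hpe
    rw [pow_mul, hexp, one_pow]
  · have : q τ ^ e' = q τ ^ (e * n) := by rw [← e2, e1, pow_mul]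
    rw [pow_eq_pow_iff_modEq, hord] at this
    exact this

/-- Field version of `h88_exponent_group`. -/
theorem h88_exponent_field {k : Type*} [Field k] (p : ℕ) [hp : Fact p.Prime]
    (υ τ η : k) (hυ0 : υ ≠ 0) (hτ0 : τ ≠ 0) (hυ : ∀ y : k, y ^ p ≠ υ) (e e' n N N' : ℕ)
    (hN : p ∣ N) (hN' : p ∣ N')
    (h1 : υ * τ ^ N = τ ^ e) (h2 : υ ^ n * η ^ p * τ ^ N' = τ ^ e') :
    ¬ p ∣ e ∧ e' ≡ e * n [MOD p] := by
  have hη0 : η ≠ 0 := by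
    rintro rfl
    have hp0 : p ≠ 0 := hp.out.ne_zero
    rw [zero_pow hp0, mul_zero, zero_mul] at h2
    exact pow_ne_zero e' hτ0 h2.symm
  refine h88_exponent_group p (Units.mk0 υ hυ0) (Units.mk0 τ hτ0) (Units.mk0 η hη0) ?_ e e' n N N'
    hN hN' ?_ ?_
  · intro y hy
    apply hυ (y : k)
    have := congrArg (fun x : kˣ => (x : k)) hy
    simpa using this
  · ext; simpa using h1
  · ext; simpa using h2

section Cl

variable {R : Type*} [CommRing R] [IsDedekindDomain R]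

open Classical in
/-- Total class map on ideals (junk value `1` on the zero ideal). -/
noncomputable def h88_cl (I : Ideal R) : ClassGroup R :=
  if h : I ∈ (Ideal R)⁰ then ClassGroup.mk0 ⟨I, h⟩ else 1

theorem h88_cl_of_mem {I : Ideal R} (h : I ∈ (Ideal R)⁰) : h88_cl I = ClassGroup.mk0 ⟨I, h⟩ := by
  rw [h88_cl, dif_pos h]

theorem h88_mem_nzd {I : Ideal R} (h : I ≠ ⊥) : I ∈ (Ideal R)⁰ :=
  mem_nonZeroDivisors_iff_ne_zero.mpr h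

theorem h88_cl_mul {I J : Ideal R} (hI : I ≠ ⊥) (hJ : J ≠ ⊥) :
    h88_cl (I * J) = h88_cl I * h88_cl J := by
  have hIJ : I * J ≠ ⊥ := mul_ne_zero hI hJ
  rw [h88_cl_of_mem (h88_mem_nzd hI), h88_cl_of_mem (h88_mem_nzd hJ),
    h88_cl_of_mem (h88_mem_nzd hIJ), ← map_mul]
  rfl

theorem h88_cl_one : h88_cl (1 : Ideal R) = 1 := by
  rw [h88_cl_of_mem (h88_mem_nzd one_ne_zero)]
  exact map_one ClassGroup.mk0

theorem h88_cl_pow {I : Ideal R} (hI : I ≠ ⊥) (n : ℕ) : h88_cl (I ^ n) = h88_cl I ^ n := by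
  induction n with
  | zero => simpa using h88_cl_one
  | succ n ih => rw [pow_succ, pow_succ, h88_cl_mul (pow_ne_zero n hI) hI, ih]

theorem h88_cl_prod {ι : Type*} (s : Finset ι) (f : ι → Ideal R) (hf : ∀ i ∈ s, f i ≠ ⊥) :
    h88_cl (∏ i ∈ s, f i) = ∏ i ∈ s, h88_cl (f i) := by
  classical
  induction s using Finset.induction_on with
  | empty => simpa using h88_cl_one
  | insert a s ha ih =>
    rw [Finset.prod_insert ha, Finset.prod_insert ha, h88_cl_mul (hf a (Finset.mem_insert_self a s))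
      (Finset.prod_ne_zero_iff.mpr fun i hi => hf i (Finset.mem_insert_of_mem hi)),
      ih fun i hi => hf i (Finset.mem_insert_of_mem hi)]

theorem h88_cl_span_singleton {c : R} (hc : c ≠ 0) : h88_cl (Ideal.span {c}) = 1 := by
  have h : Ideal.span {c} ≠ (⊥ : Ideal R) := by
    simpa [Ideal.span_singleton_eq_bot] using hc
  rw [h88_cl_of_mem (h88_mem_nzd h), ClassGroup.mk0_eq_one_iff]
  exact ⟨⟨c, rfl⟩⟩

end Cl

theorem h88_card_fiber {G X : Type*} [Group G] [Fintype G] [MulAction G X] [DecidableEq X]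
    (x : X) (σ₀ : G) :
    (Finset.univ.filter (fun σ : G => σ • x = σ₀ • x)).card =
      (Finset.univ.filter (fun σ : G => σ • x = x)).card := by
  apply Finset.card_bij' (fun σ _ => σ₀⁻¹ * σ) (fun τ _ => σ₀ * τ)
  · intro σ hσ
    simp only [Finset.mem_filter, Finset.mem_univ, true_and] at hσ ⊢
    rw [mul_smul, hσ, inv_smul_smul]
  · intro τ hτ
    simp only [Finset.mem_filter, Finset.mem_univ, true_and] at hτ ⊢
    rw [mul_smul, hτ]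
  · intro σ _; simp
  · intro τ _; simp

theorem h88_prod_orbit {G X M : Type*} [Group G] [Fintype G] [MulAction G X] [DecidableEq X]
    [CommMonoid M] (x : X) (F : X → M) :
    ∏ σ : G, F (σ • x) = (∏ y ∈ Finset.univ.image (fun σ : G => σ • x), F y) ^
      (Finset.univ.filter (fun σ : G => σ • x = x)).card := by
  rw [Finset.prod_comp F (fun σ : G => σ • x), ← Finset.prod_pow]
  apply Finset.prod_congr rfl
  intro y hy
  obtain ⟨σ₀, -, rfl⟩ := Finset.mem_image.mp hy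
  rw [h88_card_fiber x σ₀]

section Cyc

variable {p : ℕ} [Fact p.Prime] {K : Type} [Field K] [NumberField K]
  [IsCyclotomicExtension {p} ℚ K] {ζ : K} (hζ : IsPrimitiveRoot ζ p)

include hζ in
theorem h88_absNorm_mod (𝔯 : Ideal (𝓞 K)) [𝔯.IsPrime] (h𝔯0 : 𝔯 ≠ ⊥) (hv2 : (p : 𝓞 K) ∉ 𝔯) :
    Ideal.absNorm 𝔯 % p = 1 := by
  have hp : p.Prime := Fact.out
  have : 𝔯.IsMaximal := Ideal.IsPrime.isMaximal inferInstance h𝔯0
  let _ : Field (𝓞 K ⧸ 𝔯) := Ideal.Quotient.field 𝔯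
  have hN0 : Ideal.absNorm 𝔯 ≠ 0 := by
    rw [Ne, Ideal.absNorm_eq_zero_iff]; exact h𝔯0
  have hcard : Nat.card (𝓞 K ⧸ 𝔯) = Ideal.absNorm 𝔯 := by
    rw [Ideal.absNorm_apply, Submodule.cardQuot_apply]
  have : Finite (𝓞 K ⧸ 𝔯) := Nat.finite_of_card_ne_zero (hcard ▸ hN0)
  set π := Ideal.Quotient.mk 𝔯 with hπ
  have hz1 : π hζ.toInteger ^ p = 1 := by
    rw [← map_pow, hζ.toInteger_isPrimitiveRoot.pow_eq_one, map_one]
  have hz0 : π hζ.toInteger ≠ 0 := by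
    intro h
    rw [h, zero_pow hp.ne_zero] at hz1
    exact zero_ne_one hz1
  have hzne : π hζ.toInteger ≠ 1 := by
    intro h
    apply hv2
    have hmem : hζ.toInteger - 1 ∈ 𝔯 := by
      rw [← Ideal.Quotient.eq_zero_iff_mem, map_sub, map_one]
      exact sub_eq_zero.mpr h
    obtain ⟨w, hw⟩ := hζ.toInteger_sub_one_dvd_prime'
    rw [hw]
    exact Ideal.mul_mem_right _ _ hmem
  have hord : orderOf (Units.mk0 _ hz0) = p := by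
    apply orderOf_eq_prime
    · ext; simpa using hz1
    · intro h
      apply hzne
      have := congrArg (fun x : (𝓞 K ⧸ 𝔯)ˣ => (x : 𝓞 K ⧸ 𝔯)) h
      simpa using this
  have hdvd : p ∣ Nat.card (𝓞 K ⧸ 𝔯) - 1 := by
    rw [← Nat.card_units, ← hord]
    exact orderOf_dvd_natCard _
  rw [hcard] at hdvd
  obtain ⟨c, hc⟩ := hdvd
  have hN1 : 1 ≤ Ideal.absNorm 𝔯 := Nat.one_le_iff_ne_zero.mpr hN0
  have : Ideal.absNorm 𝔯 = p * c + 1 := by omega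
  rw [this, Nat.mul_add_mod, Nat.mod_eq_of_lt hp.one_lt]

end Cyc

section Cyc

variable {p : ℕ} [Fact p.Prime] {K : Type} [Field K] [NumberField K] {ζ : K}
  (hζ : IsPrimitiveRoot ζ p)

include hζ in
theorem h88_exists_exp (σ : K ≃ₐ[ℚ] K) : ∃ a : ℕ, σ ζ = ζ ^ a := by
  have hp : 0 < p := (Fact.out : p.Prime).pos
  have h : (σ ζ) ^ p = 1 := by rw [← map_pow, hζ.pow_eq_one, map_one]
  have : NeZero p := ⟨hp.ne'⟩
  obtain ⟨i, -, hi⟩ := hζ.eq_pow_of_pow_eq_one h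
  exact ⟨i, hi.symm⟩

/-- An exponent `a` with `σ ζ = ζ ^ a`. -/
noncomputable def h88_exp (σ : K ≃ₐ[ℚ] K) : ℕ := (h88_exists_exp hζ σ).choose

theorem h88_exp_spec (σ : K ≃ₐ[ℚ] K) : σ ζ = ζ ^ h88_exp hζ σ :=
  (h88_exists_exp hζ σ).choose_spec

theorem h88_exp_mul_exp_inv (σ : K ≃ₐ[ℚ] K) :
    h88_exp hζ σ * h88_exp hζ σ⁻¹ ≡ 1 [MOD p] := by
  have h1 : ζ ^ (h88_exp hζ σ * h88_exp hζ σ⁻¹) = ζ ^ 1 := by
    have e1 := h88_exp_spec hζ σ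
    have e2 := h88_exp_spec hζ σ⁻¹
    have : σ⁻¹ (σ ζ) = ζ := by
      change σ.symm (σ ζ) = ζ
      simp
    rw [e1, map_pow, e2, ← pow_mul] at this
    rw [pow_one, mul_comm]
    exact this
  have hζ0 : ζ ≠ 0 := hζ.ne_zero (Fact.out : p.Prime).ne_zero
  have h2 : ζ ^ ((h88_exp hζ σ * h88_exp hζ σ⁻¹ : ℕ) : ℤ) = ζ ^ ((1 : ℕ) : ℤ) := by
    rw [zpow_natCast, zpow_natCast]; exact h1
  have h3 : ζ ^ (((1 : ℕ) : ℤ) - ((h88_exp hζ σ * h88_exp hζ σ⁻¹ : ℕ) : ℤ)) = 1 := by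
    rw [zpow_sub₀ hζ0, h2, div_self (zpow_ne_zero _ hζ0)]
  rw [hζ.zpow_eq_one_iff_dvd] at h3
  exact (Nat.modEq_iff_dvd).mpr h3

theorem h88_exp_sq_mul_exp_inv_sq (σ : K ≃ₐ[ℚ] K) :
    h88_exp hζ σ ^ 2 * h88_exp hζ σ⁻¹ ^ 2 ≡ 1 [MOD p] := by
  have h := (h88_exp_mul_exp_inv hζ σ).pow 2
  rw [one_pow, mul_pow] at h
  exact h

omit [NumberField K] in
theorem h88_exists_int_of_pow {x : K} {n : ℕ} (hn : 0 < n) (y : 𝓞 K)
    (h : x ^ n = algebraMap (𝓞 K) K y) : ∃ x' : 𝓞 K, algebraMap (𝓞 K) K x' = x := by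
  have hx : IsIntegral ℤ x := by
    apply IsIntegral.of_pow hn
    rw [h]
    exact y.isIntegral_coe
  exact ⟨⟨x, hx⟩, rfl⟩

/-- Integral form of the eigen-property of a unit. -/
theorem h88_unit_eig_int (u : (𝓞 K)ˣ)
    (hu_eig : ∀ (σ : K ≃ₐ[ℚ] K) (a : ℕ), σ ζ = ζ ^ a →
      ∃ x : K, σ ((u : 𝓞 K) : K) = ((u : 𝓞 K) : K) ^ (a ^ 2) * x ^ p)
    (σ : K ≃ₐ[ℚ] K) :
    ∃ η : 𝓞 K, σ • (u : 𝓞 K) = (u : 𝓞 K) ^ (h88_exp hζ σ ^ 2) * η ^ p := by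
  have hp : 0 < p := (Fact.out : p.Prime).pos
  obtain ⟨x, hx⟩ := hu_eig σ (h88_exp hζ σ) (h88_exp_spec hζ σ)
  -- `x ^ p` is integral
  have hxp : x ^ p = algebraMap (𝓞 K) K
      ((σ • (u : 𝓞 K)) * ((u⁻¹ : (𝓞 K)ˣ) : 𝓞 K) ^ (h88_exp hζ σ ^ 2)) := by
    have e1 : algebraMap (𝓞 K) K (σ • (u : 𝓞 K)) = σ ((u : 𝓞 K) : K) := rfl
    have e2 : algebraMap (𝓞 K) K (u : 𝓞 K) * algebraMap (𝓞 K) K ((u⁻¹ : (𝓞 K)ˣ) : 𝓞 K) = 1 := by
      rw [← map_mul, Units.mul_inv, map_one]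
    rw [map_mul, map_pow, e1, hx, mul_comm _ (x ^ p), mul_assoc, ← mul_pow]
    erw [e2]
    rw [one_pow, mul_one]
  obtain ⟨η, hη⟩ := h88_exists_int_of_pow hp _ hxp
  refine ⟨η, ?_⟩
  apply FaithfulSMul.algebraMap_injective (𝓞 K) K
  have e1 : algebraMap (𝓞 K) K (σ • (u : 𝓞 K)) = σ ((u : 𝓞 K) : K) := rfl
  rw [e1, hx, map_mul, map_pow, map_pow]
  congr 2
  exact hη.symm

end Cyc

section Good

variable {p : ℕ} [Fact p.Prime] {K : Type} [Field K] [NumberField K]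
  [IsCyclotomicExtension {p} ℚ K] {ζ : K} (hζ : IsPrimitiveRoot ζ p)

/-- The endomorphism `E = ∏ σ, σ ^ (exp σ⁻¹)²` of the class group. -/
noncomputable def h88_E : ClassGroup (𝓞 K) →* ClassGroup (𝓞 K) where
  toFun x := ∏ σ : K ≃ₐ[ℚ] K, (h88_clMap (h88_galInt σ) x) ^ (h88_exp hζ σ⁻¹ ^ 2)
  map_one' := by simp
  map_mul' x y := by simp [mul_pow, Finset.prod_mul_distrib]

omit [IsCyclotomicExtension {p} ℚ K] in
theorem h88_E_apply (x : ClassGroup (𝓞 K)) :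
    h88_E hζ x = ∏ σ : K ≃ₐ[ℚ] K, (h88_clMap (h88_galInt σ) x) ^ (h88_exp hζ σ⁻¹ ^ 2) := rfl

omit [Fact p.Prime] [IsCyclotomicExtension {p} ℚ K] in
theorem h88_clMap_cl (σ : K ≃ₐ[ℚ] K) {I : Ideal (𝓞 K)} (hI : I ≠ ⊥) :
    h88_clMap (h88_galInt σ) (h88_cl I) = h88_cl (σ • I) := by
  have hσI : σ • I ≠ ⊥ := by
    intro h
    apply hI
    have := congrArg (fun J => σ⁻¹ • J) h
    simpa using this
  rw [h88_cl_of_mem (h88_mem_nzd hI), h88_cl_of_mem (h88_mem_nzd hσI), h88_clMap_mk0]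
  rfl

omit [Fact p.Prime] [IsCyclotomicExtension {p} ℚ K] in
theorem h88_smul_intCast (σ : K ≃ₐ[ℚ] K) (t : ℤ) : σ • (t : 𝓞 K) = (t : 𝓞 K) :=
  map_intCast (MulSemiringAction.toRingHom (K ≃ₐ[ℚ] K) (𝓞 K) σ) t

omit [Fact p.Prime] [IsCyclotomicExtension {p} ℚ K] in
theorem h88_smul_natCast (σ : K ≃ₐ[ℚ] K) (t : ℕ) : σ • (t : 𝓞 K) = (t : 𝓞 K) :=
  map_natCast (MulSemiringAction.toRingHom (K ≃ₐ[ℚ] K) (𝓞 K) σ) t

omit [Fact p.Prime] [IsCyclotomicExtension {p} ℚ K] [NumberField K] in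
/-- A prime of `𝓞 K` containing the rational prime `r` lies over `(r)`. -/
theorem h88_liesOver (r : ℕ) (hr : r.Prime) (𝔮 : Ideal (𝓞 K)) [𝔮.IsPrime] (h : (r : 𝓞 K) ∈ 𝔮) :
    𝔮.LiesOver (Ideal.span {(r : ℤ)}) := by
  constructor
  have hmax : (Ideal.span {(r : ℤ)}).IsMaximal :=
    PrincipalIdealRing.isMaximal_of_irreducible
      (Nat.prime_iff_prime_int.mp hr).irreducible
  have hle : Ideal.span {(r : ℤ)} ≤ Ideal.under ℤ 𝔮 := by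
    rw [Ideal.span_singleton_le_iff_mem, Ideal.under_def, Ideal.mem_comap]
    simpa using h
  have hne : Ideal.under ℤ 𝔮 ≠ ⊤ := by
    intro htop
    have h1 : (1 : ℤ) ∈ Ideal.under ℤ 𝔮 := htop ▸ Submodule.mem_top
    rw [Ideal.under_def, Ideal.mem_comap, map_one] at h1
    exact (Ideal.IsPrime.ne_top inferInstance) ((Ideal.eq_top_iff_one 𝔮).mpr h1)
  exact hmax.eq_of_le hne hle

omit [Fact p.Prime] [IsCyclotomicExtension {p} ℚ K] in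
/-- The orbit of a prime `𝔯 ∋ r` under the Galois group is the set of all primes containing
`r`. -/
theorem h88_mem_orbit_iff [IsGalois ℚ K] [DecidableEq (Ideal (𝓞 K))] (r : ℕ) (hr : r.Prime) (𝔯 : Ideal (𝓞 K))
    [𝔯.IsPrime] (hr𝔯 : (r : 𝓞 K) ∈ 𝔯) (𝔮 : Ideal (𝓞 K)) :
    𝔮 ∈ Finset.univ.image (fun σ : K ≃ₐ[ℚ] K => σ • 𝔯) ↔ 𝔮.IsPrime ∧ (r : 𝓞 K) ∈ 𝔮 := by
  constructor
  · intro h
    obtain ⟨σ, -, rfl⟩ := Finset.mem_image.mp h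
    refine ⟨inferInstance, ?_⟩
    have := Ideal.smul_mem_pointwise_smul σ _ 𝔯 hr𝔯
    rwa [h88_smul_natCast] at this
  · rintro ⟨h𝔮, hr𝔮⟩
    have h1 := h88_liesOver r hr 𝔯 hr𝔯
    have h2 := h88_liesOver r hr 𝔮 hr𝔮
    obtain ⟨σ, hσ⟩ := Ideal.exists_smul_eq_of_isGaloisGroup (Ideal.span {(r : ℤ)}) 𝔯 𝔮
      (K ≃ₐ[ℚ] K)
    exact Finset.mem_image.mpr ⟨σ, Finset.mem_univ _, hσ⟩

/-- **Thaine consumption**: for a good prime `𝔯`, the element `E [𝔯]` is a `p`-th power in the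
class group. -/
theorem h88_E_good_prime (u : (𝓞 K)ˣ)
    (hT : ∀ (r : ℕ) [Fact r.Prime], r % p = 1 → ∃ t : ℤ, ∀ j : ℕ, ¬ p ∣ j →
      ∃ (c : 𝓞 K) (𝔟 : Ideal (𝓞 K)) (e : Ideal (𝓞 K) → ℕ), c ≠ 0 ∧
        (∀ S : Finset (Ideal (𝓞 K)), (∀ 𝔮, 𝔮 ∈ S ↔ 𝔮.IsPrime ∧ (r : 𝓞 K) ∈ 𝔮) →
          Ideal.span {c} = 𝔟 ^ (r - 1) * ∏ 𝔮 ∈ S, 𝔮 ^ e 𝔮) ∧
        ∀ 𝔮 : Ideal (𝓞 K), 𝔮.IsPrime → (r : 𝓞 K) ∈ 𝔮 →
          hζ.toInteger ^ j - 1 - (t : 𝓞 K) ^ e 𝔮 ∈ 𝔮)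
    (hu_prod : ∃ (m : ℕ → ℕ) (M : ℕ), p ∣ M ∧
      (u : 𝓞 K) * (hζ.toInteger - 1) ^ M = ∏ j ∈ Finset.Ico 1 p, (hζ.toInteger ^ j - 1) ^ m j)
    (hu_eig : ∀ (σ : K ≃ₐ[ℚ] K) (a : ℕ), σ ζ = ζ ^ a →
      ∃ x : K, σ ((u : 𝓞 K) : K) = ((u : 𝓞 K) : K) ^ (a ^ 2) * x ^ p)
    (𝔯 : Ideal (𝓞 K)) [𝔯.IsPrime] (h𝔯0 : 𝔯 ≠ ⊥) (hv1 : (Ideal.absNorm 𝔯).Prime)
    (hv2 : (p : 𝓞 K) ∉ 𝔯) (hv3 : ¬ ∃ w : 𝓞 K, (u : 𝓞 K) - w ^ p ∈ 𝔯) :
    ∃ z, h88_E hζ (h88_cl 𝔯) = z ^ p := by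
  classical
  have hp : p.Prime := Fact.out
  have hgal : IsGalois ℚ K := IsCyclotomicExtension.isGalois {p} ℚ K
  obtain ⟨m, M, hpM, hprod⟩ := hu_prod
  set r := Ideal.absNorm 𝔯 with hr_def
  have : Fact r.Prime := ⟨hv1⟩
  have hr𝔯 : (r : 𝓞 K) ∈ 𝔯 := Ideal.absNorm_mem 𝔯
  have hrp : r % p = 1 := h88_absNorm_mod hζ 𝔯 h𝔯0 hv2
  have hr0 : (r : 𝓞 K) ≠ 0 := by exact_mod_cast hv1.ne_zero
  obtain ⟨t, ht⟩ := hT r hrp
  choose! c 𝔟 e hc hS hcong using ht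
  -- the set of primes over `r` as the Galois orbit of `𝔯`
  set S : Finset (Ideal (𝓞 K)) := Finset.univ.image (fun σ : K ≃ₐ[ℚ] K => σ • 𝔯) with hS_def
  have hSmem : ∀ 𝔮, 𝔮 ∈ S ↔ 𝔮.IsPrime ∧ (r : 𝓞 K) ∈ 𝔮 := h88_mem_orbit_iff r hv1 𝔯 hr𝔯
  have hSne : ∀ 𝔮 ∈ S, 𝔮 ≠ ⊥ := by
    intro 𝔮 h𝔮 h0
    have := ((hSmem 𝔮).mp h𝔮).2
    rw [h0, Ideal.mem_bot] at this
    exact hr0 this
  have hJ : ∀ j ∈ Finset.Ico 1 p, ¬ p ∣ j := by
    intro j hj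
    rw [Finset.mem_Ico] at hj
    exact Nat.not_dvd_of_pos_of_lt hj.1 hj.2
  have h1J : 1 ∈ Finset.Ico 1 p := Finset.mem_Ico.mpr ⟨le_rfl, hp.one_lt⟩
  -- total exponents
  set e' : Ideal (𝓞 K) → ℕ := fun 𝔮 => ∑ j ∈ Finset.Ico 1 p, m j * e j 𝔮 with he'_def
  -- (★): congruence for every prime `𝔮 ∋ r`
  have hstar : ∀ 𝔮 : Ideal (𝓞 K), 𝔮.IsPrime → (r : 𝓞 K) ∈ 𝔮 →
      (u : 𝓞 K) * (t : 𝓞 K) ^ (e 1 𝔮 * M) - (t : 𝓞 K) ^ e' 𝔮 ∈ 𝔮 := by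
    intro 𝔮 h𝔮 hr𝔮
    have hq : ∀ j ∈ Finset.Ico 1 p, Ideal.Quotient.mk 𝔮 (hζ.toInteger ^ j - 1) =
        Ideal.Quotient.mk 𝔮 (t : 𝓞 K) ^ e j 𝔮 := by
      intro j hj
      rw [← map_pow]
      exact Ideal.Quotient.eq.mpr (hcong j (hJ j hj) 𝔮 h𝔮 hr𝔮)
    have h1 := congrArg (Ideal.Quotient.mk 𝔮) hprod
    rw [map_mul, map_pow, map_prod] at h1
    have h2 : Ideal.Quotient.mk 𝔮 (hζ.toInteger - 1) = Ideal.Quotient.mk 𝔮 (t : 𝓞 K) ^ e 1 𝔮 := by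
      have := hq 1 h1J
      rwa [pow_one] at this
    rw [h2, ← pow_mul] at h1
    have h3 : ∏ j ∈ Finset.Ico 1 p, Ideal.Quotient.mk 𝔮 ((hζ.toInteger ^ j - 1) ^ m j) =
        Ideal.Quotient.mk 𝔮 (t : 𝓞 K) ^ e' 𝔮 := by
      rw [he'_def, ← Finset.prod_pow_eq_pow_sum]
      apply Finset.prod_congr rfl
      intro j hj
      rw [map_pow, hq j hj, ← pow_mul, mul_comm]
    rw [h3] at h1
    apply Ideal.Quotient.eq.mp
    rw [map_mul, map_pow, map_pow]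
    exact h1
  -- class relation
  have hrel : ∃ w : ClassGroup (𝓞 K), ∏ 𝔮 ∈ S, h88_cl 𝔮 ^ e' 𝔮 = w ^ p := by
    set C : 𝓞 K := ∏ j ∈ Finset.Ico 1 p, c j ^ m j with hC_def
    set B : Ideal (𝓞 K) := ∏ j ∈ Finset.Ico 1 p, 𝔟 j ^ m j with hB_def
    have hC0 : C ≠ 0 := Finset.prod_ne_zero_iff.mpr fun j hj => pow_ne_zero _ (hc j (hJ j hj))
    have hspan : Ideal.span {C} = B ^ (r - 1) * ∏ 𝔮 ∈ S, 𝔮 ^ e' 𝔮 := by
      rw [hC_def, ← Ideal.prod_span_singleton]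
      have h1 : ∀ j ∈ Finset.Ico 1 p, Ideal.span {c j ^ m j} =
          (𝔟 j ^ m j) ^ (r - 1) * ∏ 𝔮 ∈ S, 𝔮 ^ (m j * e j 𝔮) := by
        intro j hj
        rw [← Ideal.span_singleton_pow, hS j (hJ j hj) S hSmem, mul_pow, ← pow_mul, ← pow_mul,
          mul_comm (r - 1) (m j), ← Finset.prod_pow]
        congr 1
        apply Finset.prod_congr rfl
        intro 𝔮 _
        rw [← pow_mul, mul_comm]
      rw [Finset.prod_congr rfl h1, Finset.prod_mul_distrib, Finset.prod_pow, Finset.prod_comm]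
      congr 1
      apply Finset.prod_congr rfl
      intro 𝔮 _
      rw [Finset.prod_pow_eq_pow_sum]
    have hspan0 : Ideal.span {C} ≠ (⊥ : Ideal (𝓞 K)) := by
      simpa [Ideal.span_singleton_eq_bot] using hC0
    have hr1 : r - 1 ≠ 0 := by have := hv1.two_le; omega
    have hB0 : B ≠ ⊥ := by
      intro h
      apply hspan0
      rw [hspan, h]
      change (0 : Ideal (𝓞 K)) ^ (r - 1) * _ = 0
      rw [zero_pow hr1, zero_mul]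
    have hcl := congrArg h88_cl hspan
    rw [h88_cl_span_singleton hC0, h88_cl_mul (pow_ne_zero _ hB0)
      (Finset.prod_ne_zero_iff.mpr fun 𝔮 h𝔮 => pow_ne_zero _ (hSne 𝔮 h𝔮)), h88_cl_pow hB0,
      h88_cl_prod S _ (fun 𝔮 h𝔮 => pow_ne_zero _ (hSne 𝔮 h𝔮))] at hcl
    have hcl' : ∏ 𝔮 ∈ S, h88_cl 𝔮 ^ e' 𝔮 = (h88_cl B ^ (r - 1))⁻¹ := by
      have h2 : ∏ 𝔮 ∈ S, h88_cl (𝔮 ^ e' 𝔮) = ∏ 𝔮 ∈ S, h88_cl 𝔮 ^ e' 𝔮 :=
        Finset.prod_congr rfl (fun 𝔮 h𝔮 => h88_cl_pow (hSne 𝔮 h𝔮) _)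
      rw [h2] at hcl
      rw [eq_inv_iff_mul_eq_one, mul_comm]
      exact hcl.symm
    obtain ⟨k, hk⟩ : p ∣ r - 1 := by
      have := Nat.div_add_mod r p
      rw [hrp] at this
      exact ⟨r / p, by omega⟩
    refine ⟨(h88_cl B ^ k)⁻¹, ?_⟩
    rw [hcl', hk, inv_pow, ← pow_mul, mul_comm]
  -- exponent congruences from the residue field of `𝔯`
  have hexp : ¬ p ∣ e' 𝔯 ∧
      ∀ σ : K ≃ₐ[ℚ] K, e' (σ • 𝔯) ≡ e' 𝔯 * (h88_exp hζ σ⁻¹ ^ 2) [MOD p] := by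
    have hmax : 𝔯.IsMaximal := Ideal.IsPrime.isMaximal inferInstance h𝔯0
    let _ : Field (𝓞 K ⧸ 𝔯) := Ideal.Quotient.field 𝔯
    set π := Ideal.Quotient.mk 𝔯 with hπ
    have hυ0 : π (u : 𝓞 K) ≠ 0 := by
      intro h
      rw [Ideal.Quotient.eq_zero_iff_mem] at h
      exact (Ideal.IsPrime.ne_top inferInstance) (Ideal.eq_top_of_isUnit_mem _ h u.isUnit)
    have h1 : π (u : 𝓞 K) * π (t : 𝓞 K) ^ (e 1 𝔯 * M) = π (t : 𝓞 K) ^ e' 𝔯 := by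
      have := Ideal.Quotient.eq.mpr (hstar 𝔯 inferInstance hr𝔯)
      rwa [map_mul, map_pow, map_pow] at this
    have hυ : ∀ y : 𝓞 K ⧸ 𝔯, y ^ p ≠ π (u : 𝓞 K) := by
      intro y hy
      obtain ⟨w, rfl⟩ := Ideal.Quotient.mk_surjective y
      apply hv3
      refine ⟨w, ?_⟩
      apply Ideal.Quotient.eq.mp
      rw [map_pow]
      exact hy.symm
    have hτ0 : π (t : 𝓞 K) ≠ 0 := by
      intro h
      by_cases h10 : e 1 𝔯 = 0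
      · rw [h10, zero_mul, pow_zero, mul_one] at h1
        by_cases h20 : e' 𝔯 = 0
        · rw [h20, pow_zero] at h1
          exact hυ 1 (by rw [one_pow, h1])
        · rw [h, zero_pow h20] at h1
          exact hυ0 h1
      · apply hv2
        have hmem : hζ.toInteger - 1 ∈ 𝔯 := by
          have h3 := hcong 1 (hJ 1 h1J) 𝔯 inferInstance hr𝔯
          rw [pow_one] at h3
          have h4 : (t : 𝓞 K) ^ e 1 𝔯 ∈ 𝔯 := by
            rw [← Ideal.Quotient.eq_zero_iff_mem, map_pow, h, zero_pow h10]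
          have := 𝔯.add_mem h3 h4
          rwa [sub_add_cancel] at this
        obtain ⟨w, hw⟩ := hζ.toInteger_sub_one_dvd_prime'
        rw [hw]
        exact Ideal.mul_mem_right _ _ hmem
    -- the statements for each `σ`
    have hσ : ∀ σ : K ≃ₐ[ℚ] K, ¬ p ∣ e' 𝔯 ∧
        e' (σ • 𝔯) ≡ e' 𝔯 * (h88_exp hζ σ⁻¹ ^ 2) [MOD p] := by
      intro σ
      obtain ⟨η, hη⟩ := h88_unit_eig_int hζ u hu_eig σ⁻¹
      have hr𝔮 : (r : 𝓞 K) ∈ σ • 𝔯 := ((hSmem (σ • 𝔯)).mp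
        (Finset.mem_image.mpr ⟨σ, Finset.mem_univ _, rfl⟩)).2
      have h2 := hstar (σ • 𝔯) inferInstance hr𝔮
      rw [Ideal.mem_pointwise_smul_iff_inv_smul_mem, smul_sub, smul_mul', smul_pow', smul_pow',
        h88_smul_intCast, hη] at h2
      have h2' := Ideal.Quotient.eq.mpr h2
      rw [map_mul, map_mul, map_pow, map_pow, map_pow, map_pow] at h2'
      exact h88_exponent_field p (π (u : 𝓞 K)) (π (t : 𝓞 K)) (π η) hυ0 hτ0 hυ (e' 𝔯) (e' (σ • 𝔯))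
        (h88_exp hζ σ⁻¹ ^ 2) (e 1 𝔯 * M) (e 1 (σ • 𝔯) * M) (dvd_mul_of_dvd_right hpM _)
        (dvd_mul_of_dvd_right hpM _) h1 h2'
    exact ⟨(hσ 1).1, fun σ => (hσ σ).2⟩
  -- conclusion in the quotient of the class group by `p`-th powers
  obtain ⟨w, hw⟩ := hrel
  set P : Subgroup (ClassGroup (𝓞 K)) := (powMonoidHom p : ClassGroup (𝓞 K) →* _).range with hP
  set q := QuotientGroup.mk' P with hq
  have hqp : ∀ x : ClassGroup (𝓞 K), q (x ^ p) = 1 := by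
    intro x
    exact (QuotientGroup.eq_one_iff _).mpr ⟨x, rfl⟩
  have hexpQ : ∀ x : ClassGroup (𝓞 K) ⧸ P, x ^ p = 1 := by
    intro x
    obtain ⟨x, rfl⟩ := QuotientGroup.mk'_surjective P x
    rw [← map_pow]
    exact hqp x
  have hX : q (h88_E hζ (h88_cl 𝔯)) =
      ∏ σ : K ≃ₐ[ℚ] K, q (h88_cl (σ • 𝔯)) ^ (h88_exp hζ σ⁻¹ ^ 2) := by
    rw [h88_E_apply, map_prod]
    apply Finset.prod_congr rfl
    intro σ _
    rw [map_pow, h88_clMap_cl σ h𝔯0]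
  have hXe : q (h88_E hζ (h88_cl 𝔯)) ^ e' 𝔯 = 1 := by
    rw [hX, ← Finset.prod_pow]
    have h1 : ∀ σ ∈ (Finset.univ : Finset (K ≃ₐ[ℚ] K)),
        (q (h88_cl (σ • 𝔯)) ^ (h88_exp hζ σ⁻¹ ^ 2)) ^ e' 𝔯 =
          q (h88_cl (σ • 𝔯) ^ e' (σ • 𝔯)) := by
      intro σ _
      rw [← pow_mul, map_pow]
      apply h88_pow_eq_pow_of_modEq (hexpQ _)
      rw [mul_comm]
      exact (hexp.2 σ).symm
    rw [Finset.prod_congr rfl h1, ← map_prod,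
      h88_prod_orbit 𝔯 (fun 𝔮 => h88_cl 𝔮 ^ e' 𝔮), hw, ← pow_mul, mul_comm, pow_mul, hqp]
  have hcop : Nat.Coprime (e' 𝔯) p :=
    ((Nat.Prime.coprime_iff_not_dvd hp).mpr hexp.1).symm
  have hX1 : q (h88_E hζ (h88_cl 𝔯)) = 1 :=
    h88_eq_one_of_pow_eq_one_of_coprime (hexpQ _) hXe hcop
  obtain ⟨z, hz⟩ := (QuotientGroup.eq_one_iff _).mp hX1
  exact ⟨z, hz.symm⟩

end Good

/-- A proper subgroup containing all `p`-th powers is killed by a nontrivial character of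
exponent `p`. -/
theorem h88_exists_char {G : Type*} [CommGroup G] [Finite G] (p : ℕ) (H : Subgroup G)
    (hH : H ≠ ⊤) (hpow : ∀ x : G, x ^ p ∈ H) :
    ∃ ψ : G →* ℂˣ, ψ ≠ 1 ∧ ψ ^ p = 1 ∧ ∀ h ∈ H, ψ h = 1 := by
  obtain ⟨a, ha⟩ : ∃ a : G, a ∉ H := by
    by_contra hcon
    exact hH (eq_top_iff.mpr fun x _ => not_not.mp (not_exists.mp hcon x))
  have hne : (QuotientGroup.mk' H a) ≠ 1 := by
    intro h
    exact ha ((QuotientGroup.eq_one_iff a).mp h)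
  have : NeZero (Monoid.exponent (G ⧸ H)) := ⟨Monoid.exponent_ne_zero_of_finite⟩
  obtain ⟨φ, hφ⟩ := CommGroup.exists_apply_ne_one_of_hasEnoughRootsOfUnity (G ⧸ H) ℂ hne
  refine ⟨φ.comp (QuotientGroup.mk' H), ?_, ?_, ?_⟩
  · intro h
    apply hφ
    have := DFunLike.congr_fun h a
    simpa using this
  · ext x
    have hx : QuotientGroup.mk' H (x ^ p) = 1 := (QuotientGroup.eq_one_iff _).mpr (hpow x)
    have : (φ.comp (QuotientGroup.mk' H)) x ^ p = 1 := by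
      rw [← map_pow, MonoidHom.comp_apply, hx, map_one]
    simp only [MonoidHom.pow_apply, MonoidHom.one_apply, Units.val_one]
    rw [this]
    rfl
  · intro h hh
    have hx : QuotientGroup.mk' H h = 1 := (QuotientGroup.eq_one_iff _).mpr hh
    rw [MonoidHom.comp_apply, hx, map_one]

section Final

variable {p : ℕ} [Fact p.Prime] {K : Type} [Field K] [NumberField K]
  [IsCyclotomicExtension {p} ℚ K] {ζ : K} (hζ : IsPrimitiveRoot ζ p)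

omit [IsCyclotomicExtension {p} ℚ K] [NumberField K] in
/-- If `(α) = 𝔞 ^ p` with `𝔞` principal, then `α` is a unit times a `p`-th power. -/
theorem h88_unit_mul_pow_of_isPrincipal (α : 𝓞 K) (hα : α ≠ 0) (𝔞 : Ideal (𝓞 K))
    (h𝔞 : Ideal.span {α} = 𝔞 ^ p) (hprin : 𝔞.IsPrincipal) :
    ∃ (ε : (𝓞 K)ˣ) (β : 𝓞 K), β ≠ 0 ∧ α = ε * β ^ p := by
  have hp0 : p ≠ 0 := (Fact.out : p.Prime).ne_zero
  obtain ⟨⟨β, hβ⟩⟩ := hprin
  have hβ' : 𝔞 = Ideal.span {β} := hβ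
  rw [hβ', Ideal.span_singleton_pow, Ideal.span_singleton_eq_span_singleton] at h𝔞
  obtain ⟨ε, hε⟩ := h𝔞
  refine ⟨ε⁻¹, β, ?_, ?_⟩
  · rintro rfl
    rw [zero_pow hp0] at hε
    exact hα (by simpa using hε)
  · rw [← hε, mul_comm, mul_assoc, Units.mul_inv, mul_one]

omit [IsCyclotomicExtension {p} ℚ K] in
/-- The class of `𝔞` is inverted by `E`, when `(α) = 𝔞 ^ p` and `α` is `ω²`-eigen. -/
theorem h88_E_eigen_class [IsCyclotomicExtension {p} ℚ K] (α : 𝓞 K) (hα : α ≠ 0)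
    (eig : ∀ (σ : K ≃ₐ[ℚ] K) (m : ℕ), σ ζ = ζ ^ m →
      ∃ γ : K, σ (α : K) = (α : K) ^ (m ^ 2) * γ ^ p)
    (𝔞 : (Ideal (𝓞 K))⁰) (h𝔞 : Ideal.span {α} = (𝔞 : Ideal (𝓞 K)) ^ p) :
    ClassGroup.mk0 𝔞 ^ p = 1 ∧ h88_E hζ (ClassGroup.mk0 𝔞) = (ClassGroup.mk0 𝔞)⁻¹ := by
  have hp : p.Prime := Fact.out
  have hy : ClassGroup.mk0 𝔞 ^ p = 1 := by
    rw [← map_pow, ClassGroup.mk0_eq_one_iff]
    exact ⟨⟨α, by rw [SubmonoidClass.coe_pow, ← h𝔞]⟩⟩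
  refine ⟨hy, ?_⟩
  have hgal : IsGalois ℚ K := IsCyclotomicExtension.isGalois {p} ℚ K
  have hcard : Fintype.card (K ≃ₐ[ℚ] K) = p - 1 := by
    rw [← Nat.card_eq_fintype_card, IsGalois.card_aut_eq_finrank,
      IsCyclotomicExtension.finrank (n := p) K
        (Polynomial.cyclotomic.irreducible_rat hp.pos), Nat.totient_prime hp]
  have h1 : ∀ σ ∈ (Finset.univ : Finset (K ≃ₐ[ℚ] K)),
      (h88_clMap (h88_galInt σ) (ClassGroup.mk0 𝔞)) ^ (h88_exp hζ σ⁻¹ ^ 2) = ClassGroup.mk0 𝔞 := by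
    intro σ _
    obtain ⟨γ, hγ⟩ := eig σ (h88_exp hζ σ) (h88_exp_spec hζ σ)
    rw [h88_clMap_eq_pow_of_eig hp.ne_zero α hα 𝔞 h𝔞 σ _ γ hγ, ← pow_mul]
    conv_rhs => rw [← pow_one (ClassGroup.mk0 𝔞)]
    exact h88_pow_eq_pow_of_modEq hy (h88_exp_sq_mul_exp_inv_sq hζ σ)
  rw [h88_E_apply, Finset.prod_congr rfl h1, Finset.prod_const, Finset.card_univ, hcard,
    eq_inv_iff_mul_eq_one, ← pow_succ, Nat.sub_add_cancel hp.one_le, hy]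

/-- **Module C, stage 1.** -/
theorem h88_exists_unit_mul_pow_of (p : ℕ) [Fact p.Prime] (K : Type) [Field K] [NumberField K]
    [IsCyclotomicExtension {p} ℚ K] {ζ : K} (hζ : IsPrimitiveRoot ζ p) (u : (𝓞 K)ˣ)
    (hT : ∀ (r : ℕ) [Fact r.Prime], r % p = 1 → ∃ t : ℤ, ∀ j : ℕ, ¬ p ∣ j →
      ∃ (c : 𝓞 K) (𝔟 : Ideal (𝓞 K)) (e : Ideal (𝓞 K) → ℕ), c ≠ 0 ∧
        (∀ S : Finset (Ideal (𝓞 K)), (∀ 𝔮, 𝔮 ∈ S ↔ 𝔮.IsPrime ∧ (r : 𝓞 K) ∈ 𝔮) →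
          Ideal.span {c} = 𝔟 ^ (r - 1) * ∏ 𝔮 ∈ S, 𝔮 ^ e 𝔮) ∧
        ∀ 𝔮 : Ideal (𝓞 K), 𝔮.IsPrime → (r : 𝓞 K) ∈ 𝔮 →
          hζ.toInteger ^ j - 1 - (t : 𝓞 K) ^ e 𝔮 ∈ 𝔮)
    (hu_prod : ∃ (m : ℕ → ℕ) (M : ℕ), p ∣ M ∧
      (u : 𝓞 K) * (hζ.toInteger - 1) ^ M = ∏ j ∈ Finset.Ico 1 p, (hζ.toInteger ^ j - 1) ^ m j)
    (hu_eig : ∀ (σ : K ≃ₐ[ℚ] K) (a : ℕ), σ ζ = ζ ^ a →
      ∃ x : K, σ ((u : 𝓞 K) : K) = ((u : 𝓞 K) : K) ^ (a ^ 2) * x ^ p)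
    (hG : ∀ ψ : ClassGroup (𝓞 K) →* ℂˣ, ψ ≠ 1 → ψ ^ p = 1 →
      ∃ v : IsDedekindDomain.HeightOneSpectrum (𝓞 K), (Ideal.absNorm v.asIdeal).Prime ∧
        (p : 𝓞 K) ∉ v.asIdeal ∧ (¬ ∃ w : 𝓞 K, (u : 𝓞 K) - w ^ p ∈ v.asIdeal) ∧
        ∀ h : v.asIdeal ∈ (Ideal (𝓞 K))⁰, ψ (ClassGroup.mk0 ⟨v.asIdeal, h⟩) ≠ 1)
    (α : 𝓞 K) (hα : α ≠ 0)
    (eig : ∀ (σ : K ≃ₐ[ℚ] K) (m : ℕ), σ ζ = ζ ^ m →
      ∃ γ : K, σ (α : K) = (α : K) ^ (m ^ 2) * γ ^ p)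
    (hsing : ∃ 𝔞 : Ideal (𝓞 K), Ideal.span {α} = 𝔞 ^ p) :
    ∃ (ε : (𝓞 K)ˣ) (β : 𝓞 K), β ≠ 0 ∧ α = ε * β ^ p := by
  have hp : p.Prime := Fact.out
  obtain ⟨𝔞, h𝔞⟩ := hsing
  have h𝔞0 : 𝔞 ≠ ⊥ := by
    rintro rfl
    have h0 : Ideal.span {α} = (⊥ : Ideal (𝓞 K)) := by
      rw [h𝔞]
      change (0 : Ideal (𝓞 K)) ^ p = 0
      exact zero_pow hp.ne_zero
    exact hα (Ideal.span_singleton_eq_bot.mp h0)
  refine h88_unit_mul_pow_of_isPrincipal α hα 𝔞 h𝔞 ?_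
  rw [← ClassGroup.mk0_eq_one_iff (h88_mem_nzd h𝔞0)]
  obtain ⟨hy, hEy⟩ := h88_E_eigen_class hζ α hα eig ⟨𝔞, h88_mem_nzd h𝔞0⟩ h𝔞
  -- the set of classes of good primes
  set W : Set (ClassGroup (𝓞 K)) := {x | ∃ 𝔯 : Ideal (𝓞 K), 𝔯.IsPrime ∧ 𝔯 ≠ ⊥ ∧
    (Ideal.absNorm 𝔯).Prime ∧ (p : 𝓞 K) ∉ 𝔯 ∧ (¬ ∃ w : 𝓞 K, (u : 𝓞 K) - w ^ p ∈ 𝔯) ∧
    x = h88_cl 𝔯} with hW_def
  have hW : Subgroup.closure W ⊔ (powMonoidHom p : ClassGroup (𝓞 K) →* _).range = ⊤ := by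
    by_contra hH
    obtain ⟨ψ, hψ1, hψp, hψH⟩ := h88_exists_char p _ hH
      (fun x => Subgroup.mem_sup_right ⟨x, rfl⟩)
    obtain ⟨v, hv1, hv2, hv3, hv4⟩ := hG ψ hψ1 hψp
    have hv0 : v.asIdeal ∈ (Ideal (𝓞 K))⁰ := h88_mem_nzd v.ne_bot
    apply hv4 hv0
    apply hψH
    apply Subgroup.mem_sup_left
    apply Subgroup.subset_closure
    exact ⟨v.asIdeal, v.isPrime, v.ne_bot, hv1, hv2, hv3, (h88_cl_of_mem hv0).symm⟩
  have hE : ∀ w ∈ W, ∃ z, h88_E hζ w = z ^ p := by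
    rintro w ⟨𝔯, h𝔯p, h𝔯0, hv1, hv2, hv3, rfl⟩
    exact h88_E_good_prime hζ u hT hu_prod hu_eig 𝔯 h𝔯0 hv1 hv2 hv3
  exact h88_eq_one_of_pow_eq_one_of_map_eq_inv p (h88_E hζ) W hW hE _ hy hEy

end Final

end Fermat.Agent.S14
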