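import Mathlib

/-!
# Counting lattice points with an error term

`h87_Thin m Z` : the set `Z` can be covered, for every `N ≥ 1`, by at most `C * N ^ m`
closed balls of radius `1 / N` (box-counting dimension at most `m`).

Main result `h87_card_lattice_smul_error` : if `S` is bounded, measurable and its frontier is
`(n-1)`-thin (`n = dim E`), then the number of lattice points in `t • S` is
`t ^ n * vol S / covol + O(t ^ (n-1))`.
-/

namespace Fermat.Agent.S14

open Metric Set MeasureTheory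
open scoped Pointwise

/-- `Z` can be covered, for every `N ≥ 1`, by at most `C * N ^ m` closed balls of radius `1/N`. -/
def h87_Thin {E : Type*} [PseudoMetricSpace E] (m : ℕ) (Z : Set E) : Prop :=
  ∃ C : ℝ, ∀ N : ℕ, 0 < N → ∃ s : Finset E, (s.card : ℝ) ≤ C * (N : ℝ) ^ m ∧
    Z ⊆ ⋃ c ∈ s, closedBall c (1 / (N : ℝ))

theorem h87_Thin.mono {E : Type*} [PseudoMetricSpace E] {m : ℕ} {Z Z' : Set E}
    (h : h87_Thin m Z') (hZ : Z ⊆ Z') : h87_Thin m Z := by
  obtain ⟨C, hC⟩ := h
  refine ⟨C, fun N hN => ?_⟩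
  obtain ⟨s, hs, hcov⟩ := hC N hN
  exact ⟨s, hs, hZ.trans hcov⟩

theorem h87_Thin.iUnion {E : Type*} [PseudoMetricSpace E] {m : ℕ} {κ : Type*} [Finite κ]
    {Z : κ → Set E} (h : ∀ k, h87_Thin m (Z k)) : h87_Thin m (⋃ k, Z k) := by
  classical
  cases nonempty_fintype κ
  choose C hC using h
  refine ⟨∑ k, C k, fun N hN => ?_⟩
  have key := fun k => hC k N hN
  choose s hs hcov using key
  refine ⟨Finset.univ.biUnion s, ?_, ?_⟩
  · calc ((Finset.univ.biUnion s).card : ℝ) ≤ ((∑ k, (s k).card : ℕ) : ℝ) := by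
          exact_mod_cast Finset.card_biUnion_le
      _ = ∑ k, ((s k).card : ℝ) := by push_cast; rfl
      _ ≤ ∑ k, C k * (N : ℝ) ^ m := Finset.sum_le_sum fun k _ => hs k
      _ = (∑ k, C k) * (N : ℝ) ^ m := by rw [Finset.sum_mul]
  · intro x hx
    obtain ⟨k, hk⟩ := mem_iUnion.mp hx
    have h1 := hcov k hk
    simp only [mem_iUnion, exists_prop] at h1 ⊢
    obtain ⟨c, hc, hxc⟩ := h1
    exact ⟨c, Finset.mem_biUnion.mpr ⟨k, Finset.mem_univ _, hc⟩, hxc⟩

theorem h87_Thin.union {E : Type*} [PseudoMetricSpace E] {m : ℕ} {Z₁ Z₂ : Set E}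
    (h₁ : h87_Thin m Z₁) (h₂ : h87_Thin m Z₂) : h87_Thin m (Z₁ ∪ Z₂) := by
  rw [union_eq_iUnion]
  exact h87_Thin.iUnion fun b => by cases b <;> simpa

theorem h87_Thin.image {E F : Type*} [PseudoMetricSpace E] [PseudoMetricSpace F] {m : ℕ}
    {Z : Set E} (h : h87_Thin m Z) {K : NNReal} {f : E → F} (hf : LipschitzOnWith K f Z) :
    h87_Thin m (f '' Z) := by
  classical
  obtain ⟨C, hC⟩ := h
  set k₀ : ℕ := ⌈2 * (K : ℝ)⌉₊ + 1 with hk₀
  have hk₀pos : 0 < k₀ := Nat.succ_pos _
  have hk₀le : 2 * (K : ℝ) ≤ (k₀ : ℝ) := by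
    have := Nat.le_ceil (2 * (K : ℝ))
    rw [hk₀]; push_cast; linarith
  refine ⟨C * (k₀ : ℝ) ^ m, fun N hN => ?_⟩
  obtain ⟨s, hs, hcov⟩ := hC (k₀ * N) (Nat.mul_pos hk₀pos hN)
  set r : ℝ := 1 / ((k₀ * N : ℕ) : ℝ) with hr
  let g : E → F := fun c =>
    if hne : (closedBall c r ∩ Z).Nonempty then f hne.some else f c
  refine ⟨s.image g, ?_, ?_⟩
  · calc ((s.image g).card : ℝ) ≤ (s.card : ℝ) := by exact_mod_cast Finset.card_image_le
      _ ≤ C * (((k₀ * N : ℕ) : ℝ)) ^ m := hs
      _ = C * (k₀ : ℝ) ^ m * (N : ℝ) ^ m := by push_cast; ring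
  · rintro _ ⟨x, hx, rfl⟩
    have h1 := hcov hx
    simp only [mem_iUnion, exists_prop] at h1 ⊢
    obtain ⟨c, hc, hxc⟩ := h1
    refine ⟨g c, Finset.mem_image_of_mem g hc, ?_⟩
    have hne : (closedBall c r ∩ Z).Nonempty := ⟨x, hxc, hx⟩
    have hz := hne.some_mem
    have hg : g c = f hne.some := dif_pos hne
    rw [hg, mem_closedBall]
    have hd : dist x hne.some ≤ 2 * r := by
      have h2 : dist x c ≤ r := mem_closedBall.mp hxc
      have h3 : dist hne.some c ≤ r := mem_closedBall.mp hz.1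
      calc dist x hne.some ≤ dist x c + dist c hne.some := dist_triangle _ _ _
        _ ≤ r + r := by rw [dist_comm c]; exact add_le_add h2 h3
        _ = 2 * r := by ring
    have hN' : (0 : ℝ) < N := Nat.cast_pos.mpr hN
    have hk' : (0 : ℝ) < k₀ := Nat.cast_pos.mpr hk₀pos
    calc dist (f x) (f hne.some) ≤ K * dist x hne.some := hf.dist_le_mul x hx _ hz.2
      _ ≤ K * (2 * r) := by gcongr
      _ = 2 * K / (k₀ * N) := by rw [hr]; push_cast; ring
      _ ≤ k₀ / (k₀ * N) := by gcongr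
      _ = 1 / N := by field_simp

/-- A face `{x j = a}` of the unit cube is `(card ι - 1)`-thin. -/
theorem h87_thin_face {ι : Type*} [Fintype ι] [DecidableEq ι] (j : ι) (a : ℝ) :
    h87_Thin (Fintype.card ι - 1) {x : ι → ℝ | x j = a ∧ ∀ i, x i ∈ Icc (0 : ℝ) 1} := by
  refine ⟨(2 : ℝ) ^ (Fintype.card ι - 1), fun N hN => ?_⟩
  have hN' : (0 : ℝ) < N := Nat.cast_pos.mpr hN
  let P : Finset (ι → ℕ) :=
    Fintype.piFinset (fun i => if i = j then ({0} : Finset ℕ) else Finset.range (N + 1))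
  let φ : (ι → ℕ) → (ι → ℝ) := fun k i => if i = j then a else (k i : ℝ) / N
  refine ⟨P.image φ, ?_, ?_⟩
  · have hcard : P.card = (N + 1) ^ (Fintype.card ι - 1) := by
      rw [Fintype.card_piFinset]
      have : ∀ i : ι, (if i = j then ({0} : Finset ℕ) else Finset.range (N + 1)).card
          = if i = j then 1 else N + 1 := by
        intro i; split_ifs <;> simp
      simp_rw [this]
      rw [Finset.prod_ite, Finset.prod_const_one, one_mul, Finset.prod_const]
      congr 1
      rw [Finset.filter_ne' Finset.univ j, Finset.card_erase_of_mem (Finset.mem_univ j),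
        Finset.card_univ]
    calc ((P.image φ).card : ℝ) ≤ (P.card : ℝ) := by exact_mod_cast Finset.card_image_le
      _ = ((N : ℝ) + 1) ^ (Fintype.card ι - 1) := by rw [hcard]; push_cast; rfl
      _ ≤ (2 * (N : ℝ)) ^ (Fintype.card ι - 1) := by
          gcongr
          have : (1 : ℝ) ≤ N := by exact_mod_cast hN
          linarith
      _ = (2 : ℝ) ^ (Fintype.card ι - 1) * (N : ℝ) ^ (Fintype.card ι - 1) := mul_pow _ _ _
  · rintro x ⟨hxj, hx⟩
    simp only [mem_iUnion, exists_prop]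
    let k : ι → ℕ := fun i => if i = j then 0 else ⌊(N : ℝ) * x i⌋₊
    refine ⟨φ k, Finset.mem_image_of_mem φ ?_, ?_⟩
    · rw [Fintype.mem_piFinset]
      intro i
      by_cases hi : i = j
      · simp [k, hi]
      · simp only [k, hi, if_false, Finset.mem_range]
        have h1 : (N : ℝ) * x i ≤ N := by
          have := (hx i).2
          nlinarith
        have h2 : ⌊(N : ℝ) * x i⌋₊ ≤ N := by
          exact Nat.floor_le_of_le h1
        omega
    · rw [mem_closedBall, dist_pi_le_iff (by positivity)]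
      intro i
      by_cases hi : i = j
      · simp only [φ, hi, if_true, hxj, dist_self]
        positivity
      · simp only [φ, k, hi, if_false]
        have h0 : 0 ≤ (N : ℝ) * x i := mul_nonneg hN'.le (hx i).1
        have h1 : (⌊(N : ℝ) * x i⌋₊ : ℝ) ≤ (N : ℝ) * x i := Nat.floor_le h0
        have h2 : (N : ℝ) * x i < ⌊(N : ℝ) * x i⌋₊ + 1 := Nat.lt_floor_add_one _
        rw [Real.dist_eq, abs_le]
        constructor
        · have : (⌊(N : ℝ) * x i⌋₊ : ℝ) / N ≤ x i := by
            rw [div_le_iff₀ hN']; linarith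
          have h3 : (0 : ℝ) ≤ 1 / N := by positivity
          linarith
        · have : x i - (⌊(N : ℝ) * x i⌋₊ : ℝ) / N = ((N : ℝ) * x i - ⌊(N : ℝ) * x i⌋₊) / N := by
            field_simp
          rw [this]
          gcongr
          linarith

/-! ### Cells of a lattice given by a basis -/

section cells

variable {E : Type*} [NormedAddCommGroup E] [NormedSpace ℝ E]
  {ι : Type*} [Fintype ι] (b : Module.Basis ι ℝ E)

/-- The integer coordinates of the cell containing `x`. -/
noncomputable def h87_idx (x : E) : ι → ℤ := fun i => ⌊b.repr x i⌋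

/-- The lattice point with integer coordinates `ν`. -/
noncomputable def h87_pt (ν : ι → ℤ) : E := b.equivFun.symm (fun i => (ν i : ℝ))

theorem h87_repr_pt (ν : ι → ℤ) (i : ι) : b.repr (h87_pt b ν) i = ν i := by
  have := b.equivFun.apply_symm_apply (fun i => (ν i : ℝ))
  exact congrFun this i

theorem h87_idx_pt (ν : ι → ℤ) : h87_idx b (h87_pt b ν) = ν := by
  funext i
  simp [h87_idx, h87_repr_pt]

theorem h87_pt_injective : Function.Injective (h87_pt b) := fun ν ν' h => by
  rw [← h87_idx_pt b ν, ← h87_idx_pt b ν', h]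

theorem h87_mem_span_iff (x : E) :
    x ∈ Submodule.span ℤ (Set.range b) ↔ ∃ ν : ι → ℤ, h87_pt b ν = x := by
  rw [b.mem_span_iff_repr_mem ℤ]
  constructor
  · intro h
    choose ν hν using h
    refine ⟨ν, ?_⟩
    apply b.equivFun.injective
    rw [h87_pt, LinearEquiv.apply_symm_apply]
    funext i
    rw [Module.Basis.equivFun_apply, ← hν i]
    rfl
  · rintro ⟨ν, rfl⟩ i
    exact ⟨ν i, (h87_repr_pt b ν i).symm⟩

theorem h87_idx_sub_pt (x : E) (ν : ι → ℤ) : h87_idx b (x - h87_pt b ν) = h87_idx b x - ν := by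
  funext i
  simp [h87_idx, h87_repr_pt, Int.floor_sub_intCast]

omit [Fintype ι] in
theorem h87_idx_eq_zero_iff (x : E) : h87_idx b x = 0 ↔ x ∈ ZSpan.fundamentalDomain b := by
  rw [ZSpan.mem_fundamentalDomain, funext_iff]
  refine forall_congr' fun i => ?_
  simp only [h87_idx, Pi.zero_apply, Int.floor_eq_zero_iff]

theorem h87_cell_eq (ν : ι → ℤ) :
    {x : E | h87_idx b x = ν} = (fun x => x + (-h87_pt b ν)) ⁻¹' (ZSpan.fundamentalDomain b) := by
  ext x
  rw [mem_preimage, ← h87_idx_eq_zero_iff, ← sub_eq_add_neg, h87_idx_sub_pt, sub_eq_zero]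
  rfl

theorem h87_measure_cell [MeasurableSpace E] [BorelSpace E] (μ : Measure E)
    [μ.IsAddHaarMeasure] (ν : ι → ℤ) :
    μ {x : E | h87_idx b x = ν} = μ (ZSpan.fundamentalDomain b) := by
  rw [h87_cell_eq, measure_preimage_add_right]

theorem h87_measurableSet_cell [FiniteDimensional ℝ E] [MeasurableSpace E] [BorelSpace E]
    (ν : ι → ℤ) : MeasurableSet {x : E | h87_idx b x = ν} := by
  rw [h87_cell_eq]
  exact (ZSpan.fundamentalDomain_measurableSet b).preimage (measurable_add_const _)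

/-- The cells are convex: the segment between two points of a cell stays in the cell. -/
theorem h87_segment_subset_cell {x y : E} (h : h87_idx b x = h87_idx b y) :
    segment ℝ x y ⊆ {z : E | h87_idx b z = h87_idx b x} := by
  rintro z ⟨s, t, hs, ht, hst, rfl⟩
  funext i
  have hk : h87_idx b x i = ⌊b.repr x i⌋ := rfl
  have hx : b.repr x i ∈ Ico ((h87_idx b x i : ℤ) : ℝ) (h87_idx b x i + 1) :=
    Int.floor_eq_iff.mp rfl
  have hy : b.repr y i ∈ Ico ((h87_idx b x i : ℤ) : ℝ) (h87_idx b x i + 1) := by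
    rw [h]; exact Int.floor_eq_iff.mp rfl
  rw [hk] at hx hy
  simp only [h87_idx]
  rw [Int.floor_eq_iff]
  simp only [map_add, map_smul, Finsupp.coe_add, Finsupp.coe_smul, Pi.add_apply, Pi.smul_apply,
    smul_eq_mul]
  have hs' : s = 1 - t := by linarith
  subst hs'
  constructor
  · nlinarith [mul_nonneg hs (sub_nonneg.2 hx.1), mul_nonneg ht (sub_nonneg.2 hy.1)]
  · rcases eq_or_lt_of_le ht with h0 | h0
    · subst h0; simpa using hx.2
    · nlinarith [mul_nonneg hs (sub_nonneg.2 hx.2.le), mul_pos h0 (sub_pos.2 hy.2)]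

/-- A cell meeting both `A` and its complement meets the frontier of `A`. -/
theorem h87_exists_mem_frontier {A : Set E} {x y : E} (hx : x ∈ A) (hy : y ∉ A)
    (h : h87_idx b x = h87_idx b y) : ∃ z ∈ frontier A, h87_idx b z = h87_idx b x := by
  by_contra hcon
  push Not at hcon
  have hseg := h87_segment_subset_cell b h
  have hpre : IsPreconnected (segment ℝ x y) := (convex_segment x y).isPreconnected
  have hsub : segment ℝ x y ⊆ interior A ∪ (closure A)ᶜ := by
    intro z hz
    by_contra hz'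
    rw [mem_union, not_or, mem_compl_iff, not_not] at hz'
    exact hcon z ⟨hz'.2, hz'.1⟩ (hseg hz)
  have hdisj : Disjoint (interior A) (closure A)ᶜ :=
    disjoint_compl_right.mono_left (interior_subset.trans subset_closure)
  rcases hpre.subset_or_subset isOpen_interior isClosed_closure.isOpen_compl hdisj hsub with h1 | h1
  · exact hy (interior_subset (h1 (right_mem_segment ℝ x y)))
  · exact h1 (left_mem_segment ℝ x y) (subset_closure hx)

/-- The number of cells meeting a set contained in a ball of radius `δ` is bounded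
independently of the center. -/
theorem h87_ncard_idx_image_le [FiniteDimensional ℝ E] (δ : ℝ) :
    ∃ M : ℕ, ∀ (c : E) (T : Set E), T ⊆ closedBall c δ →
      (h87_idx b '' T).Finite ∧ (h87_idx b '' T).ncard ≤ M := by
  classical
  set R : ℝ := ‖(b.equivFunL : E →L[ℝ] ι → ℝ)‖ * |δ| with hR
  have hR0 : 0 ≤ R := by positivity
  refine ⟨(⌈2 * R⌉₊ + 2) ^ Fintype.card ι, fun c T hT => ?_⟩
  let P : Finset (ι → ℤ) :=
    Fintype.piFinset (fun i => Finset.Icc ⌊b.repr c i - R⌋ ⌊b.repr c i + R⌋)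
  have hsub : h87_idx b '' T ⊆ (P : Set (ι → ℤ)) := by
    rintro _ ⟨x, hx, rfl⟩
    rw [Finset.mem_coe, Fintype.mem_piFinset]
    intro i
    have h1 : dist x c ≤ δ := mem_closedBall.mp (hT hx)
    have h2 : |b.repr x i - b.repr c i| ≤ R := by
      have h3 : b.repr x i - b.repr c i = (b.equivFunL : E →L[ℝ] ι → ℝ) (x - c) i := by
        simp [Module.Basis.equivFunL]
      rw [h3]
      calc |(b.equivFunL : E →L[ℝ] ι → ℝ) (x - c) i|
          = ‖(b.equivFunL : E →L[ℝ] ι → ℝ) (x - c) i‖ := (Real.norm_eq_abs _).symm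
        _ ≤ ‖(b.equivFunL : E →L[ℝ] ι → ℝ) (x - c)‖ := norm_le_pi_norm _ i
        _ ≤ ‖(b.equivFunL : E →L[ℝ] ι → ℝ)‖ * ‖x - c‖ := ContinuousLinearMap.le_opNorm _ _
        _ ≤ ‖(b.equivFunL : E →L[ℝ] ι → ℝ)‖ * |δ| := by
            gcongr
            rw [← dist_eq_norm]
            exact h1.trans (le_abs_self δ)
    rw [abs_le] at h2
    rw [Finset.mem_Icc]
    exact ⟨Int.floor_le_floor (by linarith), Int.floor_le_floor (by linarith)⟩
  have hPcard : P.card ≤ (⌈2 * R⌉₊ + 2) ^ Fintype.card ι := by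
    rw [Fintype.card_piFinset]
    calc ∏ i, (Finset.Icc ⌊b.repr c i - R⌋ ⌊b.repr c i + R⌋).card
        ≤ ∏ _i : ι, (⌈2 * R⌉₊ + 2) := by
          refine Finset.prod_le_prod' fun i _ => ?_
          rw [Int.card_Icc]
          have h1 : (⌊b.repr c i + R⌋ : ℝ) ≤ b.repr c i + R := Int.floor_le _
          have h2 : b.repr c i - R < ⌊b.repr c i - R⌋ + 1 := Int.lt_floor_add_one _
          have h3 : 2 * R ≤ (⌈2 * R⌉₊ : ℝ) := Nat.le_ceil _
          have h4 : ((⌊b.repr c i + R⌋ + 1 - ⌊b.repr c i - R⌋ : ℤ) : ℝ)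
              < ((⌈2 * R⌉₊ + 2 : ℕ) : ℤ) + 1 := by
            push_cast; linarith
          have h5 : ⌊b.repr c i + R⌋ + 1 - ⌊b.repr c i - R⌋ < ((⌈2 * R⌉₊ + 2 : ℕ) : ℤ) + 1 := by
            exact_mod_cast h4
          omega
      _ = (⌈2 * R⌉₊ + 2) ^ Fintype.card ι := by
          rw [Finset.prod_const, Finset.card_univ]
  refine ⟨P.finite_toSet.subset hsub, ?_⟩
  calc (h87_idx b '' T).ncard ≤ (P : Set (ι → ℤ)).ncard := ncard_le_ncard hsub P.finite_toSet
    _ = P.card := ncard_coe_finset P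
    _ ≤ _ := hPcard

end cells

/-! ### The sandwich estimate and the main counting theorem -/

section count

variable {E : Type*} [NormedAddCommGroup E] [NormedSpace ℝ E] [FiniteDimensional ℝ E]
  [MeasurableSpace E] [BorelSpace E]
  {ι : Type*} [Fintype ι] (b : Module.Basis ι ℝ E) (μ : Measure E) [μ.IsAddHaarMeasure]

theorem h87_measureReal_fundamentalDomain_pos : 0 < μ.real (ZSpan.fundamentalDomain b) := by
  have h1 : μ (ZSpan.fundamentalDomain b) ≠ 0 := ZSpan.measure_fundamentalDomain_ne_zero b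
  have h2 : μ (ZSpan.fundamentalDomain b) ≠ ⊤ :=
    (ZSpan.fundamentalDomain_isBounded b).measure_lt_top.ne
  exact ENNReal.toReal_pos h1 h2

theorem h87_finite_idx_image {A : Set E} (hA : Bornology.IsBounded A) :
    (h87_idx b '' A).Finite := by
  obtain ⟨R, hR⟩ := hA.subset_closedBall (0 : E)
  obtain ⟨M, hM⟩ := h87_ncard_idx_image_le b R
  exact (hM 0 A hR).1

/-- The number of lattice points in a bounded set `A` differs from `μ A / μ D` by at most the
number of cells meeting the frontier of `A`. -/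
theorem h87_abs_ncard_sub_le {A : Set E} (hA : Bornology.IsBounded A) :
    |(({ν : ι → ℤ | h87_pt b ν ∈ A}.ncard : ℝ)) - μ.real A / μ.real (ZSpan.fundamentalDomain b)|
      ≤ ((h87_idx b '' frontier A).ncard : ℝ) := by
  classical
  set D := ZSpan.fundamentalDomain b with hD
  have hDpos : 0 < μ.real D := h87_measureReal_fundamentalDomain_pos b μ
  have hDfin : μ D ≠ ⊤ := (ZSpan.fundamentalDomain_isBounded b).measure_lt_top.ne
  have hAfin : μ A ≠ ⊤ := hA.measure_lt_top.ne
  set O : Set (ι → ℤ) := h87_idx b '' A with hO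
  have hOfin : O.Finite := h87_finite_idx_image b hA
  set I : Set (ι → ℤ) := {ν ∈ O | {x : E | h87_idx b x = ν} ⊆ A} with hI
  have hIfin : I.Finite := hOfin.subset (sep_subset _ _)
  set P : Set (ι → ℤ) := {ν : ι → ℤ | h87_pt b ν ∈ A} with hP
  set F : Set (ι → ℤ) := h87_idx b '' frontier A with hF
  have hFfin : F.Finite := h87_finite_idx_image b (hA.closure.subset frontier_subset_closure)
  have hIP : I ⊆ P := fun ν hν => hν.2 (h87_idx_pt b ν)
  have hPO : P ⊆ O := fun ν hν => ⟨h87_pt b ν, hν, h87_idx_pt b ν⟩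
  have hOIF : O ⊆ I ∪ F := by
    rintro ν ⟨x, hx, rfl⟩
    by_cases hc : {y : E | h87_idx b y = h87_idx b x} ⊆ A
    · exact Or.inl ⟨⟨x, hx, rfl⟩, hc⟩
    · right
      rw [not_subset] at hc
      obtain ⟨y, hy, hyA⟩ := hc
      obtain ⟨z, hz, hzx⟩ := h87_exists_mem_frontier b hx hyA hy.symm
      exact ⟨z, hz, hzx⟩
  have hPfin : P.Finite := hOfin.subset hPO
  -- cardinalities
  have c1 : I.ncard ≤ P.ncard := ncard_le_ncard hIP hPfin
  have c2 : P.ncard ≤ O.ncard := ncard_le_ncard hPO hOfin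
  have c3 : O.ncard ≤ I.ncard + F.ncard :=
    (ncard_le_ncard hOIF (hIfin.union hFfin)).trans (ncard_union_le _ _)
  -- measures
  have m1 : μ.real A ≤ O.ncard * μ.real D := by
    have hsub : A ⊆ ⋃ ν ∈ hOfin.toFinset, {x : E | h87_idx b x = ν} := by
      intro x hx
      simp only [mem_iUnion, exists_prop]
      exact ⟨h87_idx b x, hOfin.mem_toFinset.mpr ⟨x, hx, rfl⟩, rfl⟩
    have h1 : μ A ≤ (hOfin.toFinset.card : ENNReal) * μ D := by
      calc μ A ≤ μ (⋃ ν ∈ hOfin.toFinset, {x : E | h87_idx b x = ν}) := measure_mono hsub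
        _ ≤ ∑ ν ∈ hOfin.toFinset, μ {x : E | h87_idx b x = ν} := measure_biUnion_finset_le _ _
        _ = (hOfin.toFinset.card : ENNReal) * μ D := by
            simp_rw [h87_measure_cell b μ]
            rw [Finset.sum_const, nsmul_eq_mul]
    have h2 : (μ A).toReal ≤ ((hOfin.toFinset.card : ENNReal) * μ D).toReal :=
      ENNReal.toReal_mono (ENNReal.mul_ne_top (ENNReal.natCast_ne_top _) hDfin) h1
    rw [ENNReal.toReal_mul, ENNReal.toReal_natCast, ← ncard_eq_toFinset_card O hOfin] at h2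
    exact h2
  have m2 : I.ncard * μ.real D ≤ μ.real A := by
    have hsub : (⋃ ν ∈ hIfin.toFinset, {x : E | h87_idx b x = ν}) ⊆ A := by
      intro x hx
      simp only [mem_iUnion, exists_prop] at hx
      obtain ⟨ν, hν, hxν⟩ := hx
      exact (hIfin.mem_toFinset.mp hν).2 hxν
    have hdisj : Set.PairwiseDisjoint (↑hIfin.toFinset) (fun ν => {x : E | h87_idx b x = ν}) := by
      intro ν _ ν' _ hne
      rw [Function.onFun, Set.disjoint_left]
      intro x hx hx'
      exact hne (hx.symm.trans hx')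
    have h1 : (hIfin.toFinset.card : ENNReal) * μ D ≤ μ A := by
      calc (hIfin.toFinset.card : ENNReal) * μ D
          = ∑ ν ∈ hIfin.toFinset, μ {x : E | h87_idx b x = ν} := by
            simp_rw [h87_measure_cell b μ]
            rw [Finset.sum_const, nsmul_eq_mul]
        _ = μ (⋃ ν ∈ hIfin.toFinset, {x : E | h87_idx b x = ν}) :=
            (measure_biUnion_finset hdisj (fun ν _ => h87_measurableSet_cell b ν)).symm
        _ ≤ μ A := measure_mono hsub
    have h2 : ((hIfin.toFinset.card : ENNReal) * μ D).toReal ≤ (μ A).toReal :=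
      ENNReal.toReal_mono hAfin h1
    rw [ENNReal.toReal_mul, ENNReal.toReal_natCast, ← ncard_eq_toFinset_card I hIfin] at h2
    exact h2
  have c1' : (I.ncard : ℝ) ≤ P.ncard := by exact_mod_cast c1
  have c2' : (P.ncard : ℝ) ≤ O.ncard := by exact_mod_cast c2
  have c3' : (O.ncard : ℝ) ≤ I.ncard + F.ncard := by exact_mod_cast c3
  have v1 : μ.real A / μ.real D ≤ O.ncard := by
    rw [div_le_iff₀ hDpos]; exact m1
  have v2 : (I.ncard : ℝ) ≤ μ.real A / μ.real D := by
    rw [le_div_iff₀ hDpos]; exact m2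
  rw [abs_le]
  constructor <;> linarith

theorem h87_frontier_smul {t : ℝ} (ht : t ≠ 0) (S : Set E) :
    frontier (t • S) = t • frontier S := by
  rw [frontier, frontier, closure_smul₀' ht, interior_smul₀ ht, smul_set_sdiff₀ ht]

/-- **Counting lattice points with an error term** (coordinates version). -/
theorem h87_ncard_smul_error {S : Set E} (hS : Bornology.IsBounded S)
    (hth : h87_Thin (Module.finrank ℝ E - 1) (frontier S)) :
    ∃ B : ℝ, ∀ t : ℝ, 1 ≤ t →
      |(({ν : ι → ℤ | h87_pt b ν ∈ t • S}.ncard : ℝ)) -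
          t ^ Module.finrank ℝ E * (μ.real S / μ.real (ZSpan.fundamentalDomain b))|
        ≤ B * t ^ (Module.finrank ℝ E - 1) := by
  classical
  obtain ⟨C, hC⟩ := hth
  obtain ⟨M, hM⟩ := h87_ncard_idx_image_le b 1
  set m := Module.finrank ℝ E - 1 with hm
  have hC0 : 0 ≤ C := by
    obtain ⟨s, hs, -⟩ := hC 1 one_pos
    have : (0 : ℝ) ≤ s.card := Nat.cast_nonneg _
    simpa using this.trans hs
  refine ⟨C * 2 ^ m * M, fun t ht => ?_⟩
  have ht0 : 0 < t := lt_of_lt_of_le one_pos ht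
  have hbound := h87_abs_ncard_sub_le b μ (hS.smul₀ t)
  have hvol : μ.real (t • S) = t ^ Module.finrank ℝ E * μ.real S := by
    rw [Measure.real, Measure.addHaar_smul_of_nonneg μ ht0.le, ENNReal.toReal_mul,
      ENNReal.toReal_ofReal (pow_nonneg ht0.le _)]
    rfl
  rw [hvol, mul_div_assoc] at hbound
  refine hbound.trans ?_
  -- bound the number of cells meeting the frontier
  set N : ℕ := ⌈t⌉₊ with hN
  have hNpos : 0 < N := Nat.ceil_pos.mpr ht0
  have htN : t ≤ N := Nat.le_ceil t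
  have hN2 : (N : ℝ) ≤ 2 * t := by
    have := Nat.ceil_lt_add_one ht0.le
    linarith
  obtain ⟨s, hs, hcov⟩ := hC N hNpos
  rw [h87_frontier_smul ht0.ne']
  have hsub : h87_idx b '' (t • frontier S) ⊆
      ⋃ c ∈ s, h87_idx b '' (t • (frontier S ∩ closedBall c (1 / (N : ℝ)))) := by
    rintro _ ⟨_, ⟨x, hx, rfl⟩, rfl⟩
    have h1 := hcov hx
    simp only [mem_iUnion, exists_prop] at h1 ⊢
    obtain ⟨c, hc, hxc⟩ := h1
    exact ⟨c, hc, t • x, ⟨x, ⟨hx, hxc⟩, rfl⟩, rfl⟩
  have hball : ∀ c : E, t • (frontier S ∩ closedBall c (1 / (N : ℝ))) ⊆ closedBall (t • c) 1 := by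
    rintro c _ ⟨x, ⟨-, hx⟩, rfl⟩
    rw [mem_closedBall] at hx ⊢
    rw [dist_smul₀, Real.norm_of_nonneg ht0.le]
    have hNr : (0 : ℝ) < N := Nat.cast_pos.mpr hNpos
    calc t * dist x c ≤ t * (1 / N) := by gcongr
      _ = t / N := by ring
      _ ≤ 1 := by rw [div_le_one hNr]; exact htN
  have hfin : ∀ c ∈ s, (h87_idx b '' (t • (frontier S ∩ closedBall c (1 / (N : ℝ))))).Finite :=
    fun c _ => (hM (t • c) _ (hball c)).1
  have hcard : (h87_idx b '' (t • frontier S)).ncard ≤ s.card * M := by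
    calc (h87_idx b '' (t • frontier S)).ncard
        ≤ (⋃ c ∈ s, h87_idx b '' (t • (frontier S ∩ closedBall c (1 / (N : ℝ))))).ncard :=
          ncard_le_ncard hsub (s.finite_toSet.biUnion hfin)
      _ ≤ ∑ c ∈ s, (h87_idx b '' (t • (frontier S ∩ closedBall c (1 / (N : ℝ))))).ncard :=
          Finset.set_ncard_biUnion_le s _
      _ ≤ ∑ _c ∈ s, M := Finset.sum_le_sum fun c _ => (hM (t • c) _ (hball c)).2
      _ = s.card * M := by rw [Finset.sum_const, smul_eq_mul]
  calc ((h87_idx b '' (t • frontier S)).ncard : ℝ) ≤ (s.card : ℝ) * M := by exact_mod_cast hcard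
    _ ≤ C * (N : ℝ) ^ m * M := by gcongr
    _ ≤ C * (2 * t) ^ m * M := by gcongr
    _ = C * 2 ^ m * M * t ^ m := by rw [mul_pow]; ring

omit [FiniteDimensional ℝ E] [MeasurableSpace E] [BorelSpace E] in
theorem h87_card_inter_span (A : Set E) :
    Nat.card ↑(A ∩ (Submodule.span ℤ (Set.range b) : Set E)) =
      {ν : ι → ℤ | h87_pt b ν ∈ A}.ncard := by
  rw [Nat.card_coe_set_eq, ← ncard_image_of_injective _ (h87_pt_injective b)]
  congr 1
  ext x
  simp only [mem_inter_iff, SetLike.mem_coe, h87_mem_span_iff, mem_image, mem_ofPred_eq]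
  constructor
  · rintro ⟨hx, ν, rfl⟩
    exact ⟨ν, hx, rfl⟩
  · rintro ⟨ν, hx, rfl⟩
    exact ⟨hx, ν, rfl⟩

/-- **Counting lattice points with an error term**: if `S` is bounded with `(n-1)`-thin frontier
(`n = dim E`) and `L` is a `ℤ`-lattice, then
`#(t • S ∩ L) = t ^ n * vol S / covol L + O(t ^ (n-1))` for `t ≥ 1`. -/
theorem h87_card_lattice_smul_error (L : Submodule ℤ E) [DiscreteTopology L] [IsZLattice ℝ L]
    {S : Set E} (hS : Bornology.IsBounded S)
    (hth : h87_Thin (Module.finrank ℝ E - 1) (frontier S)) :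
    ∃ B : ℝ, ∀ t : ℝ, 1 ≤ t →
      |(Nat.card ↑(t • S ∩ (L : Set E)) : ℝ) -
          t ^ Module.finrank ℝ E * (μ.real S / ZLattice.covolume L μ)|
        ≤ B * t ^ (Module.finrank ℝ E - 1) := by
  let b₀ := Module.Free.chooseBasis ℤ L
  obtain ⟨B, hB⟩ := h87_ncard_smul_error (b₀.ofZLatticeBasis ℝ L) μ hS hth
  refine ⟨B, fun t ht => ?_⟩
  have h1 := hB t ht
  rw [← h87_card_inter_span, b₀.ofZLatticeBasis_span ℝ L,
    ← ZLattice.covolume_eq_measure_fundamentalDomain L μ (ZLattice.isAddFundamentalDomain b₀ μ)]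
    at h1
  exact h1

end count

end Fermat.Agent.S14
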