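import Mathlib
import Fermat.Agent.S14.LatticeCount

/-!
# The frontier of `normLeOne K` is `(n-1)`-thin

We cover the frontier of `NumberField.mixedEmbedding.fundamentalCone.normLeOne K` by finitely many
images of faces of a unit cube under `C¹` (hence Lipschitz) maps.
-/

namespace Fermat.Agent.S14

open NumberField NumberField.InfinitePlace NumberField.mixedEmbedding
  NumberField.mixedEmbedding.fundamentalCone NumberField.Units
  NumberField.Units.dirichletUnitTheorem Set Metric

open scoped Classical

variable (K : Type*) [Field K] [NumberField K]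

/-- The index type of the parameter cube: one coordinate per infinite place (radial part) and one
angle per complex place. -/
abbrev h87_PIdx := InfinitePlace K ⊕ {w : InfinitePlace K // IsComplex w}

theorem h87_card_PIdx : Fintype.card (h87_PIdx K) = Module.finrank ℚ K := by
  rw [Fintype.card_sum, ← card_add_two_mul_card_eq_rank, card_eq_nrRealPlaces_add_nrComplexPlaces]
  unfold nrComplexPlaces nrRealPlaces
  ring

/-- The radial part: `c • expMapBasis (0, y)`. -/
noncomputable def h87_rad (x : h87_PIdx K → ℝ) : realSpace K :=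
  x (Sum.inl w₀) • expMapBasis (fun i => if i = w₀ then 0 else x (Sum.inl i))

/-- The parametrisation of (a piece of) the mixed space by the cube. -/
noncomputable def h87_G (σ : {w : InfinitePlace K // IsReal w} → Bool) (x : h87_PIdx K → ℝ) :
    mixedSpace K :=
  (fun w => (if σ w then 1 else -1) * h87_rad K x w.1,
   fun w => (h87_rad K x w.1 : ℂ) *
      Complex.exp (((2 * Real.pi * x (Sum.inr w) - Real.pi : ℝ) : ℂ) * Complex.I))

theorem h87_contDiff_expMapBasis (w : InfinitePlace K) :
    ContDiff ℝ 1 (fun x : realSpace K => (expMapBasis x : realSpace K) w) := by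
  have h : (fun x : realSpace K => (expMapBasis x : realSpace K) w) =
      fun x => Real.exp ((w.mult : ℝ)⁻¹ * ((completeBasis K).equivFunL.symm x) w) := by
    funext x; rfl
  rw [h]
  fun_prop

theorem h87_contDiff_rad (w : InfinitePlace K) :
    ContDiff ℝ 1 (fun x : h87_PIdx K → ℝ => h87_rad K x w) := by
  classical
  have h : (fun x : h87_PIdx K → ℝ => h87_rad K x w) =
      fun x => x (Sum.inl w₀) *
        (fun y : realSpace K => (expMapBasis y : realSpace K) w)
          (fun i => if i = w₀ then 0 else x (Sum.inl i)) := by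
    funext x
    simp only [h87_rad, Pi.smul_apply, smul_eq_mul]
  rw [h]
  refine (contDiff_apply ℝ ℝ _).mul ((h87_contDiff_expMapBasis K w).comp ?_)
  rw [contDiff_pi]
  intro i
  split_ifs
  · exact contDiff_const
  · exact contDiff_apply ℝ ℝ _

theorem h87_contDiff_G (σ : {w : InfinitePlace K // IsReal w} → Bool) :
    ContDiff ℝ 1 (h87_G K σ) := by
  unfold h87_G
  refine ContDiff.prodMk ?_ ?_
  · rw [contDiff_pi]
    intro w
    exact contDiff_const.mul (h87_contDiff_rad K w.1)
  · rw [contDiff_pi]
    intro w
    have h1 : ContDiff ℝ 1 (fun x : h87_PIdx K → ℝ => ((h87_rad K x w.1 : ℝ) : ℂ)) :=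
      Complex.ofRealCLM.contDiff.comp (h87_contDiff_rad K w.1)
    have h2 : ContDiff ℝ 1 (fun x : h87_PIdx K → ℝ =>
        (((2 * Real.pi * x (Sum.inr w) - Real.pi : ℝ) : ℂ))) := by
      refine Complex.ofRealCLM.contDiff.comp ?_
      exact (contDiff_const.mul (contDiff_apply ℝ ℝ _)).sub contDiff_const
    exact h1.mul (h2.mul contDiff_const).cexp

theorem h87_exists_lipschitzOn_G (σ : {w : InfinitePlace K // IsReal w} → Bool) :
    ∃ C : NNReal, LipschitzOnWith C (h87_G K σ) (Icc (0 : h87_PIdx K → ℝ) 1) :=
  (h87_contDiff_G K σ).locallyLipschitz.locallyLipschitzOn.exists_lipschitzOnWith_of_compact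
    isCompact_Icc

/-- The face `{x (inl j) = a}` of the parameter cube. -/
def h87_face (j : InfinitePlace K) (a : ℝ) : Set (h87_PIdx K → ℝ) :=
  {x | x (Sum.inl j) = a ∧ ∀ i, x i ∈ Icc (0 : ℝ) 1}

/-- The parameter attached to a point `x` of the mixed space with
`normAtAllPlaces x = expMapBasis p`. -/
noncomputable def h87_param (x : mixedSpace K) (p : realSpace K) : h87_PIdx K → ℝ :=
  Sum.elim (fun i => if i = w₀ then Real.exp (p w₀) else p i)
    (fun w => (Complex.arg (x.2 w) + Real.pi) / (2 * Real.pi))

theorem h87_rad_param (x : mixedSpace K) (p : realSpace K) :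
    h87_rad K (h87_param K x p) = expMapBasis p := by
  rw [expMapBasis_apply'' p, h87_rad]
  have h1 : h87_param K x p (Sum.inl w₀) = Real.exp (p w₀) := by simp [h87_param]
  have h2 : (fun i => if i = w₀ then (0 : ℝ) else h87_param K x p (Sum.inl i)) =
      fun i => if i = w₀ then 0 else p i := by
    funext i
    by_cases hi : i = w₀
    · simp [hi]
    · simp [hi, h87_param]
  rw [h1, h2]

theorem h87_G_param (x : mixedSpace K) (p : realSpace K)
    (hp : expMapBasis p = normAtAllPlaces x) :
    h87_G K (fun w => decide (0 ≤ x.1 w)) (h87_param K x p) = x := by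
  unfold h87_G
  rw [h87_rad_param, hp]
  refine Prod.ext ?_ ?_
  · funext w
    simp only [normAtAllPlaces_apply]
    rw [normAtPlace_apply_of_isReal w.2, Real.norm_eq_abs]
    by_cases h : 0 ≤ x.1 w
    · simp [h, abs_of_nonneg h]
    · simp only [h, decide_false, Bool.false_eq_true, if_false]
      rw [abs_of_neg (not_le.mp h)]
      ring
  · funext w
    simp only [normAtAllPlaces_apply]
    rw [normAtPlace_apply_of_isComplex w.2]
    have h1 : (2 * Real.pi * h87_param K x p (Sum.inr w) - Real.pi) = Complex.arg (x.2 w) := by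
      simp only [h87_param, Sum.elim_inr]
      field_simp
      ring
    rw [h1]
    exact Complex.norm_mul_exp_arg_mul_I (x.2 w)

theorem h87_param_mem_Icc (x : mixedSpace K) (p : realSpace K)
    (hp : p ∈ closure (paramSet K)) (i : h87_PIdx K) :
    h87_param K x p i ∈ Icc (0 : ℝ) 1 := by
  rw [closure_paramSet, mem_univ_pi] at hp
  rcases i with i | w
  · have hi := hp i
    by_cases h : i = w₀
    · subst h
      simp only [h87_param, Sum.elim_inl, if_true]
      simp only [if_true, mem_Iic] at hi
      exact ⟨(Real.exp_pos _).le, Real.exp_le_one_iff.mpr hi⟩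
    · simp only [h87_param, Sum.elim_inl, h, if_false]
      simpa [h] using hi
  · simp only [h87_param, Sum.elim_inr]
    have h1 := Complex.neg_pi_lt_arg (x.2 w)
    have h2 := Complex.arg_le_pi (x.2 w)
    have hpi := Real.pi_pos
    constructor
    · apply div_nonneg <;> linarith
    · rw [div_le_one (by linarith)]; linarith

theorem h87_frontier_normLeOne_subset :
    frontier (normLeOne K) ⊆ ⋃ (σ : {w : InfinitePlace K // IsReal w} → Bool),
      ⋃ (jb : InfinitePlace K × Bool),
        h87_G K σ '' h87_face K jb.1 (if jb.2 then 1 else 0) := by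
  intro x hx
  have hcl : normAtAllPlaces x ∈ compactSet K := closure_normLeOne_subset K hx.1
  have hint : normAtAllPlaces x ∉ expMapBasis '' interior (paramSet K) :=
    fun h => hx.2 (subset_interior_normLeOne K h)
  simp only [mem_iUnion]
  by_cases h0 : normAtAllPlaces x = 0
  · -- the vertex
    have hx0 : x = 0 := forall_normAtPlace_eq_zero_iff.mp fun w => congrFun h0 w
    refine ⟨fun _ => true, (w₀, false), 0, ⟨rfl, fun i => ⟨le_rfl, zero_le_one⟩⟩, ?_⟩
    rw [hx0]
    unfold h87_G h87_rad
    refine Prod.ext ?_ ?_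
    · funext w; simp
    · funext w; simp
  · rw [compactSet_eq_union] at hcl
    rcases hcl with hcl | hcl
    swap
    · exact (h0 hcl).elim
    obtain ⟨p, hp, hpx⟩ := hcl
    have hpint : p ∉ interior (paramSet K) := fun h => hint ⟨p, h, hpx⟩
    have hpcl := hp
    rw [closure_paramSet, mem_univ_pi] at hpcl
    rw [interior_paramSet, mem_univ_pi] at hpint
    push Not at hpint
    obtain ⟨j, hj⟩ := hpint
    have hmem := h87_param_mem_Icc K x p hp
    have hG := h87_G_param K x p hpx
    have hjcl := hpcl j
    by_cases hjw : j = w₀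
    · subst hjw
      simp only [if_true, mem_Iio, not_lt] at hj
      simp only [if_true, mem_Iic] at hjcl
      have hp0 : p w₀ = 0 := le_antisymm hjcl hj
      refine ⟨_, (w₀, true), h87_param K x p, ⟨?_, hmem⟩, hG⟩
      simp [h87_param, hp0]
    · simp only [hjw, if_false, mem_Ioo, not_and, not_lt] at hj
      simp only [hjw, if_false, mem_Icc] at hjcl
      rcases eq_or_lt_of_le hjcl.1 with h1 | h1
      · refine ⟨_, (j, false), h87_param K x p, ⟨?_, hmem⟩, hG⟩
        simp [h87_param, hjw, ← h1]
      · have h2 : p j = 1 := le_antisymm hjcl.2 (hj h1)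
        refine ⟨_, (j, true), h87_param K x p, ⟨?_, hmem⟩, hG⟩
        simp [h87_param, hjw, h2]

/-- **The frontier of `normLeOne K` is `(n-1)`-thin**, `n = [K : ℚ]`. -/
theorem h87_thin_frontier_normLeOne :
    h87_Thin (Module.finrank ℚ K - 1) (frontier (normLeOne K)) := by
  refine h87_Thin.mono ?_ (h87_frontier_normLeOne_subset K)
  refine h87_Thin.iUnion fun σ => h87_Thin.iUnion fun jb => ?_
  obtain ⟨C, hC⟩ := h87_exists_lipschitzOn_G K σ
  have hface : h87_Thin (Fintype.card (h87_PIdx K) - 1)
      (h87_face K jb.1 (if jb.2 then 1 else 0)) :=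
    h87_thin_face (Sum.inl jb.1) _
  rw [h87_card_PIdx] at hface
  refine hface.image (hC.mono ?_)
  rintro y ⟨-, hy⟩
  exact ⟨fun i => (hy i).1, fun i => (hy i).2⟩

end Fermat.Agent.S14
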