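import Mathlib
import Fermat.Agent.S14.NormLeOneFrontier

/-!
# Counting ideals in a class with a power-saving error term

`ideal_class_count_error` : for a number field `K` of degree `n` there are `κ > 0` and `B` with
`|#{I ∈ C : N I ≤ s} - κ s| ≤ B s ^ (1 - 1/n)` for every ideal class `C` and every `s ≥ 1`.

The reduction to a lattice point count follows Mathlib's
`NumberField.Ideal.tendsto_norm_le_and_mk_eq_div_atTop` (X. Roblot), whose first auxiliary step is
reproduced here because it is private there.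
-/

namespace Fermat.Agent.S14

open NumberField NumberField.InfinitePlace NumberField.mixedEmbedding
  NumberField.mixedEmbedding.fundamentalCone NumberField.Units Set Ideal MeasureTheory
open scoped nonZeroDivisors Pointwise Classical

variable (K : Type*) [Field K] [NumberField K]

theorem h87_card_class_eq {C : ClassGroup (𝓞 K)} {J : (Ideal (𝓞 K))⁰} {s : ℝ}
    (hJ : ClassGroup.mk0 J = C⁻¹) :
    Nat.card {I : (Ideal (𝓞 K))⁰ // absNorm (I : Ideal (𝓞 K)) ≤ s ∧ ClassGroup.mk0 I = C}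
      = Nat.card {I : (Ideal (𝓞 K))⁰ // (J : Ideal (𝓞 K)) ∣ I ∧
        Submodule.IsPrincipal (I : Ideal (𝓞 K)) ∧
        absNorm (I : Ideal (𝓞 K)) ≤ s * absNorm (J : Ideal (𝓞 K))} := by
  simp_rw [← nonZeroDivisors_dvd_iff_dvd_coe]
  refine Nat.card_congr ?_
  refine ((Equiv.dvd J).subtypeEquiv fun I ↦ ?_).trans
    (Equiv.subtypeSubtypeEquivSubtypeInter (fun I : (Ideal (𝓞 K))⁰ ↦ J ∣ I) _)
  rw [← ClassGroup.mk0_eq_one_iff (SetLike.coe_mem _)]
  simp_rw [Equiv.dvd_apply, Submonoid.coe_mul, ← Submonoid.mul_def, _root_.map_mul, hJ,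
    inv_mul_eq_one, Nat.cast_mul, mul_comm s, eq_comm, and_comm, and_congr_left_iff]
  exact fun _ ↦
    (mul_le_mul_iff_of_pos_left (Nat.cast_pos.mpr (absNorm_pos_of_nonZeroDivisors J))).symm

theorem h87_smul_normLeOne {c : ℝ} (hc : 0 < c) :
    c • normLeOne K =
      {x | x ∈ fundamentalCone K ∧ mixedEmbedding.norm x ≤ c ^ Module.finrank ℚ K} := by
  ext x
  rw [Set.mem_smul_set_iff_inv_smul_mem₀ hc.ne', mem_normLeOne,
    smul_mem_iff_mem (inv_ne_zero hc.ne'), mixedEmbedding.norm_smul,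
    abs_of_pos (inv_pos.mpr hc), inv_pow, inv_mul_le_iff₀ (pow_pos hc _), mul_one]
  rfl

theorem h87_card_idealSet_eq (J : (Ideal (𝓞 K))⁰) {c : ℝ} (hc : 0 < c) :
    Nat.card {a : idealSet K J //
        mixedEmbedding.norm (a : mixedSpace K) ≤ c ^ Module.finrank ℚ K} =
      Nat.card ↑(c • normLeOne K ∩
        (mixedEmbedding.idealLattice K (FractionalIdeal.mk0 K J) : Set (mixedSpace K))) := by
  have e1 : {a : idealSet K J //
      mixedEmbedding.norm (a : mixedSpace K) ≤ c ^ Module.finrank ℚ K} ≃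
      {x : mixedSpace K // x ∈ idealSet K J ∧
        mixedEmbedding.norm x ≤ c ^ Module.finrank ℚ K} :=
    Equiv.subtypeSubtypeEquivSubtypeInter (fun x => x ∈ idealSet K J)
      (fun x => mixedEmbedding.norm x ≤ c ^ Module.finrank ℚ K)
  have e2 : {x : mixedSpace K // x ∈ idealSet K J ∧
        mixedEmbedding.norm x ≤ c ^ Module.finrank ℚ K} ≃
      {x : mixedSpace K // x ∈ c • normLeOne K ∩
        (mixedEmbedding.idealLattice K (FractionalIdeal.mk0 K J) : Set (mixedSpace K))} :=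
    Equiv.subtypeEquivRight fun x => by
      rw [h87_smul_normLeOne K hc]
      simp only [idealSet, Set.mem_inter_iff, Set.mem_ofPred_eq]
      tauto
  exact Nat.card_congr (e1.trans e2)

/-- The common density of ideals in each class. -/
noncomputable def h87_kappa : ℝ :=
  (volume : Measure (mixedSpace K)).real (normLeOne K) /
    ((2⁻¹) ^ nrComplexPlaces K * √|(discr K : ℝ)| * torsionOrder K)

theorem h87_kappa_pos : 0 < h87_kappa K := by
  unfold h87_kappa
  have h1 : 0 < (volume : Measure (mixedSpace K)).real (normLeOne K) := by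
    rw [Measure.real, volume_normLeOne]
    simp only [ENNReal.toReal_mul, ENNReal.toReal_pow, ENNReal.toReal_ofNat, ENNReal.coe_toReal,
      ENNReal.toReal_ofReal (regulator_pos K).le]
    have := regulator_pos K
    have hpi : (0 : ℝ) < NNReal.pi := by simpa using Real.pi_pos
    positivity
  have h2 : (0 : ℝ) < torsionOrder K := Nat.cast_pos.mpr (torsionOrder_pos K)
  have h3 : 0 < √|(discr K : ℝ)| :=
    Real.sqrt_pos_of_pos (abs_pos.mpr (Int.cast_ne_zero.mpr (discr_ne_zero K)))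
  positivity

theorem h87_class_count_aux (J : (Ideal (𝓞 K))⁰) :
    ∃ B : ℝ, ∀ (C : ClassGroup (𝓞 K)), ClassGroup.mk0 J = C⁻¹ → ∀ s : ℝ, 1 ≤ s →
      |(Nat.card {I : (Ideal (𝓞 K))⁰ //
            absNorm (I : Ideal (𝓞 K)) ≤ s ∧ ClassGroup.mk0 I = C} : ℝ) - h87_kappa K * s|
        ≤ B * s ^ (1 - 1 / (Module.finrank ℚ K : ℝ)) := by
  set n := Module.finrank ℚ K with hn
  have hn0 : 0 < n := Module.finrank_pos
  have hnR : (0 : ℝ) < n := Nat.cast_pos.mpr hn0
  have hfr : Module.finrank ℝ (mixedSpace K) = n := mixedEmbedding.finrank K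
  obtain ⟨B, hB⟩ := h87_card_lattice_smul_error (volume : Measure (mixedSpace K))
    (mixedEmbedding.idealLattice K (FractionalIdeal.mk0 K J)) (isBounded_normLeOne K)
    (by rw [hfr]; exact h87_thin_frontier_normLeOne K)
  rw [hfr] at hB
  set NJ : ℝ := (absNorm (J : Ideal (𝓞 K)) : ℝ) with hNJ
  have hNJ1 : 1 ≤ NJ := by
    have h0 : 1 ≤ absNorm (J : Ideal (𝓞 K)) := absNorm_pos_of_nonZeroDivisors J
    rw [hNJ]
    exact_mod_cast h0
  have hNJ0 : 0 < NJ := lt_of_lt_of_le one_pos hNJ1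
  set w : ℝ := (torsionOrder K : ℝ) with hw
  have hw0 : 0 < w := Nat.cast_pos.mpr (torsionOrder_pos K)
  set a : ℝ := 1 - 1 / (n : ℝ) with ha
  refine ⟨|B| * NJ ^ a / w, fun C hJ s hs => ?_⟩
  have hs0 : 0 < s := lt_of_lt_of_le one_pos hs
  have hsN1 : 1 ≤ s * NJ := one_le_mul_of_one_le_of_one_le hs hNJ1
  have hsN0 : 0 ≤ s * NJ := by positivity
  set t : ℝ := (s * NJ) ^ ((n : ℝ)⁻¹) with ht
  have ht1 : 1 ≤ t := Real.one_le_rpow hsN1 (inv_nonneg.mpr hnR.le)
  have ht0 : 0 < t := lt_of_lt_of_le one_pos ht1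
  have htn : t ^ n = s * NJ := Real.rpow_inv_natCast_pow hsN0 hn0.ne'
  have htn1 : t ^ (n - 1) = (s * NJ) ^ a := by
    rw [ht, ← Real.rpow_natCast, ← Real.rpow_mul hsN0]
    congr 1
    rw [Nat.cast_sub hn0, ha]
    field_simp
    simp
  -- the cardinality identity
  have hcard : (Nat.card {I : (Ideal (𝓞 K))⁰ //
      absNorm (I : Ideal (𝓞 K)) ≤ s ∧ ClassGroup.mk0 I = C} : ℝ) * w =
      (Nat.card ↑(t • normLeOne K ∩
        (mixedEmbedding.idealLattice K (FractionalIdeal.mk0 K J) : Set (mixedSpace K))) : ℝ) := by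
    rw [h87_card_class_eq K hJ, ← h87_card_idealSet_eq K J ht0, htn,
      ← card_isPrincipal_dvd_norm_le K J (s * NJ), hw]
    push_cast
    rfl
  have hcov : ZLattice.covolume (mixedEmbedding.idealLattice K (FractionalIdeal.mk0 K J)) =
      NJ * (2⁻¹) ^ nrComplexPlaces K * √|(discr K : ℝ)| := by
    rw [covolume_idealLattice, FractionalIdeal.coe_mk0, FractionalIdeal.coeIdeal_absNorm,
      Rat.cast_natCast]
  have h1 := hB t ht1
  rw [← hcard, htn, htn1, hcov] at h1
  have hmain : s * NJ * ((volume : Measure (mixedSpace K)).real (normLeOne K) /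
      (NJ * (2⁻¹) ^ nrComplexPlaces K * √|(discr K : ℝ)|)) = h87_kappa K * s * w := by
    unfold h87_kappa
    have h3 : 0 < √|(discr K : ℝ)| :=
      Real.sqrt_pos_of_pos (abs_pos.mpr (Int.cast_ne_zero.mpr (discr_ne_zero K)))
    rw [← hw]
    field_simp
  rw [hmain] at h1
  have h2 : |(Nat.card {I : (Ideal (𝓞 K))⁰ //
      absNorm (I : Ideal (𝓞 K)) ≤ s ∧ ClassGroup.mk0 I = C} : ℝ) - h87_kappa K * s| * w
      ≤ B * (s * NJ) ^ a := by
    have h5 : |(Nat.card {I : (Ideal (𝓞 K))⁰ //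
        absNorm (I : Ideal (𝓞 K)) ≤ s ∧ ClassGroup.mk0 I = C} : ℝ) - h87_kappa K * s| * w =
        |(Nat.card {I : (Ideal (𝓞 K))⁰ //
          absNorm (I : Ideal (𝓞 K)) ≤ s ∧ ClassGroup.mk0 I = C} : ℝ) * w -
          h87_kappa K * s * w| := by
      rw [← sub_mul, abs_mul, abs_of_pos hw0]
    rw [h5]
    exact h1
  have h3 : B * (s * NJ) ^ a ≤ |B| * NJ ^ a * s ^ a := by
    rw [Real.mul_rpow hs0.le hNJ0.le]
    have : B ≤ |B| := le_abs_self B
    have hp : 0 ≤ s ^ a * NJ ^ a := by positivity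
    nlinarith
  rw [div_mul_eq_mul_div, le_div_iff₀ hw0]
  exact h2.trans h3

/-- **Ideal counting in a class with a power-saving error term.** -/
theorem ideal_class_count_error :
    ∃ κ B : ℝ, 0 < κ ∧ ∀ (C : ClassGroup (𝓞 K)) (s : ℝ), 1 ≤ s →
      |(Nat.card {I : (Ideal (𝓞 K))⁰ //
            absNorm (I : Ideal (𝓞 K)) ≤ s ∧ ClassGroup.mk0 I = C} : ℝ) - κ * s|
        ≤ B * s ^ (1 - 1 / (Module.finrank ℚ K : ℝ)) := by
  have hsurj := fun C : ClassGroup (𝓞 K) => ClassGroup.mk0_surjective C⁻¹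
  choose J hJ using hsurj
  have haux := fun C : ClassGroup (𝓞 K) => h87_class_count_aux K (J C)
  choose B hB using haux
  refine ⟨h87_kappa K, ∑ C, |B C|, h87_kappa_pos K, fun C s hs => ?_⟩
  refine (hB C C (hJ C) s hs).trans ?_
  have hs0 : 0 < s := lt_of_lt_of_le one_pos hs
  have h1 : B C ≤ ∑ C, |B C| :=
    (le_abs_self _).trans
      (Finset.single_le_sum (f := fun C => |B C|) (fun _ _ => abs_nonneg _) (Finset.mem_univ C))
  gcongr

end Fermat.Agent.S14
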