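import Mathlib
import Fermat.Agent.S14.AnalyticDefs
import Fermat.Agent.S14.IdealCount

/-!
# The `L`-series of a nontrivial class group character is bounded on `(1, 2]`

`classL_bounded` : for `ψ : ClassGroup (𝓞 K) →* ℂˣ`, `ψ ≠ 1`, the function `s ↦ classL K ψ s` is
bounded on `1 < s ≤ 2`.  Also `summable_classL_term` : the defining series converges absolutely
for `1 < s`.

Proof: Abel summation (`LSeries_eq_mul_integral`) and the ideal count with error term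
`ideal_class_count_error`.
-/

namespace Fermat.Agent.S14

open NumberField Filter Topology Finset
open scoped nonZeroDivisors Classical

variable (K : Type*) [Field K] [NumberField K]

/-- The nonzero ideals of norm `≤ n`, as a finset. -/
noncomputable def h87_T (n : ℕ) : Finset (Ideal (𝓞 K))⁰ :=
  (Ideal.finite_setOfPred_absNorm_le₀ (S := 𝓞 K) n).toFinset

theorem h87_mem_T {n : ℕ} {I : (Ideal (𝓞 K))⁰} :
    I ∈ h87_T K n ↔ Ideal.absNorm (I : Ideal (𝓞 K)) ≤ n := by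
  simp [h87_T]

theorem h87_T_mono : Monotone (h87_T K) := fun _ _ h _ hI =>
  (h87_mem_T K).mpr (((h87_mem_T K).mp hI).trans h)

/-- The coefficients of the Dirichlet series attached to a function on nonzero ideals. -/
noncomputable def h87_coef (φ : (Ideal (𝓞 K))⁰ → ℂ) (k : ℕ) : ℂ :=
  ∑ I ∈ (h87_T K k).filter (fun I : (Ideal (𝓞 K))⁰ => Ideal.absNorm (I : Ideal (𝓞 K)) = k), φ I

theorem h87_filter_T {n k : ℕ} (hk : k ≤ n) :
    (h87_T K n).filter (fun I : (Ideal (𝓞 K))⁰ => Ideal.absNorm (I : Ideal (𝓞 K)) = k) =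
      (h87_T K k).filter (fun I : (Ideal (𝓞 K))⁰ => Ideal.absNorm (I : Ideal (𝓞 K)) = k) := by
  ext I
  simp only [mem_filter, h87_mem_T]
  constructor
  · rintro ⟨-, h⟩; exact ⟨h.le, h⟩
  · rintro ⟨-, h⟩; exact ⟨h.le.trans hk, h⟩

/-- Grouping a sum over ideals of norm `≤ n` by the norm. -/
theorem h87_sum_T (φ : (Ideal (𝓞 K))⁰ → ℂ) (h : ℕ → ℂ) (n : ℕ) :
    ∑ I ∈ h87_T K n, φ I * h (Ideal.absNorm (I : Ideal (𝓞 K))) =
      ∑ k ∈ Icc 1 n, h87_coef K φ k * h k := by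
  have hmaps : ∀ I ∈ h87_T K n, Ideal.absNorm (I : Ideal (𝓞 K)) ∈ Icc 1 n := fun I hI =>
    mem_Icc.mpr ⟨Ideal.absNorm_pos_of_nonZeroDivisors I, (h87_mem_T K).mp hI⟩
  rw [← Finset.sum_fiberwise_of_maps_to hmaps]
  refine Finset.sum_congr rfl fun k hk => ?_
  rw [h87_filter_T K (mem_Icc.mp hk).2, h87_coef, Finset.sum_mul]
  refine Finset.sum_congr rfl fun I hI => ?_
  rw [(mem_filter.mp hI).2]

theorem h87_sum_coef (φ : (Ideal (𝓞 K))⁰ → ℂ) (n : ℕ) :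
    ∑ k ∈ Icc 1 n, h87_coef K φ k = ∑ I ∈ h87_T K n, φ I := by
  have := h87_sum_T K φ (fun _ => 1) n
  simpa using this.symm

theorem h87_norm_coef_le (φ : (Ideal (𝓞 K))⁰ → ℂ) (hφ : ∀ I, ‖φ I‖ ≤ 1) (k : ℕ) :
    ‖h87_coef K φ k‖ ≤ ‖h87_coef K (fun _ => 1) k‖ := by
  have h1 : h87_coef K (fun _ => 1) k =
      (((h87_T K k).filter (fun I : (Ideal (𝓞 K))⁰ => Ideal.absNorm (I : Ideal (𝓞 K)) = k)).card : ℂ) := by
    simp [h87_coef]
  rw [h1, Complex.norm_natCast]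
  calc ‖h87_coef K φ k‖ ≤ ∑ I ∈ (h87_T K k).filter
        (fun I : (Ideal (𝓞 K))⁰ => Ideal.absNorm (I : Ideal (𝓞 K)) = k), ‖φ I‖ := norm_sum_le _ _
    _ ≤ ∑ _I ∈ (h87_T K k).filter (fun I : (Ideal (𝓞 K))⁰ => Ideal.absNorm (I : Ideal (𝓞 K)) = k), (1 : ℝ) :=
        Finset.sum_le_sum fun I _ => hφ I
    _ = _ := by simp

theorem h87_sum_norm_coef_one (n : ℕ) :
    ∑ k ∈ Icc 1 n, ‖h87_coef K (fun _ => 1) k‖ = ((h87_T K n).card : ℝ) := by
  have h1 : ∀ k, ‖h87_coef K (fun _ => 1) k‖ = (h87_coef K (fun _ => 1) k).re := by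
    intro k
    have : h87_coef K (fun _ => 1) k =
        (((h87_T K k).filter (fun I : (Ideal (𝓞 K))⁰ => Ideal.absNorm (I : Ideal (𝓞 K)) = k)).card : ℂ) := by
      simp [h87_coef]
    rw [this, Complex.norm_natCast, Complex.natCast_re]
  simp_rw [h1]
  rw [← Complex.re_sum, h87_sum_coef]
  simp

/-- The number of ideals of norm `≤ n` in a class, in terms of `h87_T`. -/
theorem h87_card_class (n : ℕ) (C : ClassGroup (𝓞 K)) :
    Nat.card {I : (Ideal (𝓞 K))⁰ //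
        (Ideal.absNorm (I : Ideal (𝓞 K)) : ℝ) ≤ (n : ℝ) ∧ ClassGroup.mk0 I = C} =
      ((h87_T K n).filter (fun I : (Ideal (𝓞 K))⁰ => ClassGroup.mk0 I = C)).card := by
  have h1 : {I : (Ideal (𝓞 K))⁰ |
      (Ideal.absNorm (I : Ideal (𝓞 K)) : ℝ) ≤ (n : ℝ) ∧ ClassGroup.mk0 I = C} =
      ↑((h87_T K n).filter (fun I : (Ideal (𝓞 K))⁰ => ClassGroup.mk0 I = C)) := by
    ext I
    simp [h87_mem_T]
  show Nat.card ↑{I : (Ideal (𝓞 K))⁰ |
      (Ideal.absNorm (I : Ideal (𝓞 K)) : ℝ) ≤ (n : ℝ) ∧ ClassGroup.mk0 I = C} = _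
  rw [Nat.card_coe_set_eq, h1, Set.ncard_coe_finset]

/-- Grouping a sum over ideals of norm `≤ n` by the class. -/
theorem h87_sum_T_class (χ : ClassGroup (𝓞 K) → ℂ) (n : ℕ) :
    ∑ I ∈ h87_T K n, χ (ClassGroup.mk0 I) =
      ∑ C, χ C * (Nat.card {I : (Ideal (𝓞 K))⁰ //
        (Ideal.absNorm (I : Ideal (𝓞 K)) : ℝ) ≤ (n : ℝ) ∧ ClassGroup.mk0 I = C} : ℂ) := by
  rw [← Finset.sum_fiberwise (h87_T K n) (fun I : (Ideal (𝓞 K))⁰ => ClassGroup.mk0 I)]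
  refine Finset.sum_congr rfl fun C _ => ?_
  rw [h87_card_class, Finset.sum_congr rfl (g := fun _ => χ C)
    (fun I hI => by rw [(mem_filter.mp hI).2]), Finset.sum_const, nsmul_eq_mul, mul_comm]

/-! ### Bounds on partial sums -/

theorem h87_exists_count_const :
    ∃ κ B : ℝ, 0 < κ ∧ 0 ≤ B ∧ ∀ (C : ClassGroup (𝓞 K)) (n : ℕ), 1 ≤ n →
      |(Nat.card {I : (Ideal (𝓞 K))⁰ //
            (Ideal.absNorm (I : Ideal (𝓞 K)) : ℝ) ≤ (n : ℝ) ∧ ClassGroup.mk0 I = C} : ℝ) - κ * n|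
        ≤ B * (n : ℝ) ^ (1 - 1 / (Module.finrank ℚ K : ℝ)) := by
  obtain ⟨κ, B, hκ, hB⟩ := ideal_class_count_error K
  refine ⟨κ, B, hκ, ?_, fun C n hn => hB C n (by exact_mod_cast hn)⟩
  have h1 := hB 1 1 le_rfl
  rw [Real.one_rpow] at h1
  linarith [abs_nonneg ((Nat.card {I : (Ideal (𝓞 K))⁰ //
    (Ideal.absNorm (I : Ideal (𝓞 K)) : ℝ) ≤ 1 ∧ ClassGroup.mk0 I = 1} : ℝ) - κ * 1)]

theorem h87_exponent_mem : 0 ≤ 1 - 1 / (Module.finrank ℚ K : ℝ) ∧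
    1 - 1 / (Module.finrank ℚ K : ℝ) < 1 := by
  have h0 : 0 < Module.finrank ℚ K := Module.finrank_pos
  have h1 : (1 : ℝ) ≤ Module.finrank ℚ K := by exact_mod_cast h0
  have h2 : 1 / (Module.finrank ℚ K : ℝ) ≤ 1 := by
    rw [div_le_one (by linarith)]; exact h1
  have h3 : 0 < 1 / (Module.finrank ℚ K : ℝ) := by positivity
  constructor <;> linarith

theorem h87_exists_card_T_le : ∃ M : ℝ, 0 ≤ M ∧ ∀ n : ℕ, ((h87_T K n).card : ℝ) ≤ M * n := by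
  obtain ⟨κ, B, hκ, hB0, hB⟩ := h87_exists_count_const K
  refine ⟨Fintype.card (ClassGroup (𝓞 K)) * (κ + B), by positivity, fun n => ?_⟩
  rcases Nat.eq_zero_or_pos n with rfl | hn
  · have : h87_T K 0 = ∅ := by
      ext I
      simp only [h87_mem_T, Nat.le_zero, Finset.notMem_empty, iff_false]
      exact (Ideal.absNorm_pos_of_nonZeroDivisors I).ne'
    simp [this]
  · have hn1 : (1 : ℝ) ≤ n := by exact_mod_cast hn
    have hcard : ((h87_T K n).card : ℝ) = ∑ C : ClassGroup (𝓞 K),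
        (Nat.card {I : (Ideal (𝓞 K))⁰ //
          (Ideal.absNorm (I : Ideal (𝓞 K)) : ℝ) ≤ (n : ℝ) ∧ ClassGroup.mk0 I = C} : ℝ) := by
      rw [Finset.card_eq_sum_card_fiberwise (f := fun I : (Ideal (𝓞 K))⁰ => ClassGroup.mk0 I)
        (t := Finset.univ) (fun _ _ => Finset.mem_univ _)]
      push_cast
      refine Finset.sum_congr rfl fun C _ => ?_
      rw [h87_card_class]
    rw [hcard]
    have hle : ∀ C : ClassGroup (𝓞 K),
        (Nat.card {I : (Ideal (𝓞 K))⁰ //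
          (Ideal.absNorm (I : Ideal (𝓞 K)) : ℝ) ≤ (n : ℝ) ∧ ClassGroup.mk0 I = C} : ℝ)
        ≤ (κ + B) * n := by
      intro C
      have h1 := (abs_le.mp (hB C n hn)).2
      have h2 : (n : ℝ) ^ (1 - 1 / (Module.finrank ℚ K : ℝ)) ≤ n := by
        calc (n : ℝ) ^ (1 - 1 / (Module.finrank ℚ K : ℝ)) ≤ (n : ℝ) ^ (1 : ℝ) :=
              Real.rpow_le_rpow_of_exponent_le hn1 (h87_exponent_mem K).2.le
          _ = n := Real.rpow_one _
      nlinarith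
    calc ∑ C : ClassGroup (𝓞 K), (Nat.card {I : (Ideal (𝓞 K))⁰ //
          (Ideal.absNorm (I : Ideal (𝓞 K)) : ℝ) ≤ (n : ℝ) ∧ ClassGroup.mk0 I = C} : ℝ)
        ≤ ∑ _C : ClassGroup (𝓞 K), (κ + B) * n := Finset.sum_le_sum fun C _ => hle C
      _ = Fintype.card (ClassGroup (𝓞 K)) * (κ + B) * n := by
          rw [Finset.sum_const, Finset.card_univ, nsmul_eq_mul]; ring

theorem h87_norm_char (ψ : ClassGroup (𝓞 K) →* ℂˣ) (C : ClassGroup (𝓞 K)) :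
    ‖(ψ C : ℂ)‖ = 1 := by
  have h1 : (ψ C : ℂ) ^ Fintype.card (ClassGroup (𝓞 K)) = 1 := by
    rw [← Units.val_pow_eq_pow_val, ← map_pow, pow_card_eq_one, map_one, Units.val_one]
  exact Complex.norm_eq_one_of_pow_eq_one h1 Fintype.card_ne_zero

theorem h87_exists_sum_coef_le (ψ : ClassGroup (𝓞 K) →* ℂˣ) (hψ : ψ ≠ 1) :
    ∃ M : ℝ, 0 ≤ M ∧ ∀ n : ℕ, 1 ≤ n →
      ‖∑ k ∈ Icc 1 n, h87_coef K (fun I => (ψ (ClassGroup.mk0 I) : ℂ)) k‖
        ≤ M * (n : ℝ) ^ (1 - 1 / (Module.finrank ℚ K : ℝ)) := by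
  obtain ⟨κ, B, hκ, hB0, hB⟩ := h87_exists_count_const K
  refine ⟨Fintype.card (ClassGroup (𝓞 K)) * B, by positivity, fun n hn => ?_⟩
  rw [h87_sum_coef, h87_sum_T_class K (fun C => (ψ C : ℂ)) n]
  have hsum0 : ∑ C : ClassGroup (𝓞 K), (ψ C : ℂ) = 0 := by
    have h1 : (Units.coeHom ℂ).comp ψ ≠ 1 := by
      intro h
      apply hψ
      ext C
      have := DFunLike.congr_fun h C
      simpa using this
    have h2 := sum_hom_units_eq_zero ((Units.coeHom ℂ).comp ψ) h1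
    simpa using h2
  have hrew : ∑ C : ClassGroup (𝓞 K), (ψ C : ℂ) * (Nat.card {I : (Ideal (𝓞 K))⁰ //
        (Ideal.absNorm (I : Ideal (𝓞 K)) : ℝ) ≤ (n : ℝ) ∧ ClassGroup.mk0 I = C} : ℂ) =
      ∑ C : ClassGroup (𝓞 K), (ψ C : ℂ) * (((Nat.card {I : (Ideal (𝓞 K))⁰ //
        (Ideal.absNorm (I : Ideal (𝓞 K)) : ℝ) ≤ (n : ℝ) ∧ ClassGroup.mk0 I = C} : ℝ)
          - κ * n : ℝ) : ℂ) := by
    have h3 : ∑ C : ClassGroup (𝓞 K), (ψ C : ℂ) * ((κ * n : ℝ) : ℂ) = 0 := by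
      rw [← Finset.sum_mul, hsum0, zero_mul]
    rw [← sub_zero (∑ C : ClassGroup (𝓞 K), (ψ C : ℂ) * (Nat.card {I : (Ideal (𝓞 K))⁰ //
        (Ideal.absNorm (I : Ideal (𝓞 K)) : ℝ) ≤ (n : ℝ) ∧ ClassGroup.mk0 I = C} : ℂ)), ← h3,
      ← Finset.sum_sub_distrib]
    refine Finset.sum_congr rfl fun C _ => ?_
    push_cast
    ring
  rw [hrew]
  calc ‖∑ C : ClassGroup (𝓞 K), (ψ C : ℂ) * (((Nat.card {I : (Ideal (𝓞 K))⁰ //
        (Ideal.absNorm (I : Ideal (𝓞 K)) : ℝ) ≤ (n : ℝ) ∧ ClassGroup.mk0 I = C} : ℝ)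
          - κ * n : ℝ) : ℂ)‖
      ≤ ∑ C : ClassGroup (𝓞 K), ‖(ψ C : ℂ) * (((Nat.card {I : (Ideal (𝓞 K))⁰ //
        (Ideal.absNorm (I : Ideal (𝓞 K)) : ℝ) ≤ (n : ℝ) ∧ ClassGroup.mk0 I = C} : ℝ)
          - κ * n : ℝ) : ℂ)‖ := norm_sum_le _ _
    _ ≤ ∑ _C : ClassGroup (𝓞 K), B * (n : ℝ) ^ (1 - 1 / (Module.finrank ℚ K : ℝ)) := by
        refine Finset.sum_le_sum fun C _ => ?_
        rw [norm_mul, h87_norm_char, one_mul, Complex.norm_real, Real.norm_eq_abs]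
        exact hB C n hn
    _ = Fintype.card (ClassGroup (𝓞 K)) * B * (n : ℝ) ^ (1 - 1 / (Module.finrank ℚ K : ℝ)) := by
        rw [Finset.sum_const, Finset.card_univ, nsmul_eq_mul]; ring

/-! ### Convergence -/

theorem h87_LSeriesSummable_coef (φ : (Ideal (𝓞 K))⁰ → ℂ) (hφ : ∀ I, ‖φ I‖ ≤ 1) {s : ℂ}
    (hs : 1 < s.re) : LSeriesSummable (h87_coef K φ) s := by
  obtain ⟨M, hM0, hM⟩ := h87_exists_card_T_le K
  refine LSeriesSummable_of_sum_norm_bigO (r := 1) ?_ zero_le_one hs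
  refine Asymptotics.IsBigO.of_bound M (Eventually.of_forall fun n => ?_)
  rw [Real.norm_of_nonneg (Finset.sum_nonneg fun _ _ => norm_nonneg _), Real.rpow_one,
    Real.norm_of_nonneg (Nat.cast_nonneg n)]
  calc ∑ k ∈ Icc 1 n, ‖h87_coef K φ k‖ ≤ ∑ k ∈ Icc 1 n, ‖h87_coef K (fun _ => 1) k‖ :=
        Finset.sum_le_sum fun k _ => h87_norm_coef_le K φ hφ k
    _ = ((h87_T K n).card : ℝ) := h87_sum_norm_coef_one K n
    _ ≤ M * n := hM n

theorem h87_nrm_nonneg (s : ℝ) (I : (Ideal (𝓞 K))⁰) : 0 ≤ nrm K s I :=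
  Real.rpow_nonneg (Nat.cast_nonneg _) _

/-- the term of the `L`-series at `k ≥ 1`. -/
theorem h87_term_eq (f : ℕ → ℂ) (s : ℝ) {k : ℕ} (hk : k ≠ 0) :
    LSeries.term f s k = f k * ((((k : ℝ) ^ (-s) : ℝ)) : ℂ) := by
  rw [LSeries.term_of_ne_zero hk, div_eq_mul_inv, Complex.ofReal_cpow (Nat.cast_nonneg k),
    Complex.ofReal_neg, Complex.cpow_neg, Complex.ofReal_natCast]

theorem h87_sum_T_eq_sum_term (φ : (Ideal (𝓞 K))⁰ → ℂ) (s : ℝ) (n : ℕ) :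
    ∑ I ∈ h87_T K n, φ I * (nrm K s I : ℂ) =
      ∑ k ∈ range (n + 1), LSeries.term (h87_coef K φ) s k := by
  have h1 := h87_sum_T K φ (fun k => ((((k : ℝ) ^ (-s) : ℝ)) : ℂ)) n
  have h2 : range (n + 1) = insert 0 (Icc 1 n) := by
    ext k; simp only [mem_range, mem_insert, mem_Icc]; omega
  rw [h2, Finset.sum_insert (by simp), LSeries.term_zero, zero_add]
  unfold nrm
  rw [h1]
  refine Finset.sum_congr rfl fun k hk => ?_
  have hk0 : k ≠ 0 := by have := (mem_Icc.mp hk).1; omega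
  rw [h87_term_eq _ s hk0]

theorem h87_summable_nrm {s : ℝ} (hs : 1 < s) :
    Summable (fun I : (Ideal (𝓞 K))⁰ => nrm K s I) := by
  have hS := h87_LSeriesSummable_coef K (fun _ => 1) (by simp) (s := (s : ℂ)) (by simpa using hs)
  have hS' : Summable (fun k => ‖LSeries.term (h87_coef K (fun _ => 1)) s k‖) := hS.norm
  refine summable_of_sum_le (c := ∑' k, ‖LSeries.term (h87_coef K (fun _ => 1)) s k‖)
    (fun I => h87_nrm_nonneg K s I) (fun u => ?_)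
  set n := u.sup (fun I : (Ideal (𝓞 K))⁰ => Ideal.absNorm (I : Ideal (𝓞 K))) with hn
  have hu : u ⊆ h87_T K n := fun I hI =>
    (h87_mem_T K).mpr (Finset.le_sup (f := fun I : (Ideal (𝓞 K))⁰ =>
      Ideal.absNorm (I : Ideal (𝓞 K))) hI)
  have h3 : (∑ I ∈ h87_T K n, nrm K s I : ℝ) =
      ‖∑ k ∈ range (n + 1), LSeries.term (h87_coef K (fun _ => 1)) s k‖ := by
    rw [← h87_sum_T_eq_sum_term]
    simp only [one_mul]
    rw [← Complex.ofReal_sum, Complex.norm_real, Real.norm_of_nonneg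
      (Finset.sum_nonneg fun I _ => h87_nrm_nonneg K s I)]
  calc ∑ I ∈ u, nrm K s I ≤ ∑ I ∈ h87_T K n, nrm K s I :=
        Finset.sum_le_sum_of_subset_of_nonneg hu (fun I _ _ => h87_nrm_nonneg K s I)
    _ = ‖∑ k ∈ range (n + 1), LSeries.term (h87_coef K (fun _ => 1)) s k‖ := h3
    _ ≤ ∑ k ∈ range (n + 1), ‖LSeries.term (h87_coef K (fun _ => 1)) s k‖ := norm_sum_le _ _
    _ ≤ ∑' k, ‖LSeries.term (h87_coef K (fun _ => 1)) s k‖ :=
        hS'.sum_le_tsum _ (fun _ _ => norm_nonneg _)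

/-- The series defining `classL K ψ s` converges absolutely for `1 < s`. -/
theorem summable_classL_term (ψ : ClassGroup (𝓞 K) →* ℂˣ) {s : ℝ} (hs : 1 < s) :
    Summable (fun I : (Ideal (𝓞 K))⁰ => (ψ (ClassGroup.mk0 I) : ℂ) * (nrm K s I : ℂ)) := by
  refine Summable.of_norm ?_
  have h1 : ∀ I : (Ideal (𝓞 K))⁰,
      ‖(ψ (ClassGroup.mk0 I) : ℂ) * (nrm K s I : ℂ)‖ = nrm K s I := by
    intro I
    rw [norm_mul, h87_norm_char, one_mul, Complex.norm_real,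
      Real.norm_of_nonneg (h87_nrm_nonneg K s I)]
  simp_rw [h1]
  exact h87_summable_nrm K hs

theorem h87_classL_eq_LSeries (ψ : ClassGroup (𝓞 K) →* ℂˣ) {s : ℝ} (hs : 1 < s) :
    classL K ψ s = LSeries (h87_coef K (fun I => (ψ (ClassGroup.mk0 I) : ℂ))) s := by
  have hsum := summable_classL_term K ψ hs
  have h1 : Tendsto (fun n => ∑ I ∈ h87_T K n,
      (ψ (ClassGroup.mk0 I) : ℂ) * (nrm K s I : ℂ)) atTop (𝓝 (classL K ψ s)) := by
    have h0 := hsum.hasSum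
    rw [HasSum, SummationFilter.unconditional_filter] at h0
    exact h0.comp (tendsto_atTop_finset_of_monotone (h87_T_mono K)
      (fun I => ⟨Ideal.absNorm (I : Ideal (𝓞 K)), (h87_mem_T K).mpr le_rfl⟩))
  have hS := h87_LSeriesSummable_coef K (fun I => (ψ (ClassGroup.mk0 I) : ℂ))
    (fun I => (h87_norm_char K ψ _).le) (s := (s : ℂ)) (by simpa using hs)
  have h2 : Tendsto (fun n => ∑ k ∈ range (n + 1),
      LSeries.term (h87_coef K (fun I => (ψ (ClassGroup.mk0 I) : ℂ))) s k) atTop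
      (𝓝 (LSeries (h87_coef K (fun I => (ψ (ClassGroup.mk0 I) : ℂ))) s)) :=
    (hS.hasSum.tendsto_sum_nat).comp (tendsto_add_atTop_nat 1)
  have h3 : ∀ n, ∑ I ∈ h87_T K n, (ψ (ClassGroup.mk0 I) : ℂ) * (nrm K s I : ℂ) =
      ∑ k ∈ range (n + 1),
        LSeries.term (h87_coef K (fun I => (ψ (ClassGroup.mk0 I) : ℂ))) s k :=
    fun n => h87_sum_T_eq_sum_term K _ s n
  exact tendsto_nhds_unique (h1.congr h3) h2

/-- **The `L`-series of a nontrivial class group character is bounded on `(1, 2]`.** -/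
theorem classL_bounded (ψ : ClassGroup (𝓞 K) →* ℂˣ) (hψ : ψ ≠ 1) :
    ∃ B : ℝ, ∀ s : ℝ, 1 < s → s ≤ 2 → ‖classL K ψ s‖ ≤ B := by
  obtain ⟨M, hM0, hM⟩ := h87_exists_sum_coef_le K ψ hψ
  obtain ⟨ha0, ha1⟩ := h87_exponent_mem K
  set a : ℝ := 1 - 1 / (Module.finrank ℚ K : ℝ) with ha
  set f := h87_coef K (fun I => (ψ (ClassGroup.mk0 I) : ℂ)) with hf
  refine ⟨2 * (M / (1 - a)), fun s hs1 hs2 => ?_⟩
  rw [h87_classL_eq_LSeries K ψ hs1]
  have hS : LSeriesSummable f (s : ℂ) := h87_LSeriesSummable_coef K _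
    (fun I => (h87_norm_char K ψ _).le) (by simpa using hs1)
  have hO : (fun n => ∑ k ∈ Icc 1 n, f k) =O[atTop] fun n => (n : ℝ) ^ a := by
    refine Asymptotics.IsBigO.of_bound M (eventually_atTop.mpr ⟨1, fun n hn => ?_⟩)
    rw [Real.norm_of_nonneg (Real.rpow_nonneg (Nat.cast_nonneg n) _)]
    exact hM n hn
  rw [LSeries_eq_mul_integral f ha0 (by simpa using ha1.trans hs1) hS hO, norm_mul]
  have hnorm_s : ‖(s : ℂ)‖ ≤ 2 := by
    rw [Complex.norm_real, Real.norm_of_nonneg (by linarith)]; exact hs2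
  have hexp : a - s - 1 < -1 := by linarith
  have hbound : ∀ t ∈ Set.Ioi (1 : ℝ),
      ‖(∑ k ∈ Icc 1 ⌊t⌋₊, f k) * (t : ℂ) ^ (-((s : ℂ) + 1))‖ ≤ M * t ^ (a - s - 1) := by
    intro t ht
    have ht1 : (1 : ℝ) < t := ht
    have ht0 : 0 < t := by linarith
    have hfl : 1 ≤ ⌊t⌋₊ := Nat.le_floor (by exact_mod_cast ht1.le)
    have h1 : ‖(t : ℂ) ^ (-((s : ℂ) + 1))‖ = t ^ (-(s + 1)) := by
      rw [Complex.norm_cpow_eq_rpow_re_of_pos ht0]
      simp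
    rw [norm_mul, h1]
    have h2 : ((⌊t⌋₊ : ℝ)) ^ a ≤ t ^ a :=
      Real.rpow_le_rpow (Nat.cast_nonneg _) (Nat.floor_le ht0.le) ha0
    have h3 : t ^ (a - s - 1) = t ^ a * t ^ (-(s + 1)) := by
      rw [← Real.rpow_add ht0]; congr 1; ring
    rw [h3]
    have h4 : 0 ≤ t ^ (-(s + 1)) := Real.rpow_nonneg ht0.le _
    calc ‖∑ k ∈ Icc 1 ⌊t⌋₊, f k‖ * t ^ (-(s + 1))
        ≤ (M * (⌊t⌋₊ : ℝ) ^ a) * t ^ (-(s + 1)) := by gcongr; exact hM _ hfl
      _ ≤ (M * t ^ a) * t ^ (-(s + 1)) := by gcongr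
      _ = M * (t ^ a * t ^ (-(s + 1))) := by ring
  have hintg : MeasureTheory.IntegrableOn (fun t : ℝ => M * t ^ (a - s - 1)) (Set.Ioi 1) :=
    (integrableOn_Ioi_rpow_of_lt hexp one_pos).const_mul M
  have hint : ‖∫ t in Set.Ioi (1 : ℝ), (∑ k ∈ Icc 1 ⌊t⌋₊, f k) * (t : ℂ) ^ (-((s : ℂ) + 1))‖
      ≤ M / (1 - a) := by
    calc ‖∫ t in Set.Ioi (1 : ℝ), (∑ k ∈ Icc 1 ⌊t⌋₊, f k) * (t : ℂ) ^ (-((s : ℂ) + 1))‖
        ≤ ∫ t in Set.Ioi (1 : ℝ), M * t ^ (a - s - 1) :=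
          MeasureTheory.norm_integral_le_of_norm_le hintg
            (MeasureTheory.ae_restrict_of_forall_mem measurableSet_Ioi hbound)
      _ = M * (1 / (s - a)) := by
          rw [MeasureTheory.integral_const_mul, integral_Ioi_rpow_of_lt hexp one_pos,
            Real.one_rpow]
          congr 1
          have : s - a ≠ 0 := by linarith
          have h' : a - s - 1 + 1 ≠ 0 := by linarith
          field_simp
          ring
      _ ≤ M / (1 - a) := by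
          rw [mul_one_div]
          apply div_le_div_of_nonneg_left hM0 (by linarith) (by linarith)
  calc ‖(s : ℂ)‖ * ‖∫ t in Set.Ioi (1 : ℝ), (∑ k ∈ Icc 1 ⌊t⌋₊, f k) * (t : ℂ) ^ (-((s : ℂ) + 1))‖
      ≤ 2 * (M / (1 - a)) := mul_le_mul hnorm_s hint (norm_nonneg _) (by norm_num)

end Fermat.Agent.S14
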