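import Mathlib
import Fermat.Agent.S14.AnalyticDefs

/-!
# S14, analytic part: Euler products over prime ideals (helper20)
-/

set_option autoImplicit false
set_option linter.unusedSectionVars false
set_option linter.unusedSimpArgs false

namespace Fermat.Agent.S14

open NumberField IsDedekindDomain Filter Topology Ideal Asymptotics
open scoped nonZeroDivisors

variable (K : Type*) [Field K] [NumberField K]

/-! ## basic facts on `nrm` -/

theorem euler_absNorm_pos (I : (Ideal (𝓞 K))⁰) : 0 < Ideal.absNorm (I : Ideal (𝓞 K)) :=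
  Ideal.absNorm_pos_of_nonZeroDivisors I

theorem euler_one_le_absNorm (I : (Ideal (𝓞 K))⁰) : (1 : ℝ) ≤ Ideal.absNorm (I : Ideal (𝓞 K)) := by
  exact_mod_cast euler_absNorm_pos K I

theorem nrm_pos (s : ℝ) (I : (Ideal (𝓞 K))⁰) : 0 < nrm K s I := by
  unfold nrm
  have := euler_one_le_absNorm K I
  positivity

theorem nrm_one (s : ℝ) : nrm K s 1 = 1 := by
  simp [nrm]

theorem nrm_mul (s : ℝ) (I J : (Ideal (𝓞 K))⁰) : nrm K s (I * J) = nrm K s I * nrm K s J := by
  unfold nrm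
  rw [Submonoid.coe_mul, map_mul, Nat.cast_mul, Real.mul_rpow (Nat.cast_nonneg _) (Nat.cast_nonneg _)]

theorem nrm_le_one {s : ℝ} (hs : 0 ≤ s) (I : (Ideal (𝓞 K))⁰) : nrm K s I ≤ 1 := by
  unfold nrm
  exact Real.rpow_le_one_of_one_le_of_nonpos (euler_one_le_absNorm K I) (by linarith)

theorem nrm_anti {s t : ℝ} (hst : s ≤ t) (I : (Ideal (𝓞 K))⁰) : nrm K t I ≤ nrm K s I := by
  unfold nrm
  exact Real.rpow_le_rpow_of_exponent_le (euler_one_le_absNorm K I) (by linarith)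

/-- `nrm` as a monoid homomorphism. -/
noncomputable def nrmHom (s : ℝ) : (Ideal (𝓞 K))⁰ →* ℝ where
  toFun := nrm K s
  map_one' := nrm_one K s
  map_mul' := nrm_mul K s

@[simp] theorem nrmHom_apply (s : ℝ) (I : (Ideal (𝓞 K))⁰) : nrmHom K s I = nrm K s I := rfl

theorem euler_two_le_absNorm_prime (v : HeightOneSpectrum (𝓞 K)) :
    2 ≤ Ideal.absNorm v.asIdeal := by
  have h1 : Ideal.absNorm v.asIdeal ≠ 1 := by
    rw [Ne, Ideal.absNorm_eq_one_iff]
    exact v.isPrime.ne_top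
  have h0 : Ideal.absNorm v.asIdeal ≠ 0 := by
    rw [Ne, Ideal.absNorm_eq_zero_iff]
    exact v.ne_bot
  omega

theorem nrm_prime_le_half {s : ℝ} (hs : 1 ≤ s) (v : HeightOneSpectrum (𝓞 K)) :
    nrm K s (primeNZ K v) ≤ 1 / 2 := by
  have h2 : (2 : ℝ) ≤ Ideal.absNorm v.asIdeal := by exact_mod_cast euler_two_le_absNorm_prime K v
  calc nrm K s (primeNZ K v) ≤ nrm K 1 (primeNZ K v) := nrm_anti K hs _
    _ = ((Ideal.absNorm v.asIdeal : ℝ))⁻¹ := by simp [nrm, primeNZ, Real.rpow_neg_one]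
    _ ≤ 1 / 2 := by
      rw [one_div]
      exact inv_anti₀ (by norm_num) h2

omit [NumberField K] in
theorem primeNZ_injective : Function.Injective (primeNZ K) := by
  intro v w h
  have : v.asIdeal = w.asIdeal := congrArg Subtype.val h
  exact HeightOneSpectrum.ext this

/-! ## summability and the link with Mathlib's Dedekind zeta function -/

/-- number of ideals of norm `n` (Mathlib's coefficients of the Dedekind zeta function). -/
noncomputable def idealCount (n : ℕ) : ℝ := Nat.card {I : Ideal (𝓞 K) // Ideal.absNorm I = n}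

theorem idealCount_nonneg (n : ℕ) : 0 ≤ idealCount K n := Nat.cast_nonneg _

theorem tendsto_idealCount_div :
    Tendsto (fun n : ℕ ↦ (∑ k ∈ Finset.Icc 1 n, idealCount K k) / (n : ℝ)) atTop
      (𝓝 (dedekindZeta_residue K)) := by
  unfold idealCount
  refine ((Ideal.tendsto_norm_le_div_atTop₀ K).comp tendsto_natCast_atTop_atTop).congr fun n ↦ ?_
  simp only [Function.comp_apply, Nat.cast_le, ← Nat.cast_sum]
  congr
  rw [← add_left_inj 1, ← card_norm_le_eq_card_norm_le_add_one,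
    show Finset.Icc 1 n = Finset.Ioc 0 n from Finset.Icc_succ_left_eq_Ioc _ _,
    show 1 = Nat.card {I : Ideal (𝓞 K) // absNorm I = 0} by simp [Ideal.absNorm_eq_zero_iff],
    Finset.sum_Ioc_add_eq_sum_Icc (n.zero_le),
    ← Finset.card_preimage_eq_sum_card_image_eq (fun k _ ↦ finite_setOfPred_absNorm_eq k)]
  simp [Set.coe_eq_subtype]

theorem lseriesSummable_idealCount {s : ℝ} (hs : 1 < s) :
    LSeriesSummable (fun n ↦ (idealCount K n : ℂ)) s := by
  refine LSeriesSummable_of_sum_norm_bigO_and_nonneg ?_ (idealCount_nonneg K) zero_le_one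
    (by simpa using hs)
  exact isBigO_atTop_natCast_rpow_of_tendsto_div_rpow (by simpa using tendsto_idealCount_div K)

theorem card_fiber_eq_idealCount (n : ℕ) (hn : n ≠ 0) :
    (Nat.card {I : (Ideal (𝓞 K))⁰ // Ideal.absNorm (I : Ideal (𝓞 K)) = n} : ℝ) = idealCount K n := by
  unfold idealCount
  congr 1
  refine Nat.card_congr ⟨fun I => ⟨I.1.1, I.2⟩, fun I => ⟨⟨I.1, ?_⟩, I.2⟩, fun _ => rfl, fun _ => rfl⟩
  refine mem_nonZeroDivisors_of_ne_zero ?_
  rintro h
  have := I.2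
  rw [h] at this
  simp at this
  exact hn this.symm

theorem finite_fiber (n : ℕ) :
    Finite {I : (Ideal (𝓞 K))⁰ // Ideal.absNorm (I : Ideal (𝓞 K)) = n} := by
  have : Finite {I : Ideal (𝓞 K) // Ideal.absNorm I = n} := finite_setOfPred_absNorm_eq n
  exact Finite.of_injective (fun I => (⟨I.1.1, I.2⟩ : {I : Ideal (𝓞 K) // Ideal.absNorm I = n}))
    (fun a b h => by
      have : a.1.1 = b.1.1 := by simpa using h
      exact Subtype.ext (Subtype.ext this))

theorem tsum_fiber_nrm (s : ℝ) (n : ℕ) :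
    ∑' I : {I : (Ideal (𝓞 K))⁰ // Ideal.absNorm (I : Ideal (𝓞 K)) = n}, nrm K s I.1 =
      if n = 0 then 0 else idealCount K n * (n : ℝ) ^ (-s) := by
  have := finite_fiber K n
  have := Fintype.ofFinite {I : (Ideal (𝓞 K))⁰ // Ideal.absNorm (I : Ideal (𝓞 K)) = n}
  have h1 : ∀ I : {I : (Ideal (𝓞 K))⁰ // Ideal.absNorm (I : Ideal (𝓞 K)) = n},
      nrm K s I.1 = (n : ℝ) ^ (-s) := fun I => by rw [nrm, I.2]
  simp_rw [h1]
  rw [tsum_fintype, Finset.sum_const, Finset.card_univ, nsmul_eq_mul]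
  split_ifs with hn
  · subst hn
    have : IsEmpty {I : (Ideal (𝓞 K))⁰ // Ideal.absNorm (I : Ideal (𝓞 K)) = 0} :=
      ⟨fun I => (euler_absNorm_pos K I.1).ne' I.2⟩
    simp
  · rw [← card_fiber_eq_idealCount K n hn, Nat.card_eq_fintype_card]

theorem norm_term_idealCount (s : ℝ) (n : ℕ) :
    ‖LSeries.term (fun n ↦ (idealCount K n : ℂ)) s n‖ =
      if n = 0 then 0 else idealCount K n * (n : ℝ) ^ (-s) := by
  rw [LSeries.term_def]
  split_ifs with hn
  · simp
  · rw [norm_div, Complex.norm_natCast_cpow_of_pos (Nat.pos_of_ne_zero hn), Complex.ofReal_re,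
      Complex.norm_real, Real.norm_of_nonneg (idealCount_nonneg K n), Real.rpow_neg (Nat.cast_nonneg _),
      div_eq_mul_inv]

theorem summable_nrm {s : ℝ} (hs : 1 < s) : Summable (nrm K s) := by
  rw [← (Equiv.sigmaFiberEquiv
    (fun I : (Ideal (𝓞 K))⁰ => Ideal.absNorm (I : Ideal (𝓞 K)))).summable_iff]
  refine (summable_sigma_of_nonneg (fun _ => (nrm_pos K s _).le)).mpr ⟨fun n => ?_, ?_⟩
  · have := finite_fiber K n
    exact Summable.of_finite
  · have h := (lseriesSummable_idealCount K hs).norm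
    refine h.congr fun n => ?_
    rw [norm_term_idealCount]
    exact (tsum_fiber_nrm K s n).symm

/-- the Dedekind zeta function at a real point, as a sum over nonzero ideals. -/
noncomputable def zetaR (s : ℝ) : ℝ := ∑' I : (Ideal (𝓞 K))⁰, nrm K s I

theorem zetaR_eq_tsum_count {s : ℝ} (hs : 1 < s) :
    zetaR K s = ∑' n : ℕ, if n = 0 then 0 else idealCount K n * (n : ℝ) ^ (-s) := by
  unfold zetaR
  rw [← (Equiv.sigmaFiberEquiv
    (fun I : (Ideal (𝓞 K))⁰ => Ideal.absNorm (I : Ideal (𝓞 K)))).tsum_eq]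
  have hsum : Summable (fun x : (Σ n : ℕ, {I : (Ideal (𝓞 K))⁰ // Ideal.absNorm (I : Ideal (𝓞 K)) = n}) =>
      nrm K s ((Equiv.sigmaFiberEquiv
        (fun I : (Ideal (𝓞 K))⁰ => Ideal.absNorm (I : Ideal (𝓞 K)))) x)) :=
    (Equiv.sigmaFiberEquiv _).summable_iff.mpr (summable_nrm K hs)
  rw [hsum.tsum_sigma]
  exact tsum_congr fun n => tsum_fiber_nrm K s n

theorem dedekindZeta_eq_zetaR {s : ℝ} (hs : 1 < s) : dedekindZeta K s = (zetaR K s : ℂ) := by
  rw [zetaR_eq_tsum_count K hs, Complex.ofReal_tsum]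
  unfold dedekindZeta LSeries
  refine tsum_congr fun n => ?_
  rw [LSeries.term_def]
  split_ifs with hn
  · simp
  · have : ((n : ℂ)) ^ (s : ℂ) = (((n : ℝ) ^ s : ℝ) : ℂ) := by
      rw [Complex.ofReal_cpow (Nat.cast_nonneg _)]
      simp
    rw [this, Real.rpow_neg (Nat.cast_nonneg _), idealCount]
    push_cast
    rw [div_eq_mul_inv]

theorem zetaR_anti {s t : ℝ} (hs : 1 < s) (hst : s ≤ t) : zetaR K t ≤ zetaR K s :=
  (summable_nrm K (hs.trans_le hst)).tsum_le_tsum (fun I => nrm_anti K hst I) (summable_nrm K hs)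

theorem one_le_zetaR {s : ℝ} (hs : 1 < s) : 1 ≤ zetaR K s := by
  have h := (summable_nrm K hs).le_tsum (1 : (Ideal (𝓞 K))⁰) (fun I _ => (nrm_pos K s I).le)
  rwa [nrm_one] at h

theorem tendsto_sub_one_mul_zetaR :
    Tendsto (fun s : ℝ ↦ (s - 1) * zetaR K s) (𝓝[>] 1) (𝓝 (dedekindZeta_residue K)) := by
  have h := (Complex.continuous_re.tendsto _).comp (tendsto_sub_one_mul_dedekindZeta_nhdsGT K)
  simp only [Complex.ofReal_re] at h
  refine h.congr' ?_
  filter_upwards [self_mem_nhdsWithin] with s hs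
  have hs' : (1 : ℝ) < s := hs
  simp only [Function.comp_apply]
  rw [dedekindZeta_eq_zetaR K hs', ← Complex.ofReal_one, ← Complex.ofReal_sub, ← Complex.ofReal_mul,
    Complex.ofReal_re]

/-- `ζ_K(s) ≍ 1/(s-1)` on `(1, 2]`. -/
theorem zetaR_bounds : ∃ c C : ℝ, 0 < c ∧ 0 < C ∧ ∀ s : ℝ, 1 < s → s ≤ 2 →
    c / (s - 1) ≤ zetaR K s ∧ zetaR K s ≤ C / (s - 1) := by
  have hres := dedekindZeta_residue_pos K
  set ρ := dedekindZeta_residue K with hρ
  have hlim := tendsto_sub_one_mul_zetaR K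
  have h1 : ∀ᶠ s in 𝓝[>] (1 : ℝ), ρ / 2 < (s - 1) * zetaR K s :=
    (tendsto_order.1 hlim).1 _ (by linarith)
  have h2 : ∀ᶠ s in 𝓝[>] (1 : ℝ), (s - 1) * zetaR K s < 2 * ρ :=
    (tendsto_order.1 hlim).2 _ (by linarith)
  obtain ⟨u, hu, hsub⟩ := (mem_nhdsGT_iff_exists_Ioo_subset).1 (h1.and h2)
  have hu' : (1 : ℝ) < u := hu
  set δ := min (u - 1) 1 / 2 with hδ
  have hδpos : 0 < δ := by
    rw [hδ]
    have : 0 < min (u - 1) 1 := lt_min (by linarith) one_pos
    linarith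
  have hδu : 1 + δ < u := by
    rw [hδ]
    have : min (u - 1) 1 ≤ u - 1 := min_le_left _ _
    have h0 : 0 < min (u - 1) 1 := lt_min (by linarith) one_pos
    linarith
  have hδ1 : δ ≤ 1 / 2 := by
    rw [hδ]
    have : min (u - 1) 1 ≤ 1 := min_le_right _ _
    linarith
  have hz0 : 1 ≤ zetaR K (1 + δ) := one_le_zetaR K (by linarith)
  refine ⟨min (ρ / 2) δ, max (2 * ρ) (zetaR K (1 + δ)), lt_min (by linarith) hδpos,
    lt_max_of_lt_left (by linarith), fun s hs1 hs2 => ?_⟩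
  have hs0 : 0 < s - 1 := by linarith
  rw [div_le_iff₀ hs0, le_div_iff₀ hs0, mul_comm (zetaR K s) (s - 1)]
  by_cases hsu : s < 1 + δ
  · have hmem : s ∈ Set.Ioo 1 u := ⟨hs1, by linarith⟩
    obtain ⟨ha, hb⟩ := hsub hmem
    exact ⟨(min_le_left _ _).trans ha.le, hb.le.trans (le_max_left _ _)⟩
  · push Not at hsu
    have hz1 : 1 ≤ zetaR K s := one_le_zetaR K hs1
    have hz2 : zetaR K s ≤ zetaR K (1 + δ) := zetaR_anti K (by linarith) hsu
    constructor
    · calc min (ρ / 2) δ ≤ δ := min_le_right _ _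
        _ ≤ (s - 1) * 1 := by linarith
        _ ≤ (s - 1) * zetaR K s := by gcongr
    · calc (s - 1) * zetaR K s ≤ 1 * zetaR K (1 + δ) := by
            apply mul_le_mul (by linarith) hz2 (by linarith) (by norm_num)
        _ ≤ max (2 * ρ) (zetaR K (1 + δ)) := by rw [one_mul]; exact le_max_right _ _

/-! ## peeling off one prime -/

open scoped Classical

/-- `I` is prime to all the primes in `S`. -/
def cop (S : Finset (HeightOneSpectrum (𝓞 K))) (I : (Ideal (𝓞 K))⁰) : Prop :=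
  ∀ v ∈ S, ¬ v.asIdeal ∣ (I : Ideal (𝓞 K))

omit [NumberField K] in
theorem cop_one (S : Finset (HeightOneSpectrum (𝓞 K))) : cop K S 1 := by
  intro v _ h
  have : v.asIdeal = ⊤ := by
    rw [← Ideal.isUnit_iff]
    exact isUnit_of_dvd_one h
  exact v.isPrime.ne_top this

theorem cop_insert (S : Finset (HeightOneSpectrum (𝓞 K))) (v : HeightOneSpectrum (𝓞 K))
    (I : (Ideal (𝓞 K))⁰) :
    cop K (insert v S) I ↔ ¬ v.asIdeal ∣ (I : Ideal (𝓞 K)) ∧ cop K S I := by
  simp [cop, Finset.forall_mem_insert]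

theorem euler_prime_dvd_prime {v w : HeightOneSpectrum (𝓞 K)} (h : w.asIdeal ∣ v.asIdeal) : w = v := by
  have hle : v.asIdeal ≤ w.asIdeal := Ideal.le_of_dvd h
  have := v.isMaximal.eq_of_le w.isPrime.ne_top hle
  exact HeightOneSpectrum.ext this.symm

theorem cop_pow_mul (S : Finset (HeightOneSpectrum (𝓞 K))) (v : HeightOneSpectrum (𝓞 K))
    (hv : v ∉ S) (k : ℕ) (J : (Ideal (𝓞 K))⁰) :
    cop K S (primeNZ K v ^ k * J) ↔ cop K S J := by
  constructor
  · intro h w hw hdvd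
    exact h w hw (by
      rw [Submonoid.coe_mul]
      exact dvd_mul_of_dvd_right hdvd _)
  · intro h w hw hdvd
    rw [Submonoid.coe_mul, SubmonoidClass.coe_pow] at hdvd
    rcases (Ideal.prime_of_isPrime w.ne_bot w.isPrime).dvd_or_dvd hdvd with h1 | h1
    · have h2 := (Ideal.prime_of_isPrime w.ne_bot w.isPrime).dvd_of_dvd_pow h1
      have : w = v := euler_prime_dvd_prime K h2
      exact hv (this ▸ hw)
    · exact h w hw h1

theorem peel_bijective (v : HeightOneSpectrum (𝓞 K)) :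
    Function.Bijective (fun x : ℕ × {J : (Ideal (𝓞 K))⁰ // ¬ v.asIdeal ∣ (J : Ideal (𝓞 K))} =>
      primeNZ K v ^ x.1 * x.2.1) := by
  have hv0 : v.asIdeal ≠ 0 := v.ne_bot
  have key : ∀ (k d : ℕ) (J J' : {J : (Ideal (𝓞 K))⁰ // ¬ v.asIdeal ∣ (J : Ideal (𝓞 K))}),
      primeNZ K v ^ k * J.1 = primeNZ K v ^ (k + d) * J'.1 → d = 0 ∧ J = J' := by
    intro k d J J' h
    have h' : v.asIdeal ^ k * (J.1 : Ideal (𝓞 K)) = v.asIdeal ^ (k + d) * (J'.1 : Ideal (𝓞 K)) := by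
      have := congrArg (Subtype.val) h
      simpa [primeNZ] using this
    rw [pow_add, mul_assoc] at h'
    have h2 : (J.1 : Ideal (𝓞 K)) = v.asIdeal ^ d * (J'.1 : Ideal (𝓞 K)) :=
      mul_left_cancel₀ (pow_ne_zero k hv0) h'
    have hd : d = 0 := by
      by_contra hd
      apply J.2
      rw [h2]
      exact dvd_mul_of_dvd_left (dvd_pow_self _ hd) _
    subst hd
    refine ⟨rfl, ?_⟩
    simp only [pow_zero, one_mul] at h2
    exact Subtype.ext (Subtype.ext h2)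
  constructor
  · rintro ⟨k, J⟩ ⟨k', J'⟩ h
    simp only at h
    rcases le_total k k' with hk | hk
    · obtain ⟨d, rfl⟩ := Nat.exists_eq_add_of_le hk
      obtain ⟨hd, hJ⟩ := key k d J J' h
      subst hd
      simp [hJ]
    · obtain ⟨d, rfl⟩ := Nat.exists_eq_add_of_le hk
      obtain ⟨hd, hJ⟩ := key k' d J' J h.symm
      subst hd
      simp [hJ]
  · intro I
    have hI0 : (I : Ideal (𝓞 K)) ≠ 0 := nonZeroDivisors.coe_ne_zero I
    have hnu : ¬ IsUnit v.asIdeal := by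
      rw [Ideal.isUnit_iff]
      exact v.isPrime.ne_top
    have hfin : FiniteMultiplicity v.asIdeal (I : Ideal (𝓞 K)) :=
      FiniteMultiplicity.of_not_isUnit hnu hI0
    obtain ⟨c, hc, hndvd⟩ := hfin.exists_eq_pow_mul_and_not_dvd
    have hc0 : c ≠ 0 := by
      rintro rfl
      exact hI0 (by rw [hc, mul_zero])
    refine ⟨(multiplicity v.asIdeal (I : Ideal (𝓞 K)),
      ⟨⟨c, mem_nonZeroDivisors_of_ne_zero hc0⟩, hndvd⟩), ?_⟩
    apply Subtype.ext
    simp only [Submonoid.coe_mul, SubmonoidClass.coe_pow, primeNZ]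
    exact hc.symm

/-- the peeling equivalence `(k, J) ↦ v ^ k * J`. -/
noncomputable def peelEquiv (v : HeightOneSpectrum (𝓞 K)) :
    ℕ × {J : (Ideal (𝓞 K))⁰ // ¬ v.asIdeal ∣ (J : Ideal (𝓞 K))} ≃ (Ideal (𝓞 K))⁰ :=
  Equiv.ofBijective _ (peel_bijective K v)

theorem peelEquiv_apply (v : HeightOneSpectrum (𝓞 K))
    (x : ℕ × {J : (Ideal (𝓞 K))⁰ // ¬ v.asIdeal ∣ (J : Ideal (𝓞 K))}) :
    peelEquiv K v x = primeNZ K v ^ x.1 * x.2.1 := rfl

/-- the sieved sum: only ideals prime to `S`. -/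
noncomputable def sieved (f : (Ideal (𝓞 K))⁰ → ℂ) (S : Finset (HeightOneSpectrum (𝓞 K))) : ℂ :=
  ∑' I : (Ideal (𝓞 K))⁰, if cop K S I then f I else 0

theorem sieved_empty (f : (Ideal (𝓞 K))⁰ → ℂ) : sieved K f ∅ = ∑' I, f I := by
  unfold sieved
  refine tsum_congr fun I => ?_
  simp [cop]

theorem summable_norm_sieve {f : (Ideal (𝓞 K))⁰ → ℂ} (hf : Summable fun I => ‖f I‖)
    (S : Finset (HeightOneSpectrum (𝓞 K))) :
    Summable fun I : (Ideal (𝓞 K))⁰ => ‖(if cop K S I then f I else 0 : ℂ)‖ := by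
  refine hf.of_nonneg_of_le (fun _ => norm_nonneg _) fun I => ?_
  split_ifs
  · exact le_rfl
  · simp

theorem sieved_insert (f : (Ideal (𝓞 K))⁰ →* ℂ) (hf : Summable fun I => ‖f I‖)
    (S : Finset (HeightOneSpectrum (𝓞 K))) (v : HeightOneSpectrum (𝓞 K)) (hv : v ∉ S)
    (hfv : ‖f (primeNZ K v)‖ < 1) :
    sieved K f (insert v S) = (1 - f (primeNZ K v)) * sieved K f S := by
  set g : (Ideal (𝓞 K))⁰ → ℂ := fun I => if cop K S I then f I else 0 with hg
  have hgs : Summable fun I => ‖g I‖ := summable_norm_sieve K hf S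
  -- the sum over the ideals prime to `v`
  have h1 : sieved K f (insert v S) =
      ∑' J : {J : (Ideal (𝓞 K))⁰ // ¬ v.asIdeal ∣ (J : Ideal (𝓞 K))}, g J.1 := by
    unfold sieved
    rw [show (∑' J : {J : (Ideal (𝓞 K))⁰ // ¬ v.asIdeal ∣ (J : Ideal (𝓞 K))}, g J.1) =
        ∑' J : ({J : (Ideal (𝓞 K))⁰ | ¬ v.asIdeal ∣ (J : Ideal (𝓞 K))} : Set _), g J.1 from rfl,
      tsum_subtype]
    refine tsum_congr fun I => ?_
    by_cases h : v.asIdeal ∣ (I : Ideal (𝓞 K))
    · simp [cop_insert, h, Set.indicator]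
    · simp [cop_insert, h, Set.indicator, hg]
  have h2 : sieved K f S = ∑' x : ℕ × {J : (Ideal (𝓞 K))⁰ // ¬ v.asIdeal ∣ (J : Ideal (𝓞 K))},
      f (primeNZ K v) ^ x.1 * g x.2.1 := by
    unfold sieved
    rw [← (peelEquiv K v).tsum_eq]
    refine tsum_congr fun x => ?_
    rw [peelEquiv_apply, hg]
    simp only [cop_pow_mul K S v hv, map_mul, map_pow]
    split_ifs <;> simp
  have hgeo : Summable fun k : ℕ => ‖f (primeNZ K v) ^ k‖ := by
    simp only [norm_pow]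
    exact summable_geometric_of_lt_one (norm_nonneg _) hfv
  have hsub : Summable fun J : {J : (Ideal (𝓞 K))⁰ // ¬ v.asIdeal ∣ (J : Ideal (𝓞 K))} => ‖g J.1‖ :=
    hgs.subtype _
  have h3 := tsum_mul_tsum_of_summable_norm hgeo hsub
  rw [tsum_geometric_of_norm_lt_one hfv] at h3
  have hne : (1 - f (primeNZ K v)) ≠ 0 := by
    intro h
    have : f (primeNZ K v) = 1 := by linear_combination -h
    rw [this, norm_one] at hfv
    exact lt_irrefl _ hfv
  rw [h1, h2, ← h3, ← mul_assoc, mul_inv_cancel₀ hne, one_mul]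

theorem sieved_eq (f : (Ideal (𝓞 K))⁰ →* ℂ) (hf : Summable fun I => ‖f I‖)
    (hlt : ∀ v, ‖f (primeNZ K v)‖ < 1) (S : Finset (HeightOneSpectrum (𝓞 K))) :
    sieved K f S = (∏ v ∈ S, (1 - f (primeNZ K v))) * ∑' I, f I := by
  induction S using Finset.induction_on with
  | empty => simp [sieved_empty]
  | insert v S hv ih =>
    rw [sieved_insert K f hf S v hv (hlt v), ih, Finset.prod_insert hv, mul_assoc]

/-! ## the sieved sum tends to `1` -/

theorem exists_prime_dvd (I : (Ideal (𝓞 K))⁰) (hI : I ≠ 1) :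
    ∃ v : HeightOneSpectrum (𝓞 K), v.asIdeal ∣ (I : Ideal (𝓞 K)) := by
  have hI0 : (I : Ideal (𝓞 K)) ≠ ⊥ := nonZeroDivisors.coe_ne_zero I
  have hItop : (I : Ideal (𝓞 K)) ≠ ⊤ := by
    intro h
    apply hI
    apply Subtype.ext
    rw [h]
    simp
  obtain ⟨M, hM, hle⟩ := Ideal.exists_le_maximal _ hItop
  have hM0 : M ≠ ⊥ := by
    rintro rfl
    exact hI0 (le_bot_iff.mp hle)
  exact ⟨⟨M, hM.isPrime, hM0⟩, Ideal.dvd_iff_le.mpr hle⟩

theorem sieved_tail (f : (Ideal (𝓞 K))⁰ → ℂ) (hf1 : f 1 = 1) (hf : Summable fun I => ‖f I‖)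
    {ε : ℝ} (hε : 0 < ε) :
    ∃ S₀ : Finset (HeightOneSpectrum (𝓞 K)), ∀ S, S₀ ⊆ S → ‖sieved K f S - 1‖ ≤ ε := by
  have htail := (tendsto_order.1 (tendsto_tsum_compl_atTop_zero fun I => ‖f I‖)).2 ε hε
  obtain ⟨T, hT⟩ := Filter.eventually_atTop.1 htail
  have hT' := hT T le_rfl
  refine ⟨T.biUnion (fun I => if h : I ≠ 1 then {(exists_prime_dvd K I h).choose} else ∅),
    fun S hS => ?_⟩
  -- rewrite `sieved - 1` as a single sum
  have hdelta : Summable fun I : (Ideal (𝓞 K))⁰ => (if I = 1 then (1 : ℂ) else 0) :=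
    (hasSum_ite_eq (1 : (Ideal (𝓞 K))⁰) (1 : ℂ)).summable
  have hsv : Summable fun I : (Ideal (𝓞 K))⁰ => (if cop K S I then f I else 0 : ℂ) :=
    (summable_norm_sieve K hf S).of_norm
  have h1 : sieved K f S - 1 =
      ∑' I : (Ideal (𝓞 K))⁰, ((if cop K S I then f I else 0) - (if I = 1 then (1 : ℂ) else 0)) := by
    rw [hsv.tsum_sub hdelta, tsum_ite_eq]
    rfl
  have hbound : ∀ I : (Ideal (𝓞 K))⁰,
      ‖((if cop K S I then f I else 0) - (if I = 1 then (1 : ℂ) else 0))‖ ≤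
        Set.indicator {I | I ∉ T} (fun I => ‖f I‖) I := by
    intro I
    by_cases hI1 : I = 1
    · subst hI1
      simp [cop_one K S, hf1, Set.indicator_apply_nonneg, norm_nonneg]
    · by_cases hc : cop K S I
      · have hIT : I ∉ T := by
          intro hIT
          have hmem : (exists_prime_dvd K I hI1).choose ∈ S := by
            apply hS
            rw [Finset.mem_biUnion]
            exact ⟨I, hIT, by simp [hI1]⟩
          exact hc _ hmem (exists_prime_dvd K I hI1).choose_spec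
        simp [hI1, hc, hIT]
      · simp [hI1, hc, Set.indicator_apply_nonneg, norm_nonneg]
  have hind : Summable (Set.indicator {I | I ∉ T} (fun I : (Ideal (𝓞 K))⁰ => ‖f I‖)) :=
    hf.indicator _
  have hns : Summable fun I : (Ideal (𝓞 K))⁰ =>
      ‖((if cop K S I then f I else 0) - (if I = 1 then (1 : ℂ) else 0))‖ :=
    hind.of_nonneg_of_le (fun _ => norm_nonneg _) hbound
  rw [h1]
  calc ‖∑' I : (Ideal (𝓞 K))⁰, ((if cop K S I then f I else 0) - (if I = 1 then (1 : ℂ) else 0))‖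
      ≤ ∑' I : (Ideal (𝓞 K))⁰,
          ‖((if cop K S I then f I else 0) - (if I = 1 then (1 : ℂ) else 0))‖ :=
        norm_tsum_le_tsum_norm hns
    _ ≤ ∑' I, Set.indicator {I | I ∉ T} (fun I : (Ideal (𝓞 K))⁰ => ‖f I‖) I :=
        hns.tsum_le_tsum hbound hind
    _ = ∑' I : {I : (Ideal (𝓞 K))⁰ // I ∉ T}, ‖f I‖ := by
        rw [← tsum_subtype]
        rfl
    _ ≤ ε := hT'.le

/-! ## lower bound for products of `L`-series by finitely many Euler factors -/

theorem one_le_norm_prod_mul {ι : Type*} (J : Finset ι) (f : ι → (Ideal (𝓞 K))⁰ →* ℂ)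
    (hf : ∀ j ∈ J, Summable fun I => ‖f j I‖)
    (hlt : ∀ j ∈ J, ∀ v, ‖f j (primeNZ K v)‖ < 1)
    (hloc : ∀ v, ‖∏ j ∈ J, (1 - f j (primeNZ K v))‖ ≤ 1)
    (S : Finset (HeightOneSpectrum (𝓞 K))) :
    1 ≤ ‖∏ j ∈ J, ∑' I, f j I‖ * ∏ v ∈ S, ‖∏ j ∈ J, (1 - f j (primeNZ K v))‖ := by
  set X := ‖∏ j ∈ J, ∑' I, f j I‖ * ∏ v ∈ S, ‖∏ j ∈ J, (1 - f j (primeNZ K v))‖ with hX
  by_contra hlt1
  push Not at hlt1
  set m : ℕ := J.card with hm
  set ε : ℝ := (1 - X) / (2 * (m + 1)) with hε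
  have hmpos : (0 : ℝ) < 2 * (m + 1) := by positivity
  have hεpos : 0 < ε := div_pos (by linarith) hmpos
  -- sets of primes making all the sieved sums close to `1`
  have hex : ∀ j, ∃ S₀ : Finset (HeightOneSpectrum (𝓞 K)), j ∈ J →
      ∀ S, S₀ ⊆ S → ‖sieved K (f j) S - 1‖ ≤ ε := by
    intro j
    by_cases hj : j ∈ J
    · obtain ⟨S₀, hS₀⟩ := sieved_tail K (f j) (map_one _) (hf j hj) hεpos
      exact ⟨S₀, fun _ => hS₀⟩
    · exact ⟨∅, fun h => absurd h hj⟩
  choose S₀ hS₀ using hex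
  set S' := S ∪ J.biUnion S₀ with hS'
  have hsub : S ⊆ S' := Finset.subset_union_left
  have h1 : ∀ j ∈ J, 1 - ε ≤ ‖sieved K (f j) S'‖ := by
    intro j hj
    have h := hS₀ j hj S' (by
      intro v hv
      exact Finset.mem_union_right _ (Finset.mem_biUnion.mpr ⟨j, hj, hv⟩))
    have h2 : ‖(1 : ℂ)‖ - ‖sieved K (f j) S'‖ ≤ ‖sieved K (f j) S' - 1‖ := by
      rw [← norm_neg (sieved K (f j) S' - 1), neg_sub]
      exact norm_sub_norm_le _ _
    rw [norm_one] at h2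
    linarith
  have hX0 : 0 ≤ X := by rw [hX]; positivity
  have hε1 : ε ≤ 1 / 2 := by
    rw [hε, div_le_iff₀ hmpos]
    have : (0 : ℝ) ≤ m := Nat.cast_nonneg _
    nlinarith
  have h2 : (1 - ε) ^ m ≤ ∏ j ∈ J, ‖sieved K (f j) S'‖ := by
    rw [hm, ← Finset.prod_const]
    exact Finset.prod_le_prod (fun _ _ => by linarith) (fun j hj => h1 j hj)
  have h3 : ∏ j ∈ J, sieved K (f j) S' =
      (∏ v ∈ S', ∏ j ∈ J, (1 - f j (primeNZ K v))) * ∏ j ∈ J, ∑' I, f j I := by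
    rw [Finset.prod_comm, ← Finset.prod_mul_distrib]
    exact Finset.prod_congr rfl fun j hj => sieved_eq K (f j) (hf j hj) (hlt j hj) S'
  have h4 : ∏ j ∈ J, ‖sieved K (f j) S'‖ ≤ X := by
    rw [← norm_prod, h3, norm_mul, norm_prod, hX, mul_comm]
    apply mul_le_mul_of_nonneg_left _ (norm_nonneg _)
    rw [← Finset.prod_sdiff hsub]
    have h5 : ∏ v ∈ S' \ S, ‖∏ j ∈ J, (1 - f j (primeNZ K v))‖ ≤ 1 :=
      Finset.prod_le_one (fun _ _ => norm_nonneg _) (fun v _ => hloc v)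
    have h6 : 0 ≤ ∏ v ∈ S, ‖∏ j ∈ J, (1 - f j (primeNZ K v))‖ :=
      Finset.prod_nonneg fun _ _ => norm_nonneg _
    calc (∏ v ∈ S' \ S, ‖∏ j ∈ J, (1 - f j (primeNZ K v))‖) *
          ∏ v ∈ S, ‖∏ j ∈ J, (1 - f j (primeNZ K v))‖
        ≤ 1 * ∏ v ∈ S, ‖∏ j ∈ J, (1 - f j (primeNZ K v))‖ :=
          mul_le_mul_of_nonneg_right h5 h6
      _ = _ := one_mul _
  have h7 : 1 + (m : ℝ) * (-ε) ≤ (1 + -ε) ^ m := one_add_mul_le_pow (by linarith) m
  have h8 : 1 - m * ε ≤ X := by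
    have : (1 + -ε) ^ m = (1 - ε) ^ m := by ring
    linarith
  have h9 : (m : ℝ) * ε < 1 - X := by
    rw [hε, ← mul_div_assoc, div_lt_iff₀ hmpos]
    have : (0 : ℝ) ≤ m := Nat.cast_nonneg _
    nlinarith
  linarith

end Fermat.Agent.S14
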