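import Mathlib
import Fermat.Agent.S14.EulerIdeal

/-!
# S14, analytic part: the density argument (helper20)

Main export: `exists_prime_of_density`.  For a class group character `ψ` of prime order `p ≥ 3`
whose nontrivial powers have `L`-series bounded on `(1, 2]`, every set of primes `Sbad` whose
prime zeta sum is at most `(1/p) log (1/(s-1)) + O(1)` misses a prime `v` with `ψ(v) ≠ 1`.
-/

set_option autoImplicit false
set_option linter.unusedSectionVars false
set_option linter.unusedSimpArgs false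

namespace Fermat.Agent.S14

open NumberField IsDedekindDomain Filter Topology Ideal
open scoped nonZeroDivisors

variable (K : Type*) [Field K] [NumberField K]

/-! ## prime sums -/

theorem dens_summable_prime {s : ℝ} (hs : 1 < s) :
    Summable fun v : HeightOneSpectrum (𝓞 K) => nrm K s (primeNZ K v) :=
  (summable_nrm K hs).comp_injective (primeNZ_injective K)

theorem dens_summable_sub {s : ℝ} (hs : 1 < s) (S : Set (HeightOneSpectrum (𝓞 K))) :
    Summable fun v : S => nrm K s (primeNZ K v.1) :=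
  (dens_summable_prime K hs).subtype S

theorem dens_primeSum_eq_indicator (S : Set (HeightOneSpectrum (𝓞 K))) (s : ℝ) :
    primeSum K S s = ∑' v, S.indicator (fun v => nrm K s (primeNZ K v)) v := by
  unfold primeSum
  exact tsum_subtype S (fun v => nrm K s (primeNZ K v))

theorem dens_primeSum_univ (s : ℝ) :
    primeSum K Set.univ s = ∑' v : HeightOneSpectrum (𝓞 K), nrm K s (primeNZ K v) := by
  unfold primeSum
  exact tsum_univ (fun v => nrm K s (primeNZ K v))

theorem dens_primeSum_mono {s : ℝ} (hs : 1 < s) {S T : Set (HeightOneSpectrum (𝓞 K))}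
    (h : S ⊆ T) : primeSum K S s ≤ primeSum K T s := by
  rw [dens_primeSum_eq_indicator, dens_primeSum_eq_indicator]
  refine Summable.tsum_le_tsum (fun v => ?_) ((dens_summable_prime K hs).indicator S)
    ((dens_summable_prime K hs).indicator T)
  exact Set.indicator_le_indicator_of_subset h (fun v => (nrm_pos K s _).le) v

theorem dens_primeSum_union {s : ℝ} (hs : 1 < s) (S T : Set (HeightOneSpectrum (𝓞 K))) :
    primeSum K (S ∪ T) s ≤ primeSum K S s + primeSum K T s := by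
  rw [dens_primeSum_eq_indicator, dens_primeSum_eq_indicator, dens_primeSum_eq_indicator,
    ← Summable.tsum_add ((dens_summable_prime K hs).indicator S)
      ((dens_summable_prime K hs).indicator T)]
  refine Summable.tsum_le_tsum (fun v => ?_) ((dens_summable_prime K hs).indicator _)
    (((dens_summable_prime K hs).indicator S).add ((dens_summable_prime K hs).indicator T))
  have h0 := (nrm_pos K s (primeNZ K v)).le
  by_cases hS : v ∈ S <;> by_cases hT : v ∈ T <;> simp [Set.indicator, hS, hT, h0]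

theorem dens_primeSum_le_of_finset {s : ℝ} (hs : 1 < s) (S : Set (HeightOneSpectrum (𝓞 K)))
    (B : ℝ) (h : ∀ T : Finset (HeightOneSpectrum (𝓞 K)), (∀ v ∈ T, v ∈ S) →
      ∑ v ∈ T, nrm K s (primeNZ K v) ≤ B) : primeSum K S s ≤ B := by
  unfold primeSum
  refine (dens_summable_sub K hs S).tsum_le_of_sum_le fun T => ?_
  have := h (T.map (Function.Embedding.subtype _)) (by
    intro v hv
    simp only [Finset.mem_map, Function.Embedding.subtype_apply] at hv
    obtain ⟨w, _, rfl⟩ := hv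
    exact w.2)
  simpa using this

/-! ## the twisted characters -/

/-- the complex-valued norm character. -/
noncomputable def nrmC (s : ℝ) : (Ideal (𝓞 K))⁰ →* ℂ :=
  (Complex.ofRealHom : ℝ →+* ℂ).toMonoidHom.comp (nrmHom K s)

theorem nrmC_apply (s : ℝ) (I : (Ideal (𝓞 K))⁰) : nrmC K s I = (nrm K s I : ℂ) := rfl

/-- the Dirichlet character `I ↦ ψ([I]) N(I)^(-s)` as a monoid homomorphism. -/
noncomputable def twist (ψ : ClassGroup (𝓞 K) →* ℂˣ) (s : ℝ) : (Ideal (𝓞 K))⁰ →* ℂ :=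
  ((Units.coeHom ℂ).comp (ψ.comp ClassGroup.mk0)) * nrmC K s

theorem twist_apply (ψ : ClassGroup (𝓞 K) →* ℂˣ) (s : ℝ) (I : (Ideal (𝓞 K))⁰) :
    twist K ψ s I = (ψ (ClassGroup.mk0 I) : ℂ) * (nrm K s I : ℂ) := rfl

theorem classL_eq_tsum_twist (ψ : ClassGroup (𝓞 K) →* ℂˣ) (s : ℝ) :
    classL K ψ s = ∑' I, twist K ψ s I := rfl

theorem dens_norm_twist (ψ : ClassGroup (𝓞 K) →* ℂˣ) (hψ : ∀ c, ‖(ψ c : ℂ)‖ = 1) (s : ℝ)
    (I : (Ideal (𝓞 K))⁰) : ‖twist K ψ s I‖ = nrm K s I := by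
  rw [twist_apply, norm_mul, hψ, one_mul, Complex.norm_real, Real.norm_of_nonneg (nrm_pos K s I).le]

theorem dens_classL_one {s : ℝ} : classL K 1 s = (zetaR K s : ℂ) := by
  unfold classL zetaR
  rw [Complex.ofReal_tsum]
  refine tsum_congr fun I => ?_
  simp

/-! ## elementary inequalities -/

theorem dens_prod_one_sub (p : ℕ) [hp : Fact p.Prime] (z x : ℂ) (hz : z ^ p = 1) :
    ∏ j ∈ Finset.range p, (1 - z ^ j * x) = if z = 1 then (1 - x) ^ p else 1 - x ^ p := by
  split_ifs with h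
  · subst h; simp
  · have hprim : IsPrimitiveRoot z p := by
      have := IsPrimitiveRoot.orderOf z
      rwa [orderOf_eq_prime hz h] at this
    have := X_pow_sub_C_eq_prod hprim hp.out.pos (rfl : x ^ p = x ^ p)
    have h2 := congrArg (Polynomial.eval 1) this
    simp [Polynomial.eval_prod] at h2
    exact h2.symm

theorem dens_inv_one_sub_le {x : ℝ} (h1 : x ≤ 1 / 2) :
    (1 - x)⁻¹ ≤ Real.exp (x + 2 * x ^ 2) := by
  have hpos : 0 < 1 - x := by linarith
  rw [inv_le_iff_one_le_mul₀' hpos]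
  have h2 : x + 2 * x ^ 2 + 1 ≤ Real.exp (x + 2 * x ^ 2) := Real.add_one_le_exp _
  have h3 : 1 ≤ (1 - x) * (x + 2 * x ^ 2 + 1) := by nlinarith [sq_nonneg x, mul_nonneg (sq_nonneg x) (by linarith : (0:ℝ) ≤ 1 - 2 * x)]
  calc 1 ≤ (1 - x) * (x + 2 * x ^ 2 + 1) := h3
    _ ≤ (1 - x) * Real.exp (x + 2 * x ^ 2) := mul_le_mul_of_nonneg_left h2 hpos.le

/-! ## lower bound for the full prime sum -/

theorem dens_zetaR_le {s : ℝ} (hs : 1 < s) :
    zetaR K s ≤ 3 / 2 * Real.exp (primeSum K Set.univ s + 2 * primeSum K Set.univ 2) := by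
  have hsum : Summable fun I => ‖nrmC K s I‖ := by
    refine (summable_nrm K hs).congr fun I => ?_
    rw [nrmC_apply, Complex.norm_real, Real.norm_of_nonneg (nrm_pos K s I).le]
  have hlt : ∀ v, ‖nrmC K s (primeNZ K v)‖ < 1 := by
    intro v
    rw [nrmC_apply, Complex.norm_real, Real.norm_of_nonneg (nrm_pos K s _).le]
    have := nrm_prime_le_half K hs.le v
    linarith
  obtain ⟨S₀, hS₀⟩ := sieved_tail K (nrmC K s) (map_one _) hsum (by norm_num : (0 : ℝ) < 1 / 2)
  have h1 := hS₀ S₀ (Finset.Subset.refl _)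
  rw [sieved_eq K (nrmC K s) hsum hlt S₀] at h1
  have hz : ∑' I, nrmC K s I = (zetaR K s : ℂ) := by
    unfold zetaR
    rw [Complex.ofReal_tsum]
    rfl
  have hprod : ∏ v ∈ S₀, (1 - nrmC K s (primeNZ K v)) =
      ((∏ v ∈ S₀, (1 - nrm K s (primeNZ K v)) : ℝ) : ℂ) := by
    rw [Complex.ofReal_prod]
    refine Finset.prod_congr rfl fun v _ => ?_
    rw [nrmC_apply, Complex.ofReal_sub, Complex.ofReal_one]
  rw [hz, hprod, ← Complex.ofReal_mul] at h1
  have h2 : (∏ v ∈ S₀, (1 - nrm K s (primeNZ K v))) * zetaR K s ≤ 3 / 2 := by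
    have h3 : ‖(((∏ v ∈ S₀, (1 - nrm K s (primeNZ K v))) * zetaR K s : ℝ) : ℂ)‖ - ‖(1 : ℂ)‖ ≤
        1 / 2 := (norm_sub_norm_le _ _).trans h1
    rw [Complex.norm_real, norm_one] at h3
    have h4 := le_abs_self ((∏ v ∈ S₀, (1 - nrm K s (primeNZ K v))) * zetaR K s)
    rw [← Real.norm_eq_abs] at h4
    linarith
  have hx : ∀ v : HeightOneSpectrum (𝓞 K), 0 < 1 - nrm K s (primeNZ K v) := by
    intro v
    have := nrm_prime_le_half K hs.le v
    linarith
  have hPpos : 0 < ∏ v ∈ S₀, (1 - nrm K s (primeNZ K v)) := Finset.prod_pos fun v _ => hx v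
  have h5 : zetaR K s ≤ 3 / 2 * (∏ v ∈ S₀, (1 - nrm K s (primeNZ K v)))⁻¹ := by
    rw [← div_eq_mul_inv, le_div_iff₀ hPpos]
    linarith
  have hsq : ∀ v : HeightOneSpectrum (𝓞 K), nrm K s (primeNZ K v) ^ 2 ≤ nrm K 2 (primeNZ K v) := by
    intro v
    have h6 : nrm K s (primeNZ K v) ≤ nrm K 1 (primeNZ K v) := nrm_anti K hs.le _
    have h7 : nrm K 1 (primeNZ K v) ^ 2 = nrm K 2 (primeNZ K v) := by
      unfold nrm
      rw [← Real.rpow_natCast, ← Real.rpow_mul (Nat.cast_nonneg _)]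
      norm_num
    rw [← h7]
    exact pow_le_pow_left₀ (nrm_pos K s _).le h6 2
  have h8 : (∏ v ∈ S₀, (1 - nrm K s (primeNZ K v)))⁻¹ ≤
      Real.exp (primeSum K Set.univ s + 2 * primeSum K Set.univ 2) := by
    rw [← Finset.prod_inv_distrib]
    calc ∏ v ∈ S₀, (1 - nrm K s (primeNZ K v))⁻¹
        ≤ ∏ v ∈ S₀, Real.exp (nrm K s (primeNZ K v) + 2 * nrm K s (primeNZ K v) ^ 2) :=
          Finset.prod_le_prod (fun v _ => (inv_pos.mpr (hx v)).le)
            (fun v _ => dens_inv_one_sub_le (nrm_prime_le_half K hs.le v))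
      _ = Real.exp (∑ v ∈ S₀, (nrm K s (primeNZ K v) + 2 * nrm K s (primeNZ K v) ^ 2)) :=
          (Real.exp_sum _ _).symm
      _ ≤ Real.exp (primeSum K Set.univ s + 2 * primeSum K Set.univ 2) := by
          apply Real.exp_le_exp.mpr
          rw [Finset.sum_add_distrib, ← Finset.mul_sum, dens_primeSum_univ, dens_primeSum_univ]
          have h9 : ∑ v ∈ S₀, nrm K s (primeNZ K v) ≤ ∑' v, nrm K s (primeNZ K v) :=
            (dens_summable_prime K hs).sum_le_tsum S₀ (fun v _ => (nrm_pos K s _).le)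
          have h10 : ∑ v ∈ S₀, nrm K s (primeNZ K v) ^ 2 ≤ ∑' v, nrm K 2 (primeNZ K v) :=
            (Finset.sum_le_sum fun v _ => hsq v).trans
              ((dens_summable_prime K (by norm_num : (1 : ℝ) < 2)).sum_le_tsum S₀
                (fun v _ => (nrm_pos K 2 _).le))
          linarith
  calc zetaR K s ≤ 3 / 2 * (∏ v ∈ S₀, (1 - nrm K s (primeNZ K v)))⁻¹ := h5
    _ ≤ 3 / 2 * Real.exp (primeSum K Set.univ s + 2 * primeSum K Set.univ 2) :=
        mul_le_mul_of_nonneg_left h8 (by norm_num)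

theorem dens_lower : ∃ C : ℝ, ∀ s : ℝ, 1 < s → s ≤ 2 →
    Real.log (1 / (s - 1)) - C ≤ primeSum K Set.univ s := by
  obtain ⟨c, C, hc, hC, hb⟩ := zetaR_bounds K
  refine ⟨Real.log (3 / 2) + 2 * primeSum K Set.univ 2 - Real.log c, fun s hs hs2 => ?_⟩
  have h1 := (hb s hs hs2).1
  have h2 := dens_zetaR_le K hs
  have hs0 : 0 < s - 1 := by linarith
  have h3 : c / (s - 1) ≤ 3 / 2 * Real.exp (primeSum K Set.univ s + 2 * primeSum K Set.univ 2) :=
    h1.trans h2
  have h4 := Real.log_le_log (div_pos hc hs0) h3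
  rw [Real.log_mul (by norm_num) (Real.exp_pos _).ne', Real.log_exp,
    Real.log_div hc.ne' hs0.ne'] at h4
  rw [one_div, Real.log_inv]
  linarith

/-! ## the key inequality -/

theorem dens_key (p : ℕ) [Fact p.Prime] (ψ : ClassGroup (𝓞 K) →* ℂˣ) (hψp : ψ ^ p = 1)
    {s : ℝ} (hs : 1 < s) (T : Finset (HeightOneSpectrum (𝓞 K)))
    (hT : ∀ v ∈ T, ψ (ClassGroup.mk0 (primeNZ K v)) = 1) :
    Real.exp (p * ∑ v ∈ T, nrm K s (primeNZ K v)) ≤
      ‖∏ j ∈ Finset.range p, classL K (ψ ^ j) s‖ := by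
  have hp := (Fact.out : p.Prime)
  have hval : ∀ (j : ℕ) (c : ClassGroup (𝓞 K)), ‖((ψ ^ j) c : ℂ)‖ = 1 := by
    intro j c
    apply Complex.norm_eq_one_of_pow_eq_one (n := p) _ hp.ne_zero
    have : (ψ ^ j) c ^ p = 1 := by
      rw [MonoidHom.pow_apply, ← pow_mul, mul_comm, pow_mul, ← MonoidHom.pow_apply, hψp]
      simp
    rw [← Units.val_pow_eq_pow_val, this, Units.val_one]
  have hsum : ∀ j ∈ Finset.range p, Summable fun I => ‖twist K (ψ ^ j) s I‖ := by
    intro j _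
    refine (summable_nrm K hs).congr fun I => ?_
    rw [dens_norm_twist K _ (hval j)]
  have hlt : ∀ j ∈ Finset.range p, ∀ v, ‖twist K (ψ ^ j) s (primeNZ K v)‖ < 1 := by
    intro j _ v
    rw [dens_norm_twist K _ (hval j)]
    have := nrm_prime_le_half K hs.le v
    linarith
  have hfac : ∀ v, ∏ j ∈ Finset.range p, (1 - twist K (ψ ^ j) s (primeNZ K v)) =
      if (ψ (ClassGroup.mk0 (primeNZ K v)) : ℂ) = 1 then (1 - (nrm K s (primeNZ K v) : ℂ)) ^ p
      else 1 - (nrm K s (primeNZ K v) : ℂ) ^ p := by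
    intro v
    rw [← dens_prod_one_sub p _ _ (by
      rw [← Units.val_pow_eq_pow_val, ← MonoidHom.pow_apply, hψp]; simp)]
    refine Finset.prod_congr rfl fun j _ => ?_
    rw [twist_apply, MonoidHom.pow_apply, Units.val_pow_eq_pow_val]
  have hx : ∀ v : HeightOneSpectrum (𝓞 K),
      0 ≤ nrm K s (primeNZ K v) ∧ nrm K s (primeNZ K v) ≤ 1 / 2 :=
    fun v => ⟨(nrm_pos K s _).le, nrm_prime_le_half K hs.le v⟩
  have hloc : ∀ v, ‖∏ j ∈ Finset.range p, (1 - twist K (ψ ^ j) s (primeNZ K v))‖ ≤ 1 := by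
    intro v
    rw [hfac v]
    obtain ⟨h0, h1⟩ := hx v
    split_ifs
    · rw [norm_pow, ← Complex.ofReal_one, ← Complex.ofReal_sub, Complex.norm_real,
        Real.norm_of_nonneg (by linarith)]
      exact pow_le_one₀ (by linarith) (by linarith)
    · rw [← Complex.ofReal_pow, ← Complex.ofReal_one, ← Complex.ofReal_sub, Complex.norm_real,
        Real.norm_of_nonneg]
      · have := pow_nonneg h0 p
        linarith
      · have := pow_le_one₀ h0 (by linarith : nrm K s (primeNZ K v) ≤ 1) (n := p)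
        linarith
  have hmain := one_le_norm_prod_mul K (Finset.range p) (fun j => twist K (ψ ^ j) s) hsum hlt hloc T
  have hT' : ∏ v ∈ T, ‖∏ j ∈ Finset.range p, (1 - twist K (ψ ^ j) s (primeNZ K v))‖ ≤
      Real.exp (-(p * ∑ v ∈ T, nrm K s (primeNZ K v))) := by
    rw [Finset.mul_sum, ← Finset.sum_neg_distrib, Real.exp_sum]
    refine Finset.prod_le_prod (fun _ _ => norm_nonneg _) fun v hv => ?_
    rw [hfac v, if_pos (by rw [hT v hv]; rfl)]
    obtain ⟨h0, h1⟩ := hx v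
    rw [norm_pow, ← Complex.ofReal_one, ← Complex.ofReal_sub, Complex.norm_real,
      Real.norm_of_nonneg (by linarith)]
    calc (1 - nrm K s (primeNZ K v)) ^ p ≤ Real.exp (-nrm K s (primeNZ K v)) ^ p :=
          pow_le_pow_left₀ (by linarith) (Real.one_sub_le_exp_neg _) p
      _ = Real.exp (-(p * nrm K s (primeNZ K v))) := by
          rw [← Real.exp_nat_mul]
          ring_nf
  have hcl : ∏ j ∈ Finset.range p, ∑' I, twist K (ψ ^ j) s I =
      ∏ j ∈ Finset.range p, classL K (ψ ^ j) s := rfl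
  rw [hcl] at hmain
  have h3 : 1 ≤ ‖∏ j ∈ Finset.range p, classL K (ψ ^ j) s‖ *
      Real.exp (-(p * ∑ v ∈ T, nrm K s (primeNZ K v))) :=
    hmain.trans (mul_le_mul_of_nonneg_left hT' (norm_nonneg _))
  rw [Real.exp_neg, ← div_eq_mul_inv, le_div_iff₀ (Real.exp_pos _), one_mul] at h3
  exact h3

/-- the primes at which `ψ` is trivial have prime zeta sum at most `(1/p) log (1/(s-1)) + O(1)`,
provided the `L`-series of the nontrivial powers of `ψ` are bounded on `(1, 2]`. -/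
theorem dens_psi_one_le (p : ℕ) [Fact p.Prime] (ψ : ClassGroup (𝓞 K) →* ℂˣ) (hψp : ψ ^ p = 1)
    (hL : ∀ j : ℕ, ¬ p ∣ j → ∃ B : ℝ, ∀ s : ℝ, 1 < s → s ≤ 2 → ‖classL K (ψ ^ j) s‖ ≤ B) :
    ∃ C : ℝ, ∀ s : ℝ, 1 < s → s ≤ 2 →
      primeSum K {v | ψ (ClassGroup.mk0 (primeNZ K v)) = 1} s ≤
        (1 / p : ℝ) * Real.log (1 / (s - 1)) + C := by
  have hp := (Fact.out : p.Prime)
  obtain ⟨c, C, hc, hC, hb⟩ := zetaR_bounds K
  have hex : ∀ j : ℕ, ∃ B : ℝ, ¬ p ∣ j →
      ∀ s : ℝ, 1 < s → s ≤ 2 → ‖classL K (ψ ^ j) s‖ ≤ B := by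
    intro j
    by_cases hj : p ∣ j
    · exact ⟨0, fun h => absurd hj h⟩
    · obtain ⟨B, hB⟩ := hL j hj
      exact ⟨B, fun _ => hB⟩
  choose B hB using hex
  set E := (Finset.range p).erase 0 with hE
  set Bp : ℝ := max (∏ j ∈ E, B j) 1 with hBp
  have hBp1 : 1 ≤ Bp := le_max_right _ _
  have hCB : 0 < C * Bp := mul_pos hC (by linarith)
  refine ⟨(1 / p : ℝ) * Real.log (C * Bp), fun s hs hs2 => ?_⟩
  have hs0 : 0 < s - 1 := by linarith
  have hp0 : (0 : ℝ) < p := by exact_mod_cast hp.pos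
  apply dens_primeSum_le_of_finset K hs
  intro T hT
  have hkey := dens_key K p ψ hψp hs T (fun v hv => hT v hv)
  have hprod : ‖∏ j ∈ Finset.range p, classL K (ψ ^ j) s‖ ≤ C / (s - 1) * Bp := by
    rw [← Finset.mul_prod_erase (Finset.range p) _ (Finset.mem_range.mpr hp.pos), norm_mul,
      norm_prod]
    have h0 : ‖classL K (ψ ^ 0) s‖ ≤ C / (s - 1) := by
      rw [pow_zero, dens_classL_one, Complex.norm_real,
        Real.norm_of_nonneg (by have := one_le_zetaR K hs; linarith)]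
      exact (hb s hs hs2).2
    have h1 : ∏ j ∈ E, ‖classL K (ψ ^ j) s‖ ≤ Bp := by
      refine le_trans (Finset.prod_le_prod (fun _ _ => norm_nonneg _) fun j hj => ?_)
        (le_max_left _ _)
      have hj' := Finset.mem_erase.mp hj
      exact hB j (Nat.not_dvd_of_pos_of_lt (Nat.pos_of_ne_zero hj'.1)
        (Finset.mem_range.mp hj'.2)) s hs hs2
    exact mul_le_mul h0 h1 (Finset.prod_nonneg fun _ _ => norm_nonneg _) (div_pos hC hs0).le
  have h2 := hkey.trans hprod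
  have h3 := Real.log_le_log (Real.exp_pos _) h2
  rw [Real.log_exp] at h3
  have h4 : C / (s - 1) * Bp = (1 / (s - 1)) * (C * Bp) := by ring
  rw [h4, Real.log_mul (one_div_pos.mpr hs0).ne' hCB.ne'] at h3
  have h5 : ∑ v ∈ T, nrm K s (primeNZ K v) ≤
      (Real.log (1 / (s - 1)) + Real.log (C * Bp)) / p := by
    rw [le_div_iff₀ hp0]
    linarith
  calc ∑ v ∈ T, nrm K s (primeNZ K v) ≤ (Real.log (1 / (s - 1)) + Real.log (C * Bp)) / p := h5
    _ = (1 / p : ℝ) * Real.log (1 / (s - 1)) + (1 / p : ℝ) * Real.log (C * Bp) := by ring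

/-- **The density argument.**  Let `ψ` be a class group character with `ψ ^ p = 1`, `p ≥ 3` prime,
such that the `L`-series of `ψ ^ j` (`p ∤ j`) are bounded on `(1, 2]`.  If the set of primes `Sbad`
has prime zeta sum at most `(1/p) log (1/(s-1)) + O(1)`, then some prime `v ∉ Sbad` has
`ψ(v) ≠ 1`. -/
theorem exists_prime_of_density (p : ℕ) [Fact p.Prime] (hp : 3 ≤ p)
    (ψ : ClassGroup (𝓞 K) →* ℂˣ) (hψ : ψ ≠ 1) (hψp : ψ ^ p = 1)
    (hL : ∀ j : ℕ, ¬ p ∣ j → ∃ B : ℝ, ∀ s : ℝ, 1 < s → s ≤ 2 → ‖classL K (ψ ^ j) s‖ ≤ B)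
    (Sbad : Set (HeightOneSpectrum (𝓞 K)))
    (hbad : ∃ C : ℝ, ∀ s, 1 < s → s ≤ 2 →
      primeSum K Sbad s ≤ (1 / p : ℝ) * Real.log (1 / (s - 1)) + C) :
    ∃ v, v ∉ Sbad ∧ ψ (ClassGroup.mk0 (primeNZ K v)) ≠ 1 := by
  by_contra hcon
  push Not at hcon
  obtain ⟨C₁, h1⟩ := hbad
  obtain ⟨C₂, h2⟩ := dens_psi_one_le K p ψ hψp hL
  obtain ⟨C₃, h3⟩ := dens_lower K
  set D : ℝ := |C₁ + C₂ + C₃| with hD
  have hD0 : 0 ≤ D := abs_nonneg _
  have hle : C₁ + C₂ + C₃ ≤ D := le_abs_self _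
  set s : ℝ := 1 + Real.exp (-(3 * D + 3)) with hs
  have hs1 : 1 < s := by
    rw [hs]
    linarith [Real.exp_pos (-(3 * D + 3))]
  have hs2 : s ≤ 2 := by
    have : Real.exp (-(3 * D + 3)) ≤ 1 := Real.exp_le_one_iff.mpr (by linarith)
    rw [hs]
    linarith
  have hlog : Real.log (1 / (s - 1)) = 3 * D + 3 := by
    rw [hs, add_sub_cancel_left, one_div, Real.log_inv, Real.log_exp]
    ring
  have hsub : (Set.univ : Set (HeightOneSpectrum (𝓞 K))) ⊆
      Sbad ∪ {v | ψ (ClassGroup.mk0 (primeNZ K v)) = 1} := by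
    intro v _
    by_cases hv : v ∈ Sbad
    · exact Or.inl hv
    · exact Or.inr (hcon v hv)
  have h4 := (dens_primeSum_mono K hs1 hsub).trans (dens_primeSum_union K hs1 _ _)
  have h5 := h1 s hs1 hs2
  have h6 := h2 s hs1 hs2
  have h7 := h3 s hs1 hs2
  rw [hlog] at h5 h6 h7
  have hp3 : (1 / p : ℝ) ≤ 1 / 3 := by
    apply one_div_le_one_div_of_le (by norm_num)
    exact_mod_cast hp
  have h8 : (1 / p : ℝ) * (3 * D + 3) ≤ 1 / 3 * (3 * D + 3) :=
    mul_le_mul_of_nonneg_right hp3 (by linarith)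
  linarith

end Fermat.Agent.S14
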