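import Fermat.Agent.S14.KummerSplit
import Fermat.Agent.S14.EulerIdeal

/-!
# S14 / A5 wrapper : the prime zeta sum over the Kummer-bad primes (helper25)

`kummerBad K p u` = primes of `K` of residue degree `≥ 2`, or dividing `p`, or modulo which `u` is
a `p`-th power.  If `K ∋ ζ_p` and `u` is not a `p`-th power in `K`, then
`primeSum K (kummerBad K p u) s ≤ (1 / p) * log (1 / (s - 1)) + C` on `(1, 2]`
(`kummerBad_primeSum_le`).  The input `∑_w N(w)^(-s) ≤ log (1 / (s - 1)) + C_M` for the prime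
zeta sum of the number field `M = K(u^{1/p})` (`h25_primeSum_le_log`) comes from the Euler
factor sieve of `EulerIdeal.lean`.
-/

set_option autoImplicit false
set_option linter.unusedSectionVars false
set_option linter.style.haveILetI false

open NumberField IsDedekindDomain
open scoped nonZeroDivisors

namespace Fermat.Agent.S14

section count

variable {K : Type*} [Field K] [NumberField K]

/-- The rational prime under a prime of `𝓞 K`. -/
noncomputable def h25_rp (𝔭 : HeightOneSpectrum (𝓞 K)) : ℕ :=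
  Ideal.absNorm (Ideal.under ℤ 𝔭.asIdeal)

theorem h25_rp_prime (𝔭 : HeightOneSpectrum (𝓞 K)) : (h25_rp 𝔭).Prime := by
  have : NeZero 𝔭.asIdeal := ⟨𝔭.ne_bot⟩
  have := 𝔭.isPrime
  exact Nat.absNorm_under_prime 𝔭.asIdeal

theorem h25_absNorm_eq (𝔭 : HeightOneSpectrum (𝓞 K)) :
    (h25_rp 𝔭) ^ (𝔭.asIdeal.inertiaDeg ℤ) = Ideal.absNorm 𝔭.asIdeal := by
  have := 𝔭.isPrime
  have : 𝔭.asIdeal.LiesOver (Ideal.span {((h25_rp 𝔭 : ℕ) : ℤ)}) :=
    Int.liesOver_span_absNorm 𝔭.asIdeal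
  exact Ideal.pow_inertiaDeg (h25_rp 𝔭) 𝔭.asIdeal

theorem h25_sq_le (𝔭 : HeightOneSpectrum (𝓞 K)) (h : ¬ (Ideal.absNorm 𝔭.asIdeal).Prime) :
    (h25_rp 𝔭) ^ 2 ≤ Ideal.absNorm 𝔭.asIdeal := by
  have := 𝔭.isPrime
  have hf : 0 < 𝔭.asIdeal.inertiaDeg ℤ := Ideal.inertiaDeg_pos _ _
  have h1 : 𝔭.asIdeal.inertiaDeg ℤ ≠ 1 := fun h1 =>
    h (by rw [← h25_absNorm_eq, h1, pow_one]; exact h25_rp_prime 𝔭)
  rw [← h25_absNorm_eq]
  exact Nat.pow_le_pow_right (h25_rp_prime 𝔭).pos (by omega)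

theorem h25_card_fiber_le (F : Finset (HeightOneSpectrum (𝓞 K))) (r : ℕ) :
    (F.filter (fun 𝔭 => h25_rp 𝔭 = r)).card ≤ Module.finrank ℤ (𝓞 K) := by
  classical
  by_cases hr : r.Prime
  · have : (Ideal.span {(r : ℤ)}).IsPrime :=
      (Ideal.span_singleton_prime (by exact_mod_cast hr.ne_zero)).2 (Nat.prime_iff_prime_int.1 hr)
    have : Fact r.Prime := ⟨hr⟩
    have : (Ideal.span {(r : ℤ)}).IsMaximal := inferInstance
    let _ : Fintype ((Ideal.span {(r : ℤ)}).primesOver (𝓞 K)) := Fintype.ofFinite _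
    have hsum := Ideal.sum_ramification_inertia_eq_finrank (Ideal.span {(r : ℤ)}) (𝓞 K)
    have hcard : Fintype.card ((Ideal.span {(r : ℤ)}).primesOver (𝓞 K))
        ≤ Module.finrank ℤ (𝓞 K) := by
      rw [← hsum, Fintype.card_eq_sum_ones]
      refine Finset.sum_le_sum fun q _ => ?_
      have := q.2.1
      exact Nat.one_le_iff_ne_zero.2 (Nat.mul_ne_zero (Ideal.ramificationIdx_pos q.1 ℤ).ne'
        (Ideal.inertiaDeg_pos q.1 ℤ).ne')
    refine le_trans ?_ hcard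
    rw [← Finset.card_univ,
      ← Finset.card_image_of_injective (F.filter (fun 𝔭 => h25_rp 𝔭 = r))
        (f := fun 𝔭 : HeightOneSpectrum (𝓞 K) => 𝔭.asIdeal) (fun a b h => HeightOneSpectrum.ext h)]
    refine le_trans (Finset.card_le_card ?_)
      (Finset.card_image_le (s := Finset.univ)
        (f := fun q : (Ideal.span {(r : ℤ)}).primesOver (𝓞 K) => q.1))
    intro I hI
    obtain ⟨𝔭, h𝔭, rfl⟩ := Finset.mem_image.1 hI
    have hrp : h25_rp 𝔭 = r := (Finset.mem_filter.1 h𝔭).2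
    refine Finset.mem_image.2 ⟨⟨𝔭.asIdeal, 𝔭.isPrime, ?_⟩, Finset.mem_univ _, rfl⟩
    rw [← hrp]
    exact Int.liesOver_span_absNorm 𝔭.asIdeal
  · have : F.filter (fun 𝔭 => h25_rp 𝔭 = r) = ∅ := by
      refine Finset.filter_eq_empty_iff.2 fun 𝔭 _ h => hr (h ▸ h25_rp_prime 𝔭)
    rw [this]; simp

theorem h25_rpow_le_one (𝔭 : HeightOneSpectrum (𝓞 K)) {s : ℝ} (hs : 0 ≤ s) :
    (Ideal.absNorm 𝔭.asIdeal : ℝ) ^ (-s) ≤ 1 := by
  have h1 : (1 : ℝ) ≤ (Ideal.absNorm 𝔭.asIdeal : ℝ) := by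
    have h0 : Ideal.absNorm 𝔭.asIdeal ≠ 0 := by
      rw [Ne, Ideal.absNorm_eq_zero_iff]; exact 𝔭.ne_bot
    exact_mod_cast Nat.one_le_iff_ne_zero.2 h0
  exact Real.rpow_le_one_of_one_le_of_nonpos h1 (by linarith)

theorem h25_sum_deg_two_le (F : Finset (HeightOneSpectrum (𝓞 K)))
    (hF : ∀ 𝔭 ∈ F, ¬ (Ideal.absNorm 𝔭.asIdeal).Prime) {s : ℝ} (hs : 1 ≤ s) :
    ∑ 𝔭 ∈ F, (Ideal.absNorm 𝔭.asIdeal : ℝ) ^ (-s)
      ≤ (Module.finrank ℤ (𝓞 K) : ℝ) * ∑' r : ℕ, ((r : ℝ) ^ 2)⁻¹ := by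
  classical
  have hsummable : Summable (fun r : ℕ => ((r : ℝ) ^ 2)⁻¹) :=
    Real.summable_nat_pow_inv.2 one_lt_two
  calc ∑ 𝔭 ∈ F, (Ideal.absNorm 𝔭.asIdeal : ℝ) ^ (-s)
      ≤ ∑ 𝔭 ∈ F, (((h25_rp 𝔭 : ℕ) : ℝ) ^ 2)⁻¹ := Finset.sum_le_sum fun 𝔭 h𝔭 => by
        have h2 := h25_sq_le 𝔭 (hF 𝔭 h𝔭)
        have hrp : 0 < h25_rp 𝔭 := (h25_rp_prime 𝔭).pos
        have h2' : ((h25_rp 𝔭 : ℕ) : ℝ) ^ 2 ≤ (Ideal.absNorm 𝔭.asIdeal : ℝ) := by
          exact_mod_cast h2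
        have hpos : (0 : ℝ) < ((h25_rp 𝔭 : ℕ) : ℝ) ^ 2 := by positivity
        have h1 : (1 : ℝ) ≤ (Ideal.absNorm 𝔭.asIdeal : ℝ) := by
          have : (1 : ℝ) ≤ ((h25_rp 𝔭 : ℕ) : ℝ) ^ 2 := by
            have : (1 : ℝ) ≤ ((h25_rp 𝔭 : ℕ) : ℝ) := by exact_mod_cast hrp
            nlinarith
          linarith
        calc (Ideal.absNorm 𝔭.asIdeal : ℝ) ^ (-s)
            ≤ (Ideal.absNorm 𝔭.asIdeal : ℝ) ^ (-1 : ℝ) :=
              Real.rpow_le_rpow_of_exponent_le h1 (by linarith)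
          _ = ((Ideal.absNorm 𝔭.asIdeal : ℝ))⁻¹ := Real.rpow_neg_one _
          _ ≤ (((h25_rp 𝔭 : ℕ) : ℝ) ^ 2)⁻¹ := inv_anti₀ hpos h2'
    _ = ∑ r ∈ F.image h25_rp,
          ((F.filter (fun 𝔭 => h25_rp 𝔭 = r)).card : ℝ) * (((r : ℝ)) ^ 2)⁻¹ := by
        rw [Finset.sum_comp (fun r : ℕ => ((r : ℝ) ^ 2)⁻¹) h25_rp]
        simp [nsmul_eq_mul]
    _ ≤ ∑ r ∈ F.image h25_rp, (Module.finrank ℤ (𝓞 K) : ℝ) * ((r : ℝ) ^ 2)⁻¹ := by
        refine Finset.sum_le_sum fun r _ => ?_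
        have := h25_card_fiber_le F r
        gcongr
    _ = (Module.finrank ℤ (𝓞 K) : ℝ) * ∑ r ∈ F.image h25_rp, ((r : ℝ) ^ 2)⁻¹ := by
        rw [Finset.mul_sum]
    _ ≤ _ := by
        gcongr
        exact hsummable.sum_le_tsum _ (fun _ _ => by positivity)

end count

section logbound

variable (M : Type*) [Field M] [NumberField M]

/-- finitely many Euler factors: `exp (∑_{v ∈ S} N(v)^(-s)) ≤ ζ_M(s)`. -/
theorem h25_exp_sum_le_zetaR {s : ℝ} (hs : 1 < s) (S : Finset (HeightOneSpectrum (𝓞 M))) :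
    Real.exp (∑ v ∈ S, nrm M s (primeNZ M v)) ≤ zetaR M s := by
  set f : (Ideal (𝓞 M))⁰ →* ℂ :=
    (Complex.ofRealHom : ℝ →+* ℂ).toMonoidHom.comp (nrmHom M s) with hf
  have hfI : ∀ I, f I = ((nrm M s I : ℝ) : ℂ) := fun I => rfl
  have hsum : Summable fun I => ‖f I‖ := by
    refine (summable_nrm M hs).congr fun I => ?_
    rw [hfI, Complex.norm_real, Real.norm_of_nonneg (nrm_pos M s I).le]
  have hx0 : ∀ v, 0 < nrm M s (primeNZ M v) := fun v => nrm_pos M s _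
  have hx1 : ∀ v, nrm M s (primeNZ M v) ≤ 1 / 2 := fun v => nrm_prime_le_half M hs.le v
  have hone : ∀ v, ‖(1 : ℂ) - f (primeNZ M v)‖ = 1 - nrm M s (primeNZ M v) := by
    intro v
    rw [hfI, ← Complex.ofReal_one, ← Complex.ofReal_sub, Complex.norm_real, Real.norm_of_nonneg]
    linarith [hx1 v]
  have key := one_le_norm_prod_mul M ({0} : Finset ℕ) (fun _ => f) (fun _ _ => hsum)
    (fun _ _ v => by
      rw [hfI, Complex.norm_real, Real.norm_of_nonneg (hx0 v).le]; linarith [hx1 v])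
    (fun v => by rw [Finset.prod_singleton, hone]; linarith [hx0 v]) S
  simp only [Finset.prod_singleton, hone] at key
  have hz0 : 0 < zetaR M s := lt_of_lt_of_le one_pos (one_le_zetaR M hs)
  have hz : ‖∑' I, f I‖ = zetaR M s := by
    have h1 : (∑' I, f I) = ((zetaR M s : ℝ) : ℂ) := by
      rw [zetaR, Complex.ofReal_tsum]
      exact tsum_congr hfI
    rw [h1, Complex.norm_real, Real.norm_of_nonneg hz0.le]
  rw [hz] at key
  have hprod : ∏ v ∈ S, (1 - nrm M s (primeNZ M v))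
      ≤ Real.exp (-(∑ v ∈ S, nrm M s (primeNZ M v))) := by
    rw [← Finset.sum_neg_distrib, Real.exp_sum]
    exact Finset.prod_le_prod (fun v _ => by linarith [hx1 v])
      (fun v _ => Real.one_sub_le_exp_neg _)
  have h2 : 1 ≤ zetaR M s * Real.exp (-(∑ v ∈ S, nrm M s (primeNZ M v))) :=
    le_trans key (mul_le_mul_of_nonneg_left hprod hz0.le)
  rw [Real.exp_neg] at h2
  have he : 0 < Real.exp (∑ v ∈ S, nrm M s (primeNZ M v)) := Real.exp_pos _
  rwa [← div_eq_mul_inv, le_div_iff₀ he, one_mul] at h2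

/-- the prime zeta sum of a number field is at most `log (1 / (s - 1)) + C` on `(1, 2]`. -/
theorem h25_primeSum_le_log : ∃ C : ℝ, ∀ s : ℝ, 1 < s → s ≤ 2 →
    Summable (fun w : HeightOneSpectrum (𝓞 M) => nrm M s (primeNZ M w)) ∧
    ∑' w : HeightOneSpectrum (𝓞 M), nrm M s (primeNZ M w) ≤ Real.log (1 / (s - 1)) + C := by
  obtain ⟨c, C, hc, hC, hb⟩ := zetaR_bounds M
  refine ⟨Real.log C, fun s hs1 hs2 => ?_⟩
  have hsum : Summable (fun w : HeightOneSpectrum (𝓞 M) => nrm M s (primeNZ M w)) :=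
    (summable_nrm M hs1).comp_injective (primeNZ_injective M)
  refine ⟨hsum, hsum.tsum_le_of_sum_le fun S => ?_⟩
  have h1 := h25_exp_sum_le_zetaR M hs1 S
  have h2 := (hb s hs1 hs2).2
  have hs0 : 0 < s - 1 := by linarith
  have hz0 : 0 < zetaR M s := lt_of_lt_of_le one_pos (one_le_zetaR M hs1)
  have h3 : ∑ v ∈ S, nrm M s (primeNZ M v) ≤ Real.log (zetaR M s) :=
    (Real.le_log_iff_exp_le hz0).2 h1
  have h4 : Real.log (zetaR M s) ≤ Real.log (C / (s - 1)) := Real.log_le_log hz0 h2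
  have h5 : Real.log (C / (s - 1)) = Real.log (1 / (s - 1)) + Real.log C := by
    rw [div_eq_mul_one_div, Real.log_mul hC.ne' (by positivity), add_comm]
  linarith

end logbound

section main

universe u

variable {K : Type u} [Field K] [NumberField K]

/-- The Kummer-bad primes: residue degree `≥ 2`, or above `p`, or `u` is a `p`-th power mod `v`. -/
def kummerBad (K : Type*) [Field K] [NumberField K] (p : ℕ) (u : 𝓞 K) :
    Set (HeightOneSpectrum (𝓞 K)) :=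
  {v | ¬ (Ideal.absNorm v.asIdeal).Prime ∨ (p : 𝓞 K) ∈ v.asIdeal ∨
    ∃ x : 𝓞 K, u - x ^ p ∈ v.asIdeal}

theorem notMem_kummerBad_iff (p : ℕ) (u : 𝓞 K) (v : HeightOneSpectrum (𝓞 K)) :
    v ∉ kummerBad K p u ↔ (Ideal.absNorm v.asIdeal).Prime ∧ (p : 𝓞 K) ∉ v.asIdeal ∧
      ∀ x : 𝓞 K, u - x ^ p ∉ v.asIdeal := by
  simp only [kummerBad, Set.mem_ofPred_eq, not_or, not_not, not_exists]

theorem h25_nrm_primeNZ (s : ℝ) (v : HeightOneSpectrum (𝓞 K)) :
    nrm K s (primeNZ K v) = (Ideal.absNorm v.asIdeal : ℝ) ^ (-s) := rfl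

theorem h25_finite_mem (x : 𝓞 K) (hx : x ≠ 0) :
    {v : HeightOneSpectrum (𝓞 K) | x ∈ v.asIdeal}.Finite := by
  have h := Ideal.finite_factors (I := Ideal.span {x}) (by simpa using hx)
  refine h.subset fun v hv => ?_
  exact Ideal.dvd_span_singleton.2 hv

/-- transfer of a finite prime sum along a `p`-fold splitting. -/
theorem h25_sum_split_le {M : Type*} [Field M] [NumberField M] [Algebra K M] (p : ℕ)
    (F : Finset (HeightOneSpectrum (𝓞 K)))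
    (hT : ∀ v ∈ F, ∃ T : Finset (HeightOneSpectrum (𝓞 M)), T.card = p ∧ ∀ w ∈ T,
      w.asIdeal.comap (algebraMap (𝓞 K) (𝓞 M)) = v.asIdeal ∧
        Ideal.absNorm w.asIdeal = Ideal.absNorm v.asIdeal)
    {s : ℝ} (hsum : Summable (fun w : HeightOneSpectrum (𝓞 M) => nrm M s (primeNZ M w))) :
    (p : ℝ) * ∑ v ∈ F, nrm K s (primeNZ K v)
      ≤ ∑' w : HeightOneSpectrum (𝓞 M), nrm M s (primeNZ M w) := by
  classical
  choose! T hTcard hT using hT
  have h1 : (p : ℝ) * ∑ v ∈ F, nrm K s (primeNZ K v)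
      = ∑ v ∈ F, ∑ w ∈ T v, nrm M s (primeNZ M w) := by
    rw [Finset.mul_sum]
    refine Finset.sum_congr rfl fun v hv => ?_
    rw [Finset.sum_congr rfl (fun w hw => by
      rw [h25_nrm_primeNZ, (hT v hv w hw).2, ← h25_nrm_primeNZ])]
    simp [hTcard v hv]
  have hdisj : (F : Set (HeightOneSpectrum (𝓞 K))).PairwiseDisjoint T := by
    intro v hv v' hv' hne
    rw [Function.onFun, Finset.disjoint_left]
    intro w hw hw'
    exact hne (HeightOneSpectrum.ext ((hT v hv w hw).1.symm.trans (hT v' hv' w hw').1))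
  rw [h1, ← Finset.sum_biUnion hdisj]
  exact hsum.sum_le_tsum _ (fun w _ => by rw [h25_nrm_primeNZ]; positivity)

/-- the finite-sum form of the bound. -/
theorem h25_finsum_le (p : ℕ) [Fact p.Prime] (u : 𝓞 K)
    {M : Type*} [Field M] [NumberField M] [Algebra K M]
    (hsplit : ∀ v : HeightOneSpectrum (𝓞 K), (p : 𝓞 K) ∉ v.asIdeal → u ∉ v.asIdeal →
      (∃ x : 𝓞 K, u - x ^ p ∈ v.asIdeal) →
      ∃ T : Finset (HeightOneSpectrum (𝓞 M)), T.card = p ∧ ∀ w ∈ T,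
        w.asIdeal.comap (algebraMap (𝓞 K) (𝓞 M)) = v.asIdeal ∧
          Ideal.absNorm w.asIdeal = Ideal.absNorm v.asIdeal)
    (S₂ : Finset (HeightOneSpectrum (𝓞 K)))
    (hS₂ : ∀ v : HeightOneSpectrum (𝓞 K), (p : 𝓞 K) * u ∈ v.asIdeal → v ∈ S₂)
    {s : ℝ} (hs : 1 ≤ s)
    (hsum : Summable (fun w : HeightOneSpectrum (𝓞 M) => nrm M s (primeNZ M w)))
    (F : Finset (HeightOneSpectrum (𝓞 K))) (hF : ∀ v ∈ F, v ∈ kummerBad K p u) :
    ∑ v ∈ F, nrm K s (primeNZ K v)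
      ≤ (Module.finrank ℤ (𝓞 K) : ℝ) * ∑' r : ℕ, ((r : ℝ) ^ 2)⁻¹ + S₂.card
        + (1 / p : ℝ) * ∑' w : HeightOneSpectrum (𝓞 M), nrm M s (primeNZ M w) := by
  classical
  have hp : (0 : ℝ) < p := by exact_mod_cast (Fact.out : p.Prime).pos
  -- the three parts
  set F₁ := F.filter (fun v => ¬ (Ideal.absNorm v.asIdeal).Prime) with hF₁
  set F' := F.filter (fun v => ¬ ¬ (Ideal.absNorm v.asIdeal).Prime) with hF'
  set F₂ := F'.filter (fun v => (p : 𝓞 K) * u ∈ v.asIdeal) with hF₂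
  set F₃ := F'.filter (fun v => ¬ (p : 𝓞 K) * u ∈ v.asIdeal) with hF₃
  have e1 : ∑ v ∈ F, nrm K s (primeNZ K v)
      = ∑ v ∈ F₁, nrm K s (primeNZ K v) + ∑ v ∈ F', nrm K s (primeNZ K v) :=
    (Finset.sum_filter_add_sum_filter_not F _ _).symm
  have e2 : ∑ v ∈ F', nrm K s (primeNZ K v)
      = ∑ v ∈ F₂, nrm K s (primeNZ K v) + ∑ v ∈ F₃, nrm K s (primeNZ K v) :=
    (Finset.sum_filter_add_sum_filter_not F' _ _).symm
  have b1 : ∑ v ∈ F₁, nrm K s (primeNZ K v)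
      ≤ (Module.finrank ℤ (𝓞 K) : ℝ) * ∑' r : ℕ, ((r : ℝ) ^ 2)⁻¹ :=
    h25_sum_deg_two_le F₁ (fun v hv => (Finset.mem_filter.1 hv).2) hs
  have b2 : ∑ v ∈ F₂, nrm K s (primeNZ K v) ≤ S₂.card := by
    calc ∑ v ∈ F₂, nrm K s (primeNZ K v) ≤ ∑ _v ∈ F₂, (1 : ℝ) :=
          Finset.sum_le_sum fun v _ => h25_rpow_le_one v (by linarith)
      _ = F₂.card := by simp
      _ ≤ S₂.card := by
          exact_mod_cast Finset.card_le_card fun v hv => hS₂ v (Finset.mem_filter.1 hv).2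
  have b3 : (p : ℝ) * ∑ v ∈ F₃, nrm K s (primeNZ K v)
      ≤ ∑' w : HeightOneSpectrum (𝓞 M), nrm M s (primeNZ M w) := by
    refine h25_sum_split_le p F₃ (fun v hv => ?_) hsum
    have hv3 := (Finset.mem_filter.1 hv).2
    have hv' := (Finset.mem_filter.1 (Finset.mem_filter.1 hv).1)
    have hpv : (p : 𝓞 K) ∉ v.asIdeal := fun h => hv3 (Ideal.mul_mem_right _ _ h)
    have huv : u ∉ v.asIdeal := fun h => hv3 (Ideal.mul_mem_left _ _ h)
    refine hsplit v hpv huv ?_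
    rcases hF v hv'.1 with h | h | h
    · exact absurd h hv'.2
    · exact absurd h hpv
    · exact h
  have b3' : ∑ v ∈ F₃, nrm K s (primeNZ K v)
      ≤ (1 / p : ℝ) * ∑' w : HeightOneSpectrum (𝓞 M), nrm M s (primeNZ M w) := by
    rw [one_div, inv_mul_eq_div, le_div_iff₀ hp, mul_comm]
    exact b3
  rw [e1, e2]
  linarith

/-- **A5 wrapper.**  The prime zeta sum over the Kummer-bad primes is at most
`(1 / p) * log (1 / (s - 1)) + C` on `(1, 2]`, given the corresponding upper bound (with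
constant `1`) for the full prime zeta sum of every number field. -/
theorem kummerBad_primeSum_le_of (p : ℕ) [Fact p.Prime] {ζ : K} (hζ : IsPrimitiveRoot ζ p)
    (u : 𝓞 K) (hu : ∀ b : K, b ^ p ≠ (u : K))
    (hE3 : ∀ (M : Type u) [Field M] [NumberField M], ∃ C : ℝ, ∀ s : ℝ, 1 < s → s ≤ 2 →
      Summable (fun w : HeightOneSpectrum (𝓞 M) => nrm M s (primeNZ M w)) ∧
      ∑' w : HeightOneSpectrum (𝓞 M), nrm M s (primeNZ M w) ≤ Real.log (1 / (s - 1)) + C) :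
    ∃ C : ℝ, ∀ s : ℝ, 1 < s → s ≤ 2 →
      Summable (fun v : kummerBad K p u => nrm K s (primeNZ K v.1)) ∧
      primeSum K (kummerBad K p u) s ≤ (1 / p : ℝ) * Real.log (1 / (s - 1)) + C := by
  classical
  have hpp : p.Prime := Fact.out
  have hp : (0 : ℝ) < p := by exact_mod_cast hpp.pos
  obtain ⟨M, _, _, _, hsplit⟩ := kummer_split p hζ u hu
  obtain ⟨CM, hCM⟩ := hE3 M
  have hu0 : u ≠ 0 := by
    rintro rfl
    exact hu 0 (by simp [hpp.ne_zero])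
  have hpu : (p : 𝓞 K) * u ≠ 0 := mul_ne_zero (Nat.cast_ne_zero.2 hpp.ne_zero) hu0
  set S₂ := (h25_finite_mem ((p : 𝓞 K) * u) hpu).toFinset with hS₂
  refine ⟨(Module.finrank ℤ (𝓞 K) : ℝ) * ∑' r : ℕ, ((r : ℝ) ^ 2)⁻¹ + S₂.card + (1 / p : ℝ) * CM,
    fun s hs1 hs2 => ?_⟩
  obtain ⟨hsum, hle⟩ := hCM s hs1 hs2
  have key : ∀ F : Finset (kummerBad K p u), ∑ v ∈ F, nrm K s (primeNZ K v.1)
      ≤ (1 / p : ℝ) * Real.log (1 / (s - 1)) + ((Module.finrank ℤ (𝓞 K) : ℝ) *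
        ∑' r : ℕ, ((r : ℝ) ^ 2)⁻¹ + S₂.card + (1 / p : ℝ) * CM) := by
    intro F
    have h1 := h25_finsum_le p u hsplit S₂
      (fun v hv => (Set.Finite.mem_toFinset _).2 hv) hs1.le hsum
      (F.map (Function.Embedding.subtype _))
      (fun v hv => by
        obtain ⟨w, -, rfl⟩ := Finset.mem_map.1 hv
        exact w.2)
    rw [Finset.sum_map] at h1
    have h2 : (1 / p : ℝ) * ∑' w : HeightOneSpectrum (𝓞 M), nrm M s (primeNZ M w)
        ≤ (1 / p : ℝ) * (Real.log (1 / (s - 1)) + CM) :=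
      mul_le_mul_of_nonneg_left hle (by positivity)
    simp only [Function.Embedding.subtype_apply] at h1
    linarith
  have hnn : 0 ≤ fun v : kummerBad K p u => nrm K s (primeNZ K v.1) := fun v => by
    simp only [Pi.zero_apply, h25_nrm_primeNZ]; positivity
  have hsummable : Summable (fun v : kummerBad K p u => nrm K s (primeNZ K v.1)) :=
    summable_of_sum_le hnn key
  exact ⟨hsummable, hsummable.tsum_le_of_sum_le key⟩

/-- **A5 (final form).**  `K ∋ ζ_p`, `u ∈ 𝓞 K` not a `p`-th power in `K`: the prime zeta sum over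
the Kummer-bad primes is at most `(1 / p) * log (1 / (s - 1)) + C` on `(1, 2]`. -/
theorem kummerBad_primeSum_le (p : ℕ) [Fact p.Prime] {ζ : K} (hζ : IsPrimitiveRoot ζ p)
    (u : 𝓞 K) (hu : ∀ b : K, b ^ p ≠ (u : K)) :
    ∃ C : ℝ, ∀ s : ℝ, 1 < s → s ≤ 2 →
      primeSum K (kummerBad K p u) s ≤ (1 / p : ℝ) * Real.log (1 / (s - 1)) + C := by
  obtain ⟨C, hC⟩ := kummerBad_primeSum_le_of p hζ u hu (fun M _ _ => h25_primeSum_le_log M)
  exact ⟨C, fun s h1 h2 => (hC s h1 h2).2⟩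

theorem kummerBad_summable (p : ℕ) (u : 𝓞 K) {s : ℝ} (hs : 1 < s) :
    Summable (fun v : kummerBad K p u => nrm K s (primeNZ K v.1)) :=
  (summable_nrm K hs).comp_injective
    ((primeNZ_injective K).comp Subtype.val_injective)

end main

end Fermat.Agent.S14
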