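import Mathlib
import Fermat.Agent.S14.Density
import Fermat.Agent.S14.ClassLBound
import Fermat.Agent.S14.KummerBad

/-!
# S14, analytic part: existence of a good prime (helper20)

Glue of the density argument (`exists_prime_of_density`), the boundedness of class group
`L`-series (`classL_bounded`) and the bound for the Kummer-bad primes (`kummerBad_primeSum_le`).
-/

set_option autoImplicit false

namespace Fermat.Agent.S14

open NumberField IsDedekindDomain
open scoped nonZeroDivisors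

universe u

/-- a nontrivial character of prime order `p` has `ψ ^ j ≠ 1` for `p ∤ j`. -/
theorem good_pow_ne_one {G : Type*} [Monoid G] (p : ℕ) [Fact p.Prime] (ψ : G →* ℂˣ) (hψ : ψ ≠ 1)
    (hψp : ψ ^ p = 1) (j : ℕ) (hj : ¬ p ∣ j) : ψ ^ j ≠ 1 := by
  intro h
  have ho : orderOf ψ = p := orderOf_eq_prime hψp hψ
  exact hj (ho ▸ orderOf_dvd_of_pow_eq_one h)

/-- **Existence of a good prime.**  If `u` is not a `p`-th power in `K ∋ ζ_p` and `ψ` is a class
group character of order `p ≥ 3`, there is a prime `v` of degree one, prime to `p`, such that `u`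
is not a `p`-th power modulo `v` and `ψ(v) ≠ 1`. -/
theorem exists_good_prime {K : Type u} [Field K] [NumberField K] (p : ℕ) [Fact p.Prime]
    (hp : 3 ≤ p) {ζ : K} (hζ : IsPrimitiveRoot ζ p) (u : 𝓞 K) (hu : ∀ b : K, b ^ p ≠ (u : K))
    (ψ : ClassGroup (𝓞 K) →* ℂˣ) (hψ : ψ ≠ 1) (hψp : ψ ^ p = 1) :
    ∃ v : HeightOneSpectrum (𝓞 K), (Ideal.absNorm v.asIdeal).Prime ∧ (p : 𝓞 K) ∉ v.asIdeal ∧
      (¬ ∃ w : 𝓞 K, u - w ^ p ∈ v.asIdeal) ∧
      ∀ h : v.asIdeal ∈ (Ideal (𝓞 K))⁰, ψ (ClassGroup.mk0 ⟨v.asIdeal, h⟩) ≠ 1 := by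
  obtain ⟨v, hv, hψv⟩ := exists_prime_of_density K p hp ψ hψ hψp
    (fun j hj => classL_bounded K (ψ ^ j) (good_pow_ne_one p ψ hψ hψp j hj))
    (kummerBad K p u) (kummerBad_primeSum_le p hζ u hu)
  rw [notMem_kummerBad_iff] at hv
  refine ⟨v, hv.1, hv.2.1, fun ⟨w, hw⟩ => hv.2.2 w hw, fun h => hψv⟩

end Fermat.Agent.S14
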