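import Mathlib

/-!
Prime-local lemmas for the Thaine relation (S14 project, module T, split #665).

* `thaine_local` : in `M = ℚ(ζ_{pr})`, for an automorphism `τ` of `𝓞 M` fixing `ζ_p` with
  `τ ζ_r = ζ_r ^ t`, a prime `𝔓 ∣ r` and `ξ * τ γ = γ` with `v_𝔓(γ) = m`: `ξ * t ^ m ≡ 1 mod 𝔓`.
* `thaine_ram` : `v_𝔓(x 𝓞 M) = e * v_𝔮(x 𝓞 K)` for `x ∈ 𝓞 K`, `K = ℚ(ζ_p)`, `𝔮 = 𝔓 ∩ 𝓞 K`, with
  `e = r - 1` if `𝔓 ∣ r` and `e = 1` otherwise.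
-/

set_option autoImplicit false

open NumberField

namespace Fermat.Agent.S14

/-- An automorphism of `𝓞 M`, `M = ℚ(ζ_{pr})`, fixing `ζ_p` and sending `ζ_r ↦ ζ_r ^ t` is trivial
modulo any ideal containing `ζ_r - 1`. -/
theorem h61_tau_sub_mem (p r : ℕ) [Fact p.Prime] [Fact r.Prime] (hpr : p ≠ r) (M : Type) [Field M]
    [NumberField M] [IsCyclotomicExtension {p * r} ℚ M] {ζ ζr : 𝓞 M} (hζ : IsPrimitiveRoot ζ p)
    (hζr : IsPrimitiveRoot ζr r) (τ : 𝓞 M ≃+* 𝓞 M) (hτζ : τ ζ = ζ) (t : ℕ) (hτ : τ ζr = ζr ^ t)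
    (𝔓 : Ideal (𝓞 M)) (hπ : ζr - 1 ∈ 𝔓) (x : 𝓞 M) : τ x - x ∈ 𝔓 := by
  have hcop : Nat.Coprime p r := (Nat.coprime_primes Fact.out Fact.out).2 hpr
  have hprim : IsPrimitiveRoot (ζ * ζr) (p * r) := by
    have := IsPrimitiveRoot.orderOf (ζ * ζr)
    rwa [(Commute.all ζ ζr).orderOf_mul_eq_mul_orderOf_of_coprime
      (by rwa [← hζ.eq_orderOf, ← hζr.eq_orderOf]), ← hζ.eq_orderOf, ← hζr.eq_orderOf] at this
  have hprimM : IsPrimitiveRoot ((ζ * ζr : 𝓞 M) : M) (p * r) :=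
    hprim.map_of_injective (f := algebraMap (𝓞 M) M) RingOfIntegers.coe_injective
  have htop := IsCyclotomicExtension.Rat.adjoin_singleton_eq_top hprimM
  have hto : hprimM.toInteger = ζ * ζr := by ext; rfl
  rw [hto] at htop
  let f : 𝓞 M →ₐ[ℤ] 𝓞 M ⧸ 𝔓 := ((Ideal.Quotient.mk 𝔓).comp τ.toRingHom).toIntAlgHom
  let g : 𝓞 M →ₐ[ℤ] 𝓞 M ⧸ 𝔓 := (Ideal.Quotient.mk 𝔓).toIntAlgHom
  have h1 : Ideal.Quotient.mk 𝔓 ζr = 1 := by
    rw [← sub_eq_zero, ← map_one (Ideal.Quotient.mk 𝔓), ← map_sub, Ideal.Quotient.eq_zero_iff_mem]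
    exact hπ
  have hfg : f = g := by
    apply AlgHom.ext_of_adjoin_eq_top htop
    intro y hy
    rw [Set.mem_singleton_iff] at hy
    subst hy
    show Ideal.Quotient.mk 𝔓 (τ (ζ * ζr)) = Ideal.Quotient.mk 𝔓 (ζ * ζr)
    rw [map_mul, hτζ, hτ]
    simp [h1]
  have := DFunLike.congr_fun hfg x
  rw [← Ideal.Quotient.eq_zero_iff_mem, map_sub, sub_eq_zero]
  exact this

/-- `ζ_r - 1` lies in every prime above `r`. -/
theorem h61_zeta_sub_one_mem {A : Type} [CommRing A] (r : ℕ) (hr : r.Prime) {ζr : A}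
    (hζr : ζr ^ r = 1) (𝔓 : Ideal A) [𝔓.IsPrime] (h𝔓 : (r : A) ∈ 𝔓) : ζr - 1 ∈ 𝔓 := by
  obtain ⟨c, hc⟩ := exists_add_pow_prime_eq hr (ζr - 1) 1
  have h1 : (ζr - 1) ^ r = - ((r : A) * ((ζr - 1) * 1 * c)) := by
    rw [sub_add_cancel, hζr] at hc
    linear_combination -hc
  apply Ideal.IsPrime.mem_of_pow_mem inferInstance r
  rw [h1]
  exact neg_mem (Ideal.mul_mem_right _ _ h𝔓)

/-- `ζ_r - 1` is a uniformizer at every prime of `ℚ(ζ_{pr})` above `r`. -/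
theorem h61_zeta_sub_one_not_mem_sq (p r : ℕ) [Fact p.Prime] [Fact r.Prime] (hpr : p ≠ r)
    (M : Type) [Field M] [NumberField M] [IsCyclotomicExtension {p * r} ℚ M] {ζr : 𝓞 M}
    (hζr : IsPrimitiveRoot ζr r) (𝔓 : Ideal (𝓞 M)) [𝔓.IsPrime] (h𝔓 : (r : 𝓞 M) ∈ 𝔓) :
    ζr - 1 ∉ 𝔓 ^ 2 := by
  have hr : r.Prime := Fact.out
  have hp : p.Prime := Fact.out
  intro hmem
  obtain ⟨z, -, hz⟩ := hζr.self_sub_one_pow_dvd_order (k := r - 1) (Nat.sub_lt hr.pos one_pos)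
  have hrr : (r : 𝓞 M) ∈ 𝔓 ^ r := by
    rw [hz]
    apply Ideal.mul_mem_left
    have : (ζr - 1) ^ (r - 1) ∈ (𝔓 ^ 2) ^ (r - 1) := Ideal.pow_mem_pow hmem _
    rw [← pow_mul] at this
    exact Ideal.pow_le_pow_right (by have := hr.two_le; omega) this
  have : 𝔓.LiesOver (Ideal.span {(r : ℤ)}) := by
    constructor
    have hmax : (Ideal.span {(r : ℤ)}).IsMaximal := Int.ideal_span_isMaximal_of_prime r
    refine hmax.eq_of_le (Ideal.IsPrime.ne_top (Ideal.IsPrime.under ℤ 𝔓)) ?_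
    rw [Ideal.span_singleton_le_iff_mem, Ideal.under_def, Ideal.mem_comap]
    simpa using h𝔓
  have he := IsCyclotomicExtension.Rat.ramificationIdx_eq (n := p * r) (p := r) (k := 0) (m := p)
    (K := M) (P := 𝔓) (by ring) (fun hdvd => hpr ((Nat.prime_dvd_prime_iff_eq hr hp).1 hdvd).symm)
  have hmap : (Ideal.span {(r : ℤ)}).map (algebraMap ℤ (𝓞 M)) = Ideal.span {(r : 𝓞 M)} := by
    rw [Ideal.map_span, Set.image_singleton]; simp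
  have hne : (Ideal.span {(r : ℤ)}).map (algebraMap ℤ (𝓞 M)) ≠ ⊥ := by
    rw [hmap, Ne, Ideal.span_singleton_eq_bot]
    exact_mod_cast hr.ne_zero
  rw [Ideal.IsDedekindDomain.ramificationIdx_eq_multiplicity (Ideal.span {(r : ℤ)}) 𝔓 hne,
    hmap] at he
  have h𝔓0 : 𝔓 ≠ ⊥ := by
    intro hbot
    rw [hbot, Ideal.mem_bot] at h𝔓
    exact hr.ne_zero (by exact_mod_cast h𝔓)
  have hfin : FiniteMultiplicity 𝔓 (Ideal.span {(r : 𝓞 M)}) :=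
    FiniteMultiplicity.of_prime_left (Ideal.prime_of_isPrime h𝔓0 inferInstance) (hmap ▸ hne)
  refine hfin.not_pow_dvd_of_multiplicity_lt (m := r) ?_ ?_
  · rw [he]
    simpa using Nat.sub_lt hr.pos one_pos
  · rw [Ideal.dvd_span_singleton]
    exact hrr

theorem thaine_local (p r : ℕ) [Fact p.Prime] [Fact r.Prime] (hpr : p ≠ r) (M : Type) [Field M]
    [NumberField M] [IsCyclotomicExtension {p * r} ℚ M] {ζ ζr : 𝓞 M} (hζ : IsPrimitiveRoot ζ p)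
    (hζr : IsPrimitiveRoot ζr r) (τ : 𝓞 M ≃+* 𝓞 M) (hτζ : τ ζ = ζ) (t : ℕ) (hτ : τ ζr = ζr ^ t)
    (𝔓 : Ideal (𝓞 M)) [𝔓.IsPrime] (h𝔓 : (r : 𝓞 M) ∈ 𝔓) (γ ξ : 𝓞 M) (h : ξ * τ γ = γ) (m : ℕ)
    (hm : γ ∈ 𝔓 ^ m) (hm' : γ ∉ 𝔓 ^ (m + 1)) : ξ * (t : 𝓞 M) ^ m - 1 ∈ 𝔓 := by
  have hr : r.Prime := Fact.out
  have hπ : ζr - 1 ∈ 𝔓 := h61_zeta_sub_one_mem r hr hζr.pow_eq_one 𝔓 h𝔓
  have hπ2 : ζr - 1 ∉ 𝔓 ^ 2 := h61_zeta_sub_one_not_mem_sq p r hpr M hζr 𝔓 h𝔓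
  have h𝔓0 : 𝔓 ≠ ⊥ := by
    intro hbot
    rw [hbot, Ideal.mem_bot] at h𝔓
    exact hr.ne_zero (by exact_mod_cast h𝔓)
  have hτ𝔓 : ∀ x, τ x - x ∈ 𝔓 := h61_tau_sub_mem p r hpr M hζ hζr τ hτζ t hτ 𝔓 hπ
  have hq1 : Ideal.Quotient.mk 𝔓 ζr = 1 := by
    rw [← sub_eq_zero, ← map_one (Ideal.Quotient.mk 𝔓), ← map_sub, Ideal.Quotient.eq_zero_iff_mem]
    exact hπ
  -- `τ (ζr - 1) = (ζr - 1) * s` with `s ≡ t`
  set s : 𝓞 M := ∑ i ∈ Finset.range t, ζr ^ i with hs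
  have hτπ : τ (ζr - 1) = (ζr - 1) * s := by
    rw [map_sub, map_one, hτ, hs, mul_geom_sum]
  have hst : Ideal.Quotient.mk 𝔓 s = Ideal.Quotient.mk 𝔓 (t : 𝓞 M) := by
    rw [hs, map_sum]
    simp [hq1]
  have hπm : (ζr - 1) ^ m ∈ 𝔓 ^ m := Ideal.pow_mem_pow hπ m
  have hπm' : (ζr - 1) ^ m ∉ 𝔓 ^ (m + 1) := by
    have hprime : Prime 𝔓 := Ideal.prime_of_isPrime h𝔓0 inferInstance
    have h1 : emultiplicity 𝔓 (Ideal.span {ζr - 1}) = 1 := by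
      have := (emultiplicity_eq_coe (a := 𝔓) (b := Ideal.span {ζr - 1}) (n := 1)).2
        ⟨by rw [pow_one, Ideal.dvd_span_singleton]; exact hπ,
          by rw [Ideal.dvd_span_singleton]; exact hπ2⟩
      simpa using this
    have h2 : emultiplicity 𝔓 (Ideal.span {(ζr - 1) ^ m}) = m := by
      rw [← Ideal.span_singleton_pow, emultiplicity_pow hprime, h1, mul_one]
    intro hmem
    have h3 : 𝔓 ^ (m + 1) ∣ Ideal.span {(ζr - 1) ^ m} := by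
      rw [Ideal.dvd_span_singleton]; exact hmem
    have := le_emultiplicity_of_pow_dvd h3
    rw [h2] at this
    exact absurd this (by norm_cast; omega)
  obtain ⟨d, e, he, hde⟩ := Ideal.exists_mul_add_mem_pow_succ h𝔓0 ((ζr - 1) ^ m) γ hπm hπm' hm
  have hτe : τ e ∈ 𝔓 ^ (m + 1) := by
    have hle : 𝔓 ≤ Ideal.comap τ 𝔓 := fun x hx => by
      rw [Ideal.mem_comap]
      have := 𝔓.add_mem (hτ𝔓 x) hx
      simpa using this
    have := (Ideal.pow_right_mono hle (m + 1)).trans (Ideal.le_comap_pow _ _)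
    exact this he
  have hkey : τ γ - (t : 𝓞 M) ^ m * γ ∈ 𝔓 ^ (m + 1) := by
    have h1 : s ^ m * τ d - (t : 𝓞 M) ^ m * d ∈ 𝔓 := by
      rw [← Ideal.Quotient.eq_zero_iff_mem, map_sub, sub_eq_zero, map_mul, map_mul, map_pow,
        map_pow]
      have e2 : Ideal.Quotient.mk 𝔓 (τ d) = Ideal.Quotient.mk 𝔓 d := by
        rw [← sub_eq_zero, ← map_sub, Ideal.Quotient.eq_zero_iff_mem]; exact hτ𝔓 d
      rw [hst, e2]
    have h2 : (ζr - 1) ^ m * (s ^ m * τ d - (t : 𝓞 M) ^ m * d) ∈ 𝔓 ^ (m + 1) := by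
      rw [pow_succ]
      exact Ideal.mul_mem_mul hπm h1
    have h3 : τ γ - (t : 𝓞 M) ^ m * γ
        = (ζr - 1) ^ m * (s ^ m * τ d - (t : 𝓞 M) ^ m * d) + τ e - (t : 𝓞 M) ^ m * e := by
      have hτγ : τ γ = (ζr - 1) ^ m * s ^ m * τ d + τ e := by
        rw [← hde, map_add, map_mul, map_pow, hτπ, mul_pow]
      rw [hτγ]
      linear_combination (t : 𝓞 M) ^ m * hde
    rw [h3]
    exact Ideal.sub_mem _ (Ideal.add_mem _ h2 hτe) (Ideal.mul_mem_left _ _ he)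
  have hfin : γ * (ξ * (t : 𝓞 M) ^ m - 1) ∈ 𝔓 ^ (m + 1) := by
    have : γ * (ξ * (t : 𝓞 M) ^ m - 1) = - (ξ * (τ γ - (t : 𝓞 M) ^ m * γ)) := by
      linear_combination h
    rw [this]
    exact neg_mem (Ideal.mul_mem_left _ _ hkey)
  exact Ideal.mem_prime_of_mul_mem_pow h𝔓0 hm' hfin

/-- The ramification index of a prime `𝔓` of `ℚ(ζ_{pr})` over `ℚ(ζ_p)`: `r - 1` above `r`,
and `1` otherwise. -/
theorem h61_ramificationIdx'_eq (p r : ℕ) [Fact p.Prime] [Fact r.Prime] (hpr : p ≠ r)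
    (K M : Type) [Field K] [NumberField K] [Field M] [NumberField M] [Algebra K M]
    [IsCyclotomicExtension {p} ℚ K] [IsCyclotomicExtension {p * r} ℚ M] (𝔓 : Ideal (𝓞 M))
    [𝔓.IsPrime] (h0 : 𝔓 ≠ ⊥) [Decidable ((r : 𝓞 M) ∈ 𝔓)] :
    Ideal.ramificationIdx' (𝔓.comap (algebraMap (𝓞 K) (𝓞 M))) 𝔓
      = if (r : 𝓞 M) ∈ 𝔓 then r - 1 else 1 := by
  have hr : r.Prime := Fact.out
  have hp : p.Prime := Fact.out
  set 𝔮 : Ideal (𝓞 K) := 𝔓.comap (algebraMap (𝓞 K) (𝓞 M)) with h𝔮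
  have hl1 : 𝔓.LiesOver 𝔮 := ⟨rfl⟩
  obtain ⟨ℓ, hℓ, hP0eq⟩ : ∃ ℓ : ℕ, ℓ.Prime ∧ Ideal.span {(ℓ : ℤ)} = 𝔓.under ℤ := by
    have hP0prime : (𝔓.under ℤ).IsPrime := inferInstance
    have hP0ne : 𝔓.under ℤ ≠ ⊥ := Ideal.under_ne_bot ℤ h0
    have hP0eq := Int.ideal_span_absNorm_eq_self (𝔓.under ℤ)
    refine ⟨Ideal.absNorm (𝔓.under ℤ), ?_, hP0eq⟩
    have hne0 : ((Ideal.absNorm (𝔓.under ℤ) : ℕ) : ℤ) ≠ 0 := by
      intro h
      apply hP0ne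
      rw [← hP0eq, h]
      simp
    have : Prime ((Ideal.absNorm (𝔓.under ℤ) : ℕ) : ℤ) := by
      rw [← Ideal.span_singleton_prime hne0, hP0eq]
      exact hP0prime
    exact Nat.prime_iff_prime_int.2 this
  have hℓfact : Fact ℓ.Prime := ⟨hℓ⟩
  have hl2 : 𝔓.LiesOver (Ideal.span {(ℓ : ℤ)}) := ⟨hP0eq⟩
  have hl3 : 𝔮.LiesOver (Ideal.span {(ℓ : ℤ)}) := Ideal.LiesOver.tower_bot 𝔓 𝔮 _
  have hℓne : Ideal.span {(ℓ : ℤ)} ≠ ⊥ := by
    rw [Ne, Ideal.span_singleton_eq_bot]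
    exact_mod_cast hℓ.ne_zero
  have htower := Ideal.ramificationIdx'_algebra_tower' (Ideal.span {(ℓ : ℤ)}) 𝔮 𝔓
  rw [Ideal.ramificationIdx'_eq_ramificationIdx _ _ hℓne,
    Ideal.ramificationIdx'_eq_ramificationIdx _ _ hℓne] at htower
  have hmem : (r : 𝓞 M) ∈ 𝔓 ↔ ℓ = r := by
    constructor
    · intro h
      have : (r : ℤ) ∈ 𝔓.under ℤ := by
        rw [Ideal.under_def, Ideal.mem_comap]; simpa using h
      rw [← hP0eq, Ideal.mem_span_singleton] at this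
      exact (Nat.prime_dvd_prime_iff_eq hℓ hr).1 (by exact_mod_cast this)
    · rintro rfl
      have : ((ℓ : ℤ)) ∈ 𝔓.under ℤ := by rw [← hP0eq]; exact Ideal.mem_span_singleton_self _
      rw [Ideal.under_def, Ideal.mem_comap] at this
      simpa using this
  have hNp : NeZero p := ⟨hp.ne_zero⟩
  have hNpr : NeZero (p * r) := ⟨mul_ne_zero hp.ne_zero hr.ne_zero⟩
  by_cases hℓr : ℓ = r
  · rw [if_pos (hmem.2 hℓr)]
    subst hℓr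
    have e1 := IsCyclotomicExtension.Rat.ramificationIdx_eq (n := p * ℓ) (p := ℓ) (k := 0) (m := p)
      (K := M) (P := 𝔓) (by ring) (fun hdvd => hpr ((Nat.prime_dvd_prime_iff_eq hr hp).1 hdvd).symm)
    have e2 := IsCyclotomicExtension.Rat.ramificationIdx_eq_of_not_dvd (m := p) (p := ℓ) (K := K)
      (P := 𝔮) (fun hdvd => hpr ((Nat.prime_dvd_prime_iff_eq hr hp).1 hdvd).symm)
    rw [e1, e2, one_mul] at htower
    simpa using htower.symm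
  · rw [if_neg (mt hmem.1 hℓr)]
    by_cases hℓp : ℓ = p
    · subst hℓp
      have e1 := IsCyclotomicExtension.Rat.ramificationIdx_eq (n := ℓ * r) (p := ℓ) (k := 0)
        (m := r) (K := M) (P := 𝔓) (by ring)
        (fun hdvd => hpr ((Nat.prime_dvd_prime_iff_eq hp hr).1 hdvd))
      have e2 := IsCyclotomicExtension.Rat.ramificationIdx_eq_of_prime (p := ℓ) (K := K) (P := 𝔮)
      rw [e1, e2, pow_zero, one_mul] at htower
      have hpos : 0 < ℓ - 1 := by have := hp.two_le; omega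
      exact (Nat.eq_of_mul_eq_mul_left hpos (by rw [mul_one]; exact htower.symm))
    · have e1 := IsCyclotomicExtension.Rat.ramificationIdx_eq_of_not_dvd (m := p * r) (p := ℓ)
        (K := M) (P := 𝔓) (fun hdvd => by
          rcases (Nat.Prime.dvd_mul hℓ).1 hdvd with h | h
          · exact hℓp ((Nat.prime_dvd_prime_iff_eq hℓ hp).1 h)
          · exact hℓr ((Nat.prime_dvd_prime_iff_eq hℓ hr).1 h))
      rw [e1] at htower
      exact Nat.eq_one_of_mul_eq_one_left htower.symm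

/-- Valuation of an element of `𝓞 K`, `K = ℚ(ζ_p)`, at a prime of `M = ℚ(ζ_{pr})`. -/
theorem thaine_ram (p r : ℕ) [Fact p.Prime] [Fact r.Prime] (hpr : p ≠ r) (K M : Type) [Field K]
    [NumberField K] [Field M] [NumberField M] [Algebra K M] [IsCyclotomicExtension {p} ℚ K]
    [IsCyclotomicExtension {p * r} ℚ M] (𝔓 : Ideal (𝓞 M)) [𝔓.IsPrime] (h0 : 𝔓 ≠ ⊥) (x : 𝓞 K)
    (hx : x ≠ 0) [Decidable ((r : 𝓞 M) ∈ 𝔓)] :
    emultiplicity 𝔓 (Ideal.span {algebraMap (𝓞 K) (𝓞 M) x}) =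
      (if (r : 𝓞 M) ∈ 𝔓 then r - 1 else 1) *
        emultiplicity (𝔓.comap (algebraMap (𝓞 K) (𝓞 M))) (Ideal.span {x}) := by
  set 𝔮 : Ideal (𝓞 K) := 𝔓.comap (algebraMap (𝓞 K) (𝓞 M)) with h𝔮
  have hl1 : 𝔓.LiesOver 𝔮 := ⟨rfl⟩
  have h𝔮prime : 𝔮.IsPrime := Ideal.comap_isPrime _ _
  have h𝔮0 : 𝔮 ≠ ⊥ := Ideal.under_ne_bot (𝓞 K) h0
  have hxI : Ideal.span {x} ≠ ⊥ := by rwa [Ne, Ideal.span_singleton_eq_bot]
  have hmapx : Ideal.span {algebraMap (𝓞 K) (𝓞 M) x}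
      = (Ideal.span {x}).map (algebraMap (𝓞 K) (𝓞 M)) := by
    rw [Ideal.map_span, Set.image_singleton]
  rw [hmapx, Ideal.IsDedekindDomain.emultiplicity_map_eq_ramificationIdx'_mul hxI
    (Ideal.prime_of_isPrime h𝔮0 h𝔮prime).irreducible
    (Ideal.prime_of_isPrime h0 inferInstance).irreducible h0,
    h61_ramificationIdx'_eq p r hpr K M 𝔓 h0]

/-- `thaine_ram` at a prime above `r`. -/
theorem thaine_ram_of_mem (p r : ℕ) [Fact p.Prime] [Fact r.Prime] (hpr : p ≠ r) (K M : Type)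
    [Field K] [NumberField K] [Field M] [NumberField M] [Algebra K M]
    [IsCyclotomicExtension {p} ℚ K] [IsCyclotomicExtension {p * r} ℚ M] (𝔓 : Ideal (𝓞 M))
    [𝔓.IsPrime] (h0 : 𝔓 ≠ ⊥) (x : 𝓞 K) (hx : x ≠ 0) (hr𝔓 : (r : 𝓞 M) ∈ 𝔓) :
    emultiplicity 𝔓 (Ideal.span {algebraMap (𝓞 K) (𝓞 M) x}) =
      ((r - 1 : ℕ) : ℕ∞) * emultiplicity (𝔓.comap (algebraMap (𝓞 K) (𝓞 M))) (Ideal.span {x}) := by
  classical
  rw [thaine_ram p r hpr K M 𝔓 h0 x hx, if_pos hr𝔓]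

/-- `thaine_ram` at a prime not above `r`. -/
theorem thaine_ram_of_not_mem (p r : ℕ) [Fact p.Prime] [Fact r.Prime] (hpr : p ≠ r) (K M : Type)
    [Field K] [NumberField K] [Field M] [NumberField M] [Algebra K M]
    [IsCyclotomicExtension {p} ℚ K] [IsCyclotomicExtension {p * r} ℚ M] (𝔓 : Ideal (𝓞 M))
    [𝔓.IsPrime] (h0 : 𝔓 ≠ ⊥) (x : 𝓞 K) (hx : x ≠ 0) (hr𝔓 : (r : 𝓞 M) ∉ 𝔓) :
    emultiplicity 𝔓 (Ideal.span {algebraMap (𝓞 K) (𝓞 M) x}) =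
      emultiplicity (𝔓.comap (algebraMap (𝓞 K) (𝓞 M))) (Ideal.span {x}) := by
  classical
  rw [thaine_ram p r hpr K M 𝔓 h0 x hx, if_neg hr𝔓, Nat.cast_one, one_mul]

end Fermat.Agent.S14
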