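/-
S14, module T (Thaine relation) — setup (helper44).

Let `K = ℚ(ζ_p)` and `M = K(ζ_r)` for primes `p ≠ r`. This file collects the field-theoretic
facts used in the proof of Thaine's relation:

* `h44_isCyclotomicExtension_mul`: `M` is a `p * r`-th cyclotomic extension of `ℚ`;
* `h44_finrank`: `[M : K] = r - 1`;
* `h44_irreducible_cyclotomic`: `cyclotomic r K` is irreducible;
* `h44_exists_generator`: `Gal(M/K)` is cyclic, generated by `τ` with `τ x = x ^ t` on `r`-th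
  roots of unity, `t` invertible mod `r`;
* `h44_norm_sub_gen`, `h44_eval_cyclotomic_eq_one`: `N_{M/K}(ζ_p^j - ζ_r) = 1` for `r ≡ 1 mod p`;
* `h44_span_norm_eq_pow`: if `ξ * τ γ = γ` with `ξ` a unit then `(N γ) 𝓞 M = (γ) ^ [M : K]`;
* `h44_zeta_sub_one_mem`: a prime ideal containing `r` contains `ζ_r - 1`.
-/
import Mathlib

set_option autoImplicit false

open NumberField Polynomial

namespace Fermat.Agent.S14

/-- `K(ζ_r)` is the `p * r`-th cyclotomic field when `K = ℚ(ζ_p)`, `p ≠ r`. -/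
theorem h44_isCyclotomicExtension_mul (p r : ℕ) [hp : Fact p.Prime] [hr : Fact r.Prime]
    (hpr : p ≠ r) (K : Type) [Field K] [NumberField K] [IsCyclotomicExtension {p} ℚ K]
    (M : Type) [Field M] [NumberField M] [Algebra K M] [IsCyclotomicExtension {r} K M] :
    IsCyclotomicExtension {p * r} ℚ M := by
  have h1 : IsCyclotomicExtension ({p} ∪ {r}) ℚ M :=
    IsCyclotomicExtension.trans {p} {r} ℚ K M (algebraMap K M).injective
  obtain ⟨ζ, hζ⟩ := IsCyclotomicExtension.exists_isPrimitiveRoot ℚ M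
    (show p ∈ ({p} ∪ {r} : Set ℕ) by simp) hp.out.ne_zero
  obtain ⟨ζr, hζr⟩ := IsCyclotomicExtension.exists_isPrimitiveRoot ℚ M
    (show r ∈ ({p} ∪ {r} : Set ℕ) by simp) hr.out.ne_zero
  have hcop : Nat.Coprime p r := (Nat.coprime_primes hp.out hr.out).mpr hpr
  have hprim : IsPrimitiveRoot (ζ * ζr) (p * r) := by
    have h := (Commute.all ζ ζr).orderOf_mul_eq_mul_orderOf_of_coprime
      (by rw [← hζ.eq_orderOf, ← hζr.eq_orderOf]; exact hcop)
    rw [← hζ.eq_orderOf, ← hζr.eq_orderOf] at h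
    rw [← h]
    exact IsPrimitiveRoot.orderOf _
  have h2 : IsCyclotomicExtension (({p} ∪ {r}) ∪ {p * r}) ℚ M :=
    IsCyclotomicExtension.union_of_isPrimitiveRoot _ ℚ M hprim
  have hne : p * r ≠ 0 := Nat.mul_ne_zero hp.out.ne_zero hr.out.ne_zero
  have : NeZero (p * r) := ⟨hne⟩
  have e1 : IsCyclotomicExtension {p * r} ℚ M ↔ IsCyclotomicExtension ({p * r} ∪ {p}) ℚ M :=
    IsCyclotomicExtension.iff_union_of_dvd ℚ M ⟨p * r, by simp, hne, dvd_mul_right p r⟩
  have e2 : IsCyclotomicExtension ({p * r} ∪ {p}) ℚ M ↔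
      IsCyclotomicExtension (({p * r} ∪ {p}) ∪ {r}) ℚ M :=
    IsCyclotomicExtension.iff_union_of_dvd ℚ M ⟨p * r, by simp, hne, dvd_mul_left r p⟩
  rw [e1, e2]
  have hset : (({p * r} ∪ {p}) ∪ {r} : Set ℕ) = ({p} ∪ {r}) ∪ {p * r} := by
    ext x; simp; tauto
  rw [hset]
  exact h2

theorem h44_finrank (p r : ℕ) [hp : Fact p.Prime] [hr : Fact r.Prime]
    (hpr : p ≠ r) (K : Type) [Field K] [NumberField K] [IsCyclotomicExtension {p} ℚ K]
    (M : Type) [Field M] [NumberField M] [Algebra K M] [IsCyclotomicExtension {r} K M] :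
    Module.finrank K M = r - 1 := by
  have := h44_isCyclotomicExtension_mul p r hpr K M
  have hne : NeZero (p * r) := ⟨Nat.mul_ne_zero hp.out.ne_zero hr.out.ne_zero⟩
  have hnep : NeZero p := ⟨hp.out.ne_zero⟩
  have hcop : Nat.Coprime p r := (Nat.coprime_primes hp.out hr.out).mpr hpr
  have h1 : Module.finrank ℚ K = p.totient := IsCyclotomicExtension.Rat.finrank p K
  have h2 : Module.finrank ℚ M = (p * r).totient := IsCyclotomicExtension.Rat.finrank (p * r) M
  have h3 := Module.finrank_mul_finrank ℚ K M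
  rw [h1, h2, Nat.totient_mul hcop, Nat.totient_prime hp.out, Nat.totient_prime hr.out] at h3
  exact Nat.eq_of_mul_eq_mul_left (Nat.sub_pos_of_lt hp.out.one_lt) h3

theorem h44_irreducible_cyclotomic (p r : ℕ) [hp : Fact p.Prime] [hr : Fact r.Prime]
    (hpr : p ≠ r) (K : Type) [Field K] [NumberField K] [IsCyclotomicExtension {p} ℚ K] :
    Irreducible (cyclotomic r K) := by
  have hner : NeZero r := ⟨hr.out.ne_zero⟩
  let M := CyclotomicField r K
  have hζ := IsCyclotomicExtension.zeta_spec r K M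
  have hint : IsIntegral K (IsCyclotomicExtension.zeta r K M) :=
    hζ.isIntegral hr.out.pos |>.tower_top (R := ℤ)
  have hdeg : (minpoly K (IsCyclotomicExtension.zeta r K M)).natDegree = r - 1 := by
    rw [← h44_finrank p r hpr K M, (hζ.powerBasis K).finrank, IsPrimitiveRoot.powerBasis_dim]
  have hdvd : minpoly K (IsCyclotomicExtension.zeta r K M) ∣ cyclotomic r K := by
    apply minpoly.dvd
    rwa [aeval_def, eval₂_eq_eval_map, map_cyclotomic, ← IsRoot.def, isRoot_cyclotomic_iff]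
  have heq : cyclotomic r K = minpoly K (IsCyclotomicExtension.zeta r K M) := by
    refine Polynomial.eq_of_monic_of_dvd_of_natDegree_le (minpoly.monic hint)
      (cyclotomic.monic r K) hdvd ?_
    rw [hdeg, natDegree_cyclotomic, Nat.totient_prime hr.out]
  rw [heq]
  exact minpoly.irreducible hint

/-- The Galois group of `M = K(ζ_r)` over `K = ℚ(ζ_p)` is cyclic, generated by some `τ` acting
on `r`-th roots of unity as `x ↦ x ^ t` with `t` invertible modulo `r` (inverse `t'`). -/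
theorem h44_exists_generator (p r : ℕ) [hp : Fact p.Prime] [hr : Fact r.Prime]
    (hpr : p ≠ r) (K : Type) [Field K] [NumberField K] [IsCyclotomicExtension {p} ℚ K]
    (M : Type) [Field M] [NumberField M] [Algebra K M] [IsCyclotomicExtension {r} K M] :
    ∃ (τ : M ≃ₐ[K] M) (t t' : ℕ), (∀ σ : M ≃ₐ[K] M, σ ∈ Subgroup.zpowers τ) ∧
      (∀ x : M, x ^ r = 1 → τ x = x ^ t) ∧ ((t * t' : ℕ) : ZMod r) = 1 := by
  have hner : NeZero r := ⟨hr.out.ne_zero⟩
  have hirr := h44_irreducible_cyclotomic p r hpr K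
  let e := IsCyclotomicExtension.autEquivPow M hirr
  obtain ⟨g, hg⟩ := IsCyclic.exists_generator (α := (ZMod r)ˣ)
  have hζ := IsCyclotomicExtension.zeta_spec r K M
  refine ⟨e.symm g, (g : ZMod r).val, ((g⁻¹ : (ZMod r)ˣ) : ZMod r).val, fun σ => ?_,
    fun x hx => ?_, ?_⟩
  · obtain ⟨k, hk⟩ := Subgroup.mem_zpowers_iff.mp (hg (e σ))
    refine Subgroup.mem_zpowers_iff.mpr ⟨k, ?_⟩
    apply e.injective
    rw [map_zpow, e.apply_symm_apply, hk]
  · obtain ⟨i, -, rfl⟩ := hζ.eq_pow_of_pow_eq_one hx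
    have h1 := hζ.autToPow_spec K (e.symm g)
    have h2 : hζ.autToPow K (e.symm g) = g := e.apply_symm_apply g
    rw [h2] at h1
    rw [map_pow, ← h1, ← pow_mul, ← pow_mul, mul_comm]
  · rw [Nat.cast_mul, ZMod.natCast_zmod_val, ZMod.natCast_zmod_val, Units.mul_inv]

/-- Norm of `a - θ` for a power basis generator `θ`. -/
theorem h44_norm_sub_gen {K M : Type*} [Field K] [Field M] [Algebra K M]
    (pb : PowerBasis K M) (a : K) :
    Algebra.norm K (algebraMap K M a - pb.gen) = (minpoly K pb.gen).eval a := by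
  rw [Algebra.norm_eq_matrix_det pb.basis, ← charpoly_leftMulMatrix pb, Matrix.eval_charpoly]
  congr 1
  rw [map_sub, AlgHom.commutes]
  rfl

theorem h44_eval_cyclotomic_eq_one {K : Type*} [Field K] (p r : ℕ) [hr : Fact r.Prime]
    (hrp : r % p = 1) {ζ : K} (hζ : IsPrimitiveRoot ζ p) (j : ℕ) (hj : ¬ p ∣ j) :
    (cyclotomic r K).eval (ζ ^ j) = 1 := by
  have h1 : ζ ^ j ≠ 1 := fun h => hj ((hζ.pow_eq_one_iff_dvd j).mp h)
  have h2 : (ζ ^ j) ^ r = ζ ^ j := by
    conv_lhs => rw [← Nat.div_add_mod r p, hrp]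
    rw [pow_succ, pow_mul, ← pow_mul ζ j p, mul_comm j p, pow_mul ζ p j, hζ.pow_eq_one, one_pow,
      one_pow, one_mul]
  have h3 := geom_sum_mul (ζ ^ j) r
  rw [h2] at h3
  rw [cyclotomic_prime, eval_finsetSum]
  simp only [eval_pow, eval_X]
  exact mul_right_cancel₀ (sub_ne_zero.mpr h1) (h3.trans (one_mul _).symm)

/-- If `ξ * τ γ = γ` with `ξ` a unit and `τ` a generator of the (finite) Galois group, then the
relative norm of `γ` generates the ideal `(γ) ^ [M : K]`. -/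
theorem h44_span_norm_eq_pow (K M : Type) [Field K] [NumberField K] [Field M] [NumberField M]
    [Algebra K M] [IsGalois K M] (τ : M ≃ₐ[K] M) (hτ : ∀ σ : M ≃ₐ[K] M, σ ∈ Subgroup.zpowers τ)
    (ξ γ : 𝓞 M) (hξ : IsUnit ξ) (h : ξ * galRestrict (𝓞 K) K M (𝓞 M) τ γ = γ) :
    Ideal.span {algebraMap (𝓞 K) (𝓞 M) (RingOfIntegers.norm K γ)} =
      Ideal.span {γ} ^ Module.finrank K M := by
  classical
  set g := galRestrict (𝓞 K) K M (𝓞 M) with hg
  have h1 : algebraMap (𝓞 K) (𝓞 M) (RingOfIntegers.norm K γ) = ∏ σ : M ≃ₐ[K] M, g σ γ := by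
    apply RingOfIntegers.ext
    rw [RingOfIntegers.coe_algebraMap_norm, Algebra.norm_eq_prod_automorphisms]
    show _ = algebraMap (𝓞 M) M _
    rw [map_prod]
    refine Finset.prod_congr rfl fun σ _ => ?_
    exact (algebraMap_galRestrict_apply (𝓞 K) σ γ).symm
  have h2 : ∀ k : ℕ, Associated (g (τ ^ k) γ) γ := by
    intro k
    induction k with
    | zero => simp
    | succ k ih =>
      obtain ⟨u, rfl⟩ := hξ
      have h3 : g τ γ = ((u⁻¹ : (𝓞 M)ˣ) : 𝓞 M) * γ :=
        ((Units.inv_mul_eq_iff_eq_mul u).mpr h.symm).symm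
      rw [pow_succ, map_mul, AlgEquiv.mul_apply, h3, map_mul]
      have h4 : IsUnit (g (τ ^ k) ((u⁻¹ : (𝓞 M)ˣ) : 𝓞 M)) := (Units.isUnit _).map _
      obtain ⟨v, hv⟩ := h4
      rw [← hv]
      exact (associated_unit_mul_left _ _ v.isUnit).trans ih
  have h5 : ∀ σ : M ≃ₐ[K] M, Associated (g σ γ) γ := by
    intro σ
    obtain ⟨k, rfl⟩ := (mem_powers_iff_mem_zpowers (x := τ)).mpr (hτ σ)
    exact h2 k
  have h6 : Associated (∏ σ : M ≃ₐ[K] M, g σ γ) (∏ _σ : M ≃ₐ[K] M, γ) :=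
    Associated.prod _ _ _ fun σ _ => h5 σ
  rw [Finset.prod_const, Finset.card_univ, ← Nat.card_eq_fintype_card,
    IsGalois.card_aut_eq_finrank] at h6
  rw [h1, Ideal.span_singleton_pow]
  exact Ideal.span_singleton_eq_span_singleton.mpr h6

/-- A prime ideal containing the prime `r` contains `ζ - 1` for a primitive `r`-th root `ζ`. -/
theorem h44_zeta_sub_one_mem {R : Type*} [CommRing R] [IsDomain R] {r : ℕ} (hr : r.Prime) {ζ : R}
    (hζ : IsPrimitiveRoot ζ r) (𝔓 : Ideal R) [𝔓.IsPrime] (h : (r : R) ∈ 𝔓) : ζ - 1 ∈ 𝔓 := by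
  obtain ⟨n, rfl⟩ : ∃ n, r = n + 1 := ⟨r - 1, (Nat.succ_pred_eq_of_pos hr.pos).symm⟩
  have h1 := hζ.prod_one_sub_pow_eq_order
  have h2 : ∏ k ∈ Finset.range n, (1 - ζ ^ (k + 1)) ∈ 𝔓 := by
    rw [h1]; exact_mod_cast h
  obtain ⟨k, hk, hmem⟩ := Ideal.IsPrime.prod_mem_iff.mp h2
  have hcop : (k + 1).Coprime (n + 1) :=
    Nat.Coprime.symm ((Nat.Prime.coprime_iff_not_dvd hr).mpr
      (Nat.not_dvd_of_pos_of_lt (Nat.succ_pos k) (Nat.succ_lt_succ (Finset.mem_range.mp hk))))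
  obtain ⟨u, hu⟩ := (hζ.associated_sub_one_pow_sub_one_of_coprime hcop).symm
  have h3 : ζ ^ (k + 1) - 1 ∈ 𝔓 := by
    rw [← neg_sub]; exact 𝔓.neg_mem hmem
  rw [← hu]
  exact 𝔓.mul_mem_right _ h3

end Fermat.Agent.S14
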