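/-
S14, module T (Thaine relation) — main statement (helper44).

`thaine_relation`: let `K = ℚ(ζ_p)` and `r ≡ 1 mod p` a prime. There is an integer `t` such that
for every `j` prime to `p` there are `c ∈ 𝓞 K`, an ideal `𝔟` and exponents `e 𝔮` with
`(c) = 𝔟 ^ (r - 1) * ∏_{𝔮 ∣ r} 𝔮 ^ (e 𝔮)` and `ζ ^ j - 1 ≡ t ^ (e 𝔮) mod 𝔮` for all `𝔮 ∣ r`.

Proof: `ξ = ζ^j - ζ_r` has relative norm `1` in `M = K(ζ_r)`; the integral Hilbert 90 gives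
`γ ≠ 0` with `ξ * τ γ = γ` for a generator `τ` of `Gal(M/K)`; `c = N_{M/K} γ`. The prime-local
inputs `thaine_local` and `thaine_ram` are in `ThaineLocal.lean` (helper61).
-/
import Fermat.Agent.S14.ThaineSetup
import Fermat.Agent.S14.ThaineLocal

set_option autoImplicit false

open NumberField Polynomial UniqueFactorizationMonoid

namespace Fermat.Agent.S14

/-- Comparison of prime multiplicities in `(c)` (downstairs) and `(γ)` (upstairs) when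
`(c) 𝓞 M = (γ) ^ (r - 1)`. -/
theorem h44_count_eq (p r : ℕ) [hp : Fact p.Prime] [hr : Fact r.Prime] (hpr : p ≠ r)
    (K M : Type) [Field K] [NumberField K] [Field M] [NumberField M] [Algebra K M]
    [IsCyclotomicExtension {p} ℚ K] [IsCyclotomicExtension {p * r} ℚ M]
    (c : 𝓞 K) (hc : c ≠ 0) (γ : 𝓞 M) (hγ : γ ≠ 0)
    (hstar : Ideal.span {algebraMap (𝓞 K) (𝓞 M) c} = Ideal.span {γ} ^ (r - 1))
    (𝔓 : Ideal (𝓞 M)) [h𝔓 : 𝔓.IsPrime] (h0 : 𝔓 ≠ ⊥) [Decidable ((r : 𝓞 M) ∈ 𝔓)]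
    [DecidableEq (Ideal (𝓞 K))] [DecidableEq (Ideal (𝓞 M))] :
    (if (r : 𝓞 M) ∈ 𝔓 then r - 1 else 1) *
        Multiset.count (𝔓.comap (algebraMap (𝓞 K) (𝓞 M))) (normalizedFactors (Ideal.span {c})) =
      (r - 1) * Multiset.count 𝔓 (normalizedFactors (Ideal.span {γ})) := by
  have hL2 := thaine_ram p r hpr K M 𝔓 h0 c hc
  have h𝔮0 : 𝔓.comap (algebraMap (𝓞 K) (𝓞 M)) ≠ ⊥ := Ideal.IsIntegral.comap_ne_bot (𝓞 K) h0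
  have h𝔮 : (𝔓.comap (algebraMap (𝓞 K) (𝓞 M))).IsPrime := inferInstance
  have hc' : Ideal.span {c} ≠ (0 : Ideal (𝓞 K)) := by
    simpa using hc
  have hγ' : Ideal.span {γ} ≠ (0 : Ideal (𝓞 M)) := by
    simpa using hγ
  rw [hstar, emultiplicity_pow (Ideal.prime_of_isPrime h0 h𝔓),
    emultiplicity_eq_count_normalizedFactors (Ideal.prime_of_isPrime h0 h𝔓).irreducible hγ',
    emultiplicity_eq_count_normalizedFactors (Ideal.prime_of_isPrime h𝔮0 h𝔮).irreducible hc',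
    normalize_eq, normalize_eq] at hL2
  by_cases hr𝔓 : (r : 𝓞 M) ∈ 𝔓
  · rw [if_pos hr𝔓] at hL2 ⊢
    exact_mod_cast hL2.symm
  · rw [if_neg hr𝔓] at hL2 ⊢
    exact_mod_cast hL2.symm

/-- Thaine's relation, stated for an arbitrary model `M` of `K(ζ_r)`. -/
theorem h44_thaine_aux (p r : ℕ) [hp : Fact p.Prime] [hr : Fact r.Prime] (hrp : r % p = 1)
    (K : Type) [Field K] [NumberField K] [IsCyclotomicExtension {p} ℚ K]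
    (M : Type) [Field M] [NumberField M] [Algebra K M] [IsCyclotomicExtension {r} K M]
    {ζ : K} (hζ : IsPrimitiveRoot ζ p) :
    ∃ t : ℤ, ∀ j : ℕ, ¬ p ∣ j → ∃ (c : 𝓞 K) (𝔟 : Ideal (𝓞 K)) (e : Ideal (𝓞 K) → ℕ), c ≠ 0 ∧
      (∀ S : Finset (Ideal (𝓞 K)), (∀ 𝔮, 𝔮 ∈ S ↔ 𝔮.IsPrime ∧ (r : 𝓞 K) ∈ 𝔮) →
        Ideal.span {c} = 𝔟 ^ (r - 1) * ∏ 𝔮 ∈ S, 𝔮 ^ e 𝔮) ∧
      ∀ 𝔮 : Ideal (𝓞 K), 𝔮.IsPrime → (r : 𝓞 K) ∈ 𝔮 →
        hζ.toInteger ^ j - 1 - (t : 𝓞 K) ^ e 𝔮 ∈ 𝔮 := by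
  classical
  have hpr : p ≠ r := by
    rintro rfl
    simp at hrp
  have hner : NeZero r := ⟨hr.out.ne_zero⟩
  have hcyc := h44_isCyclotomicExtension_mul p r hpr K M
  have hgal : IsGalois K M := IsCyclotomicExtension.isGalois {r} K M
  have hfin := h44_finrank p r hpr K M
  have hinj : Function.Injective (algebraMap (𝓞 K) (𝓞 M)) :=
    FaithfulSMul.algebraMap_injective (𝓞 K) (𝓞 M)
  obtain ⟨τ, t₀, t₁, hτgen, hτpow, ht⟩ := h44_exists_generator p r hpr K M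
  refine ⟨(t₁ : ℤ), fun j hj => ?_⟩
  have hcyclic : IsCyclic (M ≃ₐ[K] M) := ⟨⟨τ, hτgen⟩⟩
  have hζM := IsCyclotomicExtension.zeta_spec r K M
  set ζr : 𝓞 M := hζM.toInteger with hζr_def
  have hζr : IsPrimitiveRoot ζr r := hζM.toInteger_isPrimitiveRoot
  set ξ : 𝓞 M := algebraMap (𝓞 K) (𝓞 M) (hζ.toInteger ^ j) - ζr with hξ_def
  have hnorm : Algebra.norm K (algebraMap (𝓞 M) M ξ) = 1 := by
    have h1 : algebraMap (𝓞 M) M ξ =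
        algebraMap K M (ζ ^ j) - IsCyclotomicExtension.zeta r K M := by
      rw [hξ_def, map_sub]
      rfl
    rw [h1]
    have h2 := h44_norm_sub_gen (hζM.powerBasis K) (ζ ^ j)
    rw [IsPrimitiveRoot.powerBasis_gen,
      ← hζM.minpoly_eq_cyclotomic_of_irreducible (h44_irreducible_cyclotomic p r hpr K)] at h2
    rw [h2]
    exact h44_eval_cyclotomic_eq_one p r hrp hζ j hj
  have hξunit : IsUnit ξ := by
    rw [← RingOfIntegers.isUnit_norm_of_isGalois K]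
    have h1 : RingOfIntegers.norm K ξ = 1 := by
      apply RingOfIntegers.ext
      rw [RingOfIntegers.coe_norm]
      exact hnorm
    rw [h1]
    exact isUnit_one
  obtain ⟨γ, hγ0, hγ⟩ :=
    groupCohomology.exists_mul_galRestrict_of_norm_eq_one (A := 𝓞 K) (B := 𝓞 M) hτgen hnorm
  set c : 𝓞 K := RingOfIntegers.norm K γ with hc_def
  have hc0 : c ≠ 0 := by
    intro h
    have h1 : Algebra.norm K (γ : M) = 0 := by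
      rw [← RingOfIntegers.coe_norm, ← hc_def, h]
      rfl
    rw [Algebra.norm_eq_zero_iff] at h1
    exact hγ0 (RingOfIntegers.ext h1)
  have hstar := h44_span_norm_eq_pow K M τ hτgen ξ γ hξunit hγ
  rw [hfin] at hstar
  set F := normalizedFactors (Ideal.span {c}) with hF
  have hspan0 : Ideal.span {c} ≠ ⊥ := by
    simpa using hc0
  have hFprod : F.prod = Ideal.span {c} := Ideal.prod_normalizedFactors_eq_self hspan0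
  have hFprime : ∀ 𝔮 ∈ F, 𝔮.IsPrime ∧ 𝔮 ≠ ⊥ := fun 𝔮 h𝔮 =>
    have h1 := prime_of_normalized_factor 𝔮 h𝔮
    ⟨Ideal.isPrime_of_prime h1, h1.ne_zero⟩
  have hexists : ∀ 𝔮 : Ideal (𝓞 K), 𝔮.IsPrime → 𝔮 ≠ ⊥ → ∃ 𝔓 : Ideal (𝓞 M), 𝔓.IsPrime ∧
      𝔓 ≠ ⊥ ∧ 𝔓.comap (algebraMap (𝓞 K) (𝓞 M)) = 𝔮 := by
    intro 𝔮 h𝔮 h0
    obtain ⟨𝔓, -, h𝔓, hcomap⟩ := Ideal.exists_ideal_over_prime_of_isIntegral 𝔮
      (⊥ : Ideal (𝓞 M)) (by rw [Ideal.comap_bot_of_injective _ hinj]; exact bot_le)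
    refine ⟨𝔓, h𝔓, ?_, hcomap⟩
    rintro rfl
    rw [Ideal.comap_bot_of_injective _ hinj] at hcomap
    exact h0 hcomap.symm
  have hdvd : ∀ 𝔮 ∈ F.filter (fun 𝔮 => ¬ (r : 𝓞 K) ∈ 𝔮),
      (r - 1) ∣ Multiset.count 𝔮 (F.filter (fun 𝔮 => ¬ (r : 𝓞 K) ∈ 𝔮)) := by
    intro 𝔮 h𝔮
    rw [Multiset.mem_filter] at h𝔮
    obtain ⟨h𝔮F, hnr⟩ := h𝔮
    rw [Multiset.count_filter_of_pos (p := fun 𝔮 => ¬ (r : 𝓞 K) ∈ 𝔮) hnr]
    obtain ⟨h𝔮p, h𝔮0⟩ := hFprime 𝔮 h𝔮F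
    obtain ⟨𝔓, h𝔓, h𝔓0, hcomap⟩ := hexists 𝔮 h𝔮p h𝔮0
    have hr𝔓 : ¬ (r : 𝓞 M) ∈ 𝔓 := fun h => hnr (by
      rw [← hcomap, Ideal.mem_comap, map_natCast]; exact h)
    have h1 := h44_count_eq p r hpr K M c hc0 γ hγ0 hstar 𝔓 h𝔓0
    rw [if_neg hr𝔓, one_mul, hcomap] at h1
    exact ⟨_, h1⟩
  obtain ⟨G, hG⟩ := Multiset.exists_smul_of_dvd_count _ hdvd
  have hprod : Ideal.span {c} =
      G.prod ^ (r - 1) * (F.filter (fun 𝔮 => (r : 𝓞 K) ∈ 𝔮)).prod := by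
    rw [← hFprod]
    conv_lhs => rw [← Multiset.filter_add_not (fun 𝔮 => (r : 𝓞 K) ∈ 𝔮) F]
    rw [Multiset.prod_add, hG, Multiset.prod_nsmul, mul_comm]
  refine ⟨c, G.prod, fun 𝔮 => Multiset.count 𝔮 F, hc0, fun S hS => ?_, fun 𝔮 h𝔮 hr𝔮 => ?_⟩
  · rw [hprod]
    congr 1
    rw [Finset.prod_multiset_count_of_subset (F.filter (fun 𝔮 => (r : 𝓞 K) ∈ 𝔮)) S ?_]
    · refine Finset.prod_congr rfl fun 𝔮 h𝔮 => ?_
      rw [Multiset.count_filter_of_pos (p := fun 𝔮 => (r : 𝓞 K) ∈ 𝔮) ((hS 𝔮).mp h𝔮).2]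
    · intro 𝔮 h𝔮
      rw [Multiset.mem_toFinset, Multiset.mem_filter] at h𝔮
      exact (hS 𝔮).mpr ⟨(hFprime 𝔮 h𝔮.1).1, h𝔮.2⟩
  · have hr0 : (r : 𝓞 K) ≠ 0 := Nat.cast_ne_zero.mpr hr.out.ne_zero
    have h𝔮0 : 𝔮 ≠ ⊥ := by
      rintro rfl
      exact hr0 hr𝔮
    obtain ⟨𝔓, h𝔓, h𝔓0, hcomap⟩ := hexists 𝔮 h𝔮 h𝔮0
    have hr𝔓 : (r : 𝓞 M) ∈ 𝔓 := by
      have h1 := hr𝔮
      rw [← hcomap, Ideal.mem_comap, map_natCast] at h1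
      exact h1
    have hcount := h44_count_eq p r hpr K M c hc0 γ hγ0 hstar 𝔓 h𝔓0
    rw [if_pos hr𝔓, hcomap] at hcount
    have hcount' : Multiset.count 𝔮 F = Multiset.count 𝔓 (normalizedFactors (Ideal.span {γ})) :=
      Nat.eq_of_mul_eq_mul_left (Nat.sub_pos_of_lt hr.out.one_lt) hcount
    show hζ.toInteger ^ j - 1 - ((t₁ : ℤ) : 𝓞 K) ^ (Multiset.count 𝔮 F) ∈ 𝔮
    set m := Multiset.count 𝔮 F with hm_def
    have hγ' : Ideal.span {γ} ≠ (0 : Ideal (𝓞 M)) := by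
      simpa using hγ0
    have hem : emultiplicity 𝔓 (Ideal.span {γ}) = m := by
      rw [emultiplicity_eq_count_normalizedFactors (Ideal.prime_of_isPrime h𝔓0 h𝔓).irreducible
        hγ', normalize_eq, hcount']
    rw [emultiplicity_eq_coe] at hem
    have hm1 : γ ∈ 𝔓 ^ m := Ideal.dvd_span_singleton.mp hem.1
    have hm2 : γ ∉ 𝔓 ^ (m + 1) := fun h => hem.2 (Ideal.dvd_span_singleton.mpr h)
    have hτζr : (galRestrict (𝓞 K) K M (𝓞 M) τ).toRingEquiv ζr = ζr ^ t₀ := by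
      apply RingOfIntegers.ext
      show algebraMap (𝓞 M) M (galRestrict (𝓞 K) K M (𝓞 M) τ ζr) = _
      rw [algebraMap_galRestrict_apply]
      exact hτpow _ hζM.pow_eq_one
    have hL1 := thaine_local p r hpr M
      (hζ.toInteger_isPrimitiveRoot.map_of_injective hinj) hζr
      (galRestrict (𝓞 K) K M (𝓞 M) τ).toRingEquiv
      ((galRestrict (𝓞 K) K M (𝓞 M) τ).commutes _) t₀ hτζr 𝔓 hr𝔓 γ ξ hγ m hm1 hm2
    have hζr1 : ζr - 1 ∈ 𝔓 := h44_zeta_sub_one_mem hr.out hζr 𝔓 hr𝔓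
    have h2 : algebraMap (𝓞 K) (𝓞 M) ((hζ.toInteger ^ j - 1) * (t₀ : 𝓞 K) ^ m - 1) ∈ 𝔓 := by
      have h3 : algebraMap (𝓞 K) (𝓞 M) ((hζ.toInteger ^ j - 1) * (t₀ : 𝓞 K) ^ m - 1) =
          (ξ * (t₀ : 𝓞 M) ^ m - 1) + (ζr - 1) * (t₀ : 𝓞 M) ^ m := by
        rw [hξ_def]
        simp only [map_sub, map_mul, map_pow, map_one, map_natCast]
        ring
      rw [h3]
      exact 𝔓.add_mem hL1 (𝔓.mul_mem_right _ hζr1)
    have h3 : (hζ.toInteger ^ j - 1) * (t₀ : 𝓞 K) ^ m - 1 ∈ 𝔮 := by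
      rw [← hcomap]
      exact h2
    have h4 : (t₀ : 𝓞 K) * (t₁ : 𝓞 K) - 1 ∈ 𝔮 := by
      have h6 : (r : ℤ) ∣ ((t₀ * t₁ : ℕ) : ℤ) - 1 := by
        rw [← ZMod.intCast_zmod_eq_zero_iff_dvd]
        push_cast
        have h7 := ht
        push_cast at h7
        rw [h7, sub_self]
      obtain ⟨k, hk⟩ := h6
      have h8 : (t₀ : 𝓞 K) * (t₁ : 𝓞 K) - 1 = (r : 𝓞 K) * (k : 𝓞 K) := by
        have h9 := congrArg (Int.cast : ℤ → 𝓞 K) hk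
        push_cast at h9
        exact h9
      rw [h8]
      exact 𝔮.mul_mem_right _ hr𝔮
    have h5 : ((t₀ : 𝓞 K) * (t₁ : 𝓞 K)) ^ m - 1 ∈ 𝔮 := by
      obtain ⟨w, hw⟩ := sub_dvd_pow_sub_pow ((t₀ : 𝓞 K) * (t₁ : 𝓞 K)) 1 m
      rw [one_pow] at hw
      rw [hw]
      exact 𝔮.mul_mem_right _ h4
    have h6 : hζ.toInteger ^ j - 1 - ((t₁ : ℤ) : 𝓞 K) ^ m =
        (t₁ : 𝓞 K) ^ m * ((hζ.toInteger ^ j - 1) * (t₀ : 𝓞 K) ^ m - 1) -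
          (hζ.toInteger ^ j - 1) * (((t₀ : 𝓞 K) * (t₁ : 𝓞 K)) ^ m - 1) := by
      rw [Int.cast_natCast]
      ring
    rw [h6]
    exact 𝔮.sub_mem (𝔮.mul_mem_left _ h3) (𝔮.mul_mem_left _ h5)

/-- **Thaine's relation.** Let `K = ℚ(ζ_p)` and `r ≡ 1 mod p` a prime. There is an integer `t`
such that for every `j` prime to `p` there are `c ∈ 𝓞 K`, an ideal `𝔟` and exponents `e 𝔮` with
`(c) = 𝔟 ^ (r - 1) * ∏_{𝔮 ∣ r} 𝔮 ^ (e 𝔮)` and `ζ ^ j - 1 ≡ t ^ (e 𝔮) mod 𝔮` for all `𝔮 ∣ r`. -/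
theorem thaine_relation (p : ℕ) [Fact p.Prime] (_hp : p ≠ 2) (K : Type) [Field K] [NumberField K]
    [IsCyclotomicExtension {p} ℚ K] {ζ : K} (hζ : IsPrimitiveRoot ζ p) (r : ℕ) [Fact r.Prime]
    (hr : r % p = 1) :
    ∃ t : ℤ, ∀ j : ℕ, ¬ p ∣ j → ∃ (c : 𝓞 K) (𝔟 : Ideal (𝓞 K)) (e : Ideal (𝓞 K) → ℕ), c ≠ 0 ∧
      (∀ S : Finset (Ideal (𝓞 K)), (∀ 𝔮, 𝔮 ∈ S ↔ 𝔮.IsPrime ∧ (r : 𝓞 K) ∈ 𝔮) →
        Ideal.span {c} = 𝔟 ^ (r - 1) * ∏ 𝔮 ∈ S, 𝔮 ^ e 𝔮) ∧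
      ∀ 𝔮 : Ideal (𝓞 K), 𝔮.IsPrime → (r : 𝓞 K) ∈ 𝔮 →
        hζ.toInteger ^ j - 1 - (t : 𝓞 K) ^ e 𝔮 ∈ 𝔮 :=
  h44_thaine_aux p r hr K (CyclotomicField r K) hζ

end Fermat.Agent.S14
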