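import Fermat.Agent.S14.UnitsLocal

/-!
# S14, units block (helper11): the cyclotomic unit in the shape consumed by module C

`cycUnit_prod_Ico` rewrites `cycUnit_mul_pow` as a product over `j ∈ Finset.Ico 1 p`, and
`exists_cycUnit` bundles the three facts about the unit (`hu_prod`, `hu_eig`, not a `p`-th
power) that the class-group module needs.
-/

namespace Fermat.Agent.S14

open NumberField

variable (p : ℕ) [hp : Fact p.Prime] (K : Type*) [Field K] [NumberField K]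
  [IsCyclotomicExtension {p} ℚ K] {ζ : K} (hζ : IsPrimitiveRoot ζ p)

/-- the exponents of `cycUnit` as a function on `ℕ`: `cycExpNat p j` is a natural lift of
`j⁻²` for `j` prime to `p` (and `0` otherwise). -/
noncomputable def cycExpNat (j : ℕ) : ℕ :=
  if h : j.Coprime p then cycExp p (ZMod.unitOfCoprime j h) else 0

theorem cycExpNat_val (x : (ZMod p)ˣ) : cycExpNat p (x : ZMod p).val = cycExp p x := by
  have hcop : ((x : ZMod p).val).Coprime p := ZMod.val_coe_unit_coprime x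
  unfold cycExpNat
  rw [dif_pos hcop]
  congr 1
  apply Units.ext
  rw [ZMod.coe_unitOfCoprime, ZMod.natCast_zmod_val]

theorem h11_prod_units_eq_prod_Ico {M : Type*} [CommMonoid M] (f : ℕ → M) :
    ∏ x : (ZMod p)ˣ, f (x : ZMod p).val = ∏ j ∈ Finset.Ico 1 p, f j := by
  refine Finset.prod_bij (fun x _ => (x : ZMod p).val) ?_ ?_ ?_ ?_
  · intro x _
    rw [Finset.mem_Ico]
    refine ⟨?_, ZMod.val_lt _⟩
    have h0 : (x : ZMod p).val ≠ 0 := by
      intro h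
      exact x.ne_zero ((ZMod.val_eq_zero _).1 h)
    omega
  · intro x _ y _ h
    exact Units.ext (ZMod.val_injective p h)
  · intro j hj
    rw [Finset.mem_Ico] at hj
    have hcop : j.Coprime p :=
      Nat.Coprime.symm ((Nat.Prime.coprime_iff_not_dvd hp.out).2
        (Nat.not_dvd_of_pos_of_lt (by omega) hj.2))
    refine ⟨ZMod.unitOfCoprime j hcop, Finset.mem_univ _, ?_⟩
    rw [ZMod.coe_unitOfCoprime, ZMod.val_natCast, Nat.mod_eq_of_lt hj.2]
  · intro x _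
    rfl

/-- `u · (ζ-1)^M = ∏_{j=1}^{p-1} (ζ^j - 1)^(m_j)` with `p ∣ M`. -/
theorem cycUnit_prod_Ico (hp5 : 5 ≤ p) :
    ∃ (m : ℕ → ℕ) (M : ℕ), p ∣ M ∧
      ((cycUnit p K hζ : (𝓞 K)ˣ) : 𝓞 K) * (hζ.toInteger - 1) ^ M
        = ∏ j ∈ Finset.Ico 1 p, (hζ.toInteger ^ j - 1) ^ m j := by
  obtain ⟨k, hk⟩ := cycUnit_mul_pow p K hζ hp5
  refine ⟨cycExpNat p, p * k, dvd_mul_right p k, ?_⟩
  rw [← h11_prod_units_eq_prod_Ico p (fun j => (hζ.toInteger ^ j - 1) ^ cycExpNat p j),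
    pow_mul', ← hk]
  refine Finset.prod_congr rfl fun x _ => ?_
  rw [cycExpNat_val]

/-- **The `ω²`-cyclotomic unit, bundled**: for `p ≥ 5` there is a unit `u` of `𝓞 K` which is,
up to a power `(ζ-1)^M` with `p ∣ M`, a product of powers of the `ζ^j - 1`, which satisfies
`σ_a u = u^(a²) · x^p`, and which is not a `p`-th power in `K`. -/
theorem exists_cycUnit (hp5 : 5 ≤ p) : ∃ u : (𝓞 K)ˣ,
    (∃ (m : ℕ → ℕ) (M : ℕ), p ∣ M ∧
      (u : 𝓞 K) * (hζ.toInteger - 1) ^ M = ∏ j ∈ Finset.Ico 1 p, (hζ.toInteger ^ j - 1) ^ m j) ∧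
    (∀ (σ : K ≃ₐ[ℚ] K) (a : ℕ), σ ζ = ζ ^ a →
      ∃ x : K, σ ((u : 𝓞 K) : K) = ((u : 𝓞 K) : K) ^ (a ^ 2) * x ^ p) ∧
    (∀ x : K, x ^ p ≠ ((u : 𝓞 K) : K)) := by
  refine ⟨cycUnit p K hζ, cycUnit_prod_Ico p K hζ hp5, ?_, cycUnit_not_pow p K hζ hp5⟩
  intro σ a hσ
  obtain ⟨η, hη⟩ := cycUnit_eigen p K hζ hp5 σ a hσ
  exact ⟨((η : 𝓞 K) : K), hη⟩

end Fermat.Agent.S14
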