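import Mathlib
import Fermat.Agent.S14.ClassAlg
import Fermat.Agent.S14.Thaine
import Fermat.Agent.S14.UnitsIco
import Fermat.Agent.S14.GoodPrime

/-!
# S14 / module C, stage 2: the class-group step, hypothesis-free

`exists_unit_mul_pow`: for `K = ℚ(ζ_p)`, `p ≥ 3`, every nonzero `α ∈ 𝓞 K` which is an
`ω²`-eigenvector modulo `p`-th powers and generates the `p`-th power of an ideal is a unit times
a `p`-th power.

For `p ≥ 5` this is `h88_exists_unit_mul_pow_of` fed with Thaine's relation (`thaine_relation`),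
the cyclotomic unit (`exists_cycUnit`) and the analytic existence of good primes
(`exists_good_prime`); for `p = 3` the ring `𝓞 K` is principal.
-/

open scoped nonZeroDivisors NumberField

namespace Fermat.Agent.S14

/-- **Module C** (class-group step of S14). -/
theorem exists_unit_mul_pow (p : ℕ) [Fact p.Prime] (hp : 3 ≤ p) (K : Type) [Field K]
    [NumberField K] [IsCyclotomicExtension {p} ℚ K] {ζ : K} (hζ : IsPrimitiveRoot ζ p)
    (α : 𝓞 K) (hα : α ≠ 0)
    (eig : ∀ (σ : K ≃ₐ[ℚ] K) (m : ℕ), σ ζ = ζ ^ m →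
      ∃ γ : K, σ (α : K) = (α : K) ^ (m ^ 2) * γ ^ p)
    (hsing : ∃ 𝔞 : Ideal (𝓞 K), Ideal.span {α} = 𝔞 ^ p) :
    ∃ (ε : (𝓞 K)ˣ) (β : 𝓞 K), β ≠ 0 ∧ α = ε * β ^ p := by
  have hpp : p.Prime := Fact.out
  by_cases hp5 : 5 ≤ p
  · obtain ⟨u, hu_prod, hu_eig, hu_not_pow⟩ := exists_cycUnit p K hζ hp5
    exact h88_exists_unit_mul_pow_of p K hζ u
      (fun r _ hr => thaine_relation p (by omega) K hζ r hr) hu_prod hu_eig
      (fun ψ hψ hψp => exists_good_prime p hp hζ (u : 𝓞 K) hu_not_pow ψ hψ hψp) α hα eig hsing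
  · -- `p = 3`: the ring of integers is principal
    have hp3 : p = 3 := by
      have h4 : p ≠ 4 := by
        rintro rfl
        exact absurd hpp (by decide)
      omega
    subst hp3
    obtain ⟨𝔞, h𝔞⟩ := hsing
    have hpid : IsPrincipalIdealRing (𝓞 K) := IsCyclotomicExtension.Rat.three_pid K
    exact h88_unit_mul_pow_of_isPrincipal α hα 𝔞 h𝔞 (IsPrincipalIdealRing.principal 𝔞)

end Fermat.Agent.S14
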