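import Mathlib
import Fermat.Agent.S14.Core
import Fermat.Agent.S14.CoreThree
import Fermat.Agent.S14.Units
import Fermat.Agent.S14.ClassAlgFinal

/-!
# S14, module CORE: the number-field main theorem

`K = ℚ(ζ_p)`, `p ≥ 3`, `α : 𝓞 K` nonzero such that
* `eig`  : `σ α = α ^ (m ^ 2) * γ ^ p` whenever `σ ζ = ζ ^ m`,
* `sing` : `p ∣ v_𝔮(α)` for every prime `𝔮 ∤ p`,
* `loc`  : `α` is a `p`-th power modulo every power of `λ = (ζ - 1)`.

Then `α` is a `p`-th power in `K`.

The proof combines `h98_span_eq_pow` (`(α) = 𝔞 ^ p`), the class-group step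
`exists_unit_mul_pow` (`α = ε * β ^ p`, Thaine relation and density), the transfer lemmas
`h98_unit_eig`, `h98_unit_loc` and the unit step `unit_isPow_of_eigen_of_local`; the case
`p = 3` is `h98_core_three`.
-/

namespace Fermat.Agent.S14

open NumberField IsDedekindDomain

/-- The number-field main theorem of S14. -/
theorem core_isPow (p : ℕ) [Fact p.Prime] (hp : 3 ≤ p) (K : Type) [Field K] [NumberField K]
    [IsCyclotomicExtension {p} ℚ K] {ζ : K} (hζ : IsPrimitiveRoot ζ p) (α : 𝓞 K) (hα : α ≠ 0)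
    (eig : ∀ (σ : K ≃ₐ[ℚ] K) (m : ℕ), σ ζ = ζ ^ m →
      ∃ γ : K, σ (α : K) = (α : K) ^ (m ^ 2) * γ ^ p)
    (sing : ∀ v : HeightOneSpectrum (𝓞 K), (p : 𝓞 K) ∉ v.asIdeal →
      p ∣ (Associates.mk v.asIdeal).count (Associates.mk (Ideal.span {α})).factors)
    (loc : ∀ M : ℕ, ∃ x : 𝓞 K, (hζ.toInteger - 1) ^ M ∣ α - x ^ p) :
    ∃ β : K, (α : K) = β ^ p := by
  have hsing := h98_span_eq_pow p hζ α hα sing loc
  by_cases h3 : p = 3
  · subst h3
    exact h98_core_three hζ α hα eig hsing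
  · have hp5 : 5 ≤ p := by
      have h4 : p ≠ 4 := by
        rintro rfl
        exact absurd (Fact.out : Nat.Prime 4) (by decide)
      omega
    exact h98_core_of p hζ α hα eig sing loc
      (fun hs => exists_unit_mul_pow p hp K hζ α hα eig hs)
      (fun ε he hl => unit_isPow_of_eigen_of_local p hp5 K hζ ε he hl)

end Fermat.Agent.S14
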