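import Mathlib
import Fermat.Agent.S14.Density
import Fermat.Agent.S14.ClassLBound

/-!
# S14, class group part (C3): primes outside a thin set generate `Cl / Cl^p`

`good_primes_generate` : if the prime zeta sum of `Sbad` is at most `(1/p) log (1/(s-1)) + O(1)`,
then the classes of the primes outside `Sbad` together with the `p`-th powers generate the class
group.  Proof: otherwise there is a character `ψ ≠ 1` with `ψ ^ p = 1` that is trivial on all
primes outside `Sbad`, contradicting `exists_prime_of_density` (with `classL_bounded`).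
-/

set_option autoImplicit false

namespace Fermat.Agent.S14

open NumberField IsDedekindDomain

/-- A proper subgroup of a finite commutative group containing all `p`-th powers is contained in
the kernel of a nontrivial character of order dividing `p`. -/
theorem h61_exists_char_of_ne_top {A : Type*} [CommGroup A] [Finite A] (p : ℕ)
    (H : Subgroup A) (hH : H ≠ ⊤) (hp : ∀ a : A, a ^ p ∈ H) :
    ∃ ψ : A →* ℂˣ, ψ ≠ 1 ∧ ψ ^ p = 1 ∧ ∀ a ∈ H, ψ a = 1 := by
  obtain ⟨a, ha⟩ : ∃ a : A, a ∉ H := by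
    by_contra hcon
    exact hH (eq_top_iff.2 fun a _ => by_contra fun h => hcon ⟨a, h⟩)
  have ha' : (QuotientGroup.mk' H a) ≠ 1 := by
    intro h
    exact ha ((QuotientGroup.eq_one_iff a).1 h)
  obtain ⟨φ, hφ⟩ := CommGroup.exists_apply_ne_one_of_hasEnoughRootsOfUnity (A ⧸ H) ℂ ha'
  refine ⟨φ.comp (QuotientGroup.mk' H), ?_, ?_, ?_⟩
  · intro h
    apply hφ
    have := DFunLike.congr_fun h a
    simpa using this
  · ext b
    have hb : (QuotientGroup.mk' H (b ^ p)) = 1 := (QuotientGroup.eq_one_iff _).2 (hp b)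
    have : φ (QuotientGroup.mk' H b) ^ p = 1 := by
      rw [← map_pow, ← map_pow, hb, map_one]
    simpa using congrArg Units.val this
  · intro b hb
    have hb' : (QuotientGroup.mk' H b) = 1 := (QuotientGroup.eq_one_iff _).2 hb
    rw [MonoidHom.comp_apply, hb', map_one]

/-- (C3) The classes of the primes outside a set `Sbad` of primes whose prime zeta sum is at most
`(1/p) log (1/(s-1)) + O(1)` generate the class group modulo `p`-th powers. -/
theorem good_primes_generate (p : ℕ) [Fact p.Prime] (hp : 3 ≤ p) (K : Type*) [Field K]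
    [NumberField K] (Sbad : Set (HeightOneSpectrum (𝓞 K)))
    (hbad : ∃ C : ℝ, ∀ s, 1 < s → s ≤ 2 →
      primeSum K Sbad s ≤ (1 / p : ℝ) * Real.log (1 / (s - 1)) + C) :
    Subgroup.closure {c : ClassGroup (𝓞 K) | ∃ v : HeightOneSpectrum (𝓞 K),
        v ∉ Sbad ∧ c = ClassGroup.mk0 (primeNZ K v)} ⊔
      (powMonoidHom p : ClassGroup (𝓞 K) →* ClassGroup (𝓞 K)).range = ⊤ := by
  by_contra hne
  set W : Set (ClassGroup (𝓞 K)) := {c : ClassGroup (𝓞 K) | ∃ v : HeightOneSpectrum (𝓞 K),
        v ∉ Sbad ∧ c = ClassGroup.mk0 (primeNZ K v)} with hW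
  set H : Subgroup (ClassGroup (𝓞 K)) := Subgroup.closure W ⊔
      (powMonoidHom p : ClassGroup (𝓞 K) →* ClassGroup (𝓞 K)).range with hH
  have hpow : ∀ a : ClassGroup (𝓞 K), a ^ p ∈ H := fun a =>
    (le_sup_right : (powMonoidHom p : ClassGroup (𝓞 K) →* ClassGroup (𝓞 K)).range ≤ H)
      ⟨a, rfl⟩
  obtain ⟨ψ, hψ, hψp, hψH⟩ := h61_exists_char_of_ne_top p H hne hpow
  have hpp : p.Prime := Fact.out
  have hL : ∀ j : ℕ, ¬ p ∣ j → ∃ B : ℝ, ∀ s : ℝ, 1 < s → s ≤ 2 → ‖classL K (ψ ^ j) s‖ ≤ B := by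
    intro j hj
    apply classL_bounded
    intro hj1
    apply hψ
    have hcop : Nat.Coprime j p := ((Nat.Prime.coprime_iff_not_dvd hpp).2 hj).symm
    ext c
    have e1 : (ψ c) ^ j = 1 := by
      have := DFunLike.congr_fun hj1 c
      simpa using this
    have e2 : (ψ c) ^ p = 1 := by
      have := DFunLike.congr_fun hψp c
      simpa using this
    have e3 := pow_gcd_eq_one.2 ⟨e1, e2⟩
    rw [hcop.gcd_eq_one, pow_one] at e3
    simp [e3]
  obtain ⟨v, hv, hvψ⟩ := exists_prime_of_density K p hp ψ hψ hψp hL Sbad hbad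
  apply hvψ
  apply hψH
  exact (le_sup_left : Subgroup.closure W ≤ H) (Subgroup.subset_closure ⟨v, hv, rfl⟩)

end Fermat.Agent.S14
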