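import Mathlib
import Fermat.Agent.S14.AnalyticDefs

/-!
# S14, module A4 : Euler products over the prime ideals of a number field (helper26)

For a number field `K` and a multiplicative, absolutely summable function `a` on the nonzero ideals
of `𝓞 K` we prove the "sieve" form of the Euler product

  `∑ {I coprime to T} a I = (∏ 𝔭 ∈ T, (1 - a 𝔭)) * ∑ I, a I`          (`h26_sieve`)

for every finite set `T` of primes, and that the left hand side tends to `1` when `T` runs through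
the sets `{𝔭 | N𝔭 ≤ X}` (`h26_tendsto_prod_mul_tsum`).  Consequences for the Dedekind zeta function
(`zetaR K s = ∑ I, N(I)^(-s)`) are collected at the end.
-/

set_option autoImplicit false
set_option linter.unusedSectionVars false

namespace Fermat.Agent.S14

open NumberField IsDedekindDomain Filter Topology
open scoped nonZeroDivisors

variable {K : Type*} [Field K] [NumberField K]

@[simp] lemma h26_primeNZ_coe (𝔭 : HeightOneSpectrum (𝓞 K)) :
    ((primeNZ K 𝔭 : (Ideal (𝓞 K))⁰) : Ideal (𝓞 K)) = 𝔭.asIdeal := rfl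

lemma h26_primeNZ_injective : Function.Injective (primeNZ K) := by
  intro 𝔭 𝔮 h
  exact HeightOneSpectrum.ext (congrArg Subtype.val h)

/-- `I` is coprime to all the primes of `T`. -/
def h26_cop (T : Finset (HeightOneSpectrum (𝓞 K))) : Set (Ideal (𝓞 K))⁰ :=
  {I | ∀ 𝔭 ∈ T, ¬ (𝔭.asIdeal ∣ (I : Ideal (𝓞 K)))}

lemma h26_one_mem_cop (T : Finset (HeightOneSpectrum (𝓞 K))) : (1 : (Ideal (𝓞 K))⁰) ∈ h26_cop T := by
  intro 𝔭 _ h
  have h1 : 𝔭.asIdeal ∣ (1 : Ideal (𝓞 K)) := h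
  have h2 : 𝔭.asIdeal = ⊤ := by
    have := Ideal.dvd_iff_le.mp h1
    exact top_le_iff.mp (by simpa using this)
  exact 𝔭.isPrime.ne_top h2

lemma h26_mul_mem_cop_iff {T : Finset (HeightOneSpectrum (𝓞 K))} {𝔮 : HeightOneSpectrum (𝓞 K)}
    (h𝔮 : 𝔮 ∉ T) (J : (Ideal (𝓞 K))⁰) : primeNZ K 𝔮 * J ∈ h26_cop T ↔ J ∈ h26_cop T := by
  constructor
  · intro h 𝔭 h𝔭 hd
    exact h 𝔭 h𝔭 (by simpa using Dvd.dvd.mul_left hd 𝔮.asIdeal)
  · intro h 𝔭 h𝔭 hd
    have hd' : 𝔭.asIdeal ∣ 𝔮.asIdeal * (J : Ideal (𝓞 K)) := by simpa using hd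
    rcases (𝔭.prime).dvd_or_dvd hd' with h1 | h1
    · have hle : 𝔮.asIdeal ≤ 𝔭.asIdeal := Ideal.dvd_iff_le.mp h1
      have : 𝔮.asIdeal = 𝔭.asIdeal := 𝔮.isMaximal.eq_of_le 𝔭.isPrime.ne_top hle
      exact h𝔮 (HeightOneSpectrum.ext this ▸ h𝔭)
    · exact h 𝔭 h𝔭 h1

lemma h26_mul_left_injective (𝔮 : HeightOneSpectrum (𝓞 K)) :
    Function.Injective (fun J : (Ideal (𝓞 K))⁰ => primeNZ K 𝔮 * J) := by
  intro J J' h
  have h' : 𝔮.asIdeal * (J : Ideal (𝓞 K)) = 𝔮.asIdeal * (J' : Ideal (𝓞 K)) := by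
    simpa using congrArg Subtype.val h
  exact Subtype.ext (mul_left_cancel₀ 𝔮.ne_bot h')

lemma h26_exists_mul_of_dvd {𝔮 : HeightOneSpectrum (𝓞 K)} {I : (Ideal (𝓞 K))⁰}
    (h : 𝔮.asIdeal ∣ (I : Ideal (𝓞 K))) : ∃ J : (Ideal (𝓞 K))⁰, primeNZ K 𝔮 * J = I := by
  obtain ⟨J, hJ⟩ := h
  have hJ0 : J ≠ 0 := by
    rintro rfl
    have : (I : Ideal (𝓞 K)) = 0 := by simpa using hJ
    exact (nonZeroDivisors.coe_ne_zero I) this
  exact ⟨⟨J, mem_nonZeroDivisors_of_ne_zero hJ0⟩, Subtype.ext (by simpa using hJ.symm)⟩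


/-! ### The sieve identity -/

section sieve

variable {𝕜 : Type*} [NormedField 𝕜] [CompleteSpace 𝕜]

open Classical in
/-- **Sieve form of the Euler product**: removing the ideals divisible by a prime of `T`
multiplies the sum by `∏ 𝔭 ∈ T, (1 - a 𝔭)`. -/
theorem h26_sieve (a : (Ideal (𝓞 K))⁰ →* 𝕜) (ha : Summable fun I => ‖a I‖)
    (T : Finset (HeightOneSpectrum (𝓞 K))) :
    ∑' I, (h26_cop T).indicator a I = (∏ 𝔭 ∈ T, (1 - a (primeNZ K 𝔭))) * ∑' I, a I := by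
  induction T using Finset.induction_on with
  | empty =>
    have : h26_cop (∅ : Finset (HeightOneSpectrum (𝓞 K))) = Set.univ := by
      ext I; simp [h26_cop]
    simp [this]
  | insert 𝔮 T h𝔮 ih =>
    set g : (Ideal (𝓞 K))⁰ → 𝕜 := (h26_cop T).indicator a with hg
    have hgs : Summable g := by
      refine Summable.of_norm_bounded ha (fun I => ?_)
      by_cases hI : I ∈ h26_cop T <;> simp [hg, hI]
    set D : Set (Ideal (𝓞 K))⁰ := {I | 𝔮.asIdeal ∣ (I : Ideal (𝓞 K))} with hD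
    have hhs : Summable (D.indicator g) := by
      refine Summable.of_norm_bounded ha (fun I => ?_)
      by_cases hI : I ∈ h26_cop T <;> by_cases hI' : I ∈ D <;> simp [hg, hI, hI']
    have hsplit : ∀ I, (h26_cop (insert 𝔮 T)).indicator a I = g I - D.indicator g I := by
      intro I
      by_cases h1 : I ∈ h26_cop T
      · by_cases h2 : I ∈ D
        · have : I ∉ h26_cop (insert 𝔮 T) := fun h => h 𝔮 (Finset.mem_insert_self _ _) h2
          simp [hg, h1, h2, this]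
        · have : I ∈ h26_cop (insert 𝔮 T) := by
            intro 𝔭 h𝔭
            rcases Finset.mem_insert.mp h𝔭 with rfl | h𝔭
            · exact h2
            · exact h1 𝔭 h𝔭
          simp [hg, h1, h2, this]
      · have : I ∉ h26_cop (insert 𝔮 T) :=
          fun h => h1 (fun 𝔭 h𝔭 => h 𝔭 (Finset.mem_insert_of_mem h𝔭))
        by_cases h2 : I ∈ D <;> simp [hg, h1, h2, this]
    have hD_sum : ∑' I, D.indicator g I = a (primeNZ K 𝔮) * ∑' I, g I := by
      have hinj := h26_mul_left_injective 𝔮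
      have hsupp : Function.support (D.indicator g) ⊆
          Set.range (fun J : (Ideal (𝓞 K))⁰ => primeNZ K 𝔮 * J) := by
        intro I hI
        have hID : I ∈ D := by
          by_contra h
          exact hI (by simp [h])
        obtain ⟨J, hJ⟩ := h26_exists_mul_of_dvd hID
        exact ⟨J, hJ⟩
      rw [← hinj.tsum_eq hsupp, ← tsum_mul_left]
      refine tsum_congr (fun J => ?_)
      have hmem : primeNZ K 𝔮 * J ∈ D := by
        show 𝔮.asIdeal ∣ ((primeNZ K 𝔮 * J : (Ideal (𝓞 K))⁰) : Ideal (𝓞 K))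
        simp
      rw [Set.indicator_of_mem hmem]
      by_cases hJ : J ∈ h26_cop T
      · have := (h26_mul_mem_cop_iff h𝔮 J).mpr hJ
        simp [hg, hJ, this]
      · have := (h26_mul_mem_cop_iff h𝔮 J).not.mpr hJ
        simp [hg, hJ, this]
    calc ∑' I, (h26_cop (insert 𝔮 T)).indicator a I
        = ∑' I, (g I - D.indicator g I) := tsum_congr hsplit
      _ = ∑' I, g I - ∑' I, D.indicator g I := hgs.tsum_sub hhs
      _ = (1 - a (primeNZ K 𝔮)) * ∑' I, g I := by rw [hD_sum]; ring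
      _ = (∏ 𝔭 ∈ insert 𝔮 T, (1 - a (primeNZ K 𝔭))) * ∑' I, a I := by
          rw [ih, Finset.prod_insert h𝔮]; ring


end sieve

/-! ### Exhaustion by the primes of bounded norm -/

lemma h26_finite_norm_le (X : ℕ) :
    {I : (Ideal (𝓞 K))⁰ | Ideal.absNorm (I : Ideal (𝓞 K)) ≤ X}.Finite :=
  Ideal.finite_setOfPred_absNorm_le₀ X

/-- the finite set of nonzero ideals of norm `≤ X`. -/
noncomputable def h26_idealsLE (X : ℕ) : Finset (Ideal (𝓞 K))⁰ := (h26_finite_norm_le X).toFinset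

@[simp] lemma h26_mem_idealsLE {X : ℕ} {I : (Ideal (𝓞 K))⁰} :
    I ∈ h26_idealsLE X ↔ Ideal.absNorm (I : Ideal (𝓞 K)) ≤ X := by
  simp [h26_idealsLE]

lemma h26_finite_primes_le (X : ℕ) :
    {𝔭 : HeightOneSpectrum (𝓞 K) | Ideal.absNorm 𝔭.asIdeal ≤ X}.Finite := by
  refine Set.Finite.of_finite_image (f := primeNZ K) ?_ h26_primeNZ_injective.injOn
  refine (h26_finite_norm_le (K := K) X).subset ?_
  rintro _ ⟨𝔭, h𝔭, rfl⟩
  exact h𝔭

/-- the finite set of primes of norm `≤ X`. -/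
noncomputable def h26_primesLE (X : ℕ) : Finset (HeightOneSpectrum (𝓞 K)) :=
  (h26_finite_primes_le X).toFinset

@[simp] lemma h26_mem_primesLE {X : ℕ} {𝔭 : HeightOneSpectrum (𝓞 K)} :
    𝔭 ∈ h26_primesLE X ↔ Ideal.absNorm 𝔭.asIdeal ≤ X := by
  simp [h26_primesLE]

lemma h26_primesLE_mono {X Y : ℕ} (h : X ≤ Y) : h26_primesLE (K := K) X ⊆ h26_primesLE Y := by
  intro 𝔭 h𝔭
  rw [h26_mem_primesLE] at h𝔭 ⊢
  exact h𝔭.trans h

lemma h26_subset_primesLE (T : Finset (HeightOneSpectrum (𝓞 K))) :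
    ∃ X : ℕ, ∀ Y, X ≤ Y → T ⊆ h26_primesLE Y := by
  refine ⟨T.sup (fun 𝔭 => Ideal.absNorm 𝔭.asIdeal), fun Y hY 𝔭 h𝔭 => ?_⟩
  rw [h26_mem_primesLE]
  exact (Finset.le_sup (f := fun 𝔭 : HeightOneSpectrum (𝓞 K) => Ideal.absNorm 𝔭.asIdeal) h𝔭).trans hY

/-- an ideal `≠ 1` coprime to all primes of norm `≤ X` has norm `> X`. -/
lemma h26_lt_absNorm_of_cop {X : ℕ} {I : (Ideal (𝓞 K))⁰} (hI : I ∈ h26_cop (h26_primesLE X))
    (h1 : I ≠ 1) : X < Ideal.absNorm (I : Ideal (𝓞 K)) := by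
  have htop : (I : Ideal (𝓞 K)) ≠ ⊤ := by
    intro h
    exact h1 (Subtype.ext (by simpa using h))
  obtain ⟨M, hM, hIM⟩ := Ideal.exists_le_maximal _ htop
  have hM0 : M ≠ ⊥ := by
    rintro rfl
    exact (nonZeroDivisors.coe_ne_zero I) (le_bot_iff.mp hIM)
  let 𝔭 : HeightOneSpectrum (𝓞 K) := ⟨M, hM.isPrime, hM0⟩
  have hdvd : 𝔭.asIdeal ∣ (I : Ideal (𝓞 K)) := Ideal.dvd_iff_le.mpr hIM
  have hnot : 𝔭 ∉ h26_primesLE X := fun h => hI 𝔭 h hdvd
  rw [h26_mem_primesLE, not_le] at hnot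
  have hdiv : Ideal.absNorm M ∣ Ideal.absNorm (I : Ideal (𝓞 K)) :=
    Ideal.absNorm_dvd_absNorm_of_le hIM
  have hpos : 0 < Ideal.absNorm (I : Ideal (𝓞 K)) :=
    Nat.pos_of_ne_zero (Ideal.absNorm_ne_zero_of_nonZeroDivisors I)
  exact lt_of_lt_of_le hnot (Nat.le_of_dvd hpos hdiv)

lemma h26_tendsto_idealsLE : Tendsto (h26_idealsLE (K := K)) atTop atTop := by
  refine tendsto_atTop_finset_of_monotone ?_ ?_
  · intro X Y h I hI
    rw [h26_mem_idealsLE] at hI ⊢
    exact hI.trans h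
  · intro I
    exact ⟨_, h26_mem_idealsLE.mpr le_rfl⟩

section limit

variable {𝕜 : Type*} [NormedField 𝕜] [CompleteSpace 𝕜]

open Classical in
/-- **Euler product, limit form**: `(∏_{N𝔭 ≤ X} (1 - a 𝔭)) * ∑ I, a I → 1`. -/
theorem h26_tendsto_prod_mul_tsum (a : (Ideal (𝓞 K))⁰ →* 𝕜) (ha : Summable fun I => ‖a I‖) :
    Tendsto (fun X : ℕ => (∏ 𝔭 ∈ h26_primesLE X, (1 - a (primeNZ K 𝔭))) * ∑' I, a I)
      atTop (𝓝 1) := by
  have hsieve : ∀ X : ℕ, (∏ 𝔭 ∈ h26_primesLE X, (1 - a (primeNZ K 𝔭))) * ∑' I, a I =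
      ∑' I, (h26_cop (h26_primesLE X)).indicator a I := fun X => (h26_sieve a ha _).symm
  simp_rw [hsieve]
  -- the tail of the norm series
  have htail : Tendsto (fun X : ℕ => ∑' I : {I // I ∉ h26_idealsLE (K := K) X}, ‖a I‖)
      atTop (𝓝 0) :=
    (tendsto_tsum_compl_atTop_zero (fun I : (Ideal (𝓞 K))⁰ => ‖a I‖)).comp h26_tendsto_idealsLE
  rw [tendsto_iff_norm_sub_tendsto_zero]
  refine squeeze_zero (fun _ => norm_nonneg _) (fun X => ?_) htail
  -- split off the term `I = 1`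
  set C := h26_cop (K := K) (h26_primesLE X) with hC
  have hsumm : Summable (C.indicator a) := by
    refine Summable.of_norm_bounded ha (fun I => ?_)
    by_cases hI : I ∈ C <;> simp [hI]
  have h1 : ∑' I, ({1} : Set (Ideal (𝓞 K))⁰).indicator a I = 1 := by
    rw [tsum_eq_single 1]
    · simp
    · intro I hI
      simp [hI]
  have hsumm1 : Summable (({1} : Set (Ideal (𝓞 K))⁰).indicator a) := by
    refine Summable.of_norm_bounded ha (fun I => ?_)
    by_cases hI : I = 1 <;> simp [hI]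
  have hdiff : ∑' I, C.indicator a I - 1 =
      ∑' I, (C.indicator a I - ({1} : Set (Ideal (𝓞 K))⁰).indicator a I) := by
    rw [hsumm.tsum_sub hsumm1, h1]
  rw [hdiff]
  set U : Set (Ideal (𝓞 K))⁰ := {I | I ∉ h26_idealsLE (K := K) X} with hU
  have hbound : ∀ I, ‖C.indicator a I - ({1} : Set (Ideal (𝓞 K))⁰).indicator a I‖ ≤
      U.indicator (fun I => ‖a I‖) I := by
    intro I
    by_cases hI1 : I = 1
    · subst hI1
      have : (1 : (Ideal (𝓞 K))⁰) ∈ C := h26_one_mem_cop _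
      simp [this, Set.indicator_nonneg]
    · by_cases hIC : I ∈ C
      · have hlt := h26_lt_absNorm_of_cop hIC hI1
        have hIU : I ∈ U := by
          show I ∉ h26_idealsLE X
          rw [h26_mem_idealsLE, not_le]
          exact hlt
        simp [hIC, hI1, hIU]
      · simp [hIC, hI1, Set.indicator_nonneg]
  have hUsumm : Summable (U.indicator fun I => ‖a I‖) := ha.indicator U
  have hle : ‖∑' I, (C.indicator a I - ({1} : Set (Ideal (𝓞 K))⁰).indicator a I)‖ ≤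
      ∑' I, U.indicator (fun I => ‖a I‖) I := by
    refine tsum_of_norm_bounded hUsumm.hasSum hbound
  refine hle.trans (le_of_eq ?_)
  exact (tsum_subtype U fun I => ‖a I‖).symm

end limit

end Fermat.Agent.S14
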