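import Mathlib
import Fermat.Agent.S14.Helper26Euler

/-!
# S14, module A4 (continued): the Dedekind zeta function as a sum over nonzero ideals, and the
prime zeta sum (helper26)
-/

set_option autoImplicit false
set_option linter.unusedSectionVars false

namespace Fermat.Agent.S14

open NumberField IsDedekindDomain Filter Topology Ideal
open scoped nonZeroDivisors

variable (K : Type*) [Field K] [NumberField K]

/-- the nonzero ideals of norm `n` correspond to the ideals of norm `n` when `n ≠ 0`. -/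
lemma h26_card_fiber {n : ℕ} (hn : n ≠ 0) :
    Nat.card {I : (Ideal (𝓞 K))⁰ // absNorm (I : Ideal (𝓞 K)) = n} =
      Nat.card {I : Ideal (𝓞 K) // absNorm I = n} := by
  refine Nat.card_congr ⟨fun I => ⟨I.1.1, I.2⟩, fun I => ⟨⟨I.1, ?_⟩, I.2⟩, fun I => rfl, fun I => rfl⟩
  refine mem_nonZeroDivisors_of_ne_zero ?_
  intro h
  apply hn
  rw [← I.2, h]
  simp

lemma h26_finite_fiber (n : ℕ) :
    Finite {I : (Ideal (𝓞 K))⁰ // absNorm (I : Ideal (𝓞 K)) = n} :=
  ((h26_finite_norm_le (K := K) n).subset (fun I (hI : absNorm (I : Ideal (𝓞 K)) = n) =>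
    le_of_eq hI)).to_subtype

lemma h26_fiber_tsum (s : ℝ) (n : ℕ) :
    ∑' I : {I : (Ideal (𝓞 K))⁰ // absNorm (I : Ideal (𝓞 K)) = n}, nrm K s I.1 =
      (Nat.card {I : (Ideal (𝓞 K))⁰ // absNorm (I : Ideal (𝓞 K)) = n} : ℝ) * (n : ℝ) ^ (-s) := by
  have := h26_finite_fiber K n
  have := Fintype.ofFinite {I : (Ideal (𝓞 K))⁰ // absNorm (I : Ideal (𝓞 K)) = n}
  rw [tsum_fintype, Nat.card_eq_fintype_card]
  have : ∀ I : {I : (Ideal (𝓞 K))⁰ // absNorm (I : Ideal (𝓞 K)) = n},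
      nrm K s I.1 = (n : ℝ) ^ (-s) := by
    intro I
    simp [nrm, I.2]
  simp [this]

/-- the real Dirichlet coefficient sequence of `ζ_K`. -/
noncomputable def h26_term (s : ℝ) (n : ℕ) : ℝ :=
  (Nat.card {I : Ideal (𝓞 K) // absNorm I = n} : ℝ) * (n : ℝ) ^ (-s)

lemma h26_term_nonneg (s : ℝ) (n : ℕ) : 0 ≤ h26_term K s n := by
  unfold h26_term; positivity

lemma h26_term_eq {s : ℝ} (hs : s ≠ 0) (n : ℕ) :
    ((h26_term K s n : ℝ) : ℂ) =
      LSeries.term (fun n ↦ ((Nat.card {I : Ideal (𝓞 K) // absNorm I = n} : ℝ) : ℂ)) (s : ℂ) n := by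
  rcases eq_or_ne n 0 with rfl | hn
  · simp [h26_term, Real.zero_rpow (neg_ne_zero.mpr hs)]
  · rw [LSeries.term_of_ne_zero hn, h26_term, Real.rpow_neg (Nat.cast_nonneg n)]
    push_cast
    rw [Complex.ofReal_cpow (Nat.cast_nonneg n)]
    simp [div_eq_mul_inv]

lemma h26_fiber_tsum' {s : ℝ} (hs : s ≠ 0) (n : ℕ) :
    ∑' I : {I : (Ideal (𝓞 K))⁰ // absNorm (I : Ideal (𝓞 K)) = n}, nrm K s I.1 = h26_term K s n := by
  rw [h26_fiber_tsum]
  rcases eq_or_ne n 0 with rfl | hn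
  · simp [h26_term, Real.zero_rpow (neg_ne_zero.mpr hs)]
  · rw [h26_card_fiber K hn, h26_term]

lemma h26_lseriesSummable {s : ℝ} (hs : 1 < s) :
    LSeriesSummable (fun n ↦ ((Nat.card {I : Ideal (𝓞 K) // absNorm I = n} : ℝ) : ℂ)) (s : ℂ) := by
  have hlim : Tendsto (fun n : ℕ ↦ (∑ k ∈ Finset.Icc 1 n,
      (Nat.card {I : Ideal (𝓞 K) // absNorm I = k} : ℝ)) / (n : ℝ)) atTop
      (𝓝 (dedekindZeta_residue K)) := by
    refine ((Ideal.tendsto_norm_le_div_atTop₀ K).comp tendsto_natCast_atTop_atTop).congr fun n ↦ ?_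
    simp only [Function.comp_apply, Nat.cast_le, ← Nat.cast_sum]
    congr
    rw [← add_left_inj 1, ← card_norm_le_eq_card_norm_le_add_one,
      show Finset.Icc 1 n = Finset.Ioc 0 n from Finset.Icc_succ_left_eq_Ioc _ _,
      show 1 = Nat.card {I : Ideal (𝓞 K) // absNorm I = 0} by simp [Ideal.absNorm_eq_zero_iff],
      Finset.sum_Ioc_add_eq_sum_Icc (n.zero_le),
      ← Finset.card_preimage_eq_sum_card_image_eq (fun k _ ↦ finite_setOfPred_absNorm_eq k)]
    simp [Set.coe_eq_subtype]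
  refine LSeriesSummable_of_sum_norm_bigO_and_nonneg ?_ (fun _ => Nat.cast_nonneg _) zero_le_one
    (by simpa using hs)
  exact Asymptotics.isBigO_atTop_natCast_rpow_of_tendsto_div_rpow (by simpa using hlim)

lemma h26_summable_term {s : ℝ} (hs : 1 < s) : Summable (h26_term K s) := by
  have h := h26_lseriesSummable K hs
  rw [LSeriesSummable] at h
  rw [← Complex.summable_ofReal]
  refine h.congr (fun n => ?_)
  exact (h26_term_eq K (by linarith) n).symm

/-- **(E2a)** `∑ N(I)^(-s)` converges for `s > 1`. -/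
theorem h26_summable_nrm {s : ℝ} (hs : 1 < s) : Summable (nrm K s) := by
  have hs0 : s ≠ 0 := by linarith
  rw [← (Equiv.sigmaFiberEquiv (fun I : (Ideal (𝓞 K))⁰ => absNorm (I : Ideal (𝓞 K)))).summable_iff]
  refine (summable_sigma_of_nonneg (fun x => ?_)).mpr ⟨fun n => ?_, ?_⟩
  · simp only [Function.comp_apply, nrm]; positivity
  · have := h26_finite_fiber K n
    exact Summable.of_finite
  · refine (h26_summable_term K hs).congr (fun n => ?_)
    exact (h26_fiber_tsum' K hs0 n).symm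

/-- **(E2b)** `∑ N(I)^(-s) = ζ_K(s)` for real `s > 1`. -/
theorem h26_tsum_nrm_eq {s : ℝ} (hs : 1 < s) :
    ((∑' I, nrm K s I : ℝ) : ℂ) = dedekindZeta K (s : ℂ) := by
  have hs0 : s ≠ 0 := by linarith
  have h1 : ∑' I, nrm K s I = ∑' n, h26_term K s n := by
    set e := Equiv.sigmaFiberEquiv (fun I : (Ideal (𝓞 K))⁰ => absNorm (I : Ideal (𝓞 K))) with he
    have hfib : ∀ n : ℕ, Summable fun c : {I : (Ideal (𝓞 K))⁰ // absNorm (I : Ideal (𝓞 K)) = n} =>
        (nrm K s ∘ e) ⟨n, c⟩ := by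
      intro n
      have := h26_finite_fiber K n
      exact Summable.of_finite
    have hall : Summable (nrm K s ∘ e) := (e.summable_iff).mpr (h26_summable_nrm K hs)
    calc ∑' I, nrm K s I = ∑' x, (nrm K s ∘ e) x := (e.tsum_eq _).symm
      _ = ∑' n, ∑' c : {I : (Ideal (𝓞 K))⁰ // absNorm (I : Ideal (𝓞 K)) = n},
            (nrm K s ∘ e) ⟨n, c⟩ := Summable.tsum_sigma' hfib hall
      _ = ∑' n, h26_term K s n := tsum_congr (fun n => h26_fiber_tsum' K hs0 n)
  rw [h1, Complex.ofReal_tsum, dedekindZeta, LSeries]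
  refine tsum_congr (fun n => ?_)
  rw [h26_term_eq K hs0 n]
  simp


/-! ### The prime zeta sum versus `log ζ_K` -/

/-- `I ↦ N(I)^(-s)` as a monoid hom. -/
noncomputable def h26_nrmHom (s : ℝ) : (Ideal (𝓞 K))⁰ →* ℝ where
  toFun := nrm K s
  map_one' := by simp [nrm]
  map_mul' I J := by
    simp only [nrm, Submonoid.coe_mul, map_mul, Nat.cast_mul]
    exact Real.mul_rpow (Nat.cast_nonneg _) (Nat.cast_nonneg _)

@[simp] lemma h26_nrmHom_apply (s : ℝ) (I : (Ideal (𝓞 K))⁰) : h26_nrmHom K s I = nrm K s I := rfl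

lemma h26_nrm_nonneg (s : ℝ) (I : (Ideal (𝓞 K))⁰) : 0 ≤ nrm K s I := by
  unfold nrm; positivity

lemma h26_two_le_absNorm (v : HeightOneSpectrum (𝓞 K)) : 2 ≤ absNorm v.asIdeal := by
  have h0 : absNorm v.asIdeal ≠ 0 := fun h => v.ne_bot (Ideal.absNorm_eq_zero_iff.mp h)
  have h1 : absNorm v.asIdeal ≠ 1 := fun h => v.isPrime.ne_top (Ideal.absNorm_eq_one_iff.mp h)
  omega

lemma h26_nrm_prime_le_half {s : ℝ} (hs : 1 ≤ s) (v : HeightOneSpectrum (𝓞 K)) :
    nrm K s (primeNZ K v) ≤ 1 / 2 := by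
  have h2 : (2 : ℝ) ≤ (absNorm v.asIdeal : ℝ) := by exact_mod_cast h26_two_le_absNorm K v
  calc nrm K s (primeNZ K v) = (absNorm v.asIdeal : ℝ) ^ (-s) := rfl
    _ ≤ (2 : ℝ) ^ (-s) := Real.rpow_le_rpow_of_nonpos (by norm_num) h2 (by linarith)
    _ ≤ (2 : ℝ) ^ (-1 : ℝ) := Real.rpow_le_rpow_of_exponent_le (by norm_num) (by linarith)
    _ = 1 / 2 := by rw [Real.rpow_neg_one]; norm_num

lemma h26_summable_norm_nrmHom {s : ℝ} (hs : 1 < s) :
    Summable fun I => ‖h26_nrmHom K s I‖ := by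
  refine (h26_summable_nrm K hs).congr (fun I => ?_)
  rw [h26_nrmHom_apply, Real.norm_of_nonneg (h26_nrm_nonneg K s I)]

/-- **(E3, summability)** the prime zeta sum converges for `s > 1`. -/
theorem h26_summable_prime {s : ℝ} (hs : 1 < s) :
    Summable (fun v : HeightOneSpectrum (𝓞 K) => nrm K s (primeNZ K v)) :=
  (h26_summable_nrm K hs).comp_injective h26_primeNZ_injective

lemma h26_one_le_zeta {s : ℝ} (hs : 1 < s) : 1 ≤ ∑' I, nrm K s I := by
  have := (h26_summable_nrm K hs).le_tsum (1 : (Ideal (𝓞 K))⁰) (fun I _ => h26_nrm_nonneg K s I)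
  simpa [nrm] using this

lemma h26_one_le_prod_mul_zeta {s : ℝ} (hs : 1 < s) (T : Finset (HeightOneSpectrum (𝓞 K))) :
    1 ≤ (∏ v ∈ T, (1 - nrm K s (primeNZ K v))) * ∑' I, nrm K s I := by
  have h := h26_sieve (h26_nrmHom K s) (h26_summable_norm_nrmHom K hs) T
  simp only [h26_nrmHom_apply] at h
  rw [← h]
  have hsum : Summable ((h26_cop T).indicator (h26_nrmHom K s)) :=
    (h26_summable_nrm K hs).indicator _
  have := hsum.le_tsum (1 : (Ideal (𝓞 K))⁰)
    (fun I _ => Set.indicator_nonneg (fun I _ => h26_nrm_nonneg K s I) I)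
  simpa [Set.indicator_of_mem (h26_one_mem_cop T), nrm] using this

/-- **(E3, upper bound)** `∑_𝔭 N𝔭^(-s) ≤ log ζ_K(s)` for `s > 1`. -/
theorem h26_tsum_prime_le_log {s : ℝ} (hs : 1 < s) :
    ∑' v : HeightOneSpectrum (𝓞 K), nrm K s (primeNZ K v) ≤ Real.log (∑' I, nrm K s I) := by
  set Z := ∑' I, nrm K s I with hZ
  have hZ1 : 1 ≤ Z := h26_one_le_zeta K hs
  refine Real.tsum_le_of_sum_le (fun v => h26_nrm_nonneg K s _) (fun T => ?_)
  have h1 := h26_one_le_prod_mul_zeta K hs T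
  set S := ∑ v ∈ T, nrm K s (primeNZ K v) with hS
  have h2 : ∏ v ∈ T, (1 - nrm K s (primeNZ K v)) ≤ Real.exp (-S) := by
    rw [hS, ← Finset.sum_neg_distrib, Real.exp_sum]
    refine Finset.prod_le_prod (fun v _ => ?_) (fun v _ => Real.one_sub_le_exp_neg _)
    have := h26_nrm_prime_le_half K hs.le v
    linarith
  have h3 : 1 ≤ Real.exp (-S) * Z := h1.trans (mul_le_mul_of_nonneg_right h2 (by linarith))
  rw [Real.le_log_iff_exp_le (by linarith)]
  calc Real.exp S = Real.exp S * 1 := (mul_one _).symm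
    _ ≤ Real.exp S * (Real.exp (-S) * Z) := mul_le_mul_of_nonneg_left h3 (Real.exp_nonneg _)
    _ = Z := by rw [← mul_assoc, ← Real.exp_add, add_neg_cancel, Real.exp_zero, one_mul]

lemma h26_exp_le_one_sub {x : ℝ} (h1 : x ≤ 1 / 2) :
    Real.exp (-x - 2 * x ^ 2) ≤ 1 - x := by
  have hpos : 0 < 1 - x := by linarith
  rw [← Real.le_log_iff_exp_le hpos]
  refine le_trans ?_ (Real.one_sub_inv_le_log_of_pos hpos)
  rw [← sub_nonneg]
  have : 1 - (1 - x)⁻¹ - (-x - 2 * x ^ 2) = x ^ 2 * (1 - 2 * x) / (1 - x) := by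
    field_simp
    ring
  rw [this]
  exact div_nonneg (mul_nonneg (sq_nonneg x) (by linarith)) hpos.le

lemma h26_sq_nrm_prime_le {s : ℝ} (hs : 1 ≤ s) (v : HeightOneSpectrum (𝓞 K)) :
    nrm K s (primeNZ K v) ^ 2 ≤ nrm K 2 (primeNZ K v) := by
  have h1 : (1 : ℝ) ≤ (absNorm v.asIdeal : ℝ) := by
    have := h26_two_le_absNorm K v
    exact_mod_cast (by omega : 1 ≤ absNorm v.asIdeal)
  calc nrm K s (primeNZ K v) ^ 2 = ((absNorm v.asIdeal : ℝ) ^ (-s)) ^ (2 : ℕ) := rfl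
    _ = (absNorm v.asIdeal : ℝ) ^ (-s * 2) := by
        rw [Real.rpow_mul (Nat.cast_nonneg _), ← Real.rpow_natCast]; norm_num
    _ ≤ (absNorm v.asIdeal : ℝ) ^ (-2 : ℝ) := Real.rpow_le_rpow_of_exponent_le h1 (by linarith)
    _ = nrm K 2 (primeNZ K v) := rfl

/-- **(E3, lower bound)** `log ζ_K(s) ≤ ∑_𝔭 N𝔭^(-s) + C` uniformly for `1 < s ≤ 2`. -/
theorem h26_log_zeta_le : ∃ C : ℝ, ∀ s : ℝ, 1 < s → s ≤ 2 →
    Real.log (∑' I, nrm K s I) ≤ ∑' v : HeightOneSpectrum (𝓞 K), nrm K s (primeNZ K v) + C := by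
  refine ⟨Real.log 2 + 2 * ∑' v : HeightOneSpectrum (𝓞 K), nrm K 2 (primeNZ K v),
    fun s hs hs2 => ?_⟩
  set Z := ∑' I, nrm K s I with hZ
  have hZ1 : 1 ≤ Z := h26_one_le_zeta K hs
  have hlim := h26_tendsto_prod_mul_tsum (h26_nrmHom K s) (h26_summable_norm_nrmHom K hs)
  obtain ⟨X, hX⟩ := (hlim.eventually (gt_mem_nhds (show (1 : ℝ) < 2 by norm_num))).exists
  simp only [h26_nrmHom_apply] at hX
  set T := h26_primesLE (K := K) X with hT
  set x : HeightOneSpectrum (𝓞 K) → ℝ := fun v => nrm K s (primeNZ K v) with hx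
  have hx0 : ∀ v, 0 ≤ x v := fun v => h26_nrm_nonneg K s _
  have hxh : ∀ v, x v ≤ 1 / 2 := fun v => h26_nrm_prime_le_half K hs.le v
  set E := ∑ v ∈ T, (x v + 2 * x v ^ 2) with hE
  have hprod : 1 ≤ (∏ v ∈ T, (1 - x v)) * Real.exp E := by
    rw [hE, Real.exp_sum, ← Finset.prod_mul_distrib]
    have : ∀ v ∈ T, (1 : ℝ) ≤ (1 - x v) * Real.exp (x v + 2 * x v ^ 2) := by
      intro v _
      have h := h26_exp_le_one_sub (hxh v)
      calc (1 : ℝ) = Real.exp (-x v - 2 * x v ^ 2) * Real.exp (x v + 2 * x v ^ 2) := by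
            rw [← Real.exp_add]; ring_nf; exact Real.exp_zero.symm
        _ ≤ (1 - x v) * Real.exp (x v + 2 * x v ^ 2) :=
            mul_le_mul_of_nonneg_right h (Real.exp_nonneg _)
    calc (1 : ℝ) = ∏ v ∈ T, (1 : ℝ) := by simp
      _ ≤ _ := Finset.prod_le_prod (fun _ _ => zero_le_one) this
  have hZle : Z ≤ 2 * Real.exp E := by
    calc Z = 1 * Z := (one_mul Z).symm
      _ ≤ ((∏ v ∈ T, (1 - x v)) * Real.exp E) * Z :=
          mul_le_mul_of_nonneg_right hprod (by linarith)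
      _ = ((∏ v ∈ T, (1 - x v)) * Z) * Real.exp E := by ring
      _ ≤ 2 * Real.exp E := mul_le_mul_of_nonneg_right hX.le (Real.exp_nonneg _)
  have hEle : E ≤ ∑' v, x v + 2 * ∑' v : HeightOneSpectrum (𝓞 K), nrm K 2 (primeNZ K v) := by
    rw [hE, Finset.sum_add_distrib, ← Finset.mul_sum]
    have h1 : ∑ v ∈ T, x v ≤ ∑' v, x v :=
      (h26_summable_prime K hs).sum_le_tsum T (fun v _ => hx0 v)
    have h2 : ∑ v ∈ T, x v ^ 2 ≤ ∑' v : HeightOneSpectrum (𝓞 K), nrm K 2 (primeNZ K v) :=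
      calc ∑ v ∈ T, x v ^ 2 ≤ ∑ v ∈ T, nrm K 2 (primeNZ K v) :=
            Finset.sum_le_sum (fun v _ => h26_sq_nrm_prime_le K hs.le v)
        _ ≤ _ := (h26_summable_prime K one_lt_two).sum_le_tsum T
            (fun v _ => h26_nrm_nonneg K 2 _)
    linarith
  calc Real.log Z ≤ Real.log (2 * Real.exp E) := Real.log_le_log (by linarith) hZle
    _ = Real.log 2 + E := by rw [Real.log_mul (by norm_num) (Real.exp_pos _).ne', Real.log_exp]
    _ ≤ _ := by linarith

/-! ### `ζ_K(s) ≍ 1/(s-1)` -/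

/-- the class number formula, for the real function `s ↦ ∑ N(I)^(-s)`. -/
theorem h26_tendsto_sub_one_mul_zeta :
    Tendsto (fun s : ℝ => (s - 1) * ∑' I, nrm K s I) (𝓝[>] 1) (𝓝 (dedekindZeta_residue K)) := by
  have h := (Complex.continuous_re.tendsto _).comp (tendsto_sub_one_mul_dedekindZeta_nhdsGT K)
  simp only [Complex.ofReal_re] at h
  refine h.congr' ?_
  filter_upwards [self_mem_nhdsWithin] with s (hs : 1 < s)
  simp only [Function.comp_apply]
  rw [← h26_tsum_nrm_eq K hs, ← Complex.ofReal_one, ← Complex.ofReal_sub, ← Complex.ofReal_mul,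
    Complex.ofReal_re]

lemma h26_zeta_anti {s t : ℝ} (hs : 1 < s) (hst : s ≤ t) :
    ∑' I, nrm K t I ≤ ∑' I, nrm K s I := by
  refine Summable.tsum_le_tsum (fun I => ?_) (h26_summable_nrm K (hs.trans_le hst))
    (h26_summable_nrm K hs)
  have h1 : (1 : ℝ) ≤ (absNorm (I : Ideal (𝓞 K)) : ℝ) := by
    have : absNorm (I : Ideal (𝓞 K)) ≠ 0 := Ideal.absNorm_ne_zero_of_nonZeroDivisors I
    exact_mod_cast Nat.one_le_iff_ne_zero.mpr this
  exact Real.rpow_le_rpow_of_exponent_le h1 (by linarith)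

/-- **(E3, asymptotics)** `log ζ_K(s) = log (1/(s-1)) + O(1)` uniformly for `1 < s ≤ 2`. -/
theorem h26_log_zeta_asymp : ∃ C : ℝ, ∀ s : ℝ, 1 < s → s ≤ 2 →
    |Real.log (∑' I, nrm K s I) - Real.log (1 / (s - 1))| ≤ C := by
  set ρ := dedekindZeta_residue K with hρ
  have hρ0 : 0 < ρ := dedekindZeta_residue_pos K
  have hev : ∀ᶠ s : ℝ in 𝓝[>] 1, (s - 1) * ∑' I, nrm K s I ∈ Set.Ioo (ρ / 2) (2 * ρ) :=
    (h26_tendsto_sub_one_mul_zeta K).eventually (Ioo_mem_nhds (by linarith) (by linarith))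
  obtain ⟨u, hu1, hu⟩ := mem_nhdsGT_iff_exists_Ioo_subset.mp hev
  have hu1' : (1 : ℝ) < u := hu1
  set w := min u 2 with hw
  have hw1 : 1 < w := lt_min hu1' (by norm_num)
  have hw2 : w ≤ 2 := min_le_right _ _
  set Zw := ∑' I, nrm K w I with hZw
  have hZw1 : 1 ≤ Zw := h26_one_le_zeta K hw1
  refine ⟨|Real.log (ρ / 2)| + |Real.log (2 * ρ)| + Real.log Zw + Real.log (1 / (w - 1)),
    fun s hs hs2 => ?_⟩
  set Z := ∑' I, nrm K s I with hZ
  have hZ1 : 1 ≤ Z := h26_one_le_zeta K hs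
  have hlogZw : 0 ≤ Real.log Zw := Real.log_nonneg hZw1
  have hw0 : 0 < w - 1 := by linarith
  have hlogw : 0 ≤ Real.log (1 / (w - 1)) := by
    refine Real.log_nonneg ?_
    rw [le_div_iff₀ hw0]
    linarith
  have hs0 : 0 < s - 1 := by linarith
  rcases lt_or_ge s w with hsw | hsw
  · -- near `1`
    have hmem : (s - 1) * Z ∈ Set.Ioo (ρ / 2) (2 * ρ) :=
      hu ⟨hs, hsw.trans_le (min_le_left _ _)⟩
    have hkey : Real.log Z - Real.log (1 / (s - 1)) = Real.log ((s - 1) * Z) := by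
      rw [Real.log_mul hs0.ne' (by linarith), one_div, Real.log_inv]
      ring
    rw [hkey]
    have hpos : 0 < (s - 1) * Z := lt_trans (by linarith) hmem.1
    have h1 : Real.log (ρ / 2) ≤ Real.log ((s - 1) * Z) :=
      Real.log_le_log (by linarith) hmem.1.le
    have h2 : Real.log ((s - 1) * Z) ≤ Real.log (2 * ρ) := Real.log_le_log hpos hmem.2.le
    have h3 := neg_abs_le (Real.log (ρ / 2))
    have h4 := le_abs_self (Real.log (2 * ρ))
    have h5 := abs_nonneg (Real.log (ρ / 2))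
    have h6 := abs_nonneg (Real.log (2 * ρ))
    rw [abs_le]
    constructor <;> linarith
  · -- away from `1`
    have hZle : Z ≤ Zw := h26_zeta_anti K hw1 hsw
    have h1 : 0 ≤ Real.log Z := Real.log_nonneg hZ1
    have h2 : Real.log Z ≤ Real.log Zw := Real.log_le_log (by linarith) hZle
    have h3 : 0 ≤ Real.log (1 / (s - 1)) := by
      refine Real.log_nonneg ?_
      rw [le_div_iff₀ hs0]
      linarith
    have h4 : Real.log (1 / (s - 1)) ≤ Real.log (1 / (w - 1)) := by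
      refine Real.log_le_log (by positivity) ?_
      exact one_div_le_one_div_of_le hw0 (by linarith)
    have h5 := abs_nonneg (Real.log (ρ / 2))
    have h6 := abs_nonneg (Real.log (2 * ρ))
    rw [abs_le]
    constructor <;> linarith

end Fermat.Agent.S14
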