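import Mathlib

/-!
# S14 / A5 : Kummer splitting

Let `K` be a number field containing a primitive `p`-th root of unity, `u ∈ 𝓞 K` not a `p`-th
power in `K`, and `M = K(u^{1/p})`.  Every prime `v` of `K` not containing `p` nor `u` and modulo
which `u` is a `p`-th power has exactly `p` primes of `M` above it, each of the same absolute norm.
-/

namespace Fermat.Agent.S14

open NumberField IsDedekindDomain Polynomial

/-- `ζ - 1 ∣ p` for a nontrivial `p`-th root of unity in a domain. -/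
private lemma h94_sub_one_dvd_prime {R : Type*} [CommRing R] [IsDomain R] {p : ℕ} {ζ : R}
    (h1 : ζ ^ p = 1) (hne : ζ ≠ 1) : ζ - 1 ∣ (p : R) := by
  have hsum : ∑ i ∈ Finset.range p, ζ ^ i = 0 := by
    have h := mul_geom_sum ζ p
    rw [h1, sub_self] at h
    exact (mul_eq_zero.mp h).resolve_left (sub_ne_zero.mpr hne)
  have hp : (p : R) = ∑ i ∈ Finset.range p, (1 - ζ ^ i) := by
    rw [Finset.sum_sub_distrib, hsum]; simp
  rw [hp]
  refine Finset.dvd_sum fun i _ => ?_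
  have h := sub_dvd_pow_sub_pow ζ 1 i
  rw [one_pow] at h
  exact (dvd_neg.mpr h).trans (by rw [neg_sub])

section core

variable (K M : Type*) [Field K] [NumberField K] [Field M] [NumberField M] [Algebra K M]
  [IsGalois K M]

/-- Core count: a prime `v` of `K` with `p, u ∉ v` and `u ≡ x ^ p mod v` has exactly `p` primes
of `M` above it, all of inertia degree one (so of the same absolute norm). -/
private lemma h94_core (p : ℕ) [Fact p.Prime] (hdeg : Module.finrank K M = p)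
    {ζ : 𝓞 K} (hζ : IsPrimitiveRoot ζ p) (u : 𝓞 K) (θ : 𝓞 M)
    (hθ : θ ^ p = algebraMap (𝓞 K) (𝓞 M) u)
    (σ : 𝓞 M ≃ₐ[𝓞 K] 𝓞 M) (hσ : σ θ = algebraMap (𝓞 K) (𝓞 M) ζ * θ)
    (v : Ideal (𝓞 K)) [v.IsMaximal] (hv0 : v ≠ ⊥) (hpv : (p : 𝓞 K) ∉ v) (huv : u ∉ v)
    (x : 𝓞 K) (hx : u - x ^ p ∈ v) :
    (v.primesOver (𝓞 M)).ncard = p ∧
      ∀ P ∈ v.primesOver (𝓞 M), Ideal.absNorm P = Ideal.absNorm v := by
  have hp : p.Prime := Fact.out
  have hinj : Function.Injective (algebraMap (𝓞 K) (𝓞 M)) :=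
    FaithfulSMul.algebraMap_injective (𝓞 K) (𝓞 M)
  have hζM : IsPrimitiveRoot (algebraMap (𝓞 K) (𝓞 M) ζ) p := hζ.map_of_injective hinj
  have hfin : (v.primesOver (𝓞 M)).Finite := Algebra.QuasiFinite.finite_primesOver v
  -- a prime over `v`
  obtain ⟨⟨Q, hQp, hQv⟩⟩ := (inferInstance : Nonempty (v.primesOver (𝓞 M)))
  -- its translate
  have hQ'p : (Q.comap (σ : 𝓞 M →+* 𝓞 M)).IsPrime := Ideal.comap_isPrime _ _
  have hQ'v : (Q.comap (σ : 𝓞 M →+* 𝓞 M)).LiesOver v := by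
    constructor
    rw [Ideal.under_def, Ideal.comap_comap]
    have : (σ : 𝓞 M →+* 𝓞 M).comp (algebraMap (𝓞 K) (𝓞 M)) = algebraMap (𝓞 K) (𝓞 M) := by
      ext a; simp
    rw [this]
    exact hQv.over
  have hmem : ∀ a : 𝓞 K, algebraMap (𝓞 K) (𝓞 M) a ∈ Q ↔ a ∈ v := by
    intro a
    rw [hQv.over]
    rfl
  -- the two primes are distinct
  have hne : Q.comap (σ : 𝓞 M →+* 𝓞 M) ≠ Q := by
    intro heq
    have hprod : θ ^ p - (algebraMap (𝓞 K) (𝓞 M) x) ^ p ∈ Q := by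
      rw [hθ, ← map_pow, ← map_sub]
      exact (hmem _).mpr hx
    rw [hζM.pow_sub_pow_eq_prod_sub_mul _ _ hp.pos] at hprod
    obtain ⟨η, hη, hηQ⟩ := (Ideal.IsPrime.prod_mem_iff).mp hprod
    have hη1 : η ^ p = 1 := ((mem_nthRootsFinset hp.pos 1).mp hη)
    haveI : NeZero p := ⟨hp.ne_zero⟩
    obtain ⟨i, -, hi⟩ := hζM.eq_pow_of_pow_eq_one hη1
    have hση : σ η = η := by
      rw [← hi, ← map_pow]
      exact σ.commutes _
    have h1 : σ (θ - η * algebraMap (𝓞 K) (𝓞 M) x) ∈ Q := by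
      have : θ - η * algebraMap (𝓞 K) (𝓞 M) x ∈ Q.comap (σ : 𝓞 M →+* 𝓞 M) := by
        rw [heq]; exact hηQ
      exact this
    rw [map_sub, map_mul, hσ, hση, σ.commutes] at h1
    have h2 : algebraMap (𝓞 K) (𝓞 M) (ζ - 1) * (η * algebraMap (𝓞 K) (𝓞 M) x) ∈ Q := by
      have h3 := Q.sub_mem (Q.mul_mem_left (algebraMap (𝓞 K) (𝓞 M) ζ) hηQ) h1
      have : algebraMap (𝓞 K) (𝓞 M) ζ * (θ - η * algebraMap (𝓞 K) (𝓞 M) x) -
          (algebraMap (𝓞 K) (𝓞 M) ζ * θ - η * algebraMap (𝓞 K) (𝓞 M) x) =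
          -(algebraMap (𝓞 K) (𝓞 M) (ζ - 1) * (η * algebraMap (𝓞 K) (𝓞 M) x)) := by
        rw [map_sub, map_one]; ring
      rw [this] at h3
      exact (Q.neg_mem_iff).mp h3
    rcases hQp.mem_or_mem h2 with h | h
    · have hz : ζ - 1 ∈ v := (hmem _).mp h
      obtain ⟨c, hc⟩ := h94_sub_one_dvd_prime hζ.pow_eq_one (hζ.ne_one hp.one_lt)
      exact hpv (hc ▸ v.mul_mem_right c hz)
    · rcases hQp.mem_or_mem h with h | h
      · have : (1 : 𝓞 M) ∈ Q := hη1 ▸ Q.pow_mem_of_mem h p hp.pos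
        exact hQp.ne_top ((Ideal.eq_top_iff_one Q).mpr this)
      · have hxv : x ∈ v := (hmem _).mp h
        have : u = (u - x ^ p) + x ^ p := by ring
        exact huv (this ▸ v.add_mem hx (v.pow_mem_of_mem hxv p hp.pos))
  -- counting
  have hcount := Ideal.ncard_primesOver_mul_ramificationIdxIn_mul_inertiaDegIn v (𝓞 M) Gal(M/K)
  rw [IsGaloisGroup.card_eq_finrank Gal(M/K) K M, hdeg] at hcount
  have h2 : 2 ≤ (v.primesOver (𝓞 M)).ncard := by
    have hsub : ({Q.comap (σ : 𝓞 M →+* 𝓞 M), Q} : Set (Ideal (𝓞 M))) ⊆ v.primesOver (𝓞 M) := by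
      intro P hP
      rcases hP with rfl | rfl
      · exact ⟨hQ'p, hQ'v⟩
      · exact ⟨hQp, hQv⟩
    have := Set.ncard_le_ncard hsub hfin
    rwa [Set.ncard_pair hne] at this
  have hdvd : (v.primesOver (𝓞 M)).ncard ∣ p := Dvd.intro _ hcount
  have hncard : (v.primesOver (𝓞 M)).ncard = p := by
    rcases (Nat.dvd_prime hp).mp hdvd with h | h
    · omega
    · exact h
  have hf : v.inertiaDegIn (𝓞 M) = 1 := by
    rw [hncard] at hcount
    have h1 : v.ramificationIdxIn (𝓞 M) * v.inertiaDegIn (𝓞 M) = 1 :=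
      Nat.eq_of_mul_eq_mul_left hp.pos (by rw [hcount, mul_one])
    exact Nat.eq_one_of_mul_eq_one_left h1
  refine ⟨hncard, ?_⟩
  rintro P ⟨hPp, hPv⟩
  have hvp : v.IsPrime := inferInstance
  have hPmax : P.IsMaximal := hPp.isMaximal (Ideal.ne_bot_of_liesOver_of_ne_bot hv0 P)
  have hfP : v.inertiaDeg' P = 1 := by
    rw [Ideal.inertiaDeg'_eq_inertiaDeg v P, ← Ideal.inertiaDegIn_eq_inertiaDeg v P Gal(M/K), hf]
  rw [Ideal.absNorm_eq_pow_inertiaDeg'_of_liesOver P v hvp hv0, hfP, pow_one]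

end core

universe u

/-- **Kummer splitting** (S14, module A5).  Let `K` be a number field containing a primitive
`p`-th root of unity and `u ∈ 𝓞 K` not a `p`-th power in `K`.  There is a number field `M / K`
(namely `K(u^{1/p})`) such that every prime `v` of `K` with `p ∉ v`, `u ∉ v` and
`u ≡ x ^ p mod v` has `p` distinct primes of `M` above it, each with the same absolute norm. -/
theorem kummer_split {K : Type u} [Field K] [NumberField K] (p : ℕ) [Fact p.Prime] {ζ : K}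
    (hζ : IsPrimitiveRoot ζ p) (u : 𝓞 K) (hu : ∀ b : K, b ^ p ≠ (u : K)) :
    ∃ (M : Type u) (_ : Field M) (_ : NumberField M) (_ : Algebra K M),
      ∀ v : HeightOneSpectrum (𝓞 K), (p : 𝓞 K) ∉ v.asIdeal → u ∉ v.asIdeal →
        (∃ x : 𝓞 K, u - x ^ p ∈ v.asIdeal) →
        ∃ T : Finset (HeightOneSpectrum (𝓞 M)), T.card = p ∧ ∀ w ∈ T,
          w.asIdeal.comap (algebraMap (𝓞 K) (𝓞 M)) = v.asIdeal ∧
            Ideal.absNorm w.asIdeal = Ideal.absNorm v.asIdeal := by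
  have hp : p.Prime := Fact.out
  haveI : NeZero p := ⟨hp.ne_zero⟩
  have H : Irreducible (X ^ p - C (u : K)) := X_pow_sub_C_irreducible_of_prime hp hu
  haveI := Fact.mk H
  have hprim : (primitiveRoots p K).Nonempty := ⟨ζ, (mem_primitiveRoots hp.pos).mpr hζ⟩
  letI : Algebra K (AdjoinRoot (X ^ p - C (u : K))) := inferInstance
  haveI : IsSplittingField K (AdjoinRoot (X ^ p - C (u : K))) (X ^ p - C (u : K)) :=
    isSplittingField_AdjoinRoot_X_pow_sub_C hprim H
  haveI : FiniteDimensional K (AdjoinRoot (X ^ p - C (u : K))) :=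
    IsSplittingField.finiteDimensional _ (X ^ p - C (u : K))
  haveI : NumberField (AdjoinRoot (X ^ p - C (u : K))) := NumberField.of_module_finite K _
  haveI : IsGalois K (AdjoinRoot (X ^ p - C (u : K))) :=
    isGalois_of_isSplittingField_X_pow_sub_C hprim H _
  have hdeg : Module.finrank K (AdjoinRoot (X ^ p - C (u : K))) = p :=
    finrank_of_isSplittingField_X_pow_sub_C hprim H _
  refine ⟨AdjoinRoot (X ^ p - C (u : K)), inferInstance, inferInstance, inferInstance, ?_⟩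
  -- notation
  set M := AdjoinRoot (X ^ p - C (u : K)) with hM
  have hroot : (AdjoinRoot.root (X ^ p - C (u : K))) ^ p = algebraMap K M (u : K) :=
    root_X_pow_sub_C_pow p (u : K)
  have hint : IsIntegral ℤ (AdjoinRoot.root (X ^ p - C (u : K)) : M) := by
    refine IsIntegral.of_pow hp.pos ?_
    rw [hroot]
    exact (RingOfIntegers.isIntegral_coe u).algebraMap
  let θ : 𝓞 M := ⟨AdjoinRoot.root (X ^ p - C (u : K)), hint⟩
  have hθ : θ ^ p = algebraMap (𝓞 K) (𝓞 M) u := by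
    apply FaithfulSMul.algebraMap_injective (𝓞 M) M
    rw [map_pow, ← IsScalarTower.algebraMap_apply (𝓞 K) (𝓞 M) M,
      IsScalarTower.algebraMap_apply (𝓞 K) K M]
    exact hroot
  let τ : M ≃ₐ[K] M := autAdjoinRootXPowSubC p (u : K) hζ.toRootsOfUnity
  have hτ : τ (AdjoinRoot.root (X ^ p - C (u : K))) =
      algebraMap K M ζ * AdjoinRoot.root (X ^ p - C (u : K)) := by
    have := autAdjoinRootXPowSubC_root (u : K) hζ.toRootsOfUnity
    rw [Algebra.smul_def] at this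
    exact this
  let σ : 𝓞 M ≃ₐ[𝓞 K] 𝓞 M := galRestrict (𝓞 K) K M (𝓞 M) τ
  have hσ : σ θ = algebraMap (𝓞 K) (𝓞 M) hζ.toInteger * θ := by
    apply FaithfulSMul.algebraMap_injective (𝓞 M) M
    rw [algebraMap_galRestrict_apply, map_mul, ← IsScalarTower.algebraMap_apply (𝓞 K) (𝓞 M) M,
      IsScalarTower.algebraMap_apply (𝓞 K) K M]
    exact hτ
  intro v hpv huv ⟨x, hx⟩
  haveI : v.asIdeal.IsMaximal := v.isMaximal
  obtain ⟨hncard, hnorm⟩ := h94_core K M p hdeg hζ.toInteger_isPrimitiveRoot u θ hθ σ hσ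
    v.asIdeal v.ne_bot hpv huv x hx
  have hinj : Function.Injective (fun w : HeightOneSpectrum (𝓞 M) => w.asIdeal) :=
    fun w w' h => HeightOneSpectrum.ext h
  have hfin : (v.asIdeal.primesOver (𝓞 M)).Finite :=
    Algebra.QuasiFinite.finite_primesOver v.asIdeal
  have hfin' : ((fun w : HeightOneSpectrum (𝓞 M) => w.asIdeal) ⁻¹'
      (v.asIdeal.primesOver (𝓞 M))).Finite := hfin.preimage hinj.injOn
  refine ⟨hfin'.toFinset, ?_, ?_⟩
  · rw [← Set.ncard_eq_toFinset_card _ hfin', Set.ncard_preimage_of_injective_subset_range hinj,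
      hncard]
    rintro P ⟨hPp, hPv⟩
    exact ⟨⟨P, hPp, Ideal.ne_bot_of_liesOver_of_ne_bot v.ne_bot P⟩, rfl⟩
  · intro w hw
    have hw' : w.asIdeal ∈ v.asIdeal.primesOver (𝓞 M) := by
      simpa using hw
    exact ⟨hw'.2.over.symm, hnorm _ hw'⟩

end Fermat.Agent.S14
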