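/-
S14 / bridge, abstract Dedekind-domain core of the ramification translation (helper39).

`A ⊆ B` Dedekind domains, `P` a nonzero prime of `B` over the prime `𝔮` of `A`.
"`e = 1`" is used in the elementary form `∃ π ∈ 𝔮, algebraMap π ∉ P ^ 2`,
"`f = 1`" in the elementary form `∀ y : B, ∃ x : A, y - algebraMap x ∈ P`.
-/
import Mathlib

set_option autoImplicit false

namespace Fermat.Agent.S14

section Pow

variable {B : Type*} [CommRing B] [IsDedekindDomain B]

/-- In a Dedekind domain, `a ∈ P \ P ^ 2` implies `a ^ M ∉ P ^ (M + 1)`. -/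
theorem h39_pow_notMem {P : Ideal B} [hPp : P.IsPrime] (hP : P ≠ ⊥) {a : B} (ha : a ∈ P)
    (ha2 : a ∉ P ^ 2) (M : ℕ) : a ^ M ∉ P ^ (M + 1) := by
  have hprime : Prime P := Ideal.prime_of_isPrime hP hPp
  have h1 : emultiplicity P (Ideal.span {a}) = 1 := by
    have : emultiplicity P (Ideal.span {a}) = ((1 : ℕ) : ℕ∞) := by
      rw [emultiplicity_eq_coe]
      refine ⟨?_, ?_⟩
      · rw [pow_one, Ideal.dvd_iff_le, Ideal.span_singleton_le_iff_mem]
        exact ha
      · rw [Ideal.dvd_iff_le, Ideal.span_singleton_le_iff_mem]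
        exact ha2
    simpa using this
  have h2 : emultiplicity P (Ideal.span {a ^ M}) = (M : ℕ∞) := by
    rw [← Ideal.span_singleton_pow, emultiplicity_pow hprime, h1, mul_one]
  intro hmem
  have h3 := (emultiplicity_eq_coe.mp h2).2
  apply h3
  rw [Ideal.dvd_iff_le, Ideal.span_singleton_le_iff_mem]
  exact hmem

end Pow

section Ext

variable {A B : Type*} [CommRing A] [CommRing B] [Algebra A B] [IsDedekindDomain B]

/-- **(R1)**  If `e = f = 1` for `P`, then `A` is dense in `B` for the `P`-adic topology: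
every `y : B` is congruent to an element of `A` modulo any power of `P`. -/
theorem exists_sub_mem_pow_of_unramified {P : Ideal B} [hPp : P.IsPrime] (hP : P ≠ ⊥)
    {π : A} (hπ : algebraMap A B π ∈ P) (hπ2 : algebraMap A B π ∉ P ^ 2)
    (hf : ∀ y : B, ∃ x : A, y - algebraMap A B x ∈ P) (y : B) (M : ℕ) :
    ∃ x : A, y - algebraMap A B x ∈ P ^ M := by
  induction M with
  | zero => exact ⟨0, by simp⟩
  | succ M ih =>
    obtain ⟨x, hx⟩ := ih
    have hπM : algebraMap A B π ^ M ∈ P ^ M := Ideal.pow_mem_pow hπ M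
    have hπM' : algebraMap A B π ^ M ∉ P ^ (M + 1) := h39_pow_notMem hP hπ hπ2 M
    obtain ⟨d, e, he, hde⟩ :=
      Ideal.exists_mul_add_mem_pow_succ hP (algebraMap A B π ^ M) (y - algebraMap A B x)
        hπM hπM' hx
    obtain ⟨x₁, hx₁⟩ := hf d
    refine ⟨x + π ^ M * x₁, ?_⟩
    have h1 : y - algebraMap A B (x + π ^ M * x₁) =
        algebraMap A B π ^ M * (d - algebraMap A B x₁) + e := by
      rw [map_add, map_mul, map_pow]
      linear_combination -hde
    rw [h1, pow_succ]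
    exact Ideal.add_mem _ (Ideal.mul_mem_mul hπM hx₁) (by rwa [← pow_succ])

variable [IsDedekindDomain A]

omit [IsDedekindDomain B] [IsDedekindDomain A] in
/-- Powers of `𝔮` map into powers of `P` when `P` lies over `𝔮`. -/
theorem h39_algebraMap_mem_pow {𝔮 : Ideal A} {P : Ideal B} [P.LiesOver 𝔮] {a : A} {n : ℕ}
    (ha : a ∈ 𝔮 ^ n) : algebraMap A B a ∈ P ^ n := by
  have h1 : Ideal.map (algebraMap A B) 𝔮 ≤ P := by
    rw [Ideal.map_le_iff_le_comap, Ideal.over_def P 𝔮]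
  have h2 : Ideal.map (algebraMap A B) (𝔮 ^ n) ≤ P ^ n := by
    rw [Ideal.map_pow]
    exact Ideal.pow_right_mono h1 n
  exact h2 (Ideal.mem_map_of_mem _ ha)

/-- **(R2)**  If `e = 1` for `P | 𝔮`, then `P ^ M ∩ A = 𝔮 ^ M`. -/
theorem mem_pow_of_algebraMap_mem_pow {𝔮 : Ideal A} [h𝔮p : 𝔮.IsPrime] (h𝔮 : 𝔮 ≠ ⊥)
    {P : Ideal B} [hPp : P.IsPrime] (hP : P ≠ ⊥) [P.LiesOver 𝔮]
    {π : A} (hπ : π ∈ 𝔮) (hπ2 : algebraMap A B π ∉ P ^ 2)
    {a : A} {M : ℕ} (ha : algebraMap A B a ∈ P ^ M) : a ∈ 𝔮 ^ M := by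
  by_contra hna
  have hex : ∃ k, a ∉ 𝔮 ^ k := ⟨M, hna⟩
  classical
  set n := Nat.find hex with hn
  have hn_spec : a ∉ 𝔮 ^ n := Nat.find_spec hex
  have hn_le : n ≤ M := Nat.find_min' hex hna
  have hn0 : n ≠ 0 := by
    intro h0
    rw [h0, pow_zero, Ideal.one_eq_top] at hn_spec
    exact hn_spec trivial
  obtain ⟨m, hm⟩ := Nat.exists_eq_succ_of_ne_zero hn0
  have ham : a ∈ 𝔮 ^ m := by
    by_contra h
    have := Nat.find_min' hex h
    omega
  rw [hm] at hn_spec
  have hπ𝔮2 : π ∉ 𝔮 ^ 2 := fun h => hπ2 (h39_algebraMap_mem_pow (P := P) h)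
  have hπm : π ^ m ∈ 𝔮 ^ m := Ideal.pow_mem_pow hπ m
  have hπm' : π ^ m ∉ 𝔮 ^ (m + 1) := h39_pow_notMem h𝔮 hπ hπ𝔮2 m
  obtain ⟨d, e, he, hde⟩ := Ideal.exists_mul_add_mem_pow_succ h𝔮 (π ^ m) a hπm hπm' ham
  have hd : d ∉ 𝔮 := by
    intro hd
    apply hn_spec
    rw [← hde, pow_succ]
    exact Ideal.add_mem _ (Ideal.mul_mem_mul hπm hd) (by rwa [← pow_succ])
  apply hd
  have hπP : algebraMap A B π ∈ P := by
    have := h39_algebraMap_mem_pow (P := P) (𝔮 := 𝔮) (n := 1) (by rwa [pow_one])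
    rwa [pow_one] at this
  have hπBm' : algebraMap A B π ^ m ∉ P ^ (m + 1) := h39_pow_notMem hP hπP hπ2 m
  have haP : algebraMap A B a ∈ P ^ (m + 1) := Ideal.pow_le_pow_right (by omega) ha
  have heP : algebraMap A B e ∈ P ^ (m + 1) := h39_algebraMap_mem_pow he
  have hprod : algebraMap A B π ^ m * algebraMap A B d ∈ P ^ (m + 1) := by
    have h1 : algebraMap A B π ^ m * algebraMap A B d = algebraMap A B a - algebraMap A B e := by
      rw [← hde, map_add, map_mul, map_pow]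
      ring
    rw [h1]
    exact Ideal.sub_mem _ haP heP
  have hdP : algebraMap A B d ∈ P := Ideal.mem_prime_of_mul_mem_pow hP hπBm' hprod
  have : d ∈ P.under A := hdP
  rwa [← Ideal.over_def P 𝔮] at this

/-- **(R3)**  If `e = 1` for `P | 𝔮` and `algebraMap α` is a `p`-th power in `B`, then the exact
power of `𝔮` dividing `α` is a multiple of `p`. -/
theorem dvd_of_pow_eq_algebraMap {𝔮 : Ideal A} [h𝔮p : 𝔮.IsPrime] (h𝔮 : 𝔮 ≠ ⊥)
    {P : Ideal B} [hPp : P.IsPrime] (hP : P ≠ ⊥) [P.LiesOver 𝔮]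
    {π : A} (hπ : π ∈ 𝔮) (hπ2 : algebraMap A B π ∉ P ^ 2)
    {α : A} {θ : B} {p : ℕ} (hθ : θ ^ p = algebraMap A B α)
    {n : ℕ} (hn : α ∈ 𝔮 ^ n) (hn' : α ∉ 𝔮 ^ (n + 1)) : p ∣ n := by
  have hprime : Prime P := Ideal.prime_of_isPrime hP hPp
  have h1 : algebraMap A B α ∈ P ^ n := h39_algebraMap_mem_pow hn
  have h2 : algebraMap A B α ∉ P ^ (n + 1) :=
    fun h => hn' (mem_pow_of_algebraMap_mem_pow h𝔮 hP hπ hπ2 h)
  have h3 : emultiplicity P (Ideal.span {θ ^ p}) = (n : ℕ∞) := by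
    rw [emultiplicity_eq_coe, hθ]
    refine ⟨?_, ?_⟩
    · rw [Ideal.dvd_iff_le, Ideal.span_singleton_le_iff_mem]
      exact h1
    · rw [Ideal.dvd_iff_le, Ideal.span_singleton_le_iff_mem]
      exact h2
  rw [← Ideal.span_singleton_pow, emultiplicity_pow hprime] at h3
  cases hE : emultiplicity P (Ideal.span {θ}) using ENat.recTopCoe with
  | top =>
    rw [hE] at h3
    by_cases hp0 : p = 0
    · subst hp0
      simp only [Nat.cast_zero, zero_mul] at h3
      have : n = 0 := by exact_mod_cast h3.symm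
      rw [this]
    · exfalso
      have : ((p : ℕ∞)) * ⊤ = ⊤ := ENat.mul_top (by exact_mod_cast hp0)
      rw [this] at h3
      exact ENat.top_ne_natCast n h3
  | coe k =>
    rw [hE] at h3
    have : p * k = n := by exact_mod_cast h3
    exact ⟨k, this.symm⟩

omit [IsDedekindDomain A] in
/-- **(W1)**  Ramification index one (Mathlib's `Ideal.ramificationIdx`) gives a uniformiser of
`P` coming from `𝔮`. -/
theorem exists_uniformizer_of_ramificationIdx_eq_one {𝔮 : Ideal A} {P : Ideal B}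
    [hPp : P.IsPrime] [P.LiesOver 𝔮] (h𝔮B : 𝔮.map (algebraMap A B) ≠ ⊥)
    (he : P.ramificationIdx A = 1) : ∃ π ∈ 𝔮, algebraMap A B π ∉ P ^ 2 := by
  rw [← Ideal.ramificationIdx'_eq_ramificationIdx' 𝔮 P h𝔮B] at he
  have hle : Ideal.map (algebraMap A B) 𝔮 ≤ P := by
    rw [Ideal.map_le_iff_le_comap, Ideal.over_def P 𝔮]
  have h2 : ¬ Ideal.map (algebraMap A B) 𝔮 ≤ P ^ 2 := by
    intro h
    exact (Ideal.ramificationIdx'_ne_one_iff hle).mpr h he
  by_contra hcon
  push Not at hcon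
  apply h2
  rw [Ideal.map_le_iff_le_comap]
  intro π hπ
  exact hcon π hπ

omit [IsDedekindDomain B] [IsDedekindDomain A] in
/-- **(W2)**  Inertia degree one (Mathlib's `Ideal.inertiaDeg`) means that `A → B ⧸ P` is
surjective. -/
theorem exists_sub_mem_of_inertiaDeg_eq_one {𝔮 : Ideal A} {P : Ideal B}
    [𝔮.IsMaximal] [P.IsMaximal] [P.LiesOver 𝔮] (hf : P.inertiaDeg A = 1) (y : B) :
    ∃ x : A, y - algebraMap A B x ∈ P := by
  rw [Ideal.inertiaDeg_eq_of_isMaximal 𝔮 P] at hf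
  let : Field (A ⧸ 𝔮) := Ideal.Quotient.field 𝔮
  let : Field (B ⧸ P) := Ideal.Quotient.field P
  have h1 := (finrank_eq_one_iff_of_nonzero' (1 : B ⧸ P) one_ne_zero).mp hf
    (Ideal.Quotient.mk P y)
  obtain ⟨c, hc⟩ := h1
  obtain ⟨x, rfl⟩ := Ideal.Quotient.mk_surjective c
  refine ⟨x, ?_⟩
  rw [← Ideal.Quotient.eq, ← hc, Algebra.smul_def, mul_one,
    Ideal.Quotient.algebraMap_mk_of_liesOver]

open UniqueFactorizationMonoid in
/-- **(R3′)**  Count form of (R3), in the shape used by `HeightOneSpectrum` valuations: if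
`e = 1` for `P | v` and `algebraMap α` is a `p`-th power in `B`, then `p` divides the exponent
of `v` in the factorisation of `(α)`. -/
theorem dvd_count_of_pow_eq_algebraMap (v : IsDedekindDomain.HeightOneSpectrum A)
    {P : Ideal B} [hPp : P.IsPrime] (hP : P ≠ ⊥) [P.LiesOver v.asIdeal]
    {π : A} (hπ : π ∈ v.asIdeal) (hπ2 : algebraMap A B π ∉ P ^ 2)
    {α : A} (hα : α ≠ 0) {θ : B} {p : ℕ} (hθ : θ ^ p = algebraMap A B α) :
    p ∣ (Associates.mk v.asIdeal).count (Associates.mk (Ideal.span {α})).factors := by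
  classical
  have hI : Ideal.span {α} ≠ 0 := by
    rw [Ne, Ideal.zero_eq_bot, Ideal.span_singleton_eq_bot]
    exact hα
  rw [Ideal.count_associates_factors_eq hI v.isPrime v.ne_bot]
  set n := Multiset.count v.asIdeal (normalizedFactors (Ideal.span {α})) with hn
  have hem : emultiplicity v.asIdeal (Ideal.span {α}) = (n : ℕ∞) := by
    rw [emultiplicity_eq_count_normalizedFactors (Ideal.prime_of_isPrime v.ne_bot v.isPrime).irreducible
      hI, normalize_eq]
  have h1 := (emultiplicity_eq_coe.mp hem).1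
  have h2 := (emultiplicity_eq_coe.mp hem).2
  rw [Ideal.dvd_iff_le, Ideal.span_singleton_le_iff_mem] at h1 h2
  have := v.isPrime
  exact dvd_of_pow_eq_algebraMap v.ne_bot hP hπ hπ2 hθ h1 h2

end Ext

end Fermat.Agent.S14
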