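import Mathlib

/-!
# Lipschitz estimates on the mixed space (helper78, S14 analytic block)

For a bounded Lipschitz function `χ` with bounded support on the logarithmic space we study
`G χ s x = χ (logMap x) * (norm x) ^ (-s)` on the mixed space of a number field `K`:
it is supported in a cone where all coordinates are comparable, and it is Lipschitz there
with constant `O(‖x‖ ^ (-n s - 1))`.
-/

set_option linter.unusedSectionVars false

namespace Fermat.Agent.S14

open NumberField NumberField.InfinitePlace NumberField.mixedEmbedding NumberField.Units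
  NumberField.Units.dirichletUnitTheorem

/-! ### Elementary real estimates -/

theorem h78_abs_log_sub_le {a b m : ℝ} (hm : 0 < m) (ha : m ≤ a) (hb : m ≤ b) :
    |Real.log a - Real.log b| ≤ |a - b| / m := by
  have key : ∀ {a b : ℝ}, m ≤ a → m ≤ b → b ≤ a → Real.log a - Real.log b ≤ (a - b) / m := by
    intro a b ha hb hab
    have ha0 : 0 < a := lt_of_lt_of_le hm ha
    have hb0 : 0 < b := lt_of_lt_of_le hm hb
    rw [← Real.log_div ha0.ne' hb0.ne']
    calc Real.log (a / b) ≤ a / b - 1 := Real.log_le_sub_one_of_pos (div_pos ha0 hb0)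
      _ = (a - b) / b := by field_simp
      _ ≤ (a - b) / m := div_le_div_of_nonneg_left (sub_nonneg.mpr hab) hm hb
  rcases le_total b a with h | h
  · rw [abs_of_nonneg (sub_nonneg.mpr (Real.log_le_log (lt_of_lt_of_le hm hb) h)),
      abs_of_nonneg (sub_nonneg.mpr h)]
    exact key ha hb h
  · rw [abs_sub_comm, abs_sub_comm a b,
      abs_of_nonneg (sub_nonneg.mpr (Real.log_le_log (lt_of_lt_of_le hm ha) h)),
      abs_of_nonneg (sub_nonneg.mpr h)]
    exact key hb ha h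

theorem h78_abs_rpow_neg_sub_le {a b A s : ℝ} (hA : 0 < A) (ha : A ≤ a) (hb : A ≤ b)
    (hs : 0 ≤ s) :
    |a ^ (-s) - b ^ (-s)| ≤ s * |Real.log a - Real.log b| * A ^ (-s) := by
  have key : ∀ {a b : ℝ}, A ≤ a → A ≤ b → a ≤ b →
      a ^ (-s) - b ^ (-s) ≤ s * (Real.log b - Real.log a) * A ^ (-s) := by
    intro a b ha hb hab
    have ha0 : 0 < a := lt_of_lt_of_le hA ha
    have hb0 : 0 < b := lt_of_lt_of_le hA hb
    have e1 : b ^ (-s) = a ^ (-s) * Real.exp (-(s * (Real.log b - Real.log a))) := by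
      rw [Real.rpow_def_of_pos hb0, Real.rpow_def_of_pos ha0, ← Real.exp_add]
      congr 1; ring
    have h1 : 1 - s * (Real.log b - Real.log a) ≤ Real.exp (-(s * (Real.log b - Real.log a))) :=
      Real.one_sub_le_exp_neg _
    have h2 : 0 ≤ a ^ (-s) := Real.rpow_nonneg ha0.le _
    have h3 : a ^ (-s) ≤ A ^ (-s) :=
      Real.rpow_le_rpow_of_nonpos hA ha (by linarith)
    have h4 : 0 ≤ s * (Real.log b - Real.log a) :=
      mul_nonneg hs (sub_nonneg.mpr (Real.log_le_log ha0 hab))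
    calc a ^ (-s) - b ^ (-s) = a ^ (-s) * (1 - Real.exp (-(s * (Real.log b - Real.log a)))) := by
          rw [e1]; ring
      _ ≤ a ^ (-s) * (s * (Real.log b - Real.log a)) :=
          mul_le_mul_of_nonneg_left (by linarith) h2
      _ ≤ A ^ (-s) * (s * (Real.log b - Real.log a)) := mul_le_mul_of_nonneg_right h3 h4
      _ = s * (Real.log b - Real.log a) * A ^ (-s) := by ring
  rcases le_total a b with h | h
  · have hl : Real.log a ≤ Real.log b := Real.log_le_log (lt_of_lt_of_le hA ha) h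
    have hr : b ^ (-s) ≤ a ^ (-s) :=
      Real.rpow_le_rpow_of_nonpos (lt_of_lt_of_le hA ha) h (by linarith)
    rw [abs_of_nonneg (sub_nonneg.mpr hr), abs_sub_comm, abs_of_nonneg (sub_nonneg.mpr hl)]
    exact key ha hb h
  · have hl : Real.log b ≤ Real.log a := Real.log_le_log (lt_of_lt_of_le hA hb) h
    have hr : a ^ (-s) ≤ b ^ (-s) :=
      Real.rpow_le_rpow_of_nonpos (lt_of_lt_of_le hA hb) h (by linarith)
    rw [abs_sub_comm, abs_of_nonneg (sub_nonneg.mpr hr), abs_of_nonneg (sub_nonneg.mpr hl)]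
    exact key hb ha h

/-! ### Mixed space estimates -/

open scoped Classical

variable {K : Type*} [Field K] [NumberField K]

theorem h78_normAtPlace_le_norm (w : InfinitePlace K) (x : mixedSpace K) :
    normAtPlace w x ≤ ‖x‖ := by
  rw [norm_eq_sup'_normAtPlace]
  exact Finset.le_sup' (fun w => normAtPlace w x) (Finset.mem_univ w)

theorem h78_exists_normAtPlace_eq_norm (x : mixedSpace K) :
    ∃ w : InfinitePlace K, normAtPlace w x = ‖x‖ := by
  rw [norm_eq_sup'_normAtPlace]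
  obtain ⟨w, -, hw⟩ := Finset.exists_mem_eq_sup' Finset.univ_nonempty
    (fun w : InfinitePlace K => normAtPlace w x)
  exact ⟨w, hw.symm⟩

theorem h78_abs_normAtPlace_sub_le (w : InfinitePlace K) (x y : mixedSpace K) :
    |normAtPlace w x - normAtPlace w y| ≤ ‖x - y‖ := by
  have h1 : normAtPlace w x ≤ normAtPlace w y + normAtPlace w (x - y) := by
    have := normAtPlace_add_le w y (x - y)
    rwa [add_sub_cancel] at this
  have h2 : normAtPlace w y ≤ normAtPlace w x + normAtPlace w (x - y) := by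
    have := normAtPlace_add_le w x (-(x - y))
    rw [normAtPlace_neg] at this
    have e : x + -(x - y) = y := by abel
    rwa [e] at this
  have h3 := h78_normAtPlace_le_norm w (x - y)
  rw [abs_le]; constructor <;> linarith

theorem h78_log_norm_eq (x : mixedSpace K) (hx : ∀ w, normAtPlace w x ≠ 0) :
    Real.log (mixedEmbedding.norm x) = ∑ w, (mult w : ℝ) * Real.log (normAtPlace w x) := by
  rw [mixedEmbedding.norm_apply, Real.log_prod (fun w _ => pow_ne_zero _ (hx w))]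
  refine Finset.sum_congr rfl fun w _ => ?_
  rw [Real.log_pow]

theorem h78_sum_mult : (∑ w : InfinitePlace K, (mult w : ℝ)) = (Module.finrank ℚ K : ℝ) := by
  have := InfinitePlace.sum_mult_eq (K := K)
  exact_mod_cast this

theorem h78_one_le_mult (w : InfinitePlace K) : (1 : ℝ) ≤ (mult w : ℝ) := by
  have : 1 ≤ mult w := by unfold mult; split_ifs <;> norm_num
  exact_mod_cast this

theorem h78_mult_le_two (w : InfinitePlace K) : (mult w : ℝ) ≤ 2 := by
  have : mult w ≤ 2 := by unfold mult; split_ifs <;> norm_num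
  exact_mod_cast this

theorem h78_finrank_pos : (0 : ℝ) < (Module.finrank ℚ K : ℝ) := by
  exact_mod_cast Module.finrank_pos

/-- If all coordinates are at least `m`, the norm is at least `m ^ n`. -/
theorem h78_pow_le_norm {m : ℝ} (hm : 0 ≤ m) (x : mixedSpace K)
    (hx : ∀ w, m ≤ normAtPlace w x) :
    m ^ (Module.finrank ℚ K) ≤ mixedEmbedding.norm x := by
  rw [mixedEmbedding.norm_apply, ← InfinitePlace.sum_mult_eq, ← Finset.prod_pow_eq_pow_sum]
  exact Finset.prod_le_prod (fun w _ => pow_nonneg hm _)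
    (fun w _ => pow_le_pow_left₀ hm (hx w) _)

theorem h78_sum_mult_mul_dev (x : mixedSpace K) (hx : ∀ w, normAtPlace w x ≠ 0) :
    ∑ w, (mult w : ℝ) * (Real.log (normAtPlace w x) -
      Real.log (mixedEmbedding.norm x) * (Module.finrank ℚ K : ℝ)⁻¹) = 0 := by
  simp_rw [mul_sub]
  rw [Finset.sum_sub_distrib, ← h78_log_norm_eq x hx]
  have h2 : ∑ w : InfinitePlace K, (mult w : ℝ) *
      (Real.log (mixedEmbedding.norm x) * (Module.finrank ℚ K : ℝ)⁻¹) =
      Real.log (mixedEmbedding.norm x) := by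
    rw [← Finset.sum_mul, h78_sum_mult]
    have := h78_finrank_pos (K := K)
    field_simp
  rw [h2, sub_self]

/-- **Support cone**: if `logMap x` is bounded by `R` then all coordinates of `x` are
comparable to `‖x‖`. -/
theorem h78_support_cone {R : ℝ} (x : mixedSpace K) (hx : mixedEmbedding.norm x ≠ 0)
    (hR : ‖logMap x‖ < R) (w : InfinitePlace K) :
    Real.exp (-(2 * Fintype.card (InfinitePlace K) * R)) * ‖x‖ ≤ normAtPlace w x := by
  have hx' : ∀ w, normAtPlace w x ≠ 0 := mixedEmbedding.norm_ne_zero_iff.mp hx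
  have hpos : ∀ w, 0 < normAtPlace w x := fun w =>
    lt_of_le_of_ne (normAtPlace_nonneg w x) (hx' w).symm
  have hR0 : 0 < R := lt_of_le_of_lt (norm_nonneg _) hR
  set dev : InfinitePlace K → ℝ := fun w => Real.log (normAtPlace w x) -
      Real.log (mixedEmbedding.norm x) * (Module.finrank ℚ K : ℝ)⁻¹ with hdev
  have hsum : ∑ w, (mult w : ℝ) * dev w = 0 := h78_sum_mult_mul_dev x hx'
  -- coordinates different from `w₀`
  have h1 : ∀ w : InfinitePlace K, w ≠ w₀ → |(mult w : ℝ) * dev w| ≤ R := by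
    intro w hw
    have h2 : logMap x ⟨w, hw⟩ = (mult w : ℝ) * dev w := by rw [logMap_apply]
    have h3 := norm_le_pi_norm (logMap x) ⟨w, hw⟩
    rw [Real.norm_eq_abs, h2] at h3
    linarith
  have hcard : (1 : ℝ) ≤ Fintype.card (InfinitePlace K) := by
    have : 1 ≤ Fintype.card (InfinitePlace K) := Fintype.card_pos
    exact_mod_cast this
  -- the coordinate `w₀`
  have h0 : |(mult (w₀ : InfinitePlace K) : ℝ) * dev w₀| ≤ Fintype.card (InfinitePlace K) * R := by
    have h4 : (mult (w₀ : InfinitePlace K) : ℝ) * dev w₀ =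
        -∑ w ∈ Finset.univ.erase (w₀ : InfinitePlace K), (mult w : ℝ) * dev w := by
      rw [← Finset.add_sum_erase _ _ (Finset.mem_univ (w₀ : InfinitePlace K))] at hsum
      linarith
    rw [h4, abs_neg]
    calc |∑ w ∈ Finset.univ.erase (w₀ : InfinitePlace K), (mult w : ℝ) * dev w|
        ≤ ∑ w ∈ Finset.univ.erase (w₀ : InfinitePlace K), |(mult w : ℝ) * dev w| :=
          Finset.abs_sum_le_sum_abs _ _
      _ ≤ ∑ _w ∈ Finset.univ.erase (w₀ : InfinitePlace K), R :=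
          Finset.sum_le_sum fun w hw => h1 w (Finset.ne_of_mem_erase hw)
      _ = ((Finset.univ.erase (w₀ : InfinitePlace K)).card : ℝ) * R := by
          rw [Finset.sum_const, nsmul_eq_mul]
      _ ≤ Fintype.card (InfinitePlace K) * R := by
          refine mul_le_mul_of_nonneg_right ?_ hR0.le
          have : (Finset.univ.erase (w₀ : InfinitePlace K)).card ≤ Fintype.card (InfinitePlace K) :=
            Finset.card_le_univ _
          exact_mod_cast this
  have hall : ∀ w : InfinitePlace K, |dev w| ≤ Fintype.card (InfinitePlace K) * R := by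
    intro w
    have hm1 := h78_one_le_mult w
    have h5 : |dev w| ≤ |(mult w : ℝ) * dev w| := by
      rw [abs_mul, abs_of_pos (by linarith : (0 : ℝ) < (mult w : ℝ))]
      nlinarith [abs_nonneg (dev w)]
    by_cases hw : w = w₀
    · subst hw; exact h5.trans h0
    · refine h5.trans ((h1 w hw).trans ?_)
      nlinarith
  obtain ⟨w', hw'⟩ := h78_exists_normAtPlace_eq_norm x
  have h6 : Real.log (normAtPlace w x) - Real.log (normAtPlace w' x) = dev w - dev w' := by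
    simp only [hdev]; ring
  have h7 : Real.log (normAtPlace w' x) - 2 * Fintype.card (InfinitePlace K) * R ≤
      Real.log (normAtPlace w x) := by
    have a1 := abs_le.mp (hall w)
    have a2 := abs_le.mp (hall w')
    linarith [a1.1, a2.2]
  have h8 := Real.exp_le_exp.mpr h7
  rw [Real.exp_log (hpos w), Real.exp_sub, Real.exp_log (hpos w'), hw'] at h8
  rw [Real.exp_neg, mul_comm, ← div_eq_mul_inv]
  exact h8

theorem h78_abs_log_norm_sub_le {m : ℝ} (hm : 0 < m) (x y : mixedSpace K)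
    (hx : ∀ w, m ≤ normAtPlace w x) (hy : ∀ w, m ≤ normAtPlace w y) :
    |Real.log (mixedEmbedding.norm x) - Real.log (mixedEmbedding.norm y)| ≤
      (Module.finrank ℚ K : ℝ) * (‖x - y‖ / m) := by
  have hx' : ∀ w, normAtPlace w x ≠ 0 := fun w => (lt_of_lt_of_le hm (hx w)).ne'
  have hy' : ∀ w, normAtPlace w y ≠ 0 := fun w => (lt_of_lt_of_le hm (hy w)).ne'
  rw [h78_log_norm_eq x hx', h78_log_norm_eq y hy', ← Finset.sum_sub_distrib, ← h78_sum_mult,
    Finset.sum_mul]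
  refine (Finset.abs_sum_le_sum_abs _ _).trans (Finset.sum_le_sum fun w _ => ?_)
  rw [← mul_sub, abs_mul, abs_of_nonneg (by linarith [h78_one_le_mult w] : (0 : ℝ) ≤ mult w)]
  refine mul_le_mul_of_nonneg_left ?_ (by linarith [h78_one_le_mult w])
  exact (h78_abs_log_sub_le hm (hx w) (hy w)).trans
    (div_le_div_of_nonneg_right (h78_abs_normAtPlace_sub_le w x y) hm.le)

theorem h78_logMap_sub_le {m : ℝ} (hm : 0 < m) (x y : mixedSpace K)
    (hx : ∀ w, m ≤ normAtPlace w x) (hy : ∀ w, m ≤ normAtPlace w y) :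
    ‖logMap x - logMap y‖ ≤ 4 * (‖x - y‖ / m) := by
  have hε : 0 ≤ ‖x - y‖ / m := div_nonneg (norm_nonneg _) hm.le
  refine (pi_norm_le_iff_of_nonneg (by positivity)).mpr fun w => ?_
  rw [Pi.sub_apply, logMap_apply, logMap_apply, Real.norm_eq_abs, ← mul_sub, abs_mul,
    abs_of_nonneg (by linarith [h78_one_le_mult w.1] : (0 : ℝ) ≤ mult w.1)]
  have e1 : Real.log (normAtPlace w.1 x) -
      Real.log (mixedEmbedding.norm x) * (Module.finrank ℚ K : ℝ)⁻¹ -
      (Real.log (normAtPlace w.1 y) -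
        Real.log (mixedEmbedding.norm y) * (Module.finrank ℚ K : ℝ)⁻¹) =
      (Real.log (normAtPlace w.1 x) - Real.log (normAtPlace w.1 y)) -
      (Real.log (mixedEmbedding.norm x) - Real.log (mixedEmbedding.norm y)) *
        (Module.finrank ℚ K : ℝ)⁻¹ := by ring
  rw [e1]
  have t1 : |Real.log (normAtPlace w.1 x) - Real.log (normAtPlace w.1 y)| ≤ ‖x - y‖ / m :=
    (h78_abs_log_sub_le hm (hx w.1) (hy w.1)).trans
      (div_le_div_of_nonneg_right (h78_abs_normAtPlace_sub_le w.1 x y) hm.le)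
  have t2 : |(Real.log (mixedEmbedding.norm x) - Real.log (mixedEmbedding.norm y)) *
      (Module.finrank ℚ K : ℝ)⁻¹| ≤ ‖x - y‖ / m := by
    have hn := h78_finrank_pos (K := K)
    rw [abs_mul, abs_of_pos (inv_pos.mpr hn), ← div_eq_mul_inv, div_le_iff₀ hn, mul_comm]
    exact h78_abs_log_norm_sub_le hm x y hx hy
  have t3 := abs_sub (Real.log (normAtPlace w.1 x) - Real.log (normAtPlace w.1 y))
    ((Real.log (mixedEmbedding.norm x) - Real.log (mixedEmbedding.norm y)) *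
        (Module.finrank ℚ K : ℝ)⁻¹)
  have hm2 := h78_mult_le_two w.1
  have hm1 := h78_one_le_mult w.1
  nlinarith

/-- The smoothed zeta summand. -/
noncomputable def h78_G (χ : logSpace K → ℝ) (s : ℝ) (x : mixedSpace K) : ℝ :=
  χ (logMap x) * (mixedEmbedding.norm x) ^ (-s)

theorem h78_G_nonneg {χ : logSpace K → ℝ} (h0 : ∀ v, 0 ≤ χ v) (s : ℝ) (x : mixedSpace K) :
    0 ≤ h78_G χ s x :=
  mul_nonneg (h0 _) (Real.rpow_nonneg (mixedEmbedding.norm_nonneg x) _)

theorem h78_G_le {χ : logSpace K → ℝ} (h1 : ∀ v, χ v ≤ 1) (s : ℝ)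
    (x : mixedSpace K) : h78_G χ s x ≤ (mixedEmbedding.norm x) ^ (-s) := by
  unfold h78_G
  calc χ (logMap x) * mixedEmbedding.norm x ^ (-s) ≤ 1 * mixedEmbedding.norm x ^ (-s) :=
        mul_le_mul_of_nonneg_right (h1 _) (Real.rpow_nonneg (mixedEmbedding.norm_nonneg x) _)
    _ = _ := one_mul _

/-- **Two point estimate** for `G` on the region where all coordinates are `≥ m`. -/
theorem h78_G_two_point {χ : logSpace K → ℝ} {M : ℝ} (hM : 0 ≤ M)
    (h0 : ∀ v, 0 ≤ χ v) (h1 : ∀ v, χ v ≤ 1) (hlip : ∀ v w, |χ v - χ w| ≤ M * ‖v - w‖)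
    {m : ℝ} (hm : 0 < m) (x y : mixedSpace K)
    (hx : ∀ w, m ≤ normAtPlace w x) (hy : ∀ w, m ≤ normAtPlace w y)
    {s : ℝ} (hs0 : 0 ≤ s) (hs2 : s ≤ 2) :
    |h78_G χ s x - h78_G χ s y| ≤
      (4 * M + 2 * (Module.finrank ℚ K : ℝ)) * ‖x - y‖ *
        m ^ (-((Module.finrank ℚ K : ℝ) * s + 1)) := by
  set n : ℝ := (Module.finrank ℚ K : ℝ) with hn
  have hnpos : 0 < n := h78_finrank_pos (K := K)
  set ε : ℝ := ‖x - y‖ / m with hε
  have hε0 : 0 ≤ ε := div_nonneg (norm_nonneg _) hm.le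
  have hNx : m ^ (Module.finrank ℚ K) ≤ mixedEmbedding.norm x := h78_pow_le_norm hm.le x hx
  have hNy : m ^ (Module.finrank ℚ K) ≤ mixedEmbedding.norm y := h78_pow_le_norm hm.le y hy
  have hA : 0 < m ^ (Module.finrank ℚ K) := pow_pos hm _
  have hAs : (m ^ (Module.finrank ℚ K)) ^ (-s) = m ^ (-(n * s)) := by
    rw [← Real.rpow_natCast, ← Real.rpow_mul hm.le]
    congr 1; ring
  have hpow0 : 0 ≤ m ^ (-(n * s)) := Real.rpow_nonneg hm.le _
  -- χ part
  have c1 : |χ (logMap x) - χ (logMap y)| ≤ 4 * M * ε := by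
    calc |χ (logMap x) - χ (logMap y)| ≤ M * ‖logMap x - logMap y‖ := hlip _ _
      _ ≤ M * (4 * ε) := mul_le_mul_of_nonneg_left (h78_logMap_sub_le hm x y hx hy) hM
      _ = 4 * M * ε := by ring
  -- rpow part
  have c2 : |mixedEmbedding.norm x ^ (-s) - mixedEmbedding.norm y ^ (-s)| ≤
      2 * n * ε * m ^ (-(n * s)) := by
    have := h78_abs_rpow_neg_sub_le hA hNx hNy hs0
    rw [hAs] at this
    refine this.trans ?_
    have h5 := h78_abs_log_norm_sub_le hm x y hx hy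
    have h6 : s * |Real.log (mixedEmbedding.norm x) - Real.log (mixedEmbedding.norm y)| ≤
        2 * (n * ε) :=
      mul_le_mul hs2 h5 (abs_nonneg _) (by norm_num)
    calc s * |Real.log (mixedEmbedding.norm x) - Real.log (mixedEmbedding.norm y)| *
          m ^ (-(n * s)) ≤ 2 * (n * ε) * m ^ (-(n * s)) :=
          mul_le_mul_of_nonneg_right h6 hpow0
      _ = 2 * n * ε * m ^ (-(n * s)) := by ring
  have c3 : mixedEmbedding.norm x ^ (-s) ≤ m ^ (-(n * s)) := by
    rw [← hAs]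
    exact Real.rpow_le_rpow_of_nonpos hA hNx (by linarith)
  have c4 : 0 ≤ mixedEmbedding.norm x ^ (-s) :=
    Real.rpow_nonneg (mixedEmbedding.norm_nonneg x) _
  have e1 : h78_G χ s x - h78_G χ s y =
      (χ (logMap x) - χ (logMap y)) * mixedEmbedding.norm x ^ (-s) +
        χ (logMap y) * (mixedEmbedding.norm x ^ (-s) - mixedEmbedding.norm y ^ (-s)) := by
    unfold h78_G; ring
  have e2 : m ^ (-(n * s + 1)) = m ^ (-(n * s)) * m⁻¹ := by
    rw [neg_add, Real.rpow_add hm, Real.rpow_neg_one]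
  rw [e1, e2]
  have b1 : |(χ (logMap x) - χ (logMap y)) * mixedEmbedding.norm x ^ (-s)| ≤
      4 * M * ε * m ^ (-(n * s)) := by
    rw [abs_mul, abs_of_nonneg c4]
    exact mul_le_mul c1 c3 c4 (by positivity)
  have b2 : |χ (logMap y) * (mixedEmbedding.norm x ^ (-s) - mixedEmbedding.norm y ^ (-s))| ≤
      1 * (2 * n * ε * m ^ (-(n * s))) := by
    rw [abs_mul, abs_of_nonneg (h0 _)]
    exact mul_le_mul (h1 _) c2 (abs_nonneg _) zero_le_one
  calc |(χ (logMap x) - χ (logMap y)) * mixedEmbedding.norm x ^ (-s) +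
        χ (logMap y) * (mixedEmbedding.norm x ^ (-s) - mixedEmbedding.norm y ^ (-s))|
      ≤ 4 * M * ε * m ^ (-(n * s)) + 1 * (2 * n * ε * m ^ (-(n * s))) :=
        (abs_add_le _ _).trans (add_le_add b1 b2)
    _ = (4 * M + 2 * n) * ‖x - y‖ * (m ^ (-(n * s)) * m⁻¹) := by
        rw [hε]; field_simp

/-- The cone constant attached to a support radius `R`. -/
noncomputable def h78_c (K : Type*) [Field K] [NumberField K] (R : ℝ) : ℝ :=
  Real.exp (-(2 * Fintype.card (InfinitePlace K) * R))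

theorem h78_c_pos (R : ℝ) : 0 < h78_c K R := Real.exp_pos _

theorem h78_c_le_one {R : ℝ} (hR : 0 ≤ R) : h78_c K R ≤ 1 := by
  unfold h78_c
  rw [Real.exp_le_one_iff]
  have : (0 : ℝ) ≤ 2 * Fintype.card (InfinitePlace K) * R := by positivity
  linarith

/-- If `G χ s x ≠ 0` then `x` lies in the cone where all coordinates are comparable. -/
theorem h78_G_ne_zero_cone {χ : logSpace K → ℝ} {R : ℝ} (hsupp : ∀ v, R ≤ ‖v‖ → χ v = 0)
    {s : ℝ} (hs : s ≠ 0) {x : mixedSpace K} (hG : h78_G χ s x ≠ 0) (w : InfinitePlace K) :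
    h78_c K R * ‖x‖ ≤ normAtPlace w x := by
  unfold h78_G at hG
  have h1 : χ (logMap x) ≠ 0 := left_ne_zero_of_mul hG
  have h2 : mixedEmbedding.norm x ^ (-s) ≠ 0 := right_ne_zero_of_mul hG
  have h3 : mixedEmbedding.norm x ≠ 0 := by
    intro h; rw [h, Real.zero_rpow (neg_ne_zero.mpr hs)] at h2; exact h2 rfl
  have h4 : ‖logMap x‖ < R := by
    by_contra hcon; exact h1 (hsupp _ (not_lt.mp hcon))
  exact h78_support_cone x h3 h4 w

/-- Pointwise bound for `G`. -/
theorem h78_G_le_rpow {χ : logSpace K → ℝ} {R : ℝ} (h1 : ∀ v, χ v ≤ 1)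
    (hsupp : ∀ v, R ≤ ‖v‖ → χ v = 0) {s : ℝ} (hs : 0 < s) {x : mixedSpace K} (hx : 0 < ‖x‖) :
    h78_G χ s x ≤ (h78_c K R * ‖x‖) ^ (-((Module.finrank ℚ K : ℝ) * s)) := by
  have hcx : 0 < h78_c K R * ‖x‖ := mul_pos (h78_c_pos R) hx
  by_cases hG : h78_G χ s x = 0
  · rw [hG]; exact Real.rpow_nonneg hcx.le _
  · have hcone := fun w => h78_G_ne_zero_cone hsupp hs.ne' hG w
    have hN := h78_pow_le_norm hcx.le x hcone
    have hA : 0 < (h78_c K R * ‖x‖) ^ (Module.finrank ℚ K) := pow_pos hcx _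
    calc h78_G χ s x ≤ mixedEmbedding.norm x ^ (-s) := h78_G_le h1 s x
      _ ≤ ((h78_c K R * ‖x‖) ^ (Module.finrank ℚ K)) ^ (-s) :=
          Real.rpow_le_rpow_of_nonpos hA hN (by linarith)
      _ = (h78_c K R * ‖x‖) ^ (-((Module.finrank ℚ K : ℝ) * s)) := by
          rw [← Real.rpow_natCast, ← Real.rpow_mul hcx.le]
          congr 1; ring

/-- Cutoff away from the origin. -/
noncomputable def h78_rho (x : mixedSpace K) : ℝ := min 1 (max 0 (‖x‖ - 1))

theorem h78_rho_nonneg (x : mixedSpace K) : 0 ≤ h78_rho x :=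
  le_min zero_le_one (le_max_left _ _)

theorem h78_rho_le_one (x : mixedSpace K) : h78_rho x ≤ 1 := min_le_left _ _

theorem h78_rho_eq_zero {x : mixedSpace K} (hx : ‖x‖ ≤ 1) : h78_rho x = 0 := by
  unfold h78_rho
  rw [max_eq_left (by linarith)]
  exact min_eq_right zero_le_one

theorem h78_rho_eq_one {x : mixedSpace K} (hx : 2 ≤ ‖x‖) : h78_rho x = 1 := by
  unfold h78_rho
  rw [max_eq_right (by linarith)]
  exact min_eq_left (by linarith)

/-- The truncated smoothed summand. -/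
noncomputable def h78_F (χ : logSpace K → ℝ) (s : ℝ) (x : mixedSpace K) : ℝ :=
  h78_rho x * h78_G χ s x

theorem h78_F_nonneg {χ : logSpace K → ℝ} (h0 : ∀ v, 0 ≤ χ v) (s : ℝ) (x : mixedSpace K) :
    0 ≤ h78_F χ s x :=
  mul_nonneg (h78_rho_nonneg x) (h78_G_nonneg h0 s x)

theorem h78_F_le_G {χ : logSpace K → ℝ} (h0 : ∀ v, 0 ≤ χ v) (s : ℝ) (x : mixedSpace K) :
    h78_F χ s x ≤ h78_G χ s x := by
  unfold h78_F
  calc h78_rho x * h78_G χ s x ≤ 1 * h78_G χ s x :=
        mul_le_mul_of_nonneg_right (h78_rho_le_one x) (h78_G_nonneg h0 s x)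
    _ = _ := one_mul _

theorem h78_F_eq_G {χ : logSpace K → ℝ} (s : ℝ) {x : mixedSpace K} (hx : 2 ≤ ‖x‖) :
    h78_F χ s x = h78_G χ s x := by
  unfold h78_F; rw [h78_rho_eq_one hx, one_mul]

/-- Decay of `F`. -/
theorem h78_F_le_rpow {χ : logSpace K → ℝ} {R : ℝ} (hR : 0 ≤ R) (h0 : ∀ v, 0 ≤ χ v)
    (h1 : ∀ v, χ v ≤ 1) (hsupp : ∀ v, R ≤ ‖v‖ → χ v = 0) {s : ℝ} (hs1 : 1 ≤ s) (hs2 : s ≤ 2)
    (x : mixedSpace K) :
    h78_F χ s x ≤ (h78_c K R) ^ (-(2 * (Module.finrank ℚ K : ℝ))) *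
      (4 : ℝ) ^ (Module.finrank ℚ K) * (1 + ‖x‖) ^ (-((Module.finrank ℚ K : ℝ) * s)) := by
  set n : ℝ := (Module.finrank ℚ K : ℝ) with hn
  have hnpos : 0 < n := h78_finrank_pos (K := K)
  have hc := h78_c_pos (K := K) R
  have hc1 := h78_c_le_one (K := K) hR
  have hB : 0 ≤ (h78_c K R) ^ (-(2 * n)) * (4 : ℝ) ^ (Module.finrank ℚ K) *
      (1 + ‖x‖) ^ (-(n * s)) := by positivity
  by_cases hx : ‖x‖ ≤ 1
  · unfold h78_F; rw [h78_rho_eq_zero hx, zero_mul]; exact hB
  · have hx1 : 1 < ‖x‖ := not_le.mp hx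
    have hx0 : 0 < ‖x‖ := by linarith
    refine (h78_F_le_G h0 s x).trans ((h78_G_le_rpow h1 hsupp (by linarith) hx0).trans ?_)
    rw [Real.mul_rpow hc.le hx0.le]
    have t1 : (h78_c K R) ^ (-(n * s)) ≤ (h78_c K R) ^ (-(2 * n)) :=
      Real.rpow_le_rpow_of_exponent_ge hc hc1 (by nlinarith)
    have t2 : ‖x‖ ^ (-(n * s)) ≤ (4 : ℝ) ^ (Module.finrank ℚ K) * (1 + ‖x‖) ^ (-(n * s)) := by
      have h2 : (1 + ‖x‖) / 2 ≤ ‖x‖ := by linarith
      have h3 : ‖x‖ ^ (-(n * s)) ≤ ((1 + ‖x‖) / 2) ^ (-(n * s)) :=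
        Real.rpow_le_rpow_of_nonpos (by linarith) h2 (by nlinarith)
      refine h3.trans ?_
      rw [Real.div_rpow (by linarith) (by norm_num), div_eq_mul_inv, mul_comm]
      refine mul_le_mul_of_nonneg_right ?_ (Real.rpow_nonneg (by linarith) _)
      rw [← Real.rpow_neg (by norm_num), neg_neg]
      calc (2 : ℝ) ^ (n * s) ≤ (2 : ℝ) ^ (n * 2) :=
            Real.rpow_le_rpow_of_exponent_le (by norm_num) (by nlinarith)
        _ = (4 : ℝ) ^ (Module.finrank ℚ K) := by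
            rw [mul_comm, Real.rpow_mul (by norm_num), hn, Real.rpow_natCast]
            norm_num
    calc (h78_c K R) ^ (-(n * s)) * ‖x‖ ^ (-(n * s))
        ≤ (h78_c K R) ^ (-(2 * n)) * ((4 : ℝ) ^ (Module.finrank ℚ K) *
            (1 + ‖x‖) ^ (-(n * s))) :=
          mul_le_mul t1 t2 (Real.rpow_nonneg hx0.le _) (Real.rpow_nonneg hc.le _)
      _ = _ := by ring

/-- Uniform bound for `F`. -/
theorem h78_F_le_const {χ : logSpace K → ℝ} {R : ℝ} (hR : 0 ≤ R) (h0 : ∀ v, 0 ≤ χ v)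
    (h1 : ∀ v, χ v ≤ 1) (hsupp : ∀ v, R ≤ ‖v‖ → χ v = 0) {s : ℝ} (hs1 : 1 ≤ s) (hs2 : s ≤ 2)
    (x : mixedSpace K) :
    h78_F χ s x ≤ (h78_c K R) ^ (-(2 * (Module.finrank ℚ K : ℝ))) *
      (4 : ℝ) ^ (Module.finrank ℚ K) := by
  refine (h78_F_le_rpow hR h0 h1 hsupp hs1 hs2 x).trans ?_
  have hnpos : (0 : ℝ) < (Module.finrank ℚ K : ℝ) := h78_finrank_pos (K := K)
  have h2 : (1 + ‖x‖) ^ (-((Module.finrank ℚ K : ℝ) * s)) ≤ 1 := by
    refine Real.rpow_le_one_of_one_le_of_nonpos (by linarith [norm_nonneg x]) ?_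
    nlinarith
  have h3 : 0 ≤ (h78_c K R) ^ (-(2 * (Module.finrank ℚ K : ℝ))) *
      (4 : ℝ) ^ (Module.finrank ℚ K) := by
    have := h78_c_pos (K := K) R
    positivity
  calc _ ≤ (h78_c K R) ^ (-(2 * (Module.finrank ℚ K : ℝ))) *
      (4 : ℝ) ^ (Module.finrank ℚ K) * 1 := mul_le_mul_of_nonneg_left h2 h3
    _ = _ := mul_one _

/-- Oscillation of `G` far from the origin. -/
theorem h78_G_osc_large {χ : logSpace K → ℝ} {R M : ℝ} (hR : 0 ≤ R) (hM : 0 ≤ M)
    (h0 : ∀ v, 0 ≤ χ v) (h1 : ∀ v, χ v ≤ 1) (hsupp : ∀ v, R ≤ ‖v‖ → χ v = 0)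
    (hlip : ∀ v w, |χ v - χ w| ≤ M * ‖v - w‖) {s : ℝ} (hs1 : 1 ≤ s) (hs2 : s ≤ 2)
    (x y : mixedSpace K) (hx1 : 1 ≤ ‖x‖) (hxy : ‖x - y‖ ≤ h78_c K R / 4 * ‖x‖) :
    |h78_G χ s x - h78_G χ s y| ≤
      (4 * M + 2 * (Module.finrank ℚ K : ℝ)) * ‖x - y‖ *
        ((h78_c K R / 2) ^ (-(2 * (Module.finrank ℚ K : ℝ) + 1)) *
          (2 ^ (Module.finrank ℚ K + 1) / (1 + ‖x‖) ^ (Module.finrank ℚ K + 1))) := by
  set N : ℕ := Module.finrank ℚ K with hN
  set n : ℝ := (N : ℝ) with hn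
  have hnpos : 0 < n := h78_finrank_pos (K := K)
  set c : ℝ := h78_c K R with hcdef
  have hc : 0 < c := h78_c_pos R
  have hc1 : c ≤ 1 := h78_c_le_one hR
  have hx0 : 0 < ‖x‖ := by linarith
  have hden : 0 < (1 + ‖x‖) ^ (N + 1) := by positivity
  have hcx0 : 0 ≤ c * ‖x‖ := by positivity
  have hy34 : 3 / 4 * ‖x‖ ≤ ‖y‖ := by
    have h2 : ‖x‖ - ‖y‖ ≤ ‖x - y‖ := norm_sub_norm_le x y
    have h3 : c / 4 * ‖x‖ ≤ 1 / 4 * ‖x‖ := by
      refine mul_le_mul_of_nonneg_right ?_ hx0.le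
      linarith
    linarith
  by_cases hG : h78_G χ s x = 0 ∧ h78_G χ s y = 0
  · rw [hG.1, hG.2, sub_zero, abs_zero]; positivity
  · set m : ℝ := c / 2 * ‖x‖ with hm
    have hm0 : 0 < m := by positivity
    have hs0 : s ≠ 0 := by linarith
    have hcone : (∀ w, m ≤ normAtPlace w x) ∧ (∀ w, m ≤ normAtPlace w y) := by
      rw [not_and_or] at hG
      rcases hG with hG | hG
      · have hcx := fun w => h78_G_ne_zero_cone hsupp hs0 hG w
        refine ⟨fun w => ?_, fun w => ?_⟩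
        · have := hcx w
          rw [← hcdef] at this
          rw [hm]; linarith
        · have := hcx w
          rw [← hcdef] at this
          have h3 := abs_le.mp (h78_abs_normAtPlace_sub_le w x y)
          rw [hm]; linarith [h3.1, h3.2]
      · have hcy := fun w => h78_G_ne_zero_cone hsupp hs0 hG w
        have hcy' : c * (3 / 4 * ‖x‖) ≤ c * ‖y‖ := mul_le_mul_of_nonneg_left hy34 hc.le
        refine ⟨fun w => ?_, fun w => ?_⟩
        · have := hcy w
          rw [← hcdef] at this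
          have h3 := abs_le.mp (h78_abs_normAtPlace_sub_le w x y)
          rw [hm]; linarith [h3.1, h3.2]
        · have := hcy w
          rw [← hcdef] at this
          rw [hm]; linarith
    have h2 := h78_G_two_point hM h0 h1 hlip hm0 x y hcone.1 hcone.2 (by linarith) hs2
    have e1 : m ^ (-(n * s + 1)) = (c / 2) ^ (-(n * s + 1)) * ‖x‖ ^ (-(n * s + 1)) := by
      rw [hm, Real.mul_rpow (by positivity) hx0.le]
    have hc2pos : 0 < c / 2 := by positivity
    have hc2le : c / 2 ≤ 1 := by linarith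
    have hns1 : n ≤ n * s := le_mul_of_one_le_right hnpos.le hs1
    have hns2 : n * s ≤ n * 2 := mul_le_mul_of_nonneg_left hs2 hnpos.le
    have hexp1 : -(2 * n + 1) ≤ -(n * s + 1) := by linarith
    have hexp2 : -(n * s + 1) ≤ -(n + 1) := by linarith
    have t1 : (c / 2) ^ (-(n * s + 1)) ≤ (c / 2) ^ (-(2 * n + 1)) :=
      Real.rpow_le_rpow_of_exponent_ge hc2pos hc2le hexp1
    have t2 : ‖x‖ ^ (-(n * s + 1)) ≤ ‖x‖ ^ (-(n + 1)) :=
      Real.rpow_le_rpow_of_exponent_le hx1 hexp2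
    have t3 : ‖x‖ ^ (-(n + 1)) = (‖x‖ ^ (N + 1))⁻¹ := by
      rw [Real.rpow_neg hx0.le, hn]
      congr 1
      have : ((N : ℝ) + 1) = ((N + 1 : ℕ) : ℝ) := by push_cast; ring
      rw [this, Real.rpow_natCast]
    have t4 : (‖x‖ ^ (N + 1))⁻¹ ≤ 2 ^ (N + 1) / (1 + ‖x‖) ^ (N + 1) := by
      rw [inv_eq_one_div, div_le_div_iff₀ (by positivity) hden, one_mul, ← mul_pow]
      exact pow_le_pow_left₀ (by positivity) (by linarith) _
    have t5 : m ^ (-(n * s + 1)) ≤
        (c / 2) ^ (-(2 * n + 1)) * (2 ^ (N + 1) / (1 + ‖x‖) ^ (N + 1)) := by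
      rw [e1]
      exact mul_le_mul t1 (t2.trans (t3.le.trans t4)) (Real.rpow_nonneg hx0.le _)
        (Real.rpow_nonneg hc2pos.le _)
    have hcoef : 0 ≤ (4 * M + 2 * n) * ‖x - y‖ := by positivity
    exact h2.trans (mul_le_mul_of_nonneg_left t5 hcoef)

/-- **Oscillation estimate** for `F` at distance `≤ d`. -/
theorem h78_F_osc {χ : logSpace K → ℝ} {R M : ℝ} (hR : 0 ≤ R) (hM : 0 ≤ M)
    (h0 : ∀ v, 0 ≤ χ v) (h1 : ∀ v, χ v ≤ 1) (hsupp : ∀ v, R ≤ ‖v‖ → χ v = 0)
    (hlip : ∀ v w, |χ v - χ w| ≤ M * ‖v - w‖) (d : ℝ) (hd : 0 ≤ d) :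
    ∃ A : ℝ, 0 ≤ A ∧ ∀ s : ℝ, 1 ≤ s → s ≤ 2 → ∀ x y : mixedSpace K, ‖x - y‖ ≤ d →
      |h78_F χ s x - h78_F χ s y| ≤ A / (1 + ‖x‖) ^ (Module.finrank ℚ K + 1) := by
  set N : ℕ := Module.finrank ℚ K with hN
  set n : ℝ := (N : ℝ) with hn
  have hnpos : 0 < n := h78_finrank_pos (K := K)
  set c : ℝ := h78_c K R with hcdef
  have hc : 0 < c := h78_c_pos R
  have hc1 : c ≤ 1 := h78_c_le_one hR
  set ρ₀ : ℝ := 4 * d / c + 4 with hρ₀
  have hρ₀4 : 4 ≤ ρ₀ := by
    have : 0 ≤ 4 * d / c := by positivity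
    linarith
  set B₀ : ℝ := c ^ (-(2 * n)) * (4 : ℝ) ^ N with hB₀
  have hB₀0 : 0 ≤ B₀ := by positivity
  set A₁ : ℝ := (4 * M + 2 * n) * d * ((c / 2) ^ (-(2 * n + 1)) * 2 ^ (N + 1)) with hA₁
  set A₂ : ℝ := B₀ * (1 + ρ₀) ^ (N + 1) with hA₂
  have hA₁0 : 0 ≤ A₁ := by positivity
  have hA₂0 : 0 ≤ A₂ := by positivity
  refine ⟨A₁ + A₂, by positivity, fun s hs1 hs2 x y hxy => ?_⟩
  have hden : 0 < (1 + ‖x‖) ^ (N + 1) := by positivity
  by_cases hx : ‖x‖ < ρ₀
  · -- small `x`: crude bound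
    have hFx := h78_F_le_const hR h0 h1 hsupp hs1 hs2 x
    have hFy := h78_F_le_const hR h0 h1 hsupp hs1 hs2 y
    have hFx0 := h78_F_nonneg h0 s x
    have hFy0 := h78_F_nonneg h0 s y
    have h2 : |h78_F χ s x - h78_F χ s y| ≤ B₀ := by
      rw [abs_le]; constructor <;> linarith
    have h3 : (1 + ‖x‖) ^ (N + 1) ≤ (1 + ρ₀) ^ (N + 1) :=
      pow_le_pow_left₀ (by positivity) (by linarith) _
    rw [le_div_iff₀ hden]
    calc |h78_F χ s x - h78_F χ s y| * (1 + ‖x‖) ^ (N + 1)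
        ≤ B₀ * (1 + ρ₀) ^ (N + 1) := mul_le_mul h2 h3 hden.le hB₀0
      _ ≤ A₁ + A₂ := by rw [← hA₂]; linarith
  · -- large `x`
    have hx' : ρ₀ ≤ ‖x‖ := not_lt.mp hx
    have hx4 : 4 ≤ ‖x‖ := hρ₀4.trans hx'
    have hx0 : 0 < ‖x‖ := by linarith
    have hdx : d ≤ c / 4 * ‖x‖ := by
      have h2 : 4 * d / c ≤ ‖x‖ := by linarith
      rw [div_le_iff₀ hc] at h2
      linarith
    have hxy' : ‖x - y‖ ≤ c / 4 * ‖x‖ := hxy.trans hdx
    have hy2 : 2 ≤ ‖y‖ := by
      have h2 : ‖x‖ - ‖y‖ ≤ ‖x - y‖ := norm_sub_norm_le x y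
      have h3 : c / 4 * ‖x‖ ≤ 1 / 4 * ‖x‖ := by
        refine mul_le_mul_of_nonneg_right ?_ hx0.le
        linarith
      linarith
    rw [h78_F_eq_G s (by linarith : (2 : ℝ) ≤ ‖x‖), h78_F_eq_G s hy2]
    have h5 := h78_G_osc_large hR hM h0 h1 hsupp hlip hs1 hs2 x y (by linarith) hxy'
    have hK : 0 ≤ (c / 2) ^ (-(2 * n + 1)) * (2 ^ (N + 1) / (1 + ‖x‖) ^ (N + 1)) := by
      positivity
    have hcoef : (4 * M + 2 * n) * ‖x - y‖ ≤ (4 * M + 2 * n) * d :=
      mul_le_mul_of_nonneg_left hxy (by positivity)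
    calc |h78_G χ s x - h78_G χ s y|
        ≤ (4 * M + 2 * n) * ‖x - y‖ *
            ((c / 2) ^ (-(2 * n + 1)) * (2 ^ (N + 1) / (1 + ‖x‖) ^ (N + 1))) := h5
      _ ≤ (4 * M + 2 * n) * d *
            ((c / 2) ^ (-(2 * n + 1)) * (2 ^ (N + 1) / (1 + ‖x‖) ^ (N + 1))) :=
          mul_le_mul_of_nonneg_right hcoef hK
      _ = A₁ / (1 + ‖x‖) ^ (N + 1) := by rw [hA₁]; ring
      _ ≤ (A₁ + A₂) / (1 + ‖x‖) ^ (N + 1) :=
          div_le_div_of_nonneg_right (by linarith) hden.le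

/-! ### Measurability, integrability, homogeneity -/

theorem h78_measurable_logMap : Measurable (logMap : mixedSpace K → logSpace K) :=
  measurable_pi_iff.mpr fun _w => measurable_const.mul
    ((continuous_normAtPlace _).measurable.log.sub
      ((mixedEmbedding.continuous_norm _).measurable.log.mul measurable_const))

theorem h78_continuous_rho : Continuous (h78_rho : mixedSpace K → ℝ) :=
  continuous_const.min (continuous_const.max (continuous_norm.sub continuous_const))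

theorem h78_F_measurable {χ : logSpace K → ℝ} (hχ : Continuous χ) (s : ℝ) :
    Measurable (h78_F χ s : mixedSpace K → ℝ) := by
  unfold h78_F h78_G
  exact h78_continuous_rho.measurable.mul
    ((hχ.measurable.comp h78_measurable_logMap).mul
      ((mixedEmbedding.continuous_norm K).measurable.pow_const (-s)))

theorem h78_F_integrable {χ : logSpace K → ℝ} {R : ℝ} (hR : 0 ≤ R) (h0 : ∀ v, 0 ≤ χ v)
    (h1 : ∀ v, χ v ≤ 1) (hsupp : ∀ v, R ≤ ‖v‖ → χ v = 0) (hχ : Continuous χ)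
    {s : ℝ} (hs1 : 1 < s) (hs2 : s ≤ 2) :
    MeasureTheory.Integrable (h78_F χ s : mixedSpace K → ℝ) := by
  have hnpos : (0 : ℝ) < (Module.finrank ℚ K : ℝ) := h78_finrank_pos (K := K)
  have hfr : (Module.finrank ℝ (mixedSpace K) : ℝ) < (Module.finrank ℚ K : ℝ) * s := by
    rw [mixedEmbedding.finrank]
    nlinarith
  have hint := (integrable_one_add_norm (E := mixedSpace K)
    (μ := MeasureTheory.MeasureSpace.volume) hfr).const_mul
    ((h78_c K R) ^ (-(2 * (Module.finrank ℚ K : ℝ))) * (4 : ℝ) ^ (Module.finrank ℚ K))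
  refine hint.mono' (h78_F_measurable hχ s).aestronglyMeasurable
    (Filter.Eventually.of_forall fun x => ?_)
  rw [Real.norm_eq_abs, abs_of_nonneg (h78_F_nonneg h0 s x)]
  exact h78_F_le_rpow hR h0 h1 hsupp hs1.le hs2 x

theorem h78_G_smul (χ : logSpace K → ℝ) {s : ℝ} (hs : s ≠ 0) {t : ℝ} (ht : 0 < t)
    (x : mixedSpace K) :
    h78_G χ s (t • x) = t ^ (-((Module.finrank ℚ K : ℝ) * s)) * h78_G χ s x := by
  unfold h78_G
  by_cases hx : mixedEmbedding.norm x = 0
  · rw [mixedEmbedding.norm_smul, hx, mul_zero, Real.zero_rpow (neg_ne_zero.mpr hs)]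
    simp
  · rw [logMap_real_smul hx ht.ne', mixedEmbedding.norm_smul, abs_of_pos ht,
      Real.mul_rpow (pow_nonneg ht.le _) (mixedEmbedding.norm_nonneg x),
      ← Real.rpow_natCast, ← Real.rpow_mul ht.le]
    have e : (Module.finrank ℚ K : ℝ) * -s = -((Module.finrank ℚ K : ℝ) * s) := by ring
    rw [e]; ring

end Fermat.Agent.S14
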