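import Mathlib

/-!
# A Lipschitz partition of unity for a `ℤ`-lattice (helper78, S14 analytic block)

For a `ℤ`-lattice `L` in a finite dimensional real normed space `V` we construct a bounded,
compactly supported, Lipschitz function `χ : V → ℝ` with `∑ l ∈ L, χ (v + l) = 1`.
-/

set_option linter.unusedSectionVars false

namespace Fermat.Agent.S14

open Filter Topology

section Partition

variable {V : Type*} [NormedAddCommGroup V] [NormedSpace ℝ V] [FiniteDimensional ℝ V]
  (L : Submodule ℤ V) [DiscreteTopology L] [IsZLattice ℝ L]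

/-- Every vector is within bounded distance of the lattice. -/
theorem h78_exists_bound_dist : ∃ D : ℝ, 0 ≤ D ∧ ∀ v : V, ∃ l : L, ‖v + (l : V)‖ ≤ D := by
  classical
  let b := (Module.Free.chooseBasis ℤ L).ofZLatticeBasis ℝ L
  obtain ⟨D, hD⟩ := (ZSpan.fundamentalDomain_isBounded b).exists_norm_le
  refine ⟨max D 0, le_max_right _ _, fun v => ?_⟩
  have hmem := ZSpan.fract_mem_fundamentalDomain b v
  have haux : ∀ (S : Submodule ℤ V) (x : S), S = L → (x : V) ∈ L := by
    rintro S x rfl; exact x.2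
  have hfl : ((ZSpan.floor b v : Submodule.span ℤ (Set.range b)) : V) ∈ L :=
    haux _ _ (Module.Basis.ofZLatticeBasis_span ℝ L _)
  refine ⟨⟨-(ZSpan.floor b v : V), L.neg_mem hfl⟩, ?_⟩
  have h3 : v + -(ZSpan.floor b v : V) = ZSpan.fract b v := by
    rw [ZSpan.fract_apply]; abel
  show ‖v + -(ZSpan.floor b v : V)‖ ≤ max D 0
  rw [h3]
  exact (hD _ hmem).trans (le_max_left _ _)

/-- Lattice points in a ball form a finite set. -/
theorem h78_finite_ball (v : V) (r : ℝ) : {l : L | ‖v + (l : V)‖ < r}.Finite := by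
  classical
  let b := (Module.Free.chooseBasis ℤ L).ofZLatticeBasis ℝ L
  have hb : Bornology.IsBounded (Metric.ball (-v) r) := Metric.isBounded_ball
  have h1 := ZSpan.setFinite_inter b hb
  rw [Module.Basis.ofZLatticeBasis_span ℝ L] at h1
  refine Set.Finite.of_finite_image (f := fun l : L => (l : V)) ?_ Subtype.val_injective.injOn
  refine h1.subset ?_
  rintro _ ⟨l, hl, rfl⟩
  refine ⟨?_, l.2⟩
  have hl' : ‖v + (l : V)‖ < r := hl
  rw [Metric.mem_ball, dist_eq_norm]
  have : (l : V) - -v = v + l := by abel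
  rw [this]; exact hl'

/-- Uniform bound on the number of lattice points in balls of a fixed radius. -/
theorem h78_card_ball_le (r : ℝ) : ∃ N : ℕ, ∀ v : V,
    (h78_finite_ball L v r).toFinset.card ≤ N := by
  classical
  obtain ⟨D, hD0, hD⟩ := h78_exists_bound_dist L
  refine ⟨(h78_finite_ball L 0 (r + D)).toFinset.card, fun v => ?_⟩
  obtain ⟨l₀, hl₀⟩ := hD v
  refine Finset.card_le_card_of_injOn (fun l => l - l₀) ?_ ?_
  · intro l hl
    rw [Finset.mem_coe, Set.Finite.mem_toFinset] at hl ⊢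
    have hl' : ‖v + (l : V)‖ < r := hl
    show ‖(0 : V) + ((l - l₀ : L) : V)‖ < r + D
    have h1 : (0 : V) + ((l - l₀ : L) : V) = (v + l) - (v + l₀) := by
      push_cast; abel
    rw [h1]
    calc ‖v + (l : V) - (v + l₀)‖ ≤ ‖v + (l : V)‖ + ‖v + (l₀ : V)‖ := norm_sub_le _ _
      _ < r + D := add_lt_add_of_lt_of_le hl' hl₀
  · intro a _ b _ hab
    exact sub_left_injective hab

/-- The bump function. -/
noncomputable def h78_bump (R : ℝ) (v : V) : ℝ := max 0 (R - ‖v‖)

theorem h78_bump_nonneg (R : ℝ) (v : V) : 0 ≤ h78_bump R v := le_max_left _ _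

theorem h78_bump_eq_zero {R : ℝ} {v : V} (h : R ≤ ‖v‖) : h78_bump R v = 0 := by
  unfold h78_bump; exact max_eq_left (by linarith)

theorem h78_bump_lip (R : ℝ) (v w : V) : |h78_bump R v - h78_bump R w| ≤ ‖v - w‖ := by
  unfold h78_bump
  have h1 : |max 0 (R - ‖v‖) - max 0 (R - ‖w‖)| ≤ |(R - ‖v‖) - (R - ‖w‖)| := by
    have := abs_max_sub_max_le_abs (R - ‖v‖) (R - ‖w‖) (0 : ℝ)
    rwa [max_comm (R - ‖v‖) 0, max_comm (R - ‖w‖) 0] at this
  have h2 : |(R - ‖v‖) - (R - ‖w‖)| = |‖w‖ - ‖v‖| := by congr 1; ring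
  rw [h2] at h1
  calc _ ≤ |‖w‖ - ‖v‖| := h1
    _ ≤ ‖w - v‖ := abs_norm_sub_norm_le _ _
    _ = ‖v - w‖ := norm_sub_rev _ _

theorem h78_bump_support (R : ℝ) (v : V) :
    ∀ l : L, l ∉ (h78_finite_ball L v R).toFinset → h78_bump R (v + (l : V)) = 0 := by
  intro l hl
  rw [Set.Finite.mem_toFinset] at hl
  have hl' : ¬ ‖v + (l : V)‖ < R := hl
  exact h78_bump_eq_zero (not_lt.mp hl')

theorem h78_bump_hasSum (R : ℝ) (v : V) :
    HasSum (fun l : L => h78_bump R (v + (l : V)))
      (∑ l ∈ (h78_finite_ball L v R).toFinset, h78_bump R (v + (l : V))) :=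
  hasSum_sum_of_ne_finset_zero (h78_bump_support L R v)

/-- The periodised bump. -/
noncomputable def h78_psum (R : ℝ) (v : V) : ℝ := ∑' l : L, h78_bump R (v + (l : V))

theorem h78_psum_eq (R : ℝ) (v : V) :
    h78_psum L R v = ∑ l ∈ (h78_finite_ball L v R).toFinset, h78_bump R (v + (l : V)) :=
  (h78_bump_hasSum L R v).tsum_eq

theorem h78_psum_hasSum (R : ℝ) (v : V) :
    HasSum (fun l : L => h78_bump R (v + (l : V))) (h78_psum L R v) := by
  rw [h78_psum_eq]; exact h78_bump_hasSum L R v

theorem h78_psum_periodic (R : ℝ) (v : V) (l₀ : L) :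
    h78_psum L R (v + (l₀ : V)) = h78_psum L R v := by
  unfold h78_psum
  have h := (Equiv.addLeft l₀).tsum_eq (fun l : L => h78_bump R (v + (l : V)))
  rw [← h]
  refine tsum_congr fun l => ?_
  simp only [Equiv.coe_addLeft, Submodule.coe_add]
  rw [add_assoc]

theorem h78_bump_le_psum (R : ℝ) (v : V) : h78_bump R v ≤ h78_psum L R v := by
  have h := h78_psum_hasSum L R v
  have h0 := le_hasSum h (0 : L) (fun l _ => h78_bump_nonneg R _)
  simpa using h0

theorem h78_psum_lip (R : ℝ) : ∃ N : ℕ, ∀ v w : V,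
    |h78_psum L R v - h78_psum L R w| ≤ (2 * N : ℝ) * ‖v - w‖ := by
  classical
  obtain ⟨N, hN⟩ := h78_card_ball_le L R
  refine ⟨N, fun v w => ?_⟩
  set A := (h78_finite_ball L v R).toFinset ∪ (h78_finite_ball L w R).toFinset with hA
  have hv : h78_psum L R v = ∑ l ∈ A, h78_bump R (v + (l : V)) := by
    refine (hasSum_sum_of_ne_finset_zero (f := fun l : L => h78_bump R (v + (l : V)))
      (s := A) ?_).tsum_eq
    intro l hl
    exact h78_bump_support L R v l (fun h => hl (Finset.mem_union_left _ h))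
  have hw : h78_psum L R w = ∑ l ∈ A, h78_bump R (w + (l : V)) := by
    refine (hasSum_sum_of_ne_finset_zero (f := fun l : L => h78_bump R (w + (l : V)))
      (s := A) ?_).tsum_eq
    intro l hl
    exact h78_bump_support L R w l (fun h => hl (Finset.mem_union_right _ h))
  rw [hv, hw, ← Finset.sum_sub_distrib]
  calc |∑ l ∈ A, (h78_bump R (v + (l : V)) - h78_bump R (w + (l : V)))|
      ≤ ∑ l ∈ A, |h78_bump R (v + (l : V)) - h78_bump R (w + (l : V))| :=
        Finset.abs_sum_le_sum_abs _ _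
    _ ≤ ∑ _l ∈ A, ‖v - w‖ := by
        refine Finset.sum_le_sum fun l _ => ?_
        have := h78_bump_lip R (v + (l : V)) (w + (l : V))
        simpa using this
    _ = (A.card : ℝ) * ‖v - w‖ := by rw [Finset.sum_const, nsmul_eq_mul]
    _ ≤ (2 * N : ℝ) * ‖v - w‖ := by
        refine mul_le_mul_of_nonneg_right ?_ (norm_nonneg _)
        have h1 : A.card ≤ N + N :=
          (Finset.card_union_le _ _).trans (add_le_add (hN v) (hN w))
        have h2 : (A.card : ℝ) ≤ ((N + N : ℕ) : ℝ) := by exact_mod_cast h1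
        push_cast at h2; linarith

/-- **Lipschitz partition of unity** subordinate to a `ℤ`-lattice. -/
theorem h78_exists_partition :
    ∃ (χ : V → ℝ) (R M : ℝ), 0 ≤ R ∧ 0 ≤ M ∧ (∀ v, 0 ≤ χ v) ∧ (∀ v, χ v ≤ 1) ∧
      (∀ v, R ≤ ‖v‖ → χ v = 0) ∧ (∀ v w, |χ v - χ w| ≤ M * ‖v - w‖) ∧
      (∀ v, HasSum (fun l : L => χ (v + (l : V))) 1) := by
  classical
  obtain ⟨D, hD0, hD⟩ := h78_exists_bound_dist L
  set R : ℝ := D + 1 with hR
  obtain ⟨N, hN⟩ := h78_psum_lip L R
  have hS1 : ∀ v, 1 ≤ h78_psum L R v := by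
    intro v
    obtain ⟨l, hl⟩ := hD v
    have h1 : 1 ≤ h78_bump R (v + (l : V)) := by
      unfold h78_bump
      refine le_max_of_le_right ?_
      rw [hR]; linarith
    have h2 := h78_bump_le_psum L R (v + (l : V))
    rw [h78_psum_periodic] at h2
    exact h1.trans h2
  have hSpos : ∀ v, 0 < h78_psum L R v := fun v => lt_of_lt_of_le one_pos (hS1 v)
  refine ⟨fun v => h78_bump R v / h78_psum L R v, R, 1 + 2 * N, by rw [hR]; linarith,
    by positivity, fun v => div_nonneg (h78_bump_nonneg R v) (hSpos v).le, fun v => ?_,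
    fun v hv => ?_, fun v w => ?_, fun v => ?_⟩
  · exact (div_le_one (hSpos v)).mpr (h78_bump_le_psum L R v)
  · simp only []
    rw [h78_bump_eq_zero hv, zero_div]
  · simp only []
    have hSv := hSpos v
    have hSw := hSpos w
    have e1 : h78_bump R v / h78_psum L R v - h78_bump R w / h78_psum L R w =
        (h78_bump R v - h78_bump R w) / h78_psum L R v +
          (h78_bump R w / h78_psum L R w) * ((h78_psum L R w - h78_psum L R v) / h78_psum L R v) := by
      field_simp
      ring
    rw [e1]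
    have hχw : |h78_bump R w / h78_psum L R w| ≤ 1 := by
      rw [abs_of_nonneg (div_nonneg (h78_bump_nonneg R w) hSw.le)]
      exact (div_le_one hSw).mpr (h78_bump_le_psum L R w)
    have t1 : |(h78_bump R v - h78_bump R w) / h78_psum L R v| ≤ ‖v - w‖ := by
      rw [abs_div, abs_of_pos hSv]
      calc |h78_bump R v - h78_bump R w| / h78_psum L R v
          ≤ |h78_bump R v - h78_bump R w| / 1 :=
            div_le_div_of_nonneg_left (abs_nonneg _) one_pos (hS1 v)
        _ = |h78_bump R v - h78_bump R w| := div_one _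
        _ ≤ ‖v - w‖ := h78_bump_lip R v w
    have t2 : |(h78_psum L R w - h78_psum L R v) / h78_psum L R v| ≤ (2 * N : ℝ) * ‖v - w‖ := by
      rw [abs_div, abs_of_pos hSv]
      calc |h78_psum L R w - h78_psum L R v| / h78_psum L R v
          ≤ |h78_psum L R w - h78_psum L R v| / 1 :=
            div_le_div_of_nonneg_left (abs_nonneg _) one_pos (hS1 v)
        _ = |h78_psum L R v - h78_psum L R w| := by rw [div_one, abs_sub_comm]
        _ ≤ (2 * N : ℝ) * ‖v - w‖ := hN v w
    calc |(h78_bump R v - h78_bump R w) / h78_psum L R v +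
          (h78_bump R w / h78_psum L R w) * ((h78_psum L R w - h78_psum L R v) / h78_psum L R v)|
        ≤ |(h78_bump R v - h78_bump R w) / h78_psum L R v| +
          |(h78_bump R w / h78_psum L R w) *
            ((h78_psum L R w - h78_psum L R v) / h78_psum L R v)| := abs_add_le _ _
      _ ≤ ‖v - w‖ + 1 * ((2 * N : ℝ) * ‖v - w‖) := by
          refine add_le_add t1 ?_
          rw [abs_mul]
          exact mul_le_mul hχw t2 (abs_nonneg _) zero_le_one
      _ = (1 + 2 * N) * ‖v - w‖ := by ring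
  · have h1 := (h78_psum_hasSum L R v).div_const (h78_psum L R v)
    rw [div_self (hSpos v).ne'] at h1
    have h2 : (fun l : L => h78_bump R (v + (l : V)) / h78_psum L R (v + (l : V))) =
        fun l : L => h78_bump R (v + (l : V)) / h78_psum L R v := by
      funext l; rw [h78_psum_periodic]
    show HasSum (fun l : L => h78_bump R (v + (l : V)) / h78_psum L R (v + (l : V))) 1
    rw [h2]; exact h1

end Partition

end Fermat.Agent.S14
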