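import Mathlib

/-!
# Riemann sums over a `ℤ`-lattice (helper78, S14 analytic block)

If `H` is integrable and oscillates by at most `a l` on the cell `l + P` of a fundamental
domain `P` of the lattice `L`, with `a` summable, then `∑ l ∈ L, H l` converges and
`|covol L * ∑ H l - ∫ H| ≤ covol L * ∑ a l`.
-/

set_option linter.unusedSectionVars false

namespace Fermat.Agent.S14

open MeasureTheory Filter Topology
open scoped Pointwise

section Riemann

variable {E : Type*} [NormedAddCommGroup E] [NormedSpace ℝ E] [FiniteDimensional ℝ E]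
  [MeasurableSpace E] [BorelSpace E] (μ : Measure E) [μ.IsAddHaarMeasure]
  (L : Submodule ℤ E) [DiscreteTopology L] [IsZLattice ℝ L]

theorem h78_riemann (P : Set E) (hP : IsAddFundamentalDomain L P μ)
    (H : E → ℝ) (hH : Integrable H μ) (a : L → ℝ) (ha : Summable a)
    (hosc : ∀ (l : L) (t : E), t ∈ P → |H ((l : E) + t) - H l| ≤ a l) :
    Summable (fun l : L => H l) ∧
      |ZLattice.covolume L μ * ∑' l : L, H l - ∫ x, H x ∂μ| ≤
        ZLattice.covolume L μ * ∑' l, a l := by
  have hinv : VAddInvariantMeasure L E μ :=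
    (inferInstance : VAddInvariantMeasure L.toAddSubgroup E μ)
  have hmeas : MeasurableConstVAdd L E :=
    (inferInstance : MeasurableConstVAdd L.toAddSubgroup E)
  set c := ZLattice.covolume L μ with hc
  have hcpos : 0 < c := ZLattice.covolume_pos L μ
  have hcP : c = μ.real P := ZLattice.covolume_eq_measure_fundamentalDomain L μ hP
  have hPfin : μ P < ⊤ := by
    by_contra hcon
    have : μ.real P = 0 := by
      rw [Measure.real, not_lt_top_iff.mp hcon]; rfl
    rw [← hcP] at this; exact hcpos.ne' this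
  have hmP : ∀ l : L, μ (l +ᵥ P) = μ P := fun l => measure_vadd μ l P
  -- the integrals over the cells sum to the full integral
  have hsum : HasSum (fun l : L => ∫ x in l +ᵥ P, H x ∂μ) (∫ x, H x ∂μ) := by
    have h1 : Integrable H (Measure.sum fun l : L => μ.restrict (l +ᵥ P)) := by
      rw [hP.sum_restrict]; exact hH
    have h2 := hasSum_integral_measure h1
    rwa [hP.sum_restrict] at h2
  -- cellwise estimate
  have hcell : ∀ l : L, |c * H l - ∫ x in l +ᵥ P, H x ∂μ| ≤ c * a l := by
    intro l
    have hfin : μ (l +ᵥ P) < ⊤ := by rw [hmP]; exact hPfin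
    have hreal : μ.real (l +ᵥ P) = c := by
      rw [hcP, Measure.real, Measure.real, hmP]
    have hconst : ∫ _x in l +ᵥ P, H l ∂μ = c * H l := by
      rw [setIntegral_const, hreal, smul_eq_mul]
    have hint1 : IntegrableOn (fun _ : E => H l) (l +ᵥ P) μ := integrableOn_const hfin.ne
    have hint2 : IntegrableOn H (l +ᵥ P) μ := hH.integrableOn
    have hsub : c * H l - ∫ x in l +ᵥ P, H x ∂μ = ∫ x in l +ᵥ P, (H l - H x) ∂μ := by
      rw [integral_sub hint1 hint2, hconst]
    rw [hsub]
    have hb := norm_setIntegral_le_of_norm_le_const (μ := μ) (s := l +ᵥ P)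
      (f := fun x => H l - H x) (C := a l) hfin ?_
    · rw [Real.norm_eq_abs, hreal] at hb
      rw [mul_comm]; exact hb
    · rintro x ⟨t, ht, rfl⟩
      rw [Real.norm_eq_abs, abs_sub_comm]
      exact hosc l t ht
  have hdiff_sum : Summable (fun l : L => c * H l - ∫ x in l +ᵥ P, H x ∂μ) := by
    refine Summable.of_norm_bounded (ha.mul_left c) (fun l => ?_)
    rw [Real.norm_eq_abs]; exact hcell l
  have hcH : Summable (fun l : L => c * H l) := by
    have := hdiff_sum.add hsum.summable
    refine this.congr (fun l => ?_)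
    ring
  have hHs : Summable (fun l : L => H l) := by
    have := hcH.mul_left c⁻¹
    refine this.congr (fun l => ?_)
    rw [← mul_assoc, inv_mul_cancel₀ hcpos.ne', one_mul]
  refine ⟨hHs, ?_⟩
  have e1 : c * ∑' l : L, H l - ∫ x, H x ∂μ =
      ∑' l : L, (c * H l - ∫ x in l +ᵥ P, H x ∂μ) := by
    rw [hcH.tsum_sub hsum.summable, tsum_mul_left, hsum.tsum_eq]
  rw [e1, ← tsum_mul_left]
  calc |∑' l : L, (c * H l - ∫ x in l +ᵥ P, H x ∂μ)|
      ≤ ∑' l : L, |c * H l - ∫ x in l +ᵥ P, H x ∂μ| := by
        have := norm_tsum_le_tsum_norm (f := fun l : L => c * H l - ∫ x in l +ᵥ P, H x ∂μ)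
          (by simpa [Real.norm_eq_abs] using hdiff_sum.abs)
        simpa [Real.norm_eq_abs] using this
    _ ≤ ∑' l : L, c * a l :=
        Summable.tsum_le_tsum hcell hdiff_sum.abs (ha.mul_left c)

end Riemann

end Fermat.Agent.S14
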