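/-
S14 module T, factorisation bookkeeping (helper66, backup of T-Thaine).

`thaine_factor`: if `c ∈ 𝓞 K`, `γ ∈ 𝓞 M` satisfy `c 𝓞 M = (γ) ^ (r - 1)` and the ramification
indices of `M / K` are `r - 1` at the primes above `r` and `1` elsewhere, then
`(c) = 𝔟 ^ (r - 1) * ∏_{𝔮 ∣ r} 𝔮 ^ e 𝔮`, where `e 𝔮` is the exact power of `𝔓 ∣ 𝔮` dividing `γ`.
-/
import Mathlib

set_option autoImplicit false

namespace Fermat.Agent.S14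

open NumberField UniqueFactorizationMonoid

/-- Dedekind bookkeeping: a nonzero ideal whose prime multiplicities at the primes not
satisfying `P` are divisible by `n` is `𝔟 ^ n * ∏ 𝔮 ∈ S, 𝔮 ^ count`, for every finset `S` of
ideals satisfying `P` that contains all prime factors satisfying `P`. -/
theorem h66_ideal_eq_pow_mul_prod {A : Type*} [CommRing A] [IsDedekindDomain A] (n : ℕ)
    (I : Ideal A) (hI : I ≠ ⊥) (P : Ideal A → Prop)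
    (hdiv : ∀ 𝔮 ∈ normalizedFactors I, ¬ P 𝔮 → n ∣ (normalizedFactors I).count 𝔮) :
    ∃ 𝔟 : Ideal A, ∀ S : Finset (Ideal A), (∀ 𝔮 ∈ S, P 𝔮) →
      (∀ 𝔮 ∈ normalizedFactors I, P 𝔮 → 𝔮 ∈ S) →
      I = 𝔟 ^ n * ∏ 𝔮 ∈ S, 𝔮 ^ (normalizedFactors I).count 𝔮 := by
  classical
  set F := normalizedFactors I with hF
  have hprod : F.prod = I := Ideal.prod_normalizedFactors_eq_self hI
  have hsplit : F.filter P + F.filter (fun 𝔮 => ¬ P 𝔮) = F := Multiset.filter_add_not P F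
  refine ⟨∏ 𝔮 ∈ (F.filter (fun 𝔮 => ¬ P 𝔮)).toFinset, 𝔮 ^ (F.count 𝔮 / n), ?_⟩
  intro S hSP hFS
  have h1 : (F.filter (fun 𝔮 => ¬ P 𝔮)).prod =
      (∏ 𝔮 ∈ (F.filter (fun 𝔮 => ¬ P 𝔮)).toFinset, 𝔮 ^ (F.count 𝔮 / n)) ^ n := by
    rw [Finset.prod_multiset_count, ← Finset.prod_pow]
    refine Finset.prod_congr rfl fun 𝔮 h𝔮 => ?_
    rw [Multiset.mem_toFinset, Multiset.mem_filter] at h𝔮
    rw [Multiset.count_filter_of_pos (p := fun 𝔮 => ¬ P 𝔮) h𝔮.2, ← pow_mul,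
      Nat.div_mul_cancel (hdiv 𝔮 h𝔮.1 h𝔮.2)]
  have h2 : (F.filter P).prod = ∏ 𝔮 ∈ S, 𝔮 ^ F.count 𝔮 := by
    have hsub : (F.filter P).toFinset ⊆ S := by
      intro 𝔮 h𝔮
      rw [Multiset.mem_toFinset, Multiset.mem_filter] at h𝔮
      exact hFS 𝔮 h𝔮.1 h𝔮.2
    calc (F.filter P).prod
        = ∏ 𝔮 ∈ (F.filter P).toFinset, 𝔮 ^ (F.filter P).count 𝔮 := Finset.prod_multiset_count _
      _ = ∏ 𝔮 ∈ (F.filter P).toFinset, 𝔮 ^ F.count 𝔮 := by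
          refine Finset.prod_congr rfl fun 𝔮 h𝔮 => ?_
          rw [Multiset.mem_toFinset, Multiset.mem_filter] at h𝔮
          rw [Multiset.count_filter_of_pos (p := P) h𝔮.2]
      _ = ∏ 𝔮 ∈ S, 𝔮 ^ F.count 𝔮 := by
          refine Finset.prod_subset hsub fun 𝔮 h𝔮S h𝔮 => ?_
          have : F.count 𝔮 = 0 := by
            rw [Multiset.count_eq_zero]
            intro hmem
            exact h𝔮 (Multiset.mem_toFinset.mpr (Multiset.mem_filter.mpr ⟨hmem, hSP 𝔮 h𝔮S⟩))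
          rw [this, pow_zero]
  rw [← h1, ← h2, mul_comm, ← Multiset.prod_add, hsplit, hprod]

/-- multiplicity of a prime ideal in a nonzero ideal, as a count of normalized factors. -/
theorem h66_emultiplicity_eq_count {A : Type*} [CommRing A] [IsDedekindDomain A]
    (𝔮 : Ideal A) (h𝔮 : 𝔮.IsPrime) (h𝔮0 : 𝔮 ≠ ⊥) (I : Ideal A) (hI : I ≠ ⊥) :
    emultiplicity 𝔮 I = ((normalizedFactors I).count 𝔮 : ℕ) := by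
  rw [emultiplicity_eq_count_normalizedFactors (Ideal.prime_of_isPrime h𝔮0 h𝔮).irreducible hI,
    normalize_eq]

theorem thaine_factor (r : ℕ) (hr : 2 ≤ r) (K M : Type) [Field K] [NumberField K] [Field M]
    [NumberField M] [Algebra K M]
    (hram1 : ∀ 𝔓 : Ideal (𝓞 M), 𝔓.IsPrime → 𝔓 ≠ ⊥ → (r : 𝓞 M) ∈ 𝔓 → ∀ x : 𝓞 K, x ≠ 0 →
      emultiplicity 𝔓 (Ideal.span {algebraMap (𝓞 K) (𝓞 M) x}) =
        ((r - 1 : ℕ) : ℕ∞) * emultiplicity (𝔓.comap (algebraMap (𝓞 K) (𝓞 M))) (Ideal.span {x}))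
    (hram2 : ∀ 𝔓 : Ideal (𝓞 M), 𝔓.IsPrime → 𝔓 ≠ ⊥ → (r : 𝓞 M) ∉ 𝔓 → ∀ x : 𝓞 K, x ≠ 0 →
      emultiplicity 𝔓 (Ideal.span {algebraMap (𝓞 K) (𝓞 M) x}) =
        emultiplicity (𝔓.comap (algebraMap (𝓞 K) (𝓞 M))) (Ideal.span {x}))
    (c : 𝓞 K) (γ : 𝓞 M) (hγ : γ ≠ 0)
    (hc : Ideal.span {algebraMap (𝓞 K) (𝓞 M) c} = Ideal.span {γ} ^ (r - 1)) :
    c ≠ 0 ∧ ∃ (𝔟 : Ideal (𝓞 K)) (e : Ideal (𝓞 K) → ℕ),
      (∀ S : Finset (Ideal (𝓞 K)), (∀ 𝔮, 𝔮 ∈ S ↔ 𝔮.IsPrime ∧ (r : 𝓞 K) ∈ 𝔮) →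
        Ideal.span {c} = 𝔟 ^ (r - 1) * ∏ 𝔮 ∈ S, 𝔮 ^ e 𝔮) ∧
      ∀ 𝔓 : Ideal (𝓞 M), 𝔓.IsPrime → (r : 𝓞 M) ∈ 𝔓 →
        γ ∈ 𝔓 ^ e (𝔓.comap (algebraMap (𝓞 K) (𝓞 M))) ∧
          γ ∉ 𝔓 ^ (e (𝔓.comap (algebraMap (𝓞 K) (𝓞 M))) + 1) := by
  classical
  have hr1 : r - 1 ≠ 0 := by omega
  have hγI : Ideal.span {γ} ≠ ⊥ := by
    rwa [Ne, Ideal.span_singleton_eq_bot]
  -- `c ≠ 0`
  have hc0 : c ≠ 0 := by
    rintro rfl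
    rw [map_zero, Ideal.span_singleton_eq_bot.mpr rfl] at hc
    exact hγI (pow_eq_zero_iff hr1 |>.mp hc.symm)
  have hcI : Ideal.span {c} ≠ ⊥ := by
    rwa [Ne, Ideal.span_singleton_eq_bot]
  have hrK : (r : 𝓞 K) ≠ 0 := by
    have : r ≠ 0 := by omega
    exact_mod_cast this
  have hrM : (r : 𝓞 M) ≠ 0 := by
    have : r ≠ 0 := by omega
    exact_mod_cast this
  -- membership of `r` upstairs and downstairs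
  have hmem : ∀ 𝔓 : Ideal (𝓞 M), (r : 𝓞 K) ∈ 𝔓.comap (algebraMap (𝓞 K) (𝓞 M)) ↔
      (r : 𝓞 M) ∈ 𝔓 := by
    intro 𝔓
    rw [Ideal.mem_comap, map_natCast]
  -- the key relation between multiplicities
  have key : ∀ 𝔓 : Ideal (𝓞 M), 𝔓.IsPrime → 𝔓 ≠ ⊥ →
      𝔓.comap (algebraMap (𝓞 K) (𝓞 M)) ≠ ⊥ →
      ((r : 𝓞 M) ∈ 𝔓 → (normalizedFactors (Ideal.span {γ})).count 𝔓 =
        (normalizedFactors (Ideal.span {c})).count (𝔓.comap (algebraMap (𝓞 K) (𝓞 M)))) ∧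
      ((r : 𝓞 M) ∉ 𝔓 → (r - 1) * (normalizedFactors (Ideal.span {γ})).count 𝔓 =
        (normalizedFactors (Ideal.span {c})).count (𝔓.comap (algebraMap (𝓞 K) (𝓞 M)))) := by
    intro 𝔓 h𝔓 h𝔓0 hq0
    have hqp : (𝔓.comap (algebraMap (𝓞 K) (𝓞 M))).IsPrime := Ideal.comap_isPrime _ 𝔓
    have e1 : emultiplicity 𝔓 (Ideal.span {algebraMap (𝓞 K) (𝓞 M) c}) =
        (((r - 1) * (normalizedFactors (Ideal.span {γ})).count 𝔓 : ℕ) : ℕ∞) := by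
      rw [hc, emultiplicity_pow (Ideal.prime_of_isPrime h𝔓0 h𝔓),
        h66_emultiplicity_eq_count 𝔓 h𝔓 h𝔓0 _ hγI]
      push_cast
      rfl
    have e2 := h66_emultiplicity_eq_count _ hqp hq0 _ hcI
    constructor
    · intro hr𝔓
      have e3 := hram1 𝔓 h𝔓 h𝔓0 hr𝔓 c hc0
      rw [e1, e2, ← Nat.cast_mul, Nat.cast_inj] at e3
      exact Nat.eq_of_mul_eq_mul_left (by omega) e3
    · intro hr𝔓
      have e3 := hram2 𝔓 h𝔓 h𝔓0 hr𝔓 c hc0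
      rw [e1, e2, Nat.cast_inj] at e3
      exact e3
  -- bookkeeping downstairs
  have hdiv : ∀ 𝔮 ∈ normalizedFactors (Ideal.span {c}), ¬ ((r : 𝓞 K) ∈ 𝔮) →
      (r - 1) ∣ (normalizedFactors (Ideal.span {c})).count 𝔮 := by
    intro 𝔮 h𝔮 hr𝔮
    have hprime : Prime 𝔮 := prime_of_normalized_factor 𝔮 h𝔮
    have h𝔮p : 𝔮.IsPrime := Ideal.isPrime_of_prime hprime
    have h𝔮0 : 𝔮 ≠ ⊥ := hprime.ne_zero
    obtain ⟨𝔓, -, h𝔓, h𝔓𝔮⟩ := Ideal.exists_ideal_over_prime_of_isIntegral 𝔮 (⊥ : Ideal (𝓞 M))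
      (by
        rw [Ideal.comap_bot_of_injective _ (FaithfulSMul.algebraMap_injective (𝓞 K) (𝓞 M))]
        exact bot_le)
    have h𝔓0 : 𝔓 ≠ ⊥ := by
      rintro rfl
      apply h𝔮0
      rw [← h𝔓𝔮, Ideal.comap_bot_of_injective _ (FaithfulSMul.algebraMap_injective (𝓞 K) (𝓞 M))]
    have hr𝔓 : (r : 𝓞 M) ∉ 𝔓 := by
      rw [← hmem, h𝔓𝔮]; exact hr𝔮
    have := (key 𝔓 h𝔓 h𝔓0 (by rw [h𝔓𝔮]; exact h𝔮0)).2 hr𝔓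
    rw [h𝔓𝔮] at this
    exact ⟨_, this.symm⟩
  obtain ⟨𝔟, h𝔟⟩ := h66_ideal_eq_pow_mul_prod (r - 1) (Ideal.span {c}) hcI
    (fun 𝔮 => (r : 𝓞 K) ∈ 𝔮) hdiv
  refine ⟨hc0, 𝔟, fun 𝔮 => (normalizedFactors (Ideal.span {c})).count 𝔮, ?_, ?_⟩
  · intro S hS
    refine h𝔟 S (fun 𝔮 h𝔮 => ((hS 𝔮).mp h𝔮).2) (fun 𝔮 h𝔮 hr𝔮 => (hS 𝔮).mpr ⟨?_, hr𝔮⟩)
    exact Ideal.isPrime_of_prime (prime_of_normalized_factor 𝔮 h𝔮)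
  · intro 𝔓 h𝔓 hr𝔓
    have h𝔓0 : 𝔓 ≠ ⊥ := by
      rintro rfl
      exact hrM (by simpa using hr𝔓)
    have hq0 : 𝔓.comap (algebraMap (𝓞 K) (𝓞 M)) ≠ ⊥ := by
      intro h
      have := (hmem 𝔓).mpr hr𝔓
      rw [h] at this
      exact hrK (by simpa using this)
    have hcount := (key 𝔓 h𝔓 h𝔓0 hq0).1 hr𝔓
    have hmult := h66_emultiplicity_eq_count 𝔓 h𝔓 h𝔓0 _ hγI
    rw [hcount] at hmult
    obtain ⟨h1, h2⟩ := emultiplicity_eq_coe.mp hmult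
    rw [Ideal.dvd_span_singleton] at h1 h2
    exact ⟨h1, h2⟩

/-- `thaine_factor` with the ramification hypothesis in the `if`-form of `thaine_ram`. -/
theorem thaine_factor_ite (r : ℕ) (hr : 2 ≤ r) (K M : Type) [Field K] [NumberField K] [Field M]
    [NumberField M] [Algebra K M] [∀ 𝔓 : Ideal (𝓞 M), Decidable ((r : 𝓞 M) ∈ 𝔓)]
    (hram : ∀ (𝔓 : Ideal (𝓞 M)) [𝔓.IsPrime], 𝔓 ≠ ⊥ → ∀ x : 𝓞 K, x ≠ 0 →
      emultiplicity 𝔓 (Ideal.span {algebraMap (𝓞 K) (𝓞 M) x}) =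
        (if (r : 𝓞 M) ∈ 𝔓 then r - 1 else 1) *
          emultiplicity (𝔓.comap (algebraMap (𝓞 K) (𝓞 M))) (Ideal.span {x}))
    (c : 𝓞 K) (γ : 𝓞 M) (hγ : γ ≠ 0)
    (hc : Ideal.span {algebraMap (𝓞 K) (𝓞 M) c} = Ideal.span {γ} ^ (r - 1)) :
    c ≠ 0 ∧ ∃ (𝔟 : Ideal (𝓞 K)) (e : Ideal (𝓞 K) → ℕ),
      (∀ S : Finset (Ideal (𝓞 K)), (∀ 𝔮, 𝔮 ∈ S ↔ 𝔮.IsPrime ∧ (r : 𝓞 K) ∈ 𝔮) →
        Ideal.span {c} = 𝔟 ^ (r - 1) * ∏ 𝔮 ∈ S, 𝔮 ^ e 𝔮) ∧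
      ∀ 𝔓 : Ideal (𝓞 M), 𝔓.IsPrime → (r : 𝓞 M) ∈ 𝔓 →
        γ ∈ 𝔓 ^ e (𝔓.comap (algebraMap (𝓞 K) (𝓞 M))) ∧
          γ ∉ 𝔓 ^ (e (𝔓.comap (algebraMap (𝓞 K) (𝓞 M))) + 1) := by
  refine thaine_factor r hr K M ?_ ?_ c γ hγ hc
  · intro 𝔓 h𝔓 h𝔓0 hr𝔓 x hx
    have := @hram 𝔓 h𝔓 h𝔓0 x hx
    rwa [if_pos hr𝔓] at this
  · intro 𝔓 h𝔓 h𝔓0 hr𝔓 x hx
    have := @hram 𝔓 h𝔓 h𝔓0 x hx
    rwa [if_neg hr𝔓, Nat.cast_one, one_mul] at this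

end Fermat.Agent.S14
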