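/-
S14, module T (Thaine relation) — orbit form (helper44).

* `thaine_orbit`: a degree-one prime `𝔯 ∤ p` of `K = ℚ(ζ_p)` lies over a rational prime
  `r ≡ 1 mod p`, and `Gal(K/ℚ)` permutes the primes above `r` simply transitively.
* `thaine_relation_orbit`: `thaine_relation` for `r = N𝔯`, with the product indexed by the Galois
  group.
-/
import Fermat.Agent.S14.Thaine

set_option autoImplicit false

open NumberField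

namespace Fermat.Agent.S14

open Pointwise in
/-- A degree-one prime `𝔯 ∤ p` of `K = ℚ(ζ_p)` lies over a rational prime `r ≡ 1 mod p`, and the
Galois group permutes the primes above `r` simply transitively. The Galois action on `𝓞 K` may be
presented by any family `g` of ring automorphisms of `𝓞 K` inducing the automorphisms of `K`. -/
theorem thaine_orbit (p : ℕ) [hp : Fact p.Prime] (K : Type*) [Field K] [NumberField K]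
    [IsCyclotomicExtension {p} ℚ K] (𝔯 : Ideal (𝓞 K)) [h𝔯 : 𝔯.IsPrime]
    (hdeg : (Ideal.absNorm 𝔯).Prime) (hp𝔯 : (p : 𝓞 K) ∉ 𝔯)
    (g : (K ≃ₐ[ℚ] K) → (𝓞 K ≃+* 𝓞 K)) (hg : ∀ σ x, ((g σ x : 𝓞 K) : K) = σ (x : K)) :
    Ideal.absNorm 𝔯 % p = 1 ∧
    Function.Injective (fun σ : K ≃ₐ[ℚ] K => 𝔯.map (g σ)) ∧
    ∀ 𝔮 : Ideal (𝓞 K), (𝔮.IsPrime ∧ ((Ideal.absNorm 𝔯 : ℕ) : 𝓞 K) ∈ 𝔮) ↔
      ∃ σ : K ≃ₐ[ℚ] K, 𝔯.map (g σ) = 𝔮 := by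
  classical
  set r := Ideal.absNorm 𝔯 with hr_def
  have : Fact r.Prime := ⟨hdeg⟩
  have hgal : IsGalois ℚ K := IsCyclotomicExtension.isGalois {p} ℚ K
  have hr𝔯 : (r : 𝓞 K) ∈ 𝔯 := Ideal.absNorm_mem 𝔯
  have hmax : (Ideal.span {(r : ℤ)}).IsMaximal := Int.ideal_span_isMaximal_of_prime r
  -- every prime containing `r` lies over `(r)`
  have hover : ∀ 𝔮 : Ideal (𝓞 K), 𝔮.IsPrime → (r : 𝓞 K) ∈ 𝔮 →
      𝔮.LiesOver (Ideal.span {(r : ℤ)}) := by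
    intro 𝔮 h𝔮 hr𝔮
    refine ⟨?_⟩
    have hle : Ideal.span {(r : ℤ)} ≤ 𝔮.under ℤ := by
      rw [Ideal.span_le, Set.singleton_subset_iff]
      show (r : ℤ) ∈ 𝔮.comap (algebraMap ℤ (𝓞 K))
      rw [Ideal.mem_comap]
      simpa using hr𝔮
    exact hmax.eq_of_le (Ideal.IsPrime.ne_top inferInstance) hle
  have hlies : 𝔯.LiesOver (Ideal.span {(r : ℤ)}) := hover 𝔯 h𝔯 hr𝔯
  have hrp : r ≠ p := by
    intro h
    apply hp𝔯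
    rw [← h]
    exact hr𝔯
  have hndvd : ¬ r ∣ p := fun h => hrp ((Nat.prime_dvd_prime_iff_eq hdeg hp.out).mp h)
  have hf : 𝔯.inertiaDeg ℤ = orderOf (r : ZMod p) :=
    IsCyclotomicExtension.Rat.inertiaDeg_eq_of_not_dvd r K 𝔯 hndvd
  have he : 𝔯.ramificationIdx ℤ = 1 :=
    IsCyclotomicExtension.Rat.ramificationIdx_eq_of_not_dvd r K 𝔯 hndvd
  have h𝔯max : 𝔯.IsMaximal := Ideal.IsMaximal.of_liesOver_isMaximal 𝔯 (Ideal.span {(r : ℤ)})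
  have hf1 : 𝔯.inertiaDeg ℤ = 1 := by
    have h1 := Ideal.absNorm_eq_pow_inertiaDeg' 𝔯 hdeg
    rw [Ideal.inertiaDeg'_eq_inertiaDeg (Ideal.span {(r : ℤ)}) 𝔯, ← hr_def] at h1
    have h2 : r ^ 1 = r ^ (𝔯.inertiaDeg ℤ) := by rw [pow_one]; exact h1
    exact (Nat.pow_right_injective hdeg.two_le h2).symm
  have hmod : r % p = 1 := by
    rw [hf1] at hf
    have h1 : (r : ZMod p) = 1 := orderOf_eq_one_iff.mp hf.symm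
    have h2 : (r : ZMod p) = ((1 : ℕ) : ZMod p) := by rw [h1, Nat.cast_one]
    rw [ZMod.natCast_eq_natCast_iff] at h2
    rw [h2, Nat.mod_eq_of_lt hp.out.one_lt]
  -- the action of `σ` via `g` is the pointwise action
  have hsmul : ∀ σ : K ≃ₐ[ℚ] K, 𝔯.map (g σ) = σ • 𝔯 := by
    intro σ
    rw [Ideal.pointwise_smul_def]
    have h1 : ((g σ : 𝓞 K ≃+* 𝓞 K) : 𝓞 K →+* 𝓞 K) =
        MulSemiringAction.toRingHom (K ≃ₐ[ℚ] K) (𝓞 K) σ := by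
      ext x
      rw [RingHom.coe_coe, hg]
      rfl
    rw [← h1]
    rfl
  have htrans : ∀ 𝔮 : Ideal (𝓞 K), 𝔮.IsPrime → (r : 𝓞 K) ∈ 𝔮 →
      ∃ σ : K ≃ₐ[ℚ] K, 𝔯.map (g σ) = 𝔮 := by
    intro 𝔮 h𝔮 hr𝔮
    have := hover 𝔮 h𝔮 hr𝔮
    obtain ⟨σ, hσ⟩ := Ideal.exists_smul_eq_of_isGaloisGroup (Ideal.span {(r : ℤ)}) 𝔯 𝔮
      (K ≃ₐ[ℚ] K)
    exact ⟨σ, (hsmul σ).trans hσ⟩
  have hmem : ∀ σ : K ≃ₐ[ℚ] K, (𝔯.map (g σ)).IsPrime ∧ (r : 𝓞 K) ∈ 𝔯.map (g σ) := by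
    intro σ
    refine ⟨Ideal.map_isPrime_of_equiv (g σ), ?_⟩
    have h1 := Ideal.mem_map_of_mem (g σ) hr𝔯
    rwa [map_natCast] at h1
  refine ⟨hmod, ?_, fun 𝔮 => ⟨fun h => htrans 𝔮 h.1 h.2, ?_⟩⟩
  · -- injectivity by counting
    have hcount := Ideal.ncard_primesOver_mul_ramificationIdxIn_mul_inertiaDegIn
      (Ideal.span {(r : ℤ)}) (𝓞 K) (K ≃ₐ[ℚ] K)
    rw [Ideal.ramificationIdxIn_eq_ramificationIdx (Ideal.span {(r : ℤ)}) 𝔯 (K ≃ₐ[ℚ] K),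
      Ideal.inertiaDegIn_eq_inertiaDeg (Ideal.span {(r : ℤ)}) 𝔯 (K ≃ₐ[ℚ] K), he, hf1, mul_one,
      mul_one] at hcount
    let φ : (K ≃ₐ[ℚ] K) → (Ideal.span {(r : ℤ)}).primesOver (𝓞 K) := fun σ =>
      ⟨𝔯.map (g σ), (hmem σ).1, hover _ (hmem σ).1 (hmem σ).2⟩
    have hφsurj : Function.Surjective φ := by
      rintro ⟨𝔮, h𝔮, h𝔮over⟩
      have hr𝔮 : (r : 𝓞 K) ∈ 𝔮 := by
        have h1 : (r : ℤ) ∈ 𝔮.under ℤ := by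
          rw [← h𝔮over.over]
          exact Ideal.mem_span_singleton_self _
        have h2 : algebraMap ℤ (𝓞 K) (r : ℤ) ∈ 𝔮 := h1
        simpa using h2
      obtain ⟨σ, hσ⟩ := htrans 𝔮 h𝔮 hr𝔮
      exact ⟨σ, Subtype.ext hσ⟩
    have hφbij := hφsurj.bijective_of_nat_card_le (by
      rw [Nat.card_coe_set_eq, hcount])
    intro σ₁ σ₂ h12
    exact hφbij.1 (Subtype.ext h12)
  · rintro ⟨σ, rfl⟩
    exact hmem σ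

/-- Thaine's relation for a degree-one prime `𝔯 ∤ p`, indexed by the Galois group: with
`r = N𝔯`, `(c) = 𝔟 ^ (r - 1) * ∏_σ (σ𝔯) ^ (e σ)` and `ζ ^ j - 1 ≡ t ^ (e σ) mod σ𝔯`. -/
theorem thaine_relation_orbit (p : ℕ) [Fact p.Prime] (hp : p ≠ 2) (K : Type) [Field K]
    [NumberField K] [IsCyclotomicExtension {p} ℚ K] {ζ : K} (hζ : IsPrimitiveRoot ζ p)
    (𝔯 : Ideal (𝓞 K)) [𝔯.IsPrime] (hdeg : (Ideal.absNorm 𝔯).Prime) (hp𝔯 : (p : 𝓞 K) ∉ 𝔯)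
    (g : (K ≃ₐ[ℚ] K) → (𝓞 K ≃+* 𝓞 K)) (hg : ∀ σ x, ((g σ x : 𝓞 K) : K) = σ (x : K)) :
    ∃ t : ℤ, ∀ j : ℕ, ¬ p ∣ j → ∃ (c : 𝓞 K) (𝔟 : Ideal (𝓞 K)) (e : (K ≃ₐ[ℚ] K) → ℕ), c ≠ 0 ∧
      Ideal.span {c} = 𝔟 ^ (Ideal.absNorm 𝔯 - 1) * ∏ σ : K ≃ₐ[ℚ] K, (𝔯.map (g σ)) ^ e σ ∧
      ∀ σ : K ≃ₐ[ℚ] K, hζ.toInteger ^ j - 1 - (t : 𝓞 K) ^ e σ ∈ 𝔯.map (g σ) := by
  classical
  obtain ⟨hmod, hinj, hchar⟩ := thaine_orbit p K 𝔯 hdeg hp𝔯 g hg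
  have : Fact (Ideal.absNorm 𝔯).Prime := ⟨hdeg⟩
  obtain ⟨t, ht⟩ := thaine_relation p hp K hζ (Ideal.absNorm 𝔯) hmod
  refine ⟨t, fun j hj => ?_⟩
  obtain ⟨c, 𝔟, e, hc, hS, hcong⟩ := ht j hj
  refine ⟨c, 𝔟, fun σ => e (𝔯.map (g σ)), hc, ?_, fun σ => ?_⟩
  · rw [hS (Finset.univ.image (fun σ : K ≃ₐ[ℚ] K => 𝔯.map (g σ))) (fun 𝔮 => by
      rw [hchar 𝔮]
      simp), Finset.prod_image (fun σ₁ _ σ₂ _ h => hinj h)]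
  · have h1 := (hchar (𝔯.map (g σ))).mpr ⟨σ, rfl⟩
    exact hcong _ h1.1 h1.2

end Fermat.Agent.S14
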