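import Mathlib

/-!
# S14, module U (core): eigenspaces of an integral matrix that is "a piece of a cyclic
permutation representation" are at most one-dimensional modulo `p`

Abstract linear algebra, no number fields.  `M` is an integral square matrix, `u` a real
linearly independent family of vectors in `X → ℝ` which intertwines `M` with the shift by a
transitive self-map `π` of `X`, and `M ^ n = 1`.  Then the characteristic polynomial of `M`
divides `X ^ n - 1`, hence for a prime `p ∤ n` every eigenspace of `M mod p` has dimension `≤ 1`.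
-/

set_option autoImplicit false

open Polynomial Module

namespace Fermat.Agent.S14

section LA

variable {r : ℕ} {X : Type*} [Fintype X]

/-- Real-linearly independent real vectors are complex-linearly independent. -/
theorem u0_complex_indep (u : Fin r → X → ℝ) (hu : LinearIndependent ℝ u) (z : Fin r → ℂ)
    (h : ∀ x, ∑ j, z j * (u j x : ℂ) = 0) : z = 0 := by
  have hre : ∑ j, (z j).re • u j = 0 := by
    funext x
    have h1 := congrArg Complex.re (h x)
    simp only [Complex.re_sum, Complex.mul_re, Complex.ofReal_re, Complex.ofReal_im, mul_zero,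
      sub_zero, Complex.zero_re] at h1
    simpa [Finset.sum_apply] using h1
  have him : ∑ j, (z j).im • u j = 0 := by
    funext x
    have h1 := congrArg Complex.im (h x)
    simp only [Complex.im_sum, Complex.mul_im, Complex.ofReal_re, Complex.ofReal_im, mul_zero,
      zero_add, Complex.zero_im] at h1
    simpa [Finset.sum_apply] using h1
  have h1 := Fintype.linearIndependent_iff.mp hu _ hre
  have h2 := Fintype.linearIndependent_iff.mp hu _ him
  funext j
  exact Complex.ext (h1 j) (h2 j)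

variable (M : Matrix (Fin r) (Fin r) ℤ) (π : X → X) (u : Fin r → X → ℝ)

/-- The functional equation of the function attached to an eigenvector. -/
theorem u0_feq (hequiv : ∀ j x, ∑ i, (M i j : ℝ) * u i x = u j (π x))
    (μ : ℂ) (v : Fin r → ℂ) (hv : (M.map (Int.cast : ℤ → ℂ)).mulVec v = μ • v) (x : X) :
    ∑ j, v j * (u j (π x) : ℂ) = μ * ∑ j, v j * (u j x : ℂ) := by
  have h1 : ∀ j, (u j (π x) : ℂ) = ∑ i, (M i j : ℂ) * (u i x : ℂ) := by
    intro j
    rw [← hequiv j x]
    push_cast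
    rfl
  simp_rw [h1, Finset.mul_sum]
  rw [Finset.sum_comm]
  refine Finset.sum_congr rfl fun i _ => ?_
  have h2 := congrFun hv i
  simp only [Matrix.mulVec, dotProduct, Matrix.map_apply, Pi.smul_apply, smul_eq_mul] at h2
  calc ∑ j, v j * ((M i j : ℂ) * (u i x : ℂ))
      = (∑ j, (M i j : ℂ) * v j) * (u i x : ℂ) := by
        rw [Finset.sum_mul]
        exact Finset.sum_congr rfl fun j _ => by ring
    _ = μ * (v i * (u i x : ℂ)) := by rw [h2]; ring

/-- A function satisfying the functional equation and vanishing at one point vanishes. -/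
theorem u0_feq_zero (htrans : ∀ x y : X, ∃ k : ℕ, π^[k] x = y) (μ : ℂ) (g : X → ℂ)
    (hg : ∀ x, g (π x) = μ * g x) (x₀ : X) (h0 : g x₀ = 0) (x : X) : g x = 0 := by
  obtain ⟨k, rfl⟩ := htrans x₀ x
  induction k with
  | zero => simpa using h0
  | succ k ih => rw [Function.iterate_succ_apply', hg, ih, mul_zero]

/-- Two eigenvectors (same eigenvalue) of `M` over `ℂ` are linearly dependent. -/
theorem u0_eigen_dependent [Nonempty X] (htrans : ∀ x y : X, ∃ k : ℕ, π^[k] x = y)
    (hu : LinearIndependent ℝ u)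
    (hequiv : ∀ j x, ∑ i, (M i j : ℝ) * u i x = u j (π x))
    (μ : ℂ) (v v' : Fin r → ℂ)
    (hv : (M.map (Int.cast : ℤ → ℂ)).mulVec v = μ • v)
    (hv' : (M.map (Int.cast : ℤ → ℂ)).mulVec v' = μ • v') :
    ∃ a b : ℂ, (a ≠ 0 ∨ b ≠ 0) ∧ a • v + b • v' = 0 := by
  obtain ⟨x₀⟩ := ‹Nonempty X›
  set f : X → ℂ := fun x => ∑ j, v j * (u j x : ℂ) with hf
  set f' : X → ℂ := fun x => ∑ j, v' j * (u j x : ℂ) with hf'
  have hfe : ∀ x, f (π x) = μ * f x := fun x => u0_feq M π u hequiv μ v hv x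
  have hfe' : ∀ x, f' (π x) = μ * f' x := fun x => u0_feq M π u hequiv μ v' hv' x
  by_cases h00 : f x₀ = 0 ∧ f' x₀ = 0
  · -- then `f = 0`, hence `v = 0`
    have hfz : ∀ x, f x = 0 := u0_feq_zero π htrans μ f hfe x₀ h00.1
    have hv0 : v = 0 := u0_complex_indep u hu v hfz
    exact ⟨1, 0, Or.inl one_ne_zero, by simp [hv0]⟩
  · refine ⟨f' x₀, -f x₀, ?_, ?_⟩
    · by_contra hcon
      push Not at hcon
      exact h00 ⟨by simpa using hcon.2, hcon.1⟩
    · set w : Fin r → ℂ := f' x₀ • v + (-f x₀) • v' with hw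
      have hwv : (M.map (Int.cast : ℤ → ℂ)).mulVec w = μ • w := by
        rw [hw, Matrix.mulVec_add, Matrix.mulVec_smul, Matrix.mulVec_smul, hv, hv']
        simp only [smul_add, smul_smul]
        congr 1 <;> rw [mul_comm]
      have hG : ∀ x, ∑ j, w j * (u j x : ℂ) = f' x₀ * f x + (-f x₀) * f' x := by
        intro x
        simp only [hw, hf, hf', Pi.add_apply, Pi.smul_apply, smul_eq_mul, add_mul,
          Finset.sum_add_distrib, Finset.mul_sum, mul_assoc]
      have hGz : ∀ x, ∑ j, w j * (u j x : ℂ) = 0 := by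
        refine u0_feq_zero π htrans μ _ (fun x => u0_feq M π u hequiv μ w hwv x) x₀ ?_
        rw [hG]
        ring
      exact u0_complex_indep u hu w hGz

/-- Every eigenspace of `M` over `ℂ` is at most one-dimensional. -/
theorem u0_finrank_eigenspace_complex [Nonempty X] (htrans : ∀ x y : X, ∃ k : ℕ, π^[k] x = y)
    (hu : LinearIndependent ℝ u)
    (hequiv : ∀ j x, ∑ i, (M i j : ℝ) * u i x = u j (π x)) (μ : ℂ) :
    finrank ℂ (Module.End.eigenspace (Matrix.toLin' (M.map (Int.cast : ℤ → ℂ))) μ) ≤ 1 := by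
  rw [finrank_le_one_iff]
  by_cases hall : ∀ w : Module.End.eigenspace (Matrix.toLin' (M.map (Int.cast : ℤ → ℂ))) μ, w = 0
  · exact ⟨0, fun w => ⟨0, by rw [hall w]; simp⟩⟩
  · push Not at hall
    obtain ⟨v, hv0⟩ := hall
    refine ⟨v, fun w => ?_⟩
    have hv := Module.End.mem_eigenspace_iff.mp v.2
    have hw := Module.End.mem_eigenspace_iff.mp w.2
    rw [Matrix.toLin'_apply] at hv hw
    obtain ⟨a, b, hab, h⟩ := u0_eigen_dependent M π u htrans hu hequiv μ v.1 w.1 hv hw
    have hb : b ≠ 0 := by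
      rintro rfl
      have ha : a ≠ 0 := by simpa using hab
      have : (v : Fin r → ℂ) = 0 := by
        simpa [ha] using h
      exact hv0 (Subtype.ext this)
    refine ⟨-(a / b), Subtype.ext ?_⟩
    have h2 : (w : Fin r → ℂ) = -(a / b) • (v : Fin r → ℂ) := by
      have h3 : b • (w : Fin r → ℂ) = -(a • (v : Fin r → ℂ)) := by
        rw [eq_neg_iff_add_eq_zero, add_comm]
        exact h
      calc (w : Fin r → ℂ) = b⁻¹ • (b • (w : Fin r → ℂ)) := by
            rw [smul_smul, inv_mul_cancel₀ hb, one_smul]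
        _ = -(a / b) • (v : Fin r → ℂ) := by
            rw [h3, smul_neg, smul_smul, neg_smul]
            congr 2
            field_simp
    simp [h2]

end LA

section Charpoly

variable {r : ℕ} {X : Type*} [Fintype X] [Nonempty X]
variable (M : Matrix (Fin r) (Fin r) ℤ) (π : X → X) (u : Fin r → X → ℝ)

theorem u0_toLin'_pow {R : Type*} [CommRing R] (A : Matrix (Fin r) (Fin r) R) (k : ℕ) :
    Matrix.toLin' (A ^ k) = (Matrix.toLin' A) ^ k := by
  induction k with
  | zero => simp [Module.End.one_eq_id]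
  | succ k ih => rw [pow_succ, pow_succ, Matrix.toLin'_mul, ih]; rfl

/-- The characteristic polynomial of `M` divides `X ^ n - 1`. -/
theorem u0_charpoly_dvd (htrans : ∀ x y : X, ∃ k : ℕ, π^[k] x = y)
    (hu : LinearIndependent ℝ u)
    (hequiv : ∀ j x, ∑ i, (M i j : ℝ) * u i x = u j (π x))
    (n : ℕ) (hn : 0 < n) (hMn : M ^ n = 1) :
    M.charpoly ∣ (Polynomial.X ^ n - 1 : ℤ[X]) := by
  set A : Matrix (Fin r) (Fin r) ℂ := M.map (Int.castRingHom ℂ) with hA
  have hA' : A = M.map (Int.cast : ℤ → ℂ) := rfl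
  set φ : Module.End ℂ (Fin r → ℂ) := Matrix.toLin' A with hφ
  have hAn : A ^ n = 1 := by
    have h1 : A = (Int.castRingHom ℂ).mapMatrix M := rfl
    rw [h1, ← map_pow, hMn, map_one]
  have hφn : φ ^ n = 1 := by
    rw [hφ, ← u0_toLin'_pow, hAn, Matrix.toLin'_one]
    rfl
  have hsep : (Polynomial.X ^ n - 1 : ℂ[X]).Separable := by
    have h := Polynomial.separable_X_pow_sub_C (1 : ℂ) (n := n) (by exact_mod_cast hn.ne')
      one_ne_zero
    simpa using h
  have hss : φ.IsSemisimple := by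
    refine Module.End.isSemisimple_of_squarefree_aeval_eq_zero hsep.squarefree ?_
    simp [hφn]
  have hmult : ∀ μ : ℂ, Polynomial.rootMultiplicity μ A.charpoly ≤ 1 := by
    intro μ
    have h1 := LinearMap.finrank_maxGenEigenspace_eq φ μ
    rw [hss.isFinitelySemisimple.maxGenEigenspace_eq_eigenspace, hφ,
      Matrix.charpoly_toLin'] at h1
    rw [← h1, hA']
    exact u0_finrank_eigenspace_complex M π u htrans hu hequiv μ
  have hne : A.charpoly ≠ 0 := (Matrix.charpoly_monic A).ne_zero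
  have hne' : (Polynomial.X ^ n - 1 : ℂ[X]) ≠ 0 := by
    have h := Polynomial.X_pow_sub_C_ne_zero hn (1 : ℂ)
    simpa using h
  have hdvd : A.charpoly ∣ (Polynomial.X ^ n - 1 : ℂ[X]) := by
    classical
    rw [IsAlgClosed.dvd_iff_roots_le_roots hne hne', Multiset.le_iff_count]
    intro μ
    rw [Polynomial.count_roots, Polynomial.count_roots]
    by_cases hroot : A.charpoly.IsRoot μ
    · have h1 : Polynomial.rootMultiplicity μ A.charpoly ≤ 1 := hmult μ
      have hev : φ.HasEigenvalue μ := by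
        rw [Module.End.hasEigenvalue_iff_isRoot_charpoly, hφ, Matrix.charpoly_toLin']
        exact hroot
      obtain ⟨v, hv⟩ := hev.exists_hasEigenvector
      have hpow : (φ ^ n) v = μ ^ n • v := hv.pow_apply n
      rw [hφn] at hpow
      have hμ : μ ^ n = 1 := by
        have h2 : (1 - μ ^ n) • v = 0 := by
          rw [sub_smul, one_smul, ← hpow]
          simp
        rcases smul_eq_zero.mp h2 with h3 | h3
        · exact (sub_eq_zero.mp h3).symm
        · exact absurd h3 hv.2
      have hroot' : (Polynomial.X ^ n - 1 : ℂ[X]).IsRoot μ := by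
        simp [hμ]
      have h2 : 0 < Polynomial.rootMultiplicity μ (Polynomial.X ^ n - 1 : ℂ[X]) :=
        (Polynomial.rootMultiplicity_pos hne').mpr hroot'
      omega
    · rw [Polynomial.rootMultiplicity_eq_zero hroot]
      exact Nat.zero_le _
  have hmap : A.charpoly = M.charpoly.map (Int.castRingHom ℂ) := Matrix.charpoly_map M _
  have hmap' : (Polynomial.X ^ n - 1 : ℂ[X]) = (Polynomial.X ^ n - 1 : ℤ[X]).map
      (Int.castRingHom ℂ) := by simp
  rw [hmap, hmap'] at hdvd
  exact (Polynomial.map_dvd_map (Int.castRingHom ℂ) Int.cast_injective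
    (Matrix.charpoly_monic M)).mp hdvd

/-- Modulo a prime `p ∤ n`, every eigenspace of `M` is at most one-dimensional. -/
theorem u0_finrank_eigenspace_mod (htrans : ∀ x y : X, ∃ k : ℕ, π^[k] x = y)
    (hu : LinearIndependent ℝ u)
    (hequiv : ∀ j x, ∑ i, (M i j : ℝ) * u i x = u j (π x))
    (n : ℕ) (hn : 0 < n) (hMn : M ^ n = 1) (p : ℕ) [Fact p.Prime] (hpn : ¬ p ∣ n)
    (c : ZMod p) :
    finrank (ZMod p) (Module.End.eigenspace
      (Matrix.toLin' (M.map (Int.castRingHom (ZMod p)))) c) ≤ 1 := by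
  have hdvd := u0_charpoly_dvd M π u htrans hu hequiv n hn hMn
  have hdvd' : (M.map (Int.castRingHom (ZMod p))).charpoly ∣
      (Polynomial.X ^ n - 1 : (ZMod p)[X]) := by
    rw [Matrix.charpoly_map]
    have h := Polynomial.map_dvd (Int.castRingHom (ZMod p)) hdvd
    simpa using h
  have hsep : (Polynomial.X ^ n - 1 : (ZMod p)[X]).Separable := by
    have h := Polynomial.separable_X_pow_sub_C' p n (1 : ZMod p) hpn one_ne_zero
    simpa using h
  have hsep' := hsep.of_dvd hdvd'
  refine (LinearMap.finrank_eigenspace_le _ c).trans ?_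
  rw [Matrix.charpoly_toLin']
  exact Polynomial.rootMultiplicity_le_one_of_separable hsep' c

/-- Integral form: two integer vectors which are eigenvectors of `M` modulo `p` (same
eigenvalue) are linearly dependent modulo `p`. -/
theorem u0_int_dependent (htrans : ∀ x y : X, ∃ k : ℕ, π^[k] x = y)
    (hu : LinearIndependent ℝ u)
    (hequiv : ∀ j x, ∑ i, (M i j : ℝ) * u i x = u j (π x))
    (n : ℕ) (hn : 0 < n) (hMn : M ^ n = 1) (p : ℕ) [Fact p.Prime] (hpn : ¬ p ∣ n)
    (c : ℤ) (a₁ a₂ : Fin r → ℤ)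
    (h₁ : ∀ i, (p : ℤ) ∣ (M.mulVec a₁) i - c * a₁ i)
    (h₂ : ∀ i, (p : ℤ) ∣ (M.mulVec a₂) i - c * a₂ i) :
    ∃ α β : ℤ, ¬ ((p : ℤ) ∣ α ∧ (p : ℤ) ∣ β) ∧ ∀ i, (p : ℤ) ∣ α * a₁ i + β * a₂ i := by
  set φ : Module.End (ZMod p) (Fin r → ZMod p) :=
    Matrix.toLin' (M.map (Int.castRingHom (ZMod p))) with hφ
  have hmem : ∀ a : Fin r → ℤ, (∀ i, (p : ℤ) ∣ (M.mulVec a) i - c * a i) →
      (fun i => ((a i : ℤ) : ZMod p)) ∈ Module.End.eigenspace φ (c : ZMod p) := by
    intro a ha
    rw [Module.End.mem_eigenspace_iff, hφ, Matrix.toLin'_apply]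
    funext i
    have h1 := (ZMod.intCast_zmod_eq_zero_iff_dvd _ p).mpr (ha i)
    simp only [Matrix.mulVec, dotProduct, Int.cast_sub, Int.cast_sum, Int.cast_mul] at h1
    simp only [Matrix.mulVec, dotProduct, Matrix.map_apply, Int.coe_castRingHom, Pi.smul_apply,
      smul_eq_mul]
    exact sub_eq_zero.mp h1
  have hfin := u0_finrank_eigenspace_mod M π u htrans hu hequiv n hn hMn p hpn (c : ZMod p)
  rw [finrank_le_one_iff] at hfin
  obtain ⟨v₀, hv₀⟩ := hfin
  obtain ⟨t₁, ht₁⟩ := hv₀ ⟨_, hmem a₁ h₁⟩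
  obtain ⟨t₂, ht₂⟩ := hv₀ ⟨_, hmem a₂ h₂⟩
  have e₁ : ∀ i, ((a₁ i : ℤ) : ZMod p) = t₁ * (v₀ : Fin r → ZMod p) i := by
    intro i
    have := congrFun (congrArg Subtype.val ht₁) i
    simpa using this.symm
  have e₂ : ∀ i, ((a₂ i : ℤ) : ZMod p) = t₂ * (v₀ : Fin r → ZMod p) i := by
    intro i
    have := congrFun (congrArg Subtype.val ht₂) i
    simpa using this.symm
  have hval : ∀ t : ZMod p, (p : ℤ) ∣ ((t.val : ℕ) : ℤ) → t = 0 := by
    intro t ht
    have h1 : p ∣ t.val := by exact_mod_cast ht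
    have h2 : t.val = 0 := Nat.eq_zero_of_dvd_of_lt h1 (ZMod.val_lt t)
    exact (ZMod.val_eq_zero t).mp h2
  by_cases h0 : t₁ = 0 ∧ t₂ = 0
  · refine ⟨1, 0, ?_, fun i => ?_⟩
    · rintro ⟨h, -⟩
      have hp := (Fact.out : p.Prime)
      have h3 : (p : ℤ) ∣ 1 := h
      have h4 : p ∣ 1 := by exact_mod_cast h3
      exact hp.one_lt.ne' (Nat.dvd_one.mp h4)
    · rw [← ZMod.intCast_zmod_eq_zero_iff_dvd]
      push_cast
      rw [e₁ i, h0.1]
      simp
  · refine ⟨(t₂.val : ℤ), -(t₁.val : ℤ), ?_, fun i => ?_⟩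
    · rintro ⟨h, h'⟩
      have ht₂0 : t₂ = 0 := hval t₂ h
      have ht₁0 : t₁ = 0 := hval t₁ ((dvd_neg).mp h')
      exact h0 ⟨ht₁0, ht₂0⟩
    · rw [← ZMod.intCast_zmod_eq_zero_iff_dvd]
      push_cast
      rw [e₁ i, e₂ i, ZMod.natCast_zmod_val, ZMod.natCast_zmod_val]
      ring

end Charpoly

end Fermat.Agent.S14

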