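import Mathlib
import Fermat.Agent.S10.KummerGeneric

/-!
# S14, units block (helper11): the cyclotomic unit `u` of the `ω²`-eigenspace

`K = ℚ(ζ_p)`, `p ≥ 5`.  We define
`u = ∏_{x ∈ (ℤ/p)ˣ} (1 + ζ + ⋯ + ζ^(x-1)) ^ (x⁻²)` (exponents lifted to `ℕ`), show that
`σ_a u = u ^ (a²) · η ^ p` and compute its image in `𝔽_p[X]/(X^(p-1))` up to order `X³`
via logarithmic derivatives.
-/

namespace Fermat.Agent.S14

open Polynomial NumberField

section general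

theorem h11_pow_eq_of_cast_eq {E : Type*} [CommGroup E] (p : ℕ) (y : E) (e f : ℕ)
    (h : (e : ZMod p) = (f : ZMod p)) : ∃ η : E, y ^ e = y ^ f * η ^ p := by
  have h1 : (p : ℤ) ∣ (e : ℤ) - (f : ℤ) := by
    have h2 : ((e : ℤ) : ZMod p) = ((f : ℤ) : ZMod p) := by
      simpa using h
    exact (ZMod.intCast_eq_intCast_iff_dvd_sub _ _ _).1 h2.symm
  obtain ⟨k, hk⟩ := h1
  refine ⟨y ^ k, ?_⟩
  rw [← zpow_natCast y e, ← zpow_natCast y f, ← zpow_natCast (y ^ k) p, ← zpow_mul, ← zpow_add]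
  congr 1
  linarith

end general

variable (p : ℕ) [hp : Fact p.Prime] (K : Type*) [Field K] [NumberField K]
  [IsCyclotomicExtension {p} ℚ K] {ζ : K} (hζ : IsPrimitiveRoot ζ p)

include hζ in
theorem h11_pow_mod (k : ℕ) : ζ ^ (k % p) = ζ ^ k := by
  rw [hζ.eq_orderOf]
  exact pow_mod_orderOf ζ k

theorem h11_isUnit (x : (ZMod p)ˣ) :
    IsUnit (∑ i ∈ Finset.range (x : ZMod p).val, hζ.toInteger ^ i) := by
  refine hζ.toInteger_isPrimitiveRoot.geom_sum_isUnit hp.out.two_le ?_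
  exact ZMod.val_coe_unit_coprime x

/-- the cyclotomic unit `1 + ζ + ⋯ + ζ^(x-1)` -/
noncomputable def h11_c (x : (ZMod p)ˣ) : (𝓞 K)ˣ := (h11_isUnit p K hζ x).unit

theorem h11_c_val (x : (ZMod p)ˣ) :
    ((h11_c p K hζ x : (𝓞 K)ˣ) : 𝓞 K) = ∑ i ∈ Finset.range (x : ZMod p).val, hζ.toInteger ^ i :=
  IsUnit.unit_spec _

theorem h11_c_valK (x : (ZMod p)ˣ) :
    (((h11_c p K hζ x : (𝓞 K)ˣ) : 𝓞 K) : K) = ∑ i ∈ Finset.range (x : ZMod p).val, ζ ^ i := by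
  rw [h11_c_val, RingOfIntegers.coe_eq_algebraMap, map_sum]
  refine Finset.sum_congr rfl fun i _ => ?_
  rw [map_pow]
  rfl

/-- exponents: a natural lift of `x⁻²` -/
def h11_m (x : (ZMod p)ˣ) : ℕ := (((x⁻¹ : (ZMod p)ˣ) : ZMod p) ^ 2).val

theorem h11_m_cast (x : (ZMod p)ˣ) : ((h11_m p x : ℕ) : ZMod p) = ((x⁻¹ : (ZMod p)ˣ) : ZMod p) ^ 2 := by
  unfold h11_m
  exact ZMod.natCast_zmod_val _

/-- the `ω²`-cyclotomic unit -/
noncomputable def h11_u : (𝓞 K)ˣ := ∏ x : (ZMod p)ˣ, h11_c p K hζ x ^ h11_m p x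

/-- restriction of an automorphism to the unit group -/
noncomputable def h11_sig (σ : K ≃ₐ[ℚ] K) : (𝓞 K)ˣ →* (𝓞 K)ˣ :=
  Units.map (RingOfIntegers.mapRingHom (σ : K →+* K)).toMonoidHom

theorem h11_sig_val (σ : K ≃ₐ[ℚ] K) (y : (𝓞 K)ˣ) :
    (((h11_sig K σ y : (𝓞 K)ˣ) : 𝓞 K) : K) = σ ((y : 𝓞 K) : K) := rfl

theorem h11_sig_c (σ : K ≃ₐ[ℚ] K) (a : ℕ) (hσ : σ ζ = ζ ^ a) (α : (ZMod p)ˣ)
    (hα : (α : ZMod p) = (a : ZMod p)) (x : (ZMod p)ˣ) :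
    h11_sig K σ (h11_c p K hζ x) * h11_c p K hζ α = h11_c p K hζ (α * x) := by
  have hNZ : NeZero p := ⟨hp.out.ne_zero⟩
  apply Units.ext
  apply RingOfIntegers.ext
  show σ (((h11_c p K hζ x : (𝓞 K)ˣ) : 𝓞 K) : K) * (((h11_c p K hζ α : (𝓞 K)ˣ) : 𝓞 K) : K) = _
  rw [h11_c_valK, h11_c_valK, h11_c_valK]
  have hne : ζ - 1 ≠ 0 := sub_ne_zero.2 (hζ.ne_one hp.out.one_lt)
  apply mul_left_cancel₀ hne
  have e1 : σ (∑ i ∈ Finset.range (x : ZMod p).val, ζ ^ i)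
      = ∑ i ∈ Finset.range (x : ZMod p).val, (ζ ^ a) ^ i := by
    rw [map_sum]
    refine Finset.sum_congr rfl fun i _ => ?_
    rw [map_pow, hσ]
  have e2 : ζ ^ (α : ZMod p).val = ζ ^ a := by
    rw [hα, ZMod.val_natCast, h11_pow_mod p K hζ]
  have e3 : ζ ^ ((α * x : (ZMod p)ˣ) : ZMod p).val = (ζ ^ a) ^ (x : ZMod p).val := by
    rw [Units.val_mul, ZMod.val_mul, h11_pow_mod p K hζ, pow_mul, e2]
  rw [mul_geom_sum, e3, mul_left_comm, mul_geom_sum, e2, e1, geom_sum_mul]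

theorem h11_sum_inv_pow (k : ℕ) (hk : ¬ (p - 1) ∣ k) :
    ∑ x : (ZMod p)ˣ, ((x⁻¹ : (ZMod p)ˣ) : ZMod p) ^ k = 0 := by
  classical
  rw [Fintype.sum_equiv (Equiv.inv (ZMod p)ˣ) (fun x => ((x⁻¹ : (ZMod p)ˣ) : ZMod p) ^ k)
    (fun x => ((x : (ZMod p)ˣ) : ZMod p) ^ k) (fun x => rfl),
    FiniteField.sum_pow_units, ZMod.card, if_neg hk]

theorem h11_sum_m (hp5 : 5 ≤ p) : ((∑ x : (ZMod p)ˣ, h11_m p x : ℕ) : ZMod p) = 0 := by
  rw [Nat.cast_sum]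
  simp only [h11_m_cast]
  refine h11_sum_inv_pow p 2 ?_
  intro h
  have := Nat.le_of_dvd (by norm_num) h
  omega

theorem h11_u_eigen' (hp5 : 5 ≤ p) (σ : K ≃ₐ[ℚ] K) (a : ℕ) (hσ : σ ζ = ζ ^ a) :
    ∃ η : (𝓞 K)ˣ, h11_sig K σ (h11_u p K hζ) = (h11_u p K hζ) ^ (a ^ 2) * η ^ p := by
  have hcop : a.Coprime p := by
    refine Nat.Coprime.symm ((Nat.Prime.coprime_iff_not_dvd hp.out).2 fun hdvd => ?_)
    have h1 : ζ ^ a = 1 := (hζ.pow_eq_one_iff_dvd a).2 hdvd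
    rw [h1] at hσ
    exact hζ.ne_one hp.out.one_lt ((map_eq_one_iff σ σ.injective).1 hσ)
  set α : (ZMod p)ˣ := ZMod.unitOfCoprime a hcop with hαdef
  have hα : (α : ZMod p) = (a : ZMod p) := ZMod.coe_unitOfCoprime a hcop
  have h1 : ∀ x, h11_sig K σ (h11_c p K hζ x)
      = h11_c p K hζ (α * x) * (h11_c p K hζ α)⁻¹ := fun x =>
    eq_mul_inv_of_mul_eq (h11_sig_c p K hζ σ a hσ α hα x)
  have h2 : ∏ x : (ZMod p)ˣ, h11_c p K hζ (α * x) ^ h11_m p x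
      = ∏ y : (ZMod p)ˣ, h11_c p K hζ y ^ h11_m p (α⁻¹ * y) := by
    rw [← Equiv.prod_comp (Equiv.mulLeft α) (fun y => h11_c p K hζ y ^ h11_m p (α⁻¹ * y))]
    simp
  have h3 : ∀ y : (ZMod p)ˣ, ∃ η : (𝓞 K)ˣ, h11_c p K hζ y ^ h11_m p (α⁻¹ * y)
      = h11_c p K hζ y ^ (a ^ 2 * h11_m p y) * η ^ p := fun y => by
    refine h11_pow_eq_of_cast_eq p _ _ _ ?_
    rw [h11_m_cast]
    push_cast
    rw [h11_m_cast, ← hα]
    simp only [mul_inv_rev, inv_inv, Units.val_inv_eq_inv_val]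
    ring
  choose η hη using h3
  have h4 : ∏ x : (ZMod p)ˣ, ((h11_c p K hζ α)⁻¹) ^ h11_m p x
      = ((h11_c p K hζ α)⁻¹) ^ (∑ x : (ZMod p)ˣ, h11_m p x) :=
    Finset.prod_pow_eq_pow_sum _ _ _
  obtain ⟨k0, hk0⟩ : p ∣ ∑ x : (ZMod p)ˣ, h11_m p x :=
    (ZMod.natCast_eq_zero_iff _ _).1 (h11_sum_m p hp5)
  refine ⟨(∏ y, η y) * ((h11_c p K hζ α)⁻¹) ^ k0, ?_⟩
  unfold h11_u
  rw [map_prod]
  simp only [map_pow, h1, mul_pow]
  have e1 : ∏ y : (ZMod p)ˣ, h11_c p K hζ y ^ (a ^ 2 * h11_m p y)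
      = (∏ y : (ZMod p)ˣ, h11_c p K hζ y ^ h11_m p y) ^ (a ^ 2) := by
    rw [← Finset.prod_pow]
    refine Finset.prod_congr rfl fun y _ => ?_
    rw [← pow_mul, mul_comm]
  have e2 : ∏ y : (ZMod p)ˣ, η y ^ p = (∏ y : (ZMod p)ˣ, η y) ^ p := Finset.prod_pow _ _ _
  rw [Finset.prod_mul_distrib, h2, h4, Finset.prod_congr rfl (fun y _ => hη y),
    Finset.prod_mul_distrib, e1, e2, hk0, pow_mul', mul_assoc]

/-! ### The local computation modulo `X³` -/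

open Fermat.Agent.S10

/-- `H n = ∑_{i<n} (1+X)^i` over `ZMod p` -/
noncomputable def h11_H (n : ℕ) : (ZMod p)[X] := ∑ i ∈ Finset.range n, (1 + X) ^ i

theorem h11_X_mul_H (n : ℕ) : X * h11_H p n = (1 + X) ^ n - 1 := by
  have := mul_geom_sum (1 + X : (ZMod p)[X]) n
  rw [add_sub_cancel_left] at this
  exact this

theorem h11_coeff_H (n i : ℕ) : (h11_H p n).coeff i = (n.choose (i + 1) : ZMod p) := by
  have h1 : (X * h11_H p n).coeff (i + 1) = (h11_H p n).coeff i := coeff_X_mul _ _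
  rw [← h1, h11_X_mul_H, coeff_sub, coeff_one_add_X_pow, coeff_one]
  simp

theorem h11_choose_two (n : ℕ) : (n.choose 2 : ZMod p) * 2 = n * (n - 1) := by
  induction n with
  | zero => simp
  | succ n ih =>
    rw [Nat.choose_succ_succ', Nat.choose_one_right]
    push_cast
    rw [add_mul, ih]
    ring

theorem h11_choose_three (n : ℕ) : (n.choose 3 : ZMod p) * 6 = n * (n - 1) * (n - 2) := by
  induction n with
  | zero => simp
  | succ n ih =>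
    rw [Nat.choose_succ_succ']
    push_cast
    have h2 := h11_choose_two p n
    have e : ((n.choose 2 : ZMod p) + (n.choose 3 : ZMod p)) * 6
        = 3 * ((n.choose 2 : ZMod p) * 2) + (n.choose 3 : ZMod p) * 6 := by ring
    rw [e, ih, h2]
    ring

include hp in
theorem h11_ne (hp5 : 5 ≤ p) (k : ℕ) (hk : 0 < k) (hk' : k < 5) : (k : ZMod p) ≠ 0 := by
  intro h
  have := Nat.le_of_dvd hk ((ZMod.natCast_eq_zero_iff _ _).1 h)
  omega

/-- logarithmic derivative of `H n` modulo `X²` -/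
noncomputable def h11_lam (n : ℕ) : (ZMod p)[X] :=
  C (((n : ZMod p) - 1) / 2) + C (((n : ZMod p) - 1) * ((n : ZMod p) - 5) / 12) * X

theorem h11_D_H (hp5 : 5 ≤ p) (n : ℕ) : h73_D p 2 (h11_H p n) (h11_lam p n) := by
  have h2 : (2 : ZMod p) ≠ 0 := by simpa using h11_ne p hp5 2 (by norm_num) (by norm_num)
  have h3 : (3 : ZMod p) ≠ 0 := by simpa using h11_ne p hp5 3 (by norm_num) (by norm_num)
  have c2 : (n.choose 2 : ZMod p) = n * (n - 1) / 2 := by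
    rw [eq_div_iff h2]; exact h11_choose_two p n
  have h6 : (6 : ZMod p) ≠ 0 := by
    have : (6 : ZMod p) = 2 * 3 := by norm_num
    rw [this]; exact mul_ne_zero h2 h3
  have h12 : (12 : ZMod p) ≠ 0 := by
    have : (12 : ZMod p) = 2 * 6 := by norm_num
    rw [this]; exact mul_ne_zero h2 h6
  have c3 : (n.choose 3 : ZMod p) = n * (n - 1) * (n - 2) / 6 := by
    rw [eq_div_iff h6]; exact h11_choose_three p n
  unfold h73_D
  rw [X_pow_dvd_iff]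
  intro d hd
  have l0 : (h11_lam p n).coeff 0 = ((n : ZMod p) - 1) / 2 := by
    simp [h11_lam]
  have l1 : (h11_lam p n).coeff 1 = ((n : ZMod p) - 1) * ((n : ZMod p) - 5) / 12 := by
    simp [h11_lam]
  interval_cases d
  · rw [coeff_sub, coeff_derivative, mul_coeff_zero, h11_coeff_H, h11_coeff_H, l0, c2]
    simp
    field_simp
    ring
  · rw [coeff_sub, coeff_derivative, coeff_mul, Finset.Nat.sum_antidiagonal_eq_sum_range_succ_mk,
      Finset.sum_range_succ, Finset.sum_range_one]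
    simp only [h11_coeff_H, l0, l1, c2, c3]
    simp
    field_simp
    ring

/-- the polynomial lifting the image of `u` -/
noncomputable def h11_U : (ZMod p)[X] :=
  ∏ x : (ZMod p)ˣ, h11_H p (x : ZMod p).val ^ h11_m p x

theorem h11_D_unique {n : ℕ} {f lam mu : (ZMod p)[X]} (hf0 : f.coeff 0 ≠ 0)
    (h1 : h73_D p n f lam) (h2 : h73_D p n f mu) : X ^ n ∣ lam - mu := by
  unfold h73_D at h1 h2
  have h3 : X ^ n ∣ f * (lam - mu) := by
    have := dvd_sub h2 h1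
    convert this using 1
    ring
  refine Prime.pow_dvd_of_dvd_mul_left prime_X n ?_ h3
  rwa [X_dvd_iff]

theorem h11_D_congr {n : ℕ} {f g mu : (ZMod p)[X]} (hfg : X ^ (n + 1) ∣ f - g)
    (hg : h73_D p n g mu) : h73_D p n f mu := by
  unfold h73_D at *
  have h1 : X ^ n ∣ derivative (f - g) := by
    have := pow_sub_one_dvd_derivative_of_pow_dvd hfg
    simpa using this
  have h2 : X ^ n ∣ (f - g) * mu := Dvd.dvd.mul_right (dvd_trans (pow_dvd_pow X (Nat.le_succ n)) hfg) _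
  have e : derivative f - f * mu = derivative (f - g) + (derivative g - g * mu) - (f - g) * mu := by
    rw [derivative_sub]; ring
  rw [e]
  exact dvd_sub (dvd_add h1 hg) h2

theorem h11_D_C (n : ℕ) (c : ZMod p) : h73_D p n (C c) 0 := by
  unfold h73_D; simp

theorem h11_D_one_add_X : h73_D p 2 (1 + X) (1 - X) := by
  unfold h73_D
  refine ⟨1, ?_⟩
  rw [derivative_add, derivative_one, derivative_X]
  ring

theorem h11_sum_S1 (hp5 : 5 ≤ p) :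
    ∑ x : (ZMod p)ˣ, (h11_m p x : ZMod p) * ((((x : ZMod p).val : ZMod p) - 1) / 2) = 0 := by
  have e : ∀ x : (ZMod p)ˣ, (h11_m p x : ZMod p) * ((((x : ZMod p).val : ZMod p) - 1) / 2)
      = (1 / 2) * ((x⁻¹ : (ZMod p)ˣ) : ZMod p) ^ 1 - (1 / 2) * ((x⁻¹ : (ZMod p)ˣ) : ZMod p) ^ 2 := by
    intro x
    rw [h11_m_cast, ZMod.natCast_zmod_val]
    have hx : ((x⁻¹ : (ZMod p)ˣ) : ZMod p) * (x : ZMod p) = 1 := Units.inv_mul x
    linear_combination (1 / 2 : ZMod p) * ((x⁻¹ : (ZMod p)ˣ) : ZMod p) * hx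
  simp only [e]
  rw [Finset.sum_sub_distrib, ← Finset.mul_sum, ← Finset.mul_sum, h11_sum_inv_pow p 1,
    h11_sum_inv_pow p 2]
  · simp
  · intro h
    have := Nat.le_of_dvd (by norm_num) h
    omega
  · intro h
    have := Nat.le_of_dvd (by norm_num) h
    omega

theorem h11_sum_S2 (hp5 : 5 ≤ p) :
    ∑ x : (ZMod p)ˣ, (h11_m p x : ZMod p) * ((((x : ZMod p).val : ZMod p) - 1)
      * (((x : ZMod p).val : ZMod p) - 5) / 12) = -(1 / 12) := by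
  have e : ∀ x : (ZMod p)ˣ, (h11_m p x : ZMod p) * ((((x : ZMod p).val : ZMod p) - 1)
      * (((x : ZMod p).val : ZMod p) - 5) / 12)
      = 1 / 12 - ((1 / 2) * ((x⁻¹ : (ZMod p)ˣ) : ZMod p) ^ 1
        - (5 / 12) * ((x⁻¹ : (ZMod p)ˣ) : ZMod p) ^ 2) := by
    intro x
    rw [h11_m_cast, ZMod.natCast_zmod_val]
    have hx : ((x⁻¹ : (ZMod p)ˣ) : ZMod p) * (x : ZMod p) = 1 := Units.inv_mul x
    have h2 : (2 : ZMod p) ≠ 0 := by simpa using h11_ne p hp5 2 (by norm_num) (by norm_num)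
    have h3 : (3 : ZMod p) ≠ 0 := by simpa using h11_ne p hp5 3 (by norm_num) (by norm_num)
    have h12 : (12 : ZMod p) ≠ 0 := by
      have : (12 : ZMod p) = 2 * 2 * 3 := by norm_num
      rw [this]; exact mul_ne_zero (mul_ne_zero h2 h2) h3
    have e6 : (6 : ZMod p) / 12 = 1 / 2 := by
      rw [div_eq_div_iff h12 h2]; norm_num
    rw [← e6]
    linear_combination (1 / 12 : ZMod p) * (((x⁻¹ : (ZMod p)ˣ) : ZMod p) * (x : ZMod p) + 1
      - 6 * ((x⁻¹ : (ZMod p)ˣ) : ZMod p)) * hx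
  simp only [e]
  rw [Finset.sum_sub_distrib, Finset.sum_sub_distrib, ← Finset.mul_sum, ← Finset.mul_sum,
    h11_sum_inv_pow p 1, h11_sum_inv_pow p 2, Finset.sum_const, Finset.card_univ, ZMod.card_units,
    nsmul_eq_mul, Nat.cast_pred hp.out.pos, ZMod.natCast_self]
  · ring
  · intro h
    have := Nat.le_of_dvd (by norm_num) h
    omega
  · intro h
    have := Nat.le_of_dvd (by norm_num) h
    omega

theorem h11_D_U (hp5 : 5 ≤ p) : h73_D p 2 (h11_U p) (C (-(1 / 12 : ZMod p)) * X) := by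
  have h := h73_D_prod (p := p) (n := 2) Finset.univ
    (fun x : (ZMod p)ˣ => h11_H p (x : ZMod p).val)
    (fun x : (ZMod p)ˣ => h11_lam p (x : ZMod p).val) (h11_m p) (fun x _ => h11_D_H p hp5 _)
  have e : ∑ x : (ZMod p)ˣ, ((h11_m p x : ℕ) : (ZMod p)[X]) * h11_lam p (x : ZMod p).val
      = C (-(1 / 12 : ZMod p)) * X := by
    have e1 : ∀ x : (ZMod p)ˣ, ((h11_m p x : ℕ) : (ZMod p)[X]) * h11_lam p (x : ZMod p).val
        = C ((h11_m p x : ZMod p) * ((((x : ZMod p).val : ZMod p) - 1) / 2))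
          + C ((h11_m p x : ZMod p) * ((((x : ZMod p).val : ZMod p) - 1)
            * (((x : ZMod p).val : ZMod p) - 5) / 12)) * X := by
      intro x
      rw [h11_lam, ← C_eq_natCast, C_mul, C_mul]
      ring
    simp only [e1]
    rw [Finset.sum_add_distrib, ← Finset.sum_mul, ← map_sum, ← map_sum, h11_sum_S1 p hp5,
      h11_sum_S2 p hp5]
    simp
  rw [e] at h
  exact h

theorem h11_phi_c (φ : 𝓞 K →+* h73_B p)
    (hφ : φ hζ.toInteger = Ideal.Quotient.mk _ (1 + X)) (x : (ZMod p)ˣ) :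
    φ (h11_c p K hζ x : 𝓞 K) = Ideal.Quotient.mk _ (h11_H p (x : ZMod p).val) := by
  rw [h11_c_val, map_sum, h11_H, map_sum]
  refine Finset.sum_congr rfl fun i _ => ?_
  rw [map_pow, hφ, map_pow]

theorem h11_phi_u (φ : 𝓞 K →+* h73_B p)
    (hφ : φ hζ.toInteger = Ideal.Quotient.mk _ (1 + X)) :
    φ (h11_u p K hζ : 𝓞 K) = Ideal.Quotient.mk _ (h11_U p) := by
  unfold h11_u h11_U
  rw [Units.coe_prod, map_prod, map_prod]
  refine Finset.prod_congr rfl fun x _ => ?_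
  rw [Units.val_pow_eq_pow_val, map_pow, map_pow, h11_phi_c p K hζ φ hφ]

theorem h11_coeff_zero_ne (φ : 𝓞 K →+* h73_B p) (y : (𝓞 K)ˣ) (F : (ZMod p)[X])
    (h : φ (y : 𝓞 K) = Ideal.Quotient.mk _ F) : F.coeff 0 ≠ 0 := by
  obtain ⟨G, hG⟩ := Ideal.Quotient.mk_surjective (φ ((y⁻¹ : (𝓞 K)ˣ) : 𝓞 K))
  have h1 : φ (y : 𝓞 K) * φ ((y⁻¹ : (𝓞 K)ˣ) : 𝓞 K) = 1 := by
    rw [← map_mul, Units.mul_inv, map_one]
  rw [h, ← hG, ← map_mul, ← map_one (Ideal.Quotient.mk _), Ideal.Quotient.eq,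
    Ideal.mem_span_singleton] at h1
  have h2 : (X : (ZMod p)[X]) ∣ F * G - 1 :=
    dvd_trans (dvd_pow_self X (by have := hp.out.two_le; omega)) h1
  rw [X_dvd_iff, coeff_sub, mul_coeff_zero, coeff_one_zero, sub_eq_zero] at h2
  intro h0
  rw [h0, zero_mul] at h2
  exact zero_ne_one h2

/-- **Local key lemma.**  If `ε` is a `p`-th power modulo `(ζ-1)³` and
`ε^a · u^b = η^p · τ` with `τ` a root of unity, then `p ∣ b` and `τ = ±1`. -/
theorem h11_local_key (hp5 : 5 ≤ p) (ε η τ : (𝓞 K)ˣ) (a b : ℕ)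
    (hloc : ∃ x : 𝓞 K, (hζ.toInteger - 1) ^ 3 ∣ ((ε : 𝓞 K) - x ^ p))
    (hτ : IsOfFinOrder τ)
    (h : ε ^ a * (h11_u p K hζ) ^ b = η ^ p * τ) : p ∣ b ∧ (τ = 1 ∨ τ = -1) := by
  have hNZ : NeZero p := ⟨hp.out.ne_zero⟩
  obtain ⟨φ, hφ⟩ := h73_exists_hom p K hζ
  obtain ⟨F, e, hF, hFe⟩ : ∃ (F : (ZMod p)[X]) (e : ZMod p),
      φ (ε : 𝓞 K) = Ideal.Quotient.mk _ F ∧ X ^ (2 + 1) ∣ F - C e := by
    obtain ⟨x, w, hw⟩ := hloc
    obtain ⟨e, he⟩ := h73_pow_const p (φ x)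
    obtain ⟨G, hG⟩ := Ideal.Quotient.mk_surjective (φ w)
    refine ⟨C e + X ^ 3 * G, e, ?_, ⟨G, by ring⟩⟩
    have h1 : (ε : 𝓞 K) = x ^ p + (hζ.toInteger - 1) ^ 3 * w := by rw [← hw]; ring
    rw [h1, map_add, map_mul, map_pow, map_pow, map_sub, map_one, hφ, he, ← hG]
    simp
  obtain ⟨r, hr, hτr⟩ : ∃ r : ℕ, r < p ∧
      ((τ : 𝓞 K) = hζ.toInteger ^ r ∨ (τ : 𝓞 K) = - hζ.toInteger ^ r) := by
    obtain ⟨n, hn, hτn⟩ := isOfFinOrder_iff_pow_eq_one.1 hτ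
    have h1 : ((τ : 𝓞 K) : K) ^ n = 1 := by
      have := congrArg (fun y : (𝓞 K)ˣ => ((y : 𝓞 K) : K)) hτn
      simpa using this
    have hfin : IsOfFinOrder ((τ : 𝓞 K) : K) := isOfFinOrder_iff_pow_eq_one.2 ⟨n, hn, h1⟩
    have hodd : Odd p := hp.out.odd_of_ne_two (by omega)
    obtain ⟨r, hr, hτr⟩ := hζ.exists_pow_or_neg_mul_pow_of_isOfFinOrder hodd hfin
    refine ⟨r, hr, ?_⟩
    rcases hτr with h | h
    · left
      apply RingOfIntegers.ext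
      rw [h, RingOfIntegers.coe_eq_algebraMap, map_pow]
      rfl
    · right
      apply RingOfIntegers.ext
      rw [h, RingOfIntegers.coe_eq_algebraMap, map_neg, map_pow]
      rfl
  obtain ⟨s, hs⟩ : ∃ s : ZMod p, φ (τ : 𝓞 K) = Ideal.Quotient.mk _ (C s * (1 + X) ^ r) := by
    rcases hτr with h | h
    · exact ⟨1, by rw [h, map_pow, hφ, C_1, one_mul, map_pow]⟩
    · exact ⟨-1, by rw [h, map_neg, map_pow, hφ, C_neg, C_1, neg_one_mul, map_neg, map_pow]⟩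
  obtain ⟨c, hc⟩ := h73_pow_const p (φ (η : 𝓞 K))
  have h5 : φ ((ε ^ a * (h11_u p K hζ) ^ b : (𝓞 K)ˣ) : 𝓞 K)
      = Ideal.Quotient.mk _ (F ^ a * h11_U p ^ b) := by
    rw [Units.val_mul, Units.val_pow_eq_pow_val, Units.val_pow_eq_pow_val, map_mul, map_pow,
      map_pow, hF, h11_phi_u p K hζ φ hφ, map_mul, map_pow, map_pow]
  have h6 : φ ((η ^ p * τ : (𝓞 K)ˣ) : 𝓞 K)
      = Ideal.Quotient.mk _ (C c * (C s * (1 + X) ^ r)) := by
    rw [Units.val_mul, Units.val_pow_eq_pow_val, map_mul, map_pow, hc, hs, ← map_mul]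
  have h7 : X ^ (p - 1) ∣ F ^ a * h11_U p ^ b - C c * (C s * (1 + X) ^ r) := by
    rw [← Ideal.mem_span_singleton, ← Ideal.Quotient.eq, ← h5, ← h6, h]
  have h8 : X ^ (2 + 1) ∣ F ^ a * h11_U p ^ b - C c * (C s * (1 + X) ^ r) :=
    dvd_trans (pow_dvd_pow X (by omega)) h7
  have hV0 : (F ^ a * h11_U p ^ b).coeff 0 ≠ 0 := h11_coeff_zero_ne p K φ _ _ h5
  have hDF : h73_D p 2 F 0 := h11_D_congr p hFe (h11_D_C p 2 e)
  have hV := h73_D_mul (h73_D_pow hDF a) (h73_D_pow (h11_D_U p hp5) b)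
  have hW := h73_D_mul (h11_D_C p 2 c) (h73_D_mul (h11_D_C p 2 s)
    (h73_D_pow (h11_D_one_add_X p) r))
  have hV' := h11_D_congr p h8 hW
  have huniq := h11_D_unique p hV0 hV hV'
  rw [X_pow_dvd_iff] at huniq
  have u0 := huniq 0 (by norm_num)
  have u1 := huniq 1 (by norm_num)
  simp at u0 u1
  have hr0 : r = 0 := Nat.eq_zero_of_dvd_of_lt ((ZMod.natCast_eq_zero_iff _ _).1 u0) hr
  rw [u0, zero_mul, sub_zero, neg_eq_zero, mul_eq_zero] at u1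
  have h2 : (2 : ZMod p) ≠ 0 := by simpa using h11_ne p hp5 2 (by norm_num) (by norm_num)
  have h3 : (3 : ZMod p) ≠ 0 := by simpa using h11_ne p hp5 3 (by norm_num) (by norm_num)
  have h12 : (12 : ZMod p) ≠ 0 := by
    have : (12 : ZMod p) = 2 * 2 * 3 := by norm_num
    rw [this]; exact mul_ne_zero (mul_ne_zero h2 h2) h3
  refine ⟨?_, ?_⟩
  · rcases u1 with h | h
    · exact (ZMod.natCast_eq_zero_iff _ _).1 h
    · exact absurd (inv_eq_zero.1 h) h12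
  · rw [hr0, pow_zero] at hτr
    rcases hτr with h | h
    · left; exact Units.ext h
    · right; exact Units.ext (by rw [h]; rfl)

/-! ### Public interface -/

/-- **The `ω²`-cyclotomic unit** `u = ∏_{x ∈ (ℤ/p)ˣ} (1 + ζ + ⋯ + ζ^(x-1)) ^ cycExp p x`. -/
noncomputable def cycUnit : (𝓞 K)ˣ := h11_u p K hζ

/-- the exponents of `cycUnit`: `cycExp p x` is a natural lift of `x⁻²`. -/
def cycExp (x : (ZMod p)ˣ) : ℕ := h11_m p x

theorem cycExp_cast (x : (ZMod p)ˣ) :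
    ((cycExp p x : ℕ) : ZMod p) = ((x⁻¹ : (ZMod p)ˣ) : ZMod p) ^ 2 := h11_m_cast p x

theorem cycExp_sum (hp5 : 5 ≤ p) : p ∣ ∑ x : (ZMod p)ˣ, cycExp p x :=
  (ZMod.natCast_eq_zero_iff _ _).1 (h11_sum_m p hp5)

/-- `cycUnit` as a product of the units `1 + ζ + ⋯ + ζ^(x-1)`. -/
theorem cycUnit_val :
    ((cycUnit p K hζ : (𝓞 K)ˣ) : 𝓞 K)
      = ∏ x : (ZMod p)ˣ, (∑ i ∈ Finset.range (x : ZMod p).val, hζ.toInteger ^ i) ^ cycExp p x := by
  unfold cycUnit h11_u cycExp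
  rw [Units.coe_prod]
  refine Finset.prod_congr rfl fun x _ => ?_
  rw [Units.val_pow_eq_pow_val, h11_c_val]

/-- `∏ (ζ^j - 1)^(m_j) = u · ((ζ-1)^k)^p`: the product of the `ζ^j - 1` differs from the unit
`cycUnit` by a `p`-th power of a power of `ζ - 1`. -/
theorem cycUnit_mul_pow (hp5 : 5 ≤ p) :
    ∃ k : ℕ, ∏ x : (ZMod p)ˣ, (hζ.toInteger ^ (x : ZMod p).val - 1) ^ cycExp p x
      = ((cycUnit p K hζ : (𝓞 K)ˣ) : 𝓞 K) * ((hζ.toInteger - 1) ^ k) ^ p := by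
  obtain ⟨k, hk⟩ := cycExp_sum p hp5
  refine ⟨k, ?_⟩
  rw [cycUnit_val, ← pow_mul, mul_comm k p, ← hk, ← Finset.prod_pow_eq_pow_sum, mul_comm,
    ← Finset.prod_mul_distrib]
  refine Finset.prod_congr rfl fun x _ => ?_
  rw [← mul_pow, mul_geom_sum]

/-- **Eigen property**: `σ_a u = u^(a²) · η^p`. -/
theorem cycUnit_eigen (hp5 : 5 ≤ p) (σ : K ≃ₐ[ℚ] K) (a : ℕ) (hσ : σ ζ = ζ ^ a) :
    ∃ η : (𝓞 K)ˣ, σ (((cycUnit p K hζ : (𝓞 K)ˣ) : 𝓞 K) : K)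
      = (((cycUnit p K hζ : (𝓞 K)ˣ) : 𝓞 K) : K) ^ (a ^ 2) * ((η : 𝓞 K) : K) ^ p := by
  obtain ⟨η, hη⟩ := h11_u_eigen' p K hζ hp5 σ a hσ
  refine ⟨η, ?_⟩
  have h1 := congrArg (fun y : (𝓞 K)ˣ => ((y : 𝓞 K) : K)) hη
  simp only [h11_sig_val] at h1
  rw [cycUnit, h1, Units.val_mul, Units.val_pow_eq_pow_val, Units.val_pow_eq_pow_val,
    RingOfIntegers.coe_eq_algebraMap, map_mul, map_pow, map_pow]

/-- an element of `K` whose `p`-th power is a unit of `𝓞 K` is (the image of) a unit. -/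
theorem h11_unit_of_pow_eq (y : (𝓞 K)ˣ) (b : K) (hb : b ^ p = ((y : 𝓞 K) : K)) :
    ∃ η : (𝓞 K)ˣ, ((η : 𝓞 K) : K) = b ∧ y = η ^ p := by
  have hint : IsIntegral ℤ b := by
    refine IsIntegral.of_pow hp.out.pos ?_
    rw [hb]
    exact RingOfIntegers.isIntegral_coe (y : 𝓞 K)
  set b' : 𝓞 K := ⟨b, hint⟩ with hb'
  have h1 : b' ^ p = (y : 𝓞 K) := by
    apply RingOfIntegers.ext
    rw [← hb, RingOfIntegers.coe_eq_algebraMap, map_pow]
    rfl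
  have h2 : IsUnit b' := by
    have : IsUnit (b' ^ p) := by rw [h1]; exact y.isUnit
    exact (isUnit_pow_iff hp.out.ne_zero).1 this
  refine ⟨h2.unit, rfl, ?_⟩
  apply Units.ext
  rw [Units.val_pow_eq_pow_val, IsUnit.unit_spec, h1]

/-- **`cycUnit` is not a `p`-th power in `K`.** -/
theorem cycUnit_not_pow (hp5 : 5 ≤ p) (b : K) :
    b ^ p ≠ (((cycUnit p K hζ : (𝓞 K)ˣ) : 𝓞 K) : K) := by
  have hNZ : NeZero p := ⟨hp.out.ne_zero⟩
  intro hb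
  obtain ⟨η, -, hη⟩ := h11_unit_of_pow_eq p K (cycUnit p K hζ) b hb
  have h1 : (1 : (𝓞 K)ˣ) ^ 0 * (h11_u p K hζ) ^ 1 = η ^ p * 1 := by
    rw [pow_zero, one_mul, pow_one, mul_one]
    exact hη
  have h2 := (h11_local_key p K hζ hp5 1 η 1 0 1 ⟨1, by simp⟩ IsOfFinOrder.one h1).1
  have := Nat.le_of_dvd one_pos h2
  omega

/-- **Units block, relative form.**  If `ε` is a `p`-th power modulo `(ζ-1)³` and `ε`, `u` are
dependent modulo `p`-th powers and torsion, then `ε` is a `p`-th power. -/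
theorem h11_unit_isPow_of_dep (hp5 : 5 ≤ p) (ε : (𝓞 K)ˣ)
    (hloc : ∃ x : 𝓞 K, (hζ.toInteger - 1) ^ 3 ∣ ((ε : 𝓞 K) - x ^ p))
    (hdep : ∃ a b : ℤ, ¬ ((p : ℤ) ∣ a ∧ (p : ℤ) ∣ b) ∧ ∃ (η t : (𝓞 K)ˣ),
      t ∈ NumberField.Units.torsion K ∧ ε ^ a * (cycUnit p K hζ) ^ b = η ^ p * t) :
    ∃ η : (𝓞 K)ˣ, ε = η ^ p := by
  have hNZ : NeZero p := ⟨hp.out.ne_zero⟩
  obtain ⟨a, b, hab, η, t, ht, h⟩ := hdep
  have hp0 : (0 : ℤ) < (p : ℤ) := by exact_mod_cast hp.out.pos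
  have hodd : Odd p := hp.out.odd_of_ne_two (by omega)
  -- reduce the exponents to naturals below `p`
  set ra : ℕ := (a % p).toNat with hra
  set rb : ℕ := (b % p).toNat with hrb
  have hra' : (ra : ℤ) = a % p := Int.toNat_of_nonneg (Int.emod_nonneg a hp0.ne')
  have hrb' : (rb : ℤ) = b % p := Int.toNat_of_nonneg (Int.emod_nonneg b hp0.ne')
  have ha : a = ra + p * (a / p) := by rw [hra']; exact (Int.emod_add_mul_ediv a p).symm
  have hb : b = rb + p * (b / p) := by rw [hrb']; exact (Int.emod_add_mul_ediv b p).symm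
  have hrb_lt : rb < p := by
    have := Int.emod_lt_of_pos b hp0
    omega
  set u := h11_u p K hζ with hu
  have e1 : ε ^ a = ε ^ ra * (ε ^ (a / p)) ^ p := by
    conv_lhs => rw [ha]
    rw [zpow_add, zpow_natCast, mul_comm (p : ℤ), zpow_mul, zpow_natCast]
  have e2 : (cycUnit p K hζ) ^ b = u ^ rb * (u ^ (b / p)) ^ p := by
    conv_lhs => rw [hb]
    rw [zpow_add, zpow_natCast, mul_comm (p : ℤ), zpow_mul, zpow_natCast]
    rfl
  have h' : ε ^ ra * u ^ rb = (η * (ε ^ (a / p) * u ^ (b / p))⁻¹) ^ p * t := by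
    rw [e1, e2] at h
    have h1 : ε ^ ra * u ^ rb * ((ε ^ (a / p)) ^ p * (u ^ (b / p)) ^ p) = η ^ p * t := by
      rw [← h]; ac_rfl
    rw [mul_pow, inv_pow, mul_pow, eq_mul_inv_of_mul_eq h1]
    ac_rfl
  have hτ : IsOfFinOrder t := (CommGroup.mem_torsion _).1 ht
  obtain ⟨hb0, ht1⟩ := h11_local_key p K hζ hp5 ε _ t ra rb hloc hτ h'
  have hrb0 : rb = 0 := Nat.eq_zero_of_dvd_of_lt hb0 hrb_lt
  have hpb : (p : ℤ) ∣ b := by
    rw [hb, hrb0]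
    simp
  have hpa : ¬ (p : ℤ) ∣ a := fun h => hab ⟨h, hpb⟩
  obtain ⟨θ, hθ⟩ : ∃ θ : (𝓞 K)ˣ, t = θ ^ p := by
    rcases ht1 with h | h
    · exact ⟨1, by rw [h, one_pow]⟩
    · exact ⟨-1, by rw [h, hodd.neg_one_pow]⟩
  rw [hrb0, pow_zero, mul_one, hθ, ← mul_pow] at h'
  have hcop : IsCoprime (ra : ℤ) (p : ℤ) := by
    have h1 : ¬ (p : ℤ) ∣ (ra : ℤ) := by
      rw [hra']
      intro h
      exact hpa ((Int.dvd_iff_emod_eq_zero).2 (by
        have := (Int.dvd_iff_emod_eq_zero).1 h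
        rwa [Int.emod_emod_of_dvd _ (dvd_refl _)] at this))
    exact ((Nat.prime_iff_prime_int.1 hp.out).coprime_iff_not_dvd.2 h1).symm
  obtain ⟨x, y, hxy⟩ := hcop
  refine ⟨(η * (ε ^ (a / p) * u ^ (b / p))⁻¹ * θ) ^ x * ε ^ y, ?_⟩
  calc ε = ε ^ (x * ra + y * p) := by rw [hxy, zpow_one]
    _ = (ε ^ ra) ^ x * (ε ^ y) ^ p := by
        rw [zpow_add, mul_comm x, zpow_mul, zpow_natCast, zpow_mul, zpow_natCast]
    _ = _ := by
        set W := η * (ε ^ (a / p) * u ^ (b / p))⁻¹ * θ with hW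
        have e3 : (W ^ p) ^ x = (W ^ x) ^ p := by
          rw [← zpow_natCast W p, ← zpow_natCast (W ^ x) p, ← zpow_mul, ← zpow_mul, mul_comm]
        rw [h', mul_pow (W ^ x) (ε ^ y) p, e3]

end Fermat.Agent.S14
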