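import Fermat.Agent.S14.UnitsCore

/-!
# S14, module U (generic wrapper): an `ω²`-eigen unit with trivial local invariants is a `p`-th
power

`K = ℚ(ζ_p)`, `p` odd.  Given two homomorphisms `L1 L2 : (𝓞 K)ˣ →* Multiplicative (ZMod p)`
(the two "logarithm coefficients" modulo `(ζ - 1)^3`), a unit `u` with `L1 u = 0`, `L2 u ≠ 0`
which is an `ω²`-eigenvector modulo `p`-th powers, and `L1 ζ ≠ 0`: every `ω²`-eigen unit `ε` with
`L1 ε = L2 ε = 0` is a `p`-th power (`u0_isPow_of_eigen`).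
-/

set_option autoImplicit false
set_option maxSynthPendingDepth 3
set_option backward.isDefEq.respectTransparency.types false

open NumberField NumberField.Units NumberField.InfinitePlace

namespace Fermat.Agent.S14

/-- The Galois group of the `p`-th cyclotomic field is cyclic. -/
theorem u0_exists_generator (p : ℕ) [Fact p.Prime] (K : Type*) [Field K] [NumberField K]
    [IsCyclotomicExtension {p} ℚ K] :
    ∃ σ : K ≃ₐ[ℚ] K, ∀ τ : K ≃ₐ[ℚ] K, τ ∈ Subgroup.zpowers σ := by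
  have hp := (Fact.out : p.Prime)
  have : NeZero p := ⟨hp.ne_zero⟩
  let e := IsCyclotomicExtension.autEquivPow K (Polynomial.cyclotomic.irreducible_rat hp.pos)
  have : IsCyclic (K ≃ₐ[ℚ] K) := isCyclic_of_surjective e.symm e.symm.surjective
  exact IsCyclic.exists_generator

/-- A unit with `L2 u ≠ 0` is not a `p`-th power. -/
theorem u0_not_isPow (p : ℕ) [Fact p.Prime] (K : Type*) [Field K]
    (L2 : (𝓞 K)ˣ →* Multiplicative (ZMod p)) (u : (𝓞 K)ˣ) (hu2 : L2 u ≠ 1) (η : (𝓞 K)ˣ) :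
    u ≠ η ^ p := by
  rintro rfl
  apply hu2
  rw [map_pow]
  apply Multiplicative.toAdd.injective
  rw [toAdd_pow, toAdd_one, nsmul_eq_mul, CharP.cast_eq_zero, zero_mul]

theorem u0_isPow_of_eigen (p : ℕ) [Fact p.Prime] (hp2 : p ≠ 2) (K : Type*) [Field K]
    [NumberField K] [IsCyclotomicExtension {p} ℚ K] {ζ : K} (hζ : IsPrimitiveRoot ζ p)
    (L1 L2 : (𝓞 K)ˣ →* Multiplicative (ZMod p))
    (hL1ζ : ∀ z : (𝓞 K)ˣ, ((z : 𝓞 K) : K) = ζ → L1 z ≠ 1)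
    (u : (𝓞 K)ˣ) (hu1 : L1 u = 1) (hu2 : L2 u ≠ 1)
    (hu_eig : ∀ (σ : K ≃ₐ[ℚ] K) (a : ℕ), σ ζ = ζ ^ a →
      ∃ x : K, σ ((u : 𝓞 K) : K) = ((u : 𝓞 K) : K) ^ (a ^ 2) * x ^ p)
    (ε : (𝓞 K)ˣ) (hε1 : L1 ε = 1) (hε2 : L2 ε = 1)
    (heig : ∀ (σ : K ≃ₐ[ℚ] K) (a : ℕ), σ ζ = ζ ^ a →
      ∃ x : K, σ ((ε : 𝓞 K) : K) = ((ε : 𝓞 K) : K) ^ (a ^ 2) * x ^ p) :
    ∃ η : (𝓞 K)ˣ, ε = η ^ p := by
  have hp := (Fact.out : p.Prime)
  have hodd : Odd p := hp.odd_of_ne_two hp2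
  obtain ⟨σ, hσ⟩ := u0_exists_generator p K
  obtain ⟨g, -, hg⟩ := hζ.eq_pow_of_pow_eq_one (ξ := σ ζ)
    (by rw [← map_pow, hζ.pow_eq_one, map_one])
  have key : ∀ e : (𝓞 K)ˣ,
      (∃ x : K, σ ((e : 𝓞 K) : K) = ((e : 𝓞 K) : K) ^ (g ^ 2) * x ^ p) →
      ∃ (x : K) (t : (𝓞 K)ˣ), t ∈ torsion K ∧
        σ ((e : 𝓞 K) : K) = ((e : 𝓞 K) : K) ^ ((g ^ 2 : ℕ) : ℤ) * x ^ p * ((t : 𝓞 K) : K) := by
    rintro e ⟨x, hx⟩
    refine ⟨x, 1, one_mem _, ?_⟩
    rw [zpow_natCast, hx]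
    simp
  obtain ⟨a, b, hab, η, t, ht, h⟩ := u0_eigen_le_one_cyclotomic p K σ hσ ((g ^ 2 : ℕ) : ℤ) ε u
    (key ε (heig σ g hg.symm)) (key u (hu_eig σ g hg.symm))
  -- additive bookkeeping for homomorphisms into `Multiplicative (ZMod p)`
  have hmul : ∀ (L : (𝓞 K)ˣ →* Multiplicative (ZMod p)) (x y : (𝓞 K)ˣ),
      Multiplicative.toAdd (L (x * y)) = Multiplicative.toAdd (L x) + Multiplicative.toAdd (L y) := by
    intro L x y
    rw [map_mul]
    rfl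
  have hzpow : ∀ (L : (𝓞 K)ˣ →* Multiplicative (ZMod p)) (x : (𝓞 K)ˣ) (n : ℤ),
      Multiplicative.toAdd (L (x ^ n)) = (n : ZMod p) * Multiplicative.toAdd (L x) := by
    intro L x n
    rw [map_zpow, toAdd_zpow, zsmul_eq_mul]
  have hpow : ∀ (L : (𝓞 K)ˣ →* Multiplicative (ZMod p)) (x : (𝓞 K)ˣ) (n : ℕ),
      Multiplicative.toAdd (L (x ^ n)) = (n : ZMod p) * Multiplicative.toAdd (L x) := by
    intro L x n
    rw [map_pow, toAdd_pow, nsmul_eq_mul]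
  have hppow : ∀ (L : (𝓞 K)ˣ →* Multiplicative (ZMod p)) (x : (𝓞 K)ˣ),
      Multiplicative.toAdd (L (x ^ p)) = 0 := by
    intro L x
    rw [hpow, CharP.cast_eq_zero, zero_mul]
  have hone : ∀ (L : (𝓞 K)ˣ →* Multiplicative (ZMod p)) (x : (𝓞 K)ˣ), L x = 1 →
      Multiplicative.toAdd (L x) = 0 := by
    intro L x hx
    rw [hx]
    rfl
  have h2 : (2 : ZMod p) ≠ 0 := by
    intro h20
    have h3 : ((2 : ℕ) : ZMod p) = 0 := by exact_mod_cast h20
    rw [ZMod.natCast_eq_zero_iff] at h3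
    exact hp2 ((Nat.prime_dvd_prime_iff_eq hp Nat.prime_two).mp h3)
  have hneg : ∀ (L : (𝓞 K)ˣ →* Multiplicative (ZMod p)),
      Multiplicative.toAdd (L (-1)) = 0 := by
    intro L
    have h3 := hpow L (-1) 2
    rw [neg_one_sq, map_one, toAdd_one] at h3
    have h4 : (2 : ZMod p) * Multiplicative.toAdd (L (-1)) = 0 := by
      rw [h3]
      norm_num
    exact (mul_eq_zero.mp h4).resolve_left h2
  -- `L1` kills the torsion part, so it is `±1`, a `p`-th power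
  have hL1 := congrArg (fun x => Multiplicative.toAdd (L1 x)) h
  simp only [hmul, hzpow, hppow, hone L1 ε hε1, hone L1 u hu1, mul_zero, add_zero, zero_add]
    at hL1
  obtain ⟨z, hz⟩ := u0_unit_of_pow K p hp.pos ζ 1 (by rw [hζ.pow_eq_one]; rfl)
  have htK : IsOfFinOrder ((t : (𝓞 K)ˣ) : K) := by
    rw [torsion, CommGroup.mem_torsion, isOfFinOrder_iff_pow_eq_one] at ht
    obtain ⟨n, hn, htn⟩ := ht
    rw [isOfFinOrder_iff_pow_eq_one]
    exact ⟨n, hn, by rw [← coe_pow, htn, coe_one]⟩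
  obtain ⟨r, hr, hrt⟩ := hζ.exists_pow_or_neg_mul_pow_of_isOfFinOrder hodd htK
  have hz1 : Multiplicative.toAdd (L1 z) ≠ 0 := fun h0 => hL1ζ z hz (by
    apply Multiplicative.toAdd.injective
    rw [h0]
    rfl)
  have hr0 : r = 0 := by
    have h5 : (r : ZMod p) * Multiplicative.toAdd (L1 z) = 0 := by
      rcases hrt with hrt | hrt
      · have h6 : t = z ^ r := by
          apply coe_injective K
          show ((t : (𝓞 K)ˣ) : K) = ((z ^ r : (𝓞 K)ˣ) : K)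
          rw [coe_pow, hrt]
          exact congrArg (· ^ r) hz.symm
        rw [← hpow, ← h6]
        exact hL1.symm
      · have h6 : t = -1 * z ^ r := by
          apply coe_injective K
          show ((t : (𝓞 K)ˣ) : K) = ((-1 * z ^ r : (𝓞 K)ˣ) : K)
          rw [coe_mul, coe_pow, coe_neg_one, hrt, neg_one_mul]
          exact congrArg (fun y => -y ^ r) hz.symm
        have h7 := hL1
        rw [h6, hmul, hneg, zero_add, hpow] at h7
        exact h7.symm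
    have h8 : (r : ZMod p) = 0 := (mul_eq_zero.mp h5).resolve_right hz1
    rw [ZMod.natCast_eq_zero_iff] at h8
    exact Nat.eq_zero_of_dvd_of_lt h8 hr
  obtain ⟨s, hs⟩ : ∃ s : (𝓞 K)ˣ, t = s ^ p := by
    subst hr0
    rcases hrt with hrt | hrt
    · refine ⟨1, ?_⟩
      apply coe_injective K
      show ((t : (𝓞 K)ˣ) : K) = ((1 ^ p : (𝓞 K)ˣ) : K)
      rw [hrt, one_pow, pow_zero, coe_one]
    · refine ⟨-1, ?_⟩
      apply coe_injective K
      show ((t : (𝓞 K)ˣ) : K) = (((-1) ^ p : (𝓞 K)ˣ) : K)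
      rw [hrt, hodd.neg_one_pow, pow_zero, coe_neg_one]
  -- `L2` forces `p ∣ b`
  have hL2 := congrArg (fun x => Multiplicative.toAdd (L2 x)) h
  simp only [hmul, hzpow, hppow, hs, hone L2 ε hε2, mul_zero, add_zero, zero_add] at hL2
  have hu2' : Multiplicative.toAdd (L2 u) ≠ 0 := fun h0 => hu2 (by
    apply Multiplicative.toAdd.injective
    rw [h0]
    rfl)
  have hb : (p : ℤ) ∣ b := by
    rw [← ZMod.intCast_zmod_eq_zero_iff_dvd]
    exact (mul_eq_zero.mp hL2).resolve_right hu2'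
  have ha : ¬ (p : ℤ) ∣ a := fun ha => hab ⟨ha, hb⟩
  obtain ⟨b', rfl⟩ := hb
  -- `ε ^ a` is a `p`-th power
  have hθ : ε ^ a = (η * s * (u ^ b')⁻¹) ^ p := by
    have h9 : ε ^ a = η ^ p * t * (u ^ ((p : ℤ) * b'))⁻¹ := by
      rw [← h, mul_inv_cancel_right]
    rw [h9, hs, mul_pow, mul_pow, inv_pow, ← zpow_natCast (u ^ b') p, ← zpow_mul, mul_comm b']
  -- Bezout
  have hcop : IsCoprime (p : ℤ) a :=
    (Nat.prime_iff_prime_int.mp hp).irreducible.coprime_iff_not_dvd.mpr ha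
  obtain ⟨x, y, hxy⟩ := hcop
  have hcomm : ∀ w : (𝓞 K)ˣ, (w ^ p) ^ y = (w ^ y) ^ p := by
    intro w
    rw [← zpow_natCast w p, ← zpow_mul, mul_comm, zpow_mul, zpow_natCast]
  refine ⟨ε ^ x * (η * s * (u ^ b')⁻¹) ^ y, ?_⟩
  calc ε = ε ^ (x * (p : ℤ) + y * a) := by rw [hxy, zpow_one]
    _ = (ε ^ x) ^ p * (ε ^ a) ^ y := by
        rw [zpow_add, zpow_mul, zpow_natCast, mul_comm y a, zpow_mul]
    _ = (ε ^ x * (η * s * (u ^ b')⁻¹) ^ y) ^ p := by
        rw [hθ, hcomm, ← mul_pow]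

end Fermat.Agent.S14
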