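import Mathlib
import Fermat.Agent.S13.Global

/-!
S14, bridge B3 support (helper39), two self-contained pieces requested by the B3 owner:

* `exists_valuationSubring_eq` / `exists_valuationSubring_over`: every maximal ideal of the ring
  of algebraic integers `OQb` (resp. every nonzero prime of the ring of integers of a number
  field `K0 ⊆ ℚ̄`) is cut out by a valuation subring of `ℚ̄`;
* `eq_span_zeta_sub_one_of_mem`: the only prime of `ℤ[ζ_p]` containing `p` is `(ζ_p - 1)`.
-/

set_option autoImplicit false

open scoped NumberField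

namespace Fermat.Agent.S14

open Fermat.Agent.S13

section Qbar

local notation "Qb" => AlgebraicClosure ℚ
local notation "OQb" => integralClosure ℤ (AlgebraicClosure ℚ)

/-- Every maximal ideal of the ring of algebraic integers is the prime cut out by some valuation
subring of `ℚ̄`. -/
theorem exists_valuationSubring_eq (Q : Ideal OQb) (hQmax : Q.IsMaximal) :
    ∃ A : ValuationSubring Qb, glob_prime A = Q := by
  have hQne : (Q : Ideal OQb) ≠ ⊤ := hQmax.ne_top
  obtain ⟨V, hBV, hQV⟩ :=
    Ideal.image_subset_nonunits_valuationSubring (A := (OQb).toSubring) Q hQne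
  have hBV' : ∀ b : OQb, (b : Qb) ∈ V := fun b => hBV b.2
  have hQV1 : ∀ b : OQb, b ∈ Q → (b : Qb) ∈ V.nonunits := fun b hb => hQV ⟨b, hb, rfl⟩
  have hQV2 : ∀ b : OQb, b ∉ Q → (b : Qb) ∉ V.nonunits := by
    intro b hb hmem
    obtain ⟨y, i, hi, hyi⟩ := hQmax.exists_inv hb
    have h1 : (y : Qb) * (b : Qb) + (i : Qb) = 1 := by
      have := congrArg (Subtype.val) hyi
      simpa using this
    have h2 : V.valuation ((y : Qb) * (b : Qb) + (i : Qb)) < 1 := by
      apply Valuation.map_add_lt
      · rw [map_mul]
        calc V.valuation (y : Qb) * V.valuation (b : Qb) ≤ 1 * V.valuation (b : Qb) := by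
              gcongr
              exact (ValuationSubring.valuation_le_one_iff V _).mpr (hBV' y)
          _ < 1 := by rw [one_mul]; exact hmem
      · exact hQV1 i hi
    rw [h1, map_one] at h2
    exact lt_irrefl _ h2
  refine ⟨V, ?_⟩
  ext b
  rw [glob_mem_prime_iff]
  exact ⟨fun h => by_contra fun hb => hQV2 b hb h, hQV1 b⟩

/-- Every nonzero prime of the ring of integers of a number field inside `ℚ̄` lies under the
prime cut out by some valuation subring of `ℚ̄`. -/
theorem exists_valuationSubring_over (K0 : IntermediateField ℚ Qb) [NumberField K0]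
    (v : Ideal (𝓞 K0)) [v.IsPrime] (hv : v ≠ ⊥) :
    ∃ A : ValuationSubring Qb, (glob_prime A).comap (glob_iota K0) = v := by
  let _ : Algebra (𝓞 K0) OQb := (glob_iota K0).toAlgebra
  have halg : algebraMap (𝓞 K0) OQb = glob_iota K0 := rfl
  have hinj : Function.Injective (glob_iota K0) := by
    intro x y hxy
    have h := congrArg (fun z : OQb => (z : Qb)) hxy
    simp only [glob_iota_coe] at h
    exact NumberField.RingOfIntegers.ext (Subtype.ext h)
  have : Algebra.IsIntegral (𝓞 K0) OQb := by
    refine ⟨fun b => ?_⟩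
    have hb : IsIntegral ℤ b := Algebra.IsIntegral.isIntegral b
    exact hb.tower_top
  have hvmax : v.IsMaximal := Ideal.IsPrime.isMaximal inferInstance hv
  obtain ⟨Q, hQmax, hQv⟩ := Ideal.exists_ideal_over_maximal_of_isIntegral (S := OQb) v (by
    rw [halg, (RingHom.injective_iff_ker_eq_bot _).mp hinj]
    exact bot_le)
  obtain ⟨A, hA⟩ := exists_valuationSubring_eq Q hQmax
  exact ⟨A, by rw [hA]; exact hQv⟩

end Qbar

/-- In the `p`-th cyclotomic field the unique prime above `p` is `(ζ - 1)`. -/
theorem eq_span_zeta_sub_one_of_mem (p : ℕ) [Fact p.Prime] (K : Type*) [Field K] [NumberField K]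
    [IsCyclotomicExtension {p} ℚ K] {ζ : K} (hζ : IsPrimitiveRoot ζ p) (v : Ideal (𝓞 K))
    [v.IsPrime] (hv : (p : 𝓞 K) ∈ v) : v = Ideal.span {hζ.toInteger - 1} := by
  have hpZ : Prime (p : ℤ) := Nat.prime_iff_prime_int.mp (Fact.out : p.Prime)
  have hlies : v.LiesOver (Ideal.span {(p : ℤ)}) :=
    (Ideal.liesOver_span_iff Ideal.IsPrime.ne_top' hpZ).mpr (by simpa using hv)
  exact IsCyclotomicExtension.Rat.eq_span_zeta_sub_one_of_liesOver' p K hζ v

end Fermat.Agent.S14
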